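import Fermat.Agent.S24.H89_JAnQ
import Fermat.Agent.S23.H22_Nice
import Fermat.Prelude.Def_ModularCurve_LaurentCoeff
import Fermat.Prelude.Def_ModularCurve_X0
import Fermat.Prelude.Thm_UpperHalfPlane_qExpansion_coeff_nat_mul
import Mathlib.NumberTheory.ModularForms.LevelOne.DimensionFormula

/-!
# S28, WP-F (bridge): the `t`-expansion of `E₄³/Δ` is the formal `j(t^N)`
(helper76)

`bridge N : ofPS (qExpansion N E₄) ^ 3 / ofPS (qExpansion N Δ)
    = qExpand ℂ N (coeffMap (algebraMap ℚ ℂ) jq)`.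
-/

set_option autoImplicit false

open UpperHalfPlane ModularForm Filter Function ModularCurve
open scoped MatrixGroups ModularForm Manifold Topology

noncomputable section

namespace Fermat.Agent.S28.H76

open Fermat.Agent.S24
open Fermat.Agent.S23.H22 (Nice)

local notation "Δ" => ModularForm.discriminant
local notation "ofPS" => HahnSeries.ofPowerSeries ℤ ℂ

/-- The `q`-expansion of `E₄` is the formal series `eisenstein4`. -/
theorem qExpansion_E4_eq_eisenstein4 :
    qExpansion 1 E₄ = ModularCurve.eisenstein4.map (Int.castRingHom ℂ) := by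
  rw [← h89tay_e4]
  rfl

/-- The `q`-expansion of `Δ` is `X * etaProd ^ 24`. -/
theorem qExpansion_disc_eq_etaProd :
    qExpansion 1 Δ = PowerSeries.X * (ModularCurve.etaProd.map (Int.castRingHom ℂ)) ^ 24 := by
  have hP := h89_analyticAt_zero h89P_differentiableOn
  have hid : AnalyticAt ℂ (fun q : ℂ => q) 0 := analyticAt_id
  have e1 : qExpansion 1 Δ = h89tay (cuspFunction 1 Δ) := rfl
  have e2 : h89tay (cuspFunction 1 Δ) = h89tay ((fun q : ℂ => q) * h89P ^ 24) := by
    apply h89tay_congr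
    filter_upwards [Metric.isOpen_ball.mem_nhds (Metric.mem_ball_self (x := (0 : ℂ)) one_pos)]
      with q hq
    rw [ModularForm.discriminant_cuspFunction_eqOn hq]
    have hq1 : ‖q‖ < 1 := by simpa using hq
    simp only [Pi.mul_apply, Pi.pow_apply, h89P]
    rw [(ModularForm.multipliable_one_sub_pow hq1).tprod_pow]
  rw [e1, e2, h89tay_mul hid (hP.pow 24), h89tay_pow hP, h89tay_id, h89tay_P]


/-- Change of period `1 → N` on expansions: `q ↦ t^N`. -/
theorem ofPS_qExpansion_natCast (N : ℕ) [NeZero N] {F : ℍ → ℂ} (hF : Nice 1 F) :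
    ofPS (qExpansion (N : ℝ) F) = qExpand ℂ N (ofPS (qExpansion 1 F)) := by
  have hN : 0 < N := NeZero.pos N
  have key := fun n : ℕ =>
    UpperHalfPlane.qExpansion_coeff_nat_mul (h := 1) one_pos hF.per hF.hol hF.bdd hN n
  simp only [mul_one] at key
  ext n
  rcases lt_or_ge n 0 with hn | hn
  · -- negative coefficients vanish on both sides
    rw [ModularCurve.ofPowerSeries_coeff_of_neg _ hn]
    by_cases hd : (N : ℤ) ∣ n
    · obtain ⟨k, rfl⟩ := hd
      rw [qExpand_coeff_mul]
      have hk : k < 0 := by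
        by_contra hk
        rw [not_lt] at hk
        have : (0 : ℤ) ≤ (N : ℤ) * k := mul_nonneg (by positivity) hk
        omega
      rw [ModularCurve.ofPowerSeries_coeff_of_neg _ hk]
    · rw [qExpand_coeff_of_not_dvd _ _ hd]
  · obtain ⟨m, rfl⟩ := Int.eq_ofNat_of_zero_le hn
    rw [HahnSeries.ofPowerSeries_apply_coeff, key m]
    by_cases hd : N ∣ m
    · rw [if_pos hd]
      obtain ⟨k, rfl⟩ := hd
      rw [Nat.mul_div_cancel_left _ hN]
      push_cast
      rw [qExpand_coeff_mul, HahnSeries.ofPowerSeries_apply_coeff]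
    · rw [if_neg hd, qExpand_coeff_of_not_dvd]
      exact_mod_cast hd

/-- Base change of coefficients commutes with `ofPowerSeries`. -/
theorem coeffMap_ofPowerSeries (g : PowerSeries ℚ) :
    coeffMap (algebraMap ℚ ℂ) (HahnSeries.ofPowerSeries ℤ ℚ g) =
      ofPS (g.map (algebraMap ℚ ℂ)) := by
  ext n
  rw [coeffMap_coeff]
  rcases lt_or_ge n 0 with hn | hn
  · rw [ModularCurve.ofPowerSeries_coeff_of_neg _ hn, ModularCurve.ofPowerSeries_coeff_of_neg _ hn,
      map_zero]
  · obtain ⟨m, rfl⟩ := Int.eq_ofNat_of_zero_le hn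
    rw [HahnSeries.ofPowerSeries_apply_coeff, HahnSeries.ofPowerSeries_apply_coeff,
      PowerSeries.coeff_map]

/-- The formal `j` over `ℂ`. -/
theorem coeffMap_jq :
    coeffMap (algebraMap ℚ ℂ) jq =
      HahnSeries.single (-1 : ℤ) (1 : ℂ) * ofPS (ModularCurve.jNum.map (Int.castRingHom ℂ)) := by
  rw [jq, map_mul, coeffMap_single, map_one, coeffMap_ofPowerSeries, jNumQ]
  congr 2

/-- The formal identity `j · Δ = E₄³` for the level one expansions. -/
theorem coeffMap_jq_mul_disc :
    coeffMap (algebraMap ℚ ℂ) jq * ofPS (qExpansion 1 Δ) = ofPS (qExpansion 1 E₄) ^ 3 := by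
  rw [coeffMap_jq, qExpansion_disc_eq_etaProd, qExpansion_E4_eq_eisenstein4, map_mul,
    HahnSeries.ofPowerSeries_X]
  have h1 : HahnSeries.single (-1 : ℤ) (1 : ℂ) * HahnSeries.single (1 : ℤ) (1 : ℂ) = 1 := by
    rw [HahnSeries.single_mul_single]; simp
  have h2 : ModularCurve.jNum.map (Int.castRingHom ℂ) *
      (ModularCurve.etaProd.map (Int.castRingHom ℂ)) ^ 24 =
      (ModularCurve.eisenstein4.map (Int.castRingHom ℂ)) ^ 3 := by
    rw [← map_pow, ← map_pow, ← map_mul, ModularCurve.jNum, mul_assoc]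
    have := ModularCurve.dedekindEtaUnit_mul_inv
    rw [ModularCurve.dedekindEtaUnit] at this
    rw [mul_comm ModularCurve.dedekindEtaUnitInv, this, mul_one]
  calc HahnSeries.single (-1 : ℤ) (1 : ℂ) * ofPS (ModularCurve.jNum.map (Int.castRingHom ℂ)) *
        (HahnSeries.single (1 : ℤ) (1 : ℂ) *
          ofPS ((ModularCurve.etaProd.map (Int.castRingHom ℂ)) ^ 24))
      = (HahnSeries.single (-1 : ℤ) (1 : ℂ) * HahnSeries.single (1 : ℤ) (1 : ℂ)) *
          (ofPS (ModularCurve.jNum.map (Int.castRingHom ℂ)) *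
            ofPS ((ModularCurve.etaProd.map (Int.castRingHom ℂ)) ^ 24)) := by ring
    _ = ofPS ((ModularCurve.eisenstein4.map (Int.castRingHom ℂ)) ^ 3) := by
        rw [h1, one_mul, ← map_mul, h2]
    _ = ofPS (ModularCurve.eisenstein4.map (Int.castRingHom ℂ)) ^ 3 := by rw [map_pow]

lemma nice_one_E4 : Nice 1 (E₄ : ℍ → ℂ) := Fermat.Agent.S23.H22.nice_levelOne E₄

lemma nice_one_disc : Nice 1 (Δ : ℍ → ℂ) :=
  Fermat.Agent.S23.H22.nice_levelOne CuspForm.discriminant

/-- **Bridge.** The `t`-expansion of `j = E₄³/Δ` is the formal `j(t^N)`. -/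
theorem bridge (N : ℕ) [NeZero N] :
    ofPS (qExpansion (N : ℝ) E₄) ^ 3 / ofPS (qExpansion (N : ℝ) Δ) =
      qExpand ℂ N (coeffMap (algebraMap ℚ ℂ) jq) := by
  have h := congrArg (qExpand ℂ N) coeffMap_jq_mul_disc
  rw [map_mul, map_pow, ← ofPS_qExpansion_natCast N nice_one_E4,
    ← ofPS_qExpansion_natCast N nice_one_disc] at h
  have hN : (0 : ℝ) < N := Nat.cast_pos.mpr (NeZero.pos N)
  have hD : ofPS (qExpansion (N : ℝ) Δ) ≠ 0 := by
    rw [ofPS_qExpansion_natCast N nice_one_disc]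
    intro h0
    have h1 := (qExpand_injective (R := ℂ) N) (h0.trans (map_zero _).symm)
    have h2 : qExpansion 1 Δ = 0 := by
      apply HahnSeries.ofPowerSeries_injective (Γ := ℤ) (R := ℂ)
      rw [h1, map_zero]
    have h3 := nice_one_disc.eq_zero_of_qExpansion_eq_zero one_pos h2
    exact ModularForm.discriminant_ne_zero UpperHalfPlane.I (by rw [h3]; rfl)
  rw [div_eq_iff hD, h]

end Fermat.Agent.S28.H76
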