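import Fermat.Agent.S28.H30_CAIface
import Fermat.Prelude.Thm_UpperHalfPlane_qExpansion_prod
import Fermat.Prelude.Thm_UpperHalfPlane_qExpansion_coeff_nat_mul

/-!
# S28, WP-F: API for the `t`-expansion `pexp N` (helper30)

`BPH N f`: `f` is bounded at `i∞`, holomorphic and `N`-periodic.  On such functions `pexp N` is
an injective ring homomorphism.
-/

set_option autoImplicit false
set_option linter.unusedSectionVars false
set_option linter.unusedVariables false

open UpperHalfPlane ModularForm ModularCurve Function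
open scoped MatrixGroups ModularForm Manifold

noncomputable section

namespace Fermat.Agent.S28.H30

/-- Bounded at `i∞`, holomorphic, `N`-periodic. -/
structure BPH (N : ℕ) (f : ℍ → ℂ) : Prop where
  per : Periodic (f ∘ ofComplex) (N : ℂ)
  hol : MDiff f
  bdd : IsBoundedAtImInfty f

variable {N : ℕ} [NeZero N] {f g : ℍ → ℂ}

lemma natCast_pos_real (N : ℕ) [NeZero N] : (0 : ℝ) < (N : ℝ) :=
  Nat.cast_pos.mpr (Nat.pos_of_ne_zero (NeZero.ne N))

lemma BPH.per' (hf : BPH N f) : Periodic (f ∘ ofComplex) (((N : ℝ)) : ℂ) := by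
  rw [Complex.ofReal_natCast]; exact hf.per

lemma BPH.analytic (hf : BPH N f) : AnalyticAt ℂ (cuspFunction (N : ℝ) f) 0 :=
  analyticAt_cuspFunction_zero (natCast_pos_real N) hf.per' hf.hol hf.bdd

lemma BPH.mul (hf : BPH N f) (hg : BPH N g) : BPH N (f * g) where
  per := fun z => by
    have h1 := hf.per z
    have h2 := hg.per z
    simp only [comp_apply, Pi.mul_apply] at h1 h2 ⊢
    rw [h1, h2]
  hol := hf.hol.mul hg.hol
  bdd := hf.bdd.mul hg.bdd

lemma BPH.add (hf : BPH N f) (hg : BPH N g) : BPH N (f + g) where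
  per := fun z => by
    have h1 := hf.per z
    have h2 := hg.per z
    simp only [comp_apply, Pi.add_apply] at h1 h2 ⊢
    rw [h1, h2]
  hol := hf.hol.add hg.hol
  bdd := hf.bdd.add hg.bdd

lemma BPH.neg (hf : BPH N f) : BPH N (-f) where
  per := fun z => by
    have h1 := hf.per z
    simp only [comp_apply, Pi.neg_apply] at h1 ⊢
    rw [h1]
  hol := hf.hol.neg
  bdd := hf.bdd.neg_left

lemma BPH.sub (hf : BPH N f) (hg : BPH N g) : BPH N (f - g) := by
  rw [sub_eq_add_neg]; exact hf.add hg.neg

lemma BPH.const (c : ℂ) : BPH N (fun _ => c) where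
  per := fun z => rfl
  hol := mdifferentiable_const
  bdd := Filter.const_boundedAtFilter _ _

lemma BPH.one : BPH N (1 : ℍ → ℂ) := BPH.const 1

lemma BPH.smul (c : ℂ) (hf : BPH N f) : BPH N (c • f) := by
  have : c • f = (fun _ => c) * f := by ext z; simp
  rw [this]; exact (BPH.const c).mul hf

lemma BPH.pow (hf : BPH N f) (n : ℕ) : BPH N (f ^ n) := by
  induction n with
  | zero => simpa using BPH.one
  | succ n ih => rw [pow_succ]; exact ih.mul hf

lemma BPH.prod {ι : Type*} (s : Finset ι) (F : ι → ℍ → ℂ) (hF : ∀ i ∈ s, BPH N (F i)) :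
    BPH N (∏ i ∈ s, F i) := by
  classical
  induction s using Finset.induction_on with
  | empty => simpa using BPH.one
  | insert i t hi ih =>
    rw [Finset.prod_insert hi]
    exact (hF i (Finset.mem_insert_self i t)).mul
      (ih fun j hj => hF j (Finset.mem_insert_of_mem hj))

/-! ### `pexp` is a ring homomorphism on `BPH` functions -/

lemma pexp_mul (hf : BPH N f) (hg : BPH N g) : pexp N (f * g) = pexp N f * pexp N g := by
  simp only [pexp, qExpansion_mul hf.analytic hg.analytic, map_mul]

lemma pexp_add (hf : BPH N f) (hg : BPH N g) : pexp N (f + g) = pexp N f + pexp N g := by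
  simp only [pexp, qExpansion_add hf.analytic hg.analytic, map_add]

lemma pexp_sub (hf : BPH N f) (hg : BPH N g) : pexp N (f - g) = pexp N f - pexp N g := by
  simp only [pexp, qExpansion_sub hf.analytic hg.analytic, map_sub]

lemma pexp_neg (hf : BPH N f) : pexp N (-f) = -pexp N f := by
  simp only [pexp, qExpansion_neg hf.analytic, map_neg]

lemma pexp_one : pexp N (1 : ℍ → ℂ) = 1 := by
  simp only [pexp, qExpansion_one, map_one]

lemma pexp_smul (c : ℂ) (hf : BPH N f) : pexp N (c • f) = HahnSeries.C c * pexp N f := by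
  simp only [pexp, qExpansion_smul hf.analytic]
  rw [show c • qExpansion (N : ℝ) f = PowerSeries.C c * qExpansion (N : ℝ) f by
    ext n; simp]
  rw [map_mul, HahnSeries.ofPowerSeries_C]

lemma pexp_const (c : ℂ) : pexp N (fun _ => c) = HahnSeries.C c := by
  have h : (fun _ : ℍ => c) = c • (1 : ℍ → ℂ) := by ext z; simp
  rw [h, pexp_smul c BPH.one, pexp_one, mul_one]

lemma pexp_pow (hf : BPH N f) (n : ℕ) : pexp N (f ^ n) = pexp N f ^ n := by
  induction n with
  | zero => simpa using pexp_one (N := N)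
  | succ n ih => rw [pow_succ, pexp_mul (hf.pow n) hf, ih, pow_succ]

lemma pexp_prod {ι : Type*} (s : Finset ι) (F : ι → ℍ → ℂ) (hF : ∀ i ∈ s, BPH N (F i)) :
    pexp N (∏ i ∈ s, F i) = ∏ i ∈ s, pexp N (F i) := by
  classical
  induction s using Finset.induction_on with
  | empty => simpa using pexp_one (N := N)
  | insert i t hi ih =>
    rw [Finset.prod_insert hi, Finset.prod_insert hi,
      pexp_mul (hF i (Finset.mem_insert_self i t))
        (BPH.prod t F fun j hj => hF j (Finset.mem_insert_of_mem hj)),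
      ih fun j hj => hF j (Finset.mem_insert_of_mem hj)]

lemma pexp_eq_zero_iff (hf : BPH N f) : pexp N f = 0 ↔ f = 0 := by
  rw [pexp, map_eq_zero_iff _ HahnSeries.ofPowerSeries_injective]
  exact qExpansion_eq_zero_iff (natCast_pos_real N) hf.per' hf.hol hf.bdd

lemma pexp_ne_zero (hf : BPH N f) {z : ℍ} (hz : f z ≠ 0) : pexp N f ≠ 0 := by
  rw [Ne, pexp_eq_zero_iff hf]
  intro h
  exact hz (by rw [h]; rfl)

lemma pexp_coeff_nat (f : ℍ → ℂ) (n : ℕ) :
    (pexp N f).coeff (n : ℤ) = (qExpansion (N : ℝ) f).coeff n := by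
  rw [pexp, HahnSeries.ofPowerSeries_apply_coeff]

lemma pexp_coeff_neg (f : ℍ → ℂ) {n : ℤ} (hn : n < 0) : (pexp N f).coeff n = 0 := by
  rw [pexp]
  exact ModularCurve.ofPowerSeries_coeff_of_neg _ hn

end Fermat.Agent.S28.H30
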