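import Mathlib.RingTheory.LaurentSeries
import Mathlib.RingTheory.PowerSeries.Inverse

/-!
# S28, WP-F: Laurent series with coefficients in a subring and unit leading coefficient
(helper30)

`ULS O f k`: the Laurent series `f` has coefficients in the subring `O`, is nonzero of order `k`,
and the inverse of its leading coefficient lies in `O`. This class is closed under products,
inverses, powers.
-/

set_option autoImplicit false
set_option linter.unusedSectionVars false

open HahnSeries

noncomputable section

namespace Fermat.Agent.S28.H30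

variable {C : Type} [Field C]

/-- Coefficients in `O`, nonzero of order `k`, unit leading coefficient. -/
structure ULS (O : Subring C) (f : LaurentSeries C) (k : ℤ) : Prop where
  coeffs : ∀ n : ℤ, f.coeff n ∈ O
  ne : f ≠ 0
  ord : f.order = k
  lead : (f.leadingCoeff)⁻¹ ∈ O

variable {O : Subring C} {f g : LaurentSeries C} {k l : ℤ}

lemma coeff_mul_mem (hf : ∀ n : ℤ, f.coeff n ∈ O) (hg : ∀ n : ℤ, g.coeff n ∈ O) (n : ℤ) :
    (f * g).coeff n ∈ O := by
  rw [HahnSeries.coeff_mul]
  exact Subring.sum_mem _ fun ij _ => O.mul_mem (hf _) (hg _)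

lemma ULS.mul (hf : ULS O f k) (hg : ULS O g l) : ULS O (f * g) (k + l) where
  coeffs := coeff_mul_mem hf.coeffs hg.coeffs
  ne := mul_ne_zero hf.ne hg.ne
  ord := by rw [HahnSeries.order_mul hf.ne hg.ne, hf.ord, hg.ord]
  lead := by
    rw [HahnSeries.leadingCoeff_mul, mul_inv]
    exact O.mul_mem hf.lead hg.lead

lemma ULS.one : ULS O (1 : LaurentSeries C) 0 where
  coeffs := fun n => by
    rw [HahnSeries.coeff_one]
    split_ifs
    · exact O.one_mem
    · exact O.zero_mem
  ne := one_ne_zero
  ord := HahnSeries.order_one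
  lead := by rw [HahnSeries.leadingCoeff_one, inv_one]; exact O.one_mem

lemma ULS.single {a : ℤ} {c : C} (hc : c ∈ O) (hc' : c⁻¹ ∈ O) (h0 : c ≠ 0) :
    ULS O (HahnSeries.single a c : LaurentSeries C) a where
  coeffs := fun n => by
    rcases eq_or_ne n a with rfl | h
    · rw [HahnSeries.coeff_single_same]; exact hc
    · rw [HahnSeries.coeff_single_of_ne h]; exact O.zero_mem
  ne := by simpa using h0
  ord := HahnSeries.order_single h0
  lead := by
    rw [HahnSeries.leadingCoeff_eq, HahnSeries.order_single h0, HahnSeries.coeff_single_same]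
    exact hc'

/-- The inverse of a power series with coefficients in `O` and unit constant coefficient has
coefficients in `O`. -/
lemma exists_inverse_powerSeries (p : PowerSeries C) (hp : ∀ n, PowerSeries.coeff n p ∈ O)
    (h0 : (PowerSeries.coeff 0 p)⁻¹ ∈ O) (hne : PowerSeries.coeff 0 p ≠ 0) :
    ∃ r : PowerSeries C, (∀ n, PowerSeries.coeff n r ∈ O) ∧ p * r = 1 := by
  let p' : PowerSeries O := PowerSeries.mk fun n => ⟨PowerSeries.coeff n p, hp n⟩
  have hp' : PowerSeries.map O.subtype p' = p := by
    ext n; simp [p']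
  have hu : IsUnit (PowerSeries.constantCoeff p') := by
    refine IsUnit.of_mul_eq_one ⟨(PowerSeries.coeff 0 p)⁻¹, h0⟩ ?_
    apply Subtype.ext
    have h1 : PowerSeries.constantCoeff p' = ⟨PowerSeries.coeff 0 p, hp 0⟩ := by
      rw [← PowerSeries.coeff_zero_eq_constantCoeff_apply]
      simp [p']
    rw [h1]
    show PowerSeries.coeff 0 p * (PowerSeries.coeff 0 p)⁻¹ = 1
    exact mul_inv_cancel₀ hne
  obtain ⟨r', hr'⟩ := (PowerSeries.isUnit_iff_constantCoeff.mpr hu).exists_right_inv
  refine ⟨PowerSeries.map O.subtype r', fun n => ?_, ?_⟩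
  · rw [PowerSeries.coeff_map]; exact (PowerSeries.coeff n r').2
  · rw [← hp', ← map_mul, hr', map_one]

lemma ULS.inv (hf : ULS O f k) : ULS O f⁻¹ (-k) := by
  have hne := hf.ne
  have hinv_ne : f⁻¹ ≠ 0 := inv_ne_zero hne
  have hmul : f * f⁻¹ = 1 := mul_inv_cancel₀ hne
  have hord : f⁻¹.order = -k := by
    have := HahnSeries.order_mul hne hinv_ne
    rw [hmul, HahnSeries.order_one, hf.ord] at this
    omega
  have hlead : f⁻¹.leadingCoeff = (f.leadingCoeff)⁻¹ := by
    have := HahnSeries.leadingCoeff_mul f f⁻¹
    rw [hmul, HahnSeries.leadingCoeff_one] at this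
    exact eq_inv_of_mul_eq_one_right this.symm
  refine ⟨?_, hinv_ne, hord, ?_⟩
  · -- coefficients
    set p := LaurentSeries.powerSeriesPart f with hp
    have hpc : ∀ n, PowerSeries.coeff n p ∈ O := fun n => by
      rw [hp, LaurentSeries.powerSeriesPart_coeff]; exact hf.coeffs _
    have hp0 : PowerSeries.coeff 0 p = f.leadingCoeff := by
      rw [hp, LaurentSeries.powerSeriesPart_coeff, HahnSeries.leadingCoeff_eq]; simp
    have hp0ne : PowerSeries.coeff 0 p ≠ 0 := by
      rw [hp0]; exact HahnSeries.leadingCoeff_ne_zero.mpr hne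
    obtain ⟨r, hr, hpr⟩ := exists_inverse_powerSeries p hpc (by rw [hp0]; exact hf.lead) hp0ne
    have hfr : f⁻¹ = HahnSeries.single (-f.order) (1 : C) * HahnSeries.ofPowerSeries ℤ C r := by
      apply inv_eq_of_mul_eq_one_right
      have h2 : HahnSeries.ofPowerSeries ℤ C p * HahnSeries.ofPowerSeries ℤ C r = 1 := by
        rw [← map_mul, hpr, map_one]
      have key : HahnSeries.single f.order (1 : C) * HahnSeries.ofPowerSeries ℤ C p *
            (HahnSeries.single (-f.order) (1 : C) * HahnSeries.ofPowerSeries ℤ C r) = 1 := by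
        calc HahnSeries.single f.order (1 : C) * HahnSeries.ofPowerSeries ℤ C p *
              (HahnSeries.single (-f.order) (1 : C) * HahnSeries.ofPowerSeries ℤ C r)
            = (HahnSeries.single f.order (1 : C) * HahnSeries.single (-f.order) (1 : C)) *
              (HahnSeries.ofPowerSeries ℤ C p * HahnSeries.ofPowerSeries ℤ C r) := by ring
          _ = 1 := by
            rw [h2, mul_one, HahnSeries.single_mul_single]
            simp
      have h1 : HahnSeries.single f.order (1 : C) * HahnSeries.ofPowerSeries ℤ C p = f :=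
        LaurentSeries.single_order_mul_powerSeriesPart f
      rw [h1] at key
      exact key
    intro n
    rw [hfr, HahnSeries.coeff_single_mul, one_mul]
    by_cases hn : 0 ≤ n - -f.order
    · obtain ⟨m, hm⟩ := Int.eq_ofNat_of_zero_le hn
      rw [hm, HahnSeries.ofPowerSeries_apply_coeff]
      exact hr m
    · rw [HahnSeries.ofPowerSeries_apply]
      rw [HahnSeries.embDomain_of_notMem_range]
      · exact O.zero_mem
      · rintro ⟨m, hm⟩
        apply hn
        rw [← hm]
        simp
  · rw [hlead, inv_inv, HahnSeries.leadingCoeff_eq]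
    exact hf.coeffs _

lemma ULS.div (hf : ULS O f k) (hg : ULS O g l) : ULS O (f / g) (k - l) := by
  rw [div_eq_mul_inv, sub_eq_add_neg]
  exact hf.mul hg.inv

lemma ULS.pow (hf : ULS O f k) (n : ℕ) : ULS O (f ^ n) (n * k) := by
  induction n with
  | zero => simpa using ULS.one (O := O)
  | succ n ih =>
    rw [pow_succ]
    have := ih.mul hf
    convert this using 1
    push_cast; ring

lemma ULS.prod {ι : Type*} (s : Finset ι) (F : ι → LaurentSeries C) (K : ι → ℤ)
    (h : ∀ i ∈ s, ULS O (F i) (K i)) : ULS O (∏ i ∈ s, F i) (∑ i ∈ s, K i) := by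
  classical
  induction s using Finset.induction_on with
  | empty => simpa using ULS.one (O := O)
  | insert i t hi ih =>
    rw [Finset.prod_insert hi, Finset.sum_insert hi]
    exact (h i (Finset.mem_insert_self i t)).mul
      (ih fun j hj => h j (Finset.mem_insert_of_mem hj))

lemma ULS.congr_ord (hf : ULS O f k) (h : k = l) : ULS O f l := h ▸ hf

lemma ULS.C_mul {c : C} (hc : c ∈ O) (hc' : c⁻¹ ∈ O) (h0 : c ≠ 0) (hf : ULS O f k) :
    ULS O (HahnSeries.C c * f) k := by
  have h1 : ULS O (HahnSeries.C c : LaurentSeries C) 0 := by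
    have := ULS.single (O := O) (a := 0) hc hc' h0
    exact this
  have := h1.mul hf
  simpa using this

end Fermat.Agent.S28.H30
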