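import Fermat.Agent.S23.H22_Setup
import Fermat.Agent.S23.H83_Hermite
import Fermat.Agent.S23.H83_QExp
import Fermat.Agent.S23.H96_LevelOne
import Fermat.Agent.S28.H30_Pexp
import Fermat.Agent.S28.H30_UL

/-!
# S28, WP-F: conjugates of `Δ(Mz)`, `E₄(Mz)³` under `SL(2,ℤ)` and their `t`-expansions
(helper30)
-/

set_option autoImplicit false
set_option linter.unusedSectionVars false
set_option linter.unusedVariables false

open UpperHalfPlane ModularForm ModularCurve Function SlashInvariantForm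
open scoped MatrixGroups ModularForm Manifold Real

noncomputable section

namespace Fermat.Agent.S28.H30

open Fermat.Agent.S23.H22 (G0 Q toSL piPerm q1 E12 G0_le_conj quotientFunc_slash
  quotientFunc_mdiff quotientFunc_bdd quotientFunc_q1)

variable (N : ℕ) [NeZero N]

/-! ### Level raising to `Γ₀(N)` through a divisor `M ∣ N` -/

lemma G0_mono {M : ℕ} (hM : M ∣ N) : G0 N ≤ G0 M := by
  intro g hg
  obtain ⟨γ, hγ, rfl⟩ := hg
  refine ⟨γ, ?_, rfl⟩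
  have hγ' : γ ∈ CongruenceSubgroup.Gamma0 N := hγ
  show γ ∈ CongruenceSubgroup.Gamma0 M
  rw [CongruenceSubgroup.Gamma0_mem] at hγ' ⊢
  have hγ := hγ'
  have h1 : (N : ℤ) ∣ γ 1 0 := (ZMod.intCast_zmod_eq_zero_iff_dvd _ _).mp hγ
  exact (ZMod.intCast_zmod_eq_zero_iff_dvd _ _).mpr
    (dvd_trans (by exact_mod_cast hM) h1)

instance neZero_gcd (M : ℕ) : NeZero (Nat.gcd M N) :=
  ⟨Nat.gcd_ne_zero_right (NeZero.ne N)⟩

/-- `F ∣[k] α_{gcd(M,N)}` as a modular form on `Γ₀(N)`. For `M ∣ N` this is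
`M^(k-1) F(M z)`. -/
def raise (M : ℕ) {k : ℤ} (F : ModularForm 𝒮ℒ k) : ModularForm (G0 N) k where
  toFun := (F : ℍ → ℂ) ∣[k] heckeDiagMatrix (Nat.gcd M N)
  slash_action_eq' h hh :=
    (ModularForm.translate F (heckeDiagMatrix (Nat.gcd M N))).slash_action_eq' h
      (G0_le_conj (Nat.gcd M N) (G0_mono N (Nat.gcd_dvd_right M N) hh))
  holo' := (ModularForm.translate F (heckeDiagMatrix (Nat.gcd M N))).holo'
  bdd_at_cusps' hc :=
    (ModularForm.translate F (heckeDiagMatrix (Nat.gcd M N))).bdd_at_cusps'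
      (hc.mono (le_trans (G0_mono N (Nat.gcd_dvd_right M N)) (G0_le_conj (Nat.gcd M N))))

lemma raise_coe (M : ℕ) {k : ℤ} (F : ModularForm 𝒮ℒ k) :
    (raise N M F : ℍ → ℂ) = (F : ℍ → ℂ) ∣[k] heckeDiagMatrix (Nat.gcd M N) := rfl

lemma raise_coe_of_dvd {M : ℕ} (hM : M ∣ N) {k : ℤ} (F : ModularForm 𝒮ℒ k) :
    (raise N M F : ℍ → ℂ) = (F : ℍ → ℂ) ∣[k] heckeDiagMatrix M := by
  rw [raise_coe, Nat.gcd_eq_left hM]

/-- The conjugates of `F ∣ α_M`. -/
def fam (M : ℕ) {k : ℤ} (F : ModularForm 𝒮ℒ k) (q : Q N) : ℍ → ℂ :=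
  quotientFunc (raise N M F) q

lemma fam_slash (M : ℕ) {k : ℤ} (F : ModularForm 𝒮ℒ k) (γ : SL(2, ℤ)) (q : Q N) :
    fam N M F q ∣[k] γ = fam N M F (piPerm N γ q) :=
  quotientFunc_slash _ γ q

lemma fam_mdiff (M : ℕ) {k : ℤ} (F : ModularForm 𝒮ℒ k) (q : Q N) : MDiff (fam N M F q) :=
  quotientFunc_mdiff _ q

lemma fam_bdd (M : ℕ) {k : ℤ} (F : ModularForm 𝒮ℒ k) (q : Q N) :
    IsBoundedAtImInfty (fam N M F q) :=
  quotientFunc_bdd _ q

lemma fam_q1 (M : ℕ) {k : ℤ} (F : ModularForm 𝒮ℒ k) : fam N M F q1 = raise N M F :=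
  quotientFunc_q1 _

/-- The conjugate of a level raise at a coset, via any factorisation `α_M γ⁻¹ = γ' T`. -/
theorem fam_eq_slash {M : ℕ} (hM : M ∣ N) {k : ℤ} (F : ModularForm 𝒮ℒ k)
    (γ γ' : SL(2, ℤ)) (T : GL (Fin 2) ℝ)
    (hmat : heckeDiagMatrix M * Matrix.SpecialLinearGroup.mapGL ℝ γ⁻¹
      = Matrix.SpecialLinearGroup.mapGL ℝ γ' * T) :
    fam N M F (⟦toSL γ⟧ : Q N) = (F : ℍ → ℂ) ∣[k] T := by
  rw [fam, quotientFunc_mk, raise_coe_of_dvd N hM, ← SlashAction.slash_mul]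
  have : heckeDiagMatrix M * (toSL γ).val⁻¹ = Matrix.SpecialLinearGroup.mapGL ℝ γ' * T := by
    rw [← hmat, map_inv]
    rfl
  rw [this, SlashAction.slash_mul]
  congr 1
  exact SlashInvariantFormClass.slash_action_eq F _ ⟨γ', rfl⟩

/-! ### Hermite normal form with the value of `a` -/

/-- In the Hermite normal form of `diag(M,1) g`, the entry `a` is `gcd(g₁₀, M)`. -/
lemma hnf_a_eq {M : ℕ} (g g' : SL(2, ℤ)) (a b d : ℕ) (had : a * d = M)
    (hmat : !![(M : ℤ), 0; 0, 1] * (g : Matrix (Fin 2) (Fin 2) ℤ) =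
        (g' : Matrix (Fin 2) (Fin 2) ℤ) * !![(a : ℤ), (b : ℤ); 0, (d : ℤ)]) :
    a = Int.gcd (g 1 0) (M : ℤ) := by
  have h00 := congrFun (congrFun hmat 0) 0
  have h10 := congrFun (congrFun hmat 1) 0
  simp [Matrix.mul_apply, Fin.sum_univ_two] at h00 h10
  have hdet' := g'.det_coe
  rw [Matrix.det_fin_two] at hdet'
  -- a ∣ gcd
  have ha1 : (a : ℤ) ∣ g 1 0 := ⟨g' 1 0, by rw [h10]; ring⟩
  have ha2 : (a : ℤ) ∣ (M : ℤ) := ⟨d, by rw [← had]; push_cast; ring⟩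
  have h1 : (a : ℤ) ∣ ((Int.gcd (g 1 0) (M : ℤ) : ℕ) : ℤ) := Int.dvd_coe_gcd ha1 ha2
  -- gcd ∣ a
  have hG1 : ((Int.gcd (g 1 0) (M : ℤ) : ℕ) : ℤ) ∣ g 1 0 := Int.gcd_dvd_left _ _
  have hG2 : ((Int.gcd (g 1 0) (M : ℤ) : ℕ) : ℤ) ∣ (M : ℤ) := Int.gcd_dvd_right _ _
  have hcomb : (a : ℤ) = (M : ℤ) * g 0 0 * g' 1 1 - g' 0 1 * g 1 0 := by
    have : (a : ℤ) = a * (g' 0 0 * g' 1 1 - g' 0 1 * g' 1 0) := by rw [hdet', mul_one]
    rw [this, h00, h10]; ring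
  have h2 : ((Int.gcd (g 1 0) (M : ℤ) : ℕ) : ℤ) ∣ (a : ℤ) := by
    rw [hcomb]
    exact dvd_sub (Dvd.dvd.mul_right (Dvd.dvd.mul_right hG2 _) _) (Dvd.dvd.mul_left hG1 _)
  have := Int.natCast_dvd_natCast.mp h1
  have := Int.natCast_dvd_natCast.mp h2
  exact Nat.dvd_antisymm ‹_› ‹_›

/-- Hermite normal form in `GL(2,ℝ)` with `a = gcd(γ₁₀, M)`. -/
theorem exists_hnf_gcd (M : ℕ) [NeZero M] (γ : SL(2, ℤ)) :
    ∃ (γ' : SL(2, ℤ)) (a b d : ℕ) (h : (a : ℝ) * (d : ℝ) ≠ 0), a * d = M ∧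
      a = Int.gcd (γ 1 0) (M : ℤ) ∧
      ModularForm.heckeDiagMatrix M * Matrix.SpecialLinearGroup.mapGL ℝ γ
        = Matrix.SpecialLinearGroup.mapGL ℝ γ' * ModularForm.upperTriangularGL a b d h := by
  obtain ⟨γ', a, b, d, had, hb, hmat, hiff⟩ :=
    Fermat.Agent.S23.H83.exists_hermite_int M (NeZero.ne M) γ
  have h : (a : ℝ) * (d : ℝ) ≠ 0 := by
    rw [← Nat.cast_mul, had]; exact_mod_cast NeZero.ne M
  refine ⟨γ', a, b, d, h, had, hnf_a_eq γ γ' a b d had hmat, ?_⟩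
  have hL : (!![(M : ℝ), 0; 0, 1] : Matrix (Fin 2) (Fin 2) ℝ)
      = (Int.castRingHom ℝ).mapMatrix !![(M : ℤ), 0; 0, 1] := by
    ext i j; fin_cases i <;> fin_cases j <;> simp
  have hR : (!![(a : ℝ), (b : ℝ); 0, (d : ℝ)] : Matrix (Fin 2) (Fin 2) ℝ)
      = (Int.castRingHom ℝ).mapMatrix !![(a : ℤ), (b : ℤ); 0, (d : ℤ)] := by
    ext i j; fin_cases i <;> fin_cases j <;> simp
  have hmap : ∀ g : SL(2, ℤ), ((Matrix.SpecialLinearGroup.mapGL ℝ g : GL (Fin 2) ℝ) :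
      Matrix (Fin 2) (Fin 2) ℝ) = (Int.castRingHom ℝ).mapMatrix (g : Matrix (Fin 2) (Fin 2) ℤ) := by
    intro g
    rw [Matrix.SpecialLinearGroup.mapGL_coe_matrix]
    rfl
  apply Units.ext
  rw [Units.val_mul, Units.val_mul]
  show ((ModularForm.heckeDiagMatrix M : GL (Fin 2) ℝ) : Matrix (Fin 2) (Fin 2) ℝ) *
      ((Matrix.SpecialLinearGroup.mapGL ℝ γ : GL (Fin 2) ℝ) : Matrix (Fin 2) (Fin 2) ℝ) =
    ((Matrix.SpecialLinearGroup.mapGL ℝ γ' : GL (Fin 2) ℝ) : Matrix (Fin 2) (Fin 2) ℝ) *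
      ((ModularForm.upperTriangularGL a b d h : GL (Fin 2) ℝ) : Matrix (Fin 2) (Fin 2) ℝ)
  rw [ModularForm.val_heckeDiagMatrix (NeZero.ne M), ModularForm.val_upperTriangularGL,
    hmap, hmap, hL, hR, ← map_mul, ← map_mul, hmat]


/-! ### Expansion of `F ((a z + b) / d)` in `t = e^{2πiz/N}` -/

/-- `Δ` as a level one modular form. -/
def DeltaMF : ModularForm 𝒮ℒ 12 := CuspForm.toModularFormₗ CuspForm.discriminant

lemma DeltaMF_coe : (DeltaMF : ℍ → ℂ) = ModularForm.discriminant := rfl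

/-- `z ↦ F ((a z + b) / d)`. -/
def compUT {k : ℤ} (F : ModularForm 𝒮ℒ k) (a b d : ℕ) (h : (a : ℝ) * (d : ℝ) ≠ 0) : ℍ → ℂ :=
  fun z => F (ModularForm.upperTriangularGL a b d h • z)

section compUT

variable {N}
variable {k : ℤ} (F : ModularForm 𝒮ℒ k) (a b d : ℕ) (h : (a : ℝ) * (d : ℝ) ≠ 0)

lemma compUT_per_ad : Periodic (compUT F a b d h ∘ ofComplex) ((a * d : ℕ) : ℂ) :=
  Fermat.Agent.S23.H83.periodic_comp_upperTriangular F a b d h

lemma compUT_BPH (hadN : a * d ∣ N) : BPH N (compUT F a b d h) where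
  per := by
    obtain ⟨L, hL⟩ := hadN
    have := (compUT_per_ad F a b d h).nat_mul L
    rw [hL]
    push_cast at this ⊢
    rw [mul_comm]
    exact this
  hol := Fermat.Agent.S23.H83.mdifferentiable_comp_upperTriangular F a b d h
  bdd := Fermat.Agent.S23.H83.isBoundedAtImInfty_comp_upperTriangular F a b d h

include h in
lemma ad_pos : 0 < a * d := by
  have := Fermat.Agent.S23.H83.natCast_mul_pos' a d h
  exact_mod_cast this

lemma qExpansion_compUT_coeff (hadN : a * d ∣ N) (n : ℕ) :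
    (qExpansion (N : ℝ) (compUT F a b d h)).coeff n =
      if (N / (a * d)) ∣ n then Fermat.Agent.S23.H83.compCoeff F a b d (n / (N / (a * d)))
      else 0 := by
  have hpos : 0 < a * d := ad_pos a d h
  have hNpos : 0 < N := Nat.pos_of_ne_zero (NeZero.ne N)
  have hL : 0 < N / (a * d) := Nat.div_pos (Nat.le_of_dvd hNpos hadN) hpos
  have hper : Periodic (compUT F a b d h ∘ ofComplex) ((((a * d : ℕ) : ℝ)) : ℂ) := by
    rw [Complex.ofReal_natCast]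
    exact compUT_per_ad F a b d h
  have key := UpperHalfPlane.qExpansion_coeff_nat_mul
    (Fermat.Agent.S23.H83.natCast_mul_pos' a d h) hper
    (Fermat.Agent.S23.H83.mdifferentiable_comp_upperTriangular F a b d h)
    (Fermat.Agent.S23.H83.isBoundedAtImInfty_comp_upperTriangular F a b d h) hL n
  have hN : ((N / (a * d) : ℕ) : ℝ) * (((a * d : ℕ)) : ℝ) = (N : ℝ) := by
    rw [← Nat.cast_mul, Nat.div_mul_cancel hadN]
  rw [hN] at key
  rw [key]
  split_ifs with hdiv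
  · exact Fermat.Agent.S23.H83.qExpansion_comp_upperTriangular_coeff F a b d h _
  · rfl

end compUT

/-! ### Order and leading coefficient from the coefficients -/

lemma order_eq_of_coeff {f : LaurentSeries ℂ} {k : ℤ} (hk : f.coeff k ≠ 0)
    (hlt : ∀ n : ℤ, n < k → f.coeff n = 0) : f ≠ 0 ∧ f.order = k := by
  have hne : f ≠ 0 := by
    rintro rfl
    exact hk (by simp)
  refine ⟨hne, le_antisymm (HahnSeries.order_le_of_coeff_ne_zero hk) ?_⟩
  by_contra hcon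
  push Not at hcon
  exact (HahnSeries.coeff_order_eq_zero.not.mpr hne) (hlt _ hcon)


/-! ### The coefficient ring `ℤ[ζ_N, 1/N]` -/

lemma rootOfUnity_mem {z : ℂ} (hz : z ^ N = 1) : z ∈ coeffRing N :=
  Subring.subset_closure (Or.inl hz)

lemma inv_N_mem : ((N : ℂ))⁻¹ ∈ coeffRing N :=
  Subring.subset_closure (Or.inr rfl)

lemma natCast_mem_coeffRing (n : ℕ) : (n : ℂ) ∈ coeffRing N := natCast_mem _ n

lemma intCast_mem_coeffRing (n : ℤ) : (n : ℂ) ∈ coeffRing N := intCast_mem _ n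

lemma inv_natCast_mem_of_dvd {d : ℕ} (hd : d ∣ N) : ((d : ℂ))⁻¹ ∈ coeffRing N := by
  obtain ⟨e, he⟩ := hd
  have hN : (N : ℂ) ≠ 0 := by exact_mod_cast NeZero.ne N
  have hd0 : (d : ℂ) ≠ 0 := by
    rintro h0
    apply hN
    rw [he]; push_cast; rw [h0, zero_mul]
  have he0 : (e : ℂ) ≠ 0 := by
    rintro h0
    apply hN
    rw [he]; push_cast; rw [h0, mul_zero]
  have : ((d : ℂ))⁻¹ = (e : ℂ) * ((N : ℂ))⁻¹ := by
    rw [he]; push_cast
    field_simp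
  rw [this]
  exact (coeffRing N).mul_mem (natCast_mem_coeffRing N e) (inv_N_mem N)

lemma exp_rootOfUnity {d : ℕ} (hd : d ∣ N) (hd0 : d ≠ 0) (m : ℤ) :
    Complex.exp (2 * π * Complex.I * m / d) ^ N = 1 := by
  obtain ⟨e, he⟩ := hd
  rw [← Complex.exp_nat_mul]
  have hd' : (d : ℂ) ≠ 0 := by exact_mod_cast hd0
  have : (N : ℂ) * (2 * π * Complex.I * m / d) = ((e * m : ℤ) : ℂ) * (2 * π * Complex.I) := by
    rw [he]; push_cast; field_simp
  rw [this]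
  exact Complex.exp_int_mul_two_pi_mul_I _

lemma exp_mem_coeffRing {d : ℕ} (hd : d ∣ N) (hd0 : d ≠ 0) (m : ℤ) :
    Complex.exp (2 * π * Complex.I * m / d) ∈ coeffRing N :=
  rootOfUnity_mem N (exp_rootOfUnity N hd hd0 m)

/-! ### The `t`-expansion of `Δ ((a z + b) / d)` -/

lemma qExpansion_DeltaMF_coeff_zero : (qExpansion 1 DeltaMF).coeff 0 = 0 := by
  have := CuspFormClass.qExpansion_coeff_zero CuspForm.discriminant one_pos
    one_mem_strictPeriods_SL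
  exact this

lemma qExpansion_DeltaMF_coeff_one : (qExpansion 1 DeltaMF).coeff 1 = 1 :=
  ModularForm.discriminant_qExpansion_coeff_one

lemma qExpansion_DeltaMF_int (m : ℕ) : ∃ c : ℤ, (qExpansion 1 DeltaMF).coeff m = (c : ℂ) :=
  Fermat.Agent.S23.H96.Delta_int m

section DeltaUT

variable {N}
variable (a b d : ℕ) (h : (a : ℝ) * (d : ℝ) ≠ 0)

include h in
lemma compCoeff_Delta_mem (hadN : a * d ∣ N) (n : ℕ) :
    Fermat.Agent.S23.H83.compCoeff DeltaMF a b d n ∈ coeffRing N := by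
  have hd0 : d ≠ 0 := by
    have := ad_pos a d h
    rintro rfl
    simp at this
  have hdN : d ∣ N := dvd_trans (dvd_mul_left d a) hadN
  unfold Fermat.Agent.S23.H83.compCoeff
  split_ifs with hdiv
  · generalize n / a ^ 2 = y
    obtain ⟨c, hc⟩ := qExpansion_DeltaMF_int y
    rw [hc]
    refine (coeffRing N).mul_mem ?_ (intCast_mem_coeffRing N c)
    have := exp_mem_coeffRing N hdN hd0 ((b : ℤ) * (y : ℤ))
    convert this using 2
    push_cast
    ring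
  · exact (coeffRing N).zero_mem

/-- The `t`-expansion of `Δ((az+b)/d)` has order `a² · N/(ad)`, unit leading coefficient
and coefficients in `ℤ[ζ_N]`. -/
theorem uls_compUT_Delta (hadN : a * d ∣ N) :
    ULS (coeffRing N) (pexp N (compUT DeltaMF a b d h)) ((a ^ 2 * (N / (a * d)) : ℕ) : ℤ) := by
  have hpos : 0 < a * d := ad_pos a d h
  have ha0 : a ≠ 0 := by rintro rfl; simp at hpos
  have hd0 : d ≠ 0 := by rintro rfl; simp at hpos
  have hdN : d ∣ N := dvd_trans (dvd_mul_left d a) hadN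
  have hNpos : 0 < N := Nat.pos_of_ne_zero (NeZero.ne N)
  have hL : 0 < N / (a * d) := Nat.div_pos (Nat.le_of_dvd hNpos hadN) hpos
  set L := N / (a * d) with hLdef
  have ha2 : 0 < a ^ 2 := by positivity
  -- all coefficients
  have hcoeff : ∀ n : ℕ, (pexp N (compUT DeltaMF a b d h)).coeff (n : ℤ) =
      if L ∣ n then Fermat.Agent.S23.H83.compCoeff DeltaMF a b d (n / L) else 0 := by
    intro n
    rw [pexp_coeff_nat, qExpansion_compUT_coeff DeltaMF a b d h hadN]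
  have hmem : ∀ n : ℤ, (pexp N (compUT DeltaMF a b d h)).coeff n ∈ coeffRing N := by
    intro n
    rcases lt_or_ge n 0 with hn | hn
    · rw [pexp_coeff_neg _ hn]; exact (coeffRing N).zero_mem
    · obtain ⟨m, rfl⟩ := Int.eq_ofNat_of_zero_le hn
      rw [hcoeff]
      split_ifs
      · exact compCoeff_Delta_mem a b d h hadN _
      · exact (coeffRing N).zero_mem
  -- the leading coefficient
  have hlead : (pexp N (compUT DeltaMF a b d h)).coeff ((a ^ 2 * L : ℕ) : ℤ) =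
      Complex.exp (2 * π * Complex.I * (b : ℤ) / d) := by
    rw [hcoeff, if_pos (dvd_mul_left L (a ^ 2)), Nat.mul_div_cancel _ hL]
    unfold Fermat.Agent.S23.H83.compCoeff
    rw [if_pos dvd_rfl, Nat.div_self ha2, qExpansion_DeltaMF_coeff_one]
    simp
  have hlead_ne : (pexp N (compUT DeltaMF a b d h)).coeff ((a ^ 2 * L : ℕ) : ℤ) ≠ 0 := by
    rw [hlead]; exact Complex.exp_ne_zero _
  have hlow : ∀ n : ℤ, n < ((a ^ 2 * L : ℕ) : ℤ) →
      (pexp N (compUT DeltaMF a b d h)).coeff n = 0 := by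
    intro n hn
    rcases lt_or_ge n 0 with hn0 | hn0
    · exact pexp_coeff_neg _ hn0
    · obtain ⟨m, rfl⟩ := Int.eq_ofNat_of_zero_le hn0
      have hm : m < a ^ 2 * L := by exact_mod_cast hn
      rw [hcoeff]
      split_ifs with hdiv
      · obtain ⟨m', rfl⟩ := hdiv
        rw [Nat.mul_div_cancel_left _ hL]
        have hm' : m' < a ^ 2 := by
          by_contra hcon
          push Not at hcon
          have : a ^ 2 * L ≤ L * m' := by
            rw [mul_comm]; exact Nat.mul_le_mul_left L hcon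
          omega
        unfold Fermat.Agent.S23.H83.compCoeff
        split_ifs with hdiv2
        · have : m' = 0 := Nat.eq_zero_of_dvd_of_lt hdiv2 hm'
          subst this
          simp [qExpansion_DeltaMF_coeff_zero]
        · rfl
      · rfl
  obtain ⟨hne, hord⟩ := order_eq_of_coeff hlead_ne hlow
  refine ⟨hmem, hne, hord, ?_⟩
  rw [HahnSeries.leadingCoeff_eq, hord, hlead, ← Complex.exp_neg]
  have := exp_mem_coeffRing N hdN hd0 (-(b : ℤ))
  convert this using 2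
  push_cast
  ring

end DeltaUT


/-! ### The conjugate families: explicit form, `BPH`, `ULS` -/

lemma exists_rep (q : Q N) : ∃ γ : SL(2, ℤ), q = (⟦toSL γ⟧ : Q N) := by
  induction q using Quotient.inductionOn with
  | h r =>
    obtain ⟨r, γ, rfl⟩ := r
    exact ⟨γ, rfl⟩

lemma mk_toSL_eq_q1' {γ : SL(2, ℤ)} (hγ : γ ∈ CongruenceSubgroup.Gamma0 N) :
    (⟦toSL γ⟧ : Q N) = q1 := by
  show ((toSL γ : ↥𝒮ℒ) : Q N) = ((1 : ↥𝒮ℒ) : Q N)
  rw [QuotientGroup.eq, mul_one, Subgroup.mem_subgroupOf]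
  refine ⟨γ⁻¹, inv_mem hγ, ?_⟩
  simp [toSL]

lemma not_dvd_of_ne_q1 {γ : SL(2, ℤ)} (hq : (⟦toSL γ⟧ : Q N) ≠ q1) :
    ¬ (N : ℤ) ∣ (γ⁻¹ : SL(2, ℤ)) 1 0 := by
  intro hdvd
  apply hq
  apply mk_toSL_eq_q1'
  have : γ⁻¹ ∈ CongruenceSubgroup.Gamma0 N := by
    rw [CongruenceSubgroup.Gamma0_mem]
    exact (ZMod.intCast_zmod_eq_zero_iff_dvd _ _).mpr hdvd
  simpa using inv_mem this

theorem fam_eq_smul_compUT {M : ℕ} (hM : M ∣ N) {k : ℤ} (F : ModularForm 𝒮ℒ k)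
    (γ : SL(2, ℤ)) :
    ∃ (a b d : ℕ) (h : (a : ℝ) * (d : ℝ) ≠ 0), a * d = M ∧
      a = Int.gcd ((γ⁻¹ : SL(2, ℤ)) 1 0) (M : ℤ) ∧
      fam N M F (⟦toSL γ⟧ : Q N) =
        (((a : ℂ) * (d : ℂ)) ^ (k - 1) * (d : ℂ) ^ (-k)) • compUT F a b d h := by
  haveI : NeZero M := ⟨ne_zero_of_dvd_ne_zero (NeZero.ne N) hM⟩
  obtain ⟨γ', a, b, d, h, had, hgcd, hmat⟩ := exists_hnf_gcd M γ⁻¹
  refine ⟨a, b, d, h, had, hgcd, ?_⟩
  rw [fam_eq_slash N hM F γ γ' _ hmat]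
  exact Fermat.Agent.S23.H83.slash_upperTriangularGL_eq_smul F a b d h

theorem fam_BPH {M : ℕ} (hM : M ∣ N) {k : ℤ} (F : ModularForm 𝒮ℒ k) (q : Q N) :
    BPH N (fam N M F q) := by
  obtain ⟨γ, rfl⟩ := exists_rep N q
  obtain ⟨a, b, d, h, had, -, heq⟩ := fam_eq_smul_compUT N hM F γ
  rw [heq]
  exact BPH.smul _ (compUT_BPH F a b d h (had ▸ hM))

/-- The `t`-order of the conjugate of `Δ(Mz)` at the coset of `γ`. -/
def ordAt (M : ℕ) (c : ℤ) : ℕ := (Int.gcd c (M : ℤ)) ^ 2 * (N / M)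

theorem uls_fam_Delta {M : ℕ} (hM : M ∣ N) (γ : SL(2, ℤ)) :
    ULS (coeffRing N) (pexp N (fam N M DeltaMF (⟦toSL γ⟧ : Q N)))
      ((ordAt N M ((γ⁻¹ : SL(2, ℤ)) 1 0) : ℕ) : ℤ) := by
  obtain ⟨a, b, d, h, had, hgcd, heq⟩ := fam_eq_smul_compUT N hM DeltaMF γ
  have hadN : a * d ∣ N := had ▸ hM
  have hpos : 0 < a * d := ad_pos a d h
  have ha0 : a ≠ 0 := by rintro rfl; simp at hpos
  have hd0 : d ≠ 0 := by rintro rfl; simp at hpos
  have hdN : d ∣ N := dvd_trans (dvd_mul_left d a) hadN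
  have haN : a ∣ N := dvd_trans (dvd_mul_right a d) hadN
  have hac : (a : ℂ) ≠ 0 := by exact_mod_cast ha0
  have hdc : (d : ℂ) ≠ 0 := by exact_mod_cast hd0
  rw [heq, pexp_smul _ (compUT_BPH DeltaMF a b d h hadN)]
  have hord : ordAt N M ((γ⁻¹ : SL(2, ℤ)) 1 0) = a ^ 2 * (N / (a * d)) := by
    rw [ordAt, ← hgcd, had]
  rw [hord]
  refine ULS.C_mul ?_ ?_ ?_ (uls_compUT_Delta a b d h hadN)
  · -- C ∈ O
    have : ((a : ℂ) * (d : ℂ)) ^ ((12 : ℤ) - 1) * (d : ℂ) ^ (-(12 : ℤ))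
        = ((a * d : ℕ) : ℂ) ^ 11 * (((d : ℂ))⁻¹) ^ 12 := by
      rw [show ((12 : ℤ) - 1) = ((11 : ℕ) : ℤ) by norm_num, zpow_natCast,
        show (-(12 : ℤ)) = -((12 : ℕ) : ℤ) by norm_num, zpow_neg, zpow_natCast, inv_pow]
      push_cast; ring
    rw [this]
    exact (coeffRing N).mul_mem ((coeffRing N).pow_mem (natCast_mem_coeffRing N _) _)
      ((coeffRing N).pow_mem (inv_natCast_mem_of_dvd N hdN) _)
  · have : (((a : ℂ) * (d : ℂ)) ^ ((12 : ℤ) - 1) * (d : ℂ) ^ (-(12 : ℤ)))⁻¹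
        = ((((a * d : ℕ) : ℂ))⁻¹) ^ 11 * (d : ℂ) ^ 12 := by
      rw [show ((12 : ℤ) - 1) = ((11 : ℕ) : ℤ) by norm_num, zpow_natCast,
        show (-(12 : ℤ)) = -((12 : ℕ) : ℤ) by norm_num, zpow_neg, zpow_natCast, mul_inv, inv_inv,
        inv_pow]
      push_cast; ring
    rw [this]
    exact (coeffRing N).mul_mem
      ((coeffRing N).pow_mem (inv_natCast_mem_of_dvd N hadN) _)
      ((coeffRing N).pow_mem (natCast_mem_coeffRing N _) _)
  · exact Fermat.Agent.S23.H83.slash_const_ne_zero a d h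

end Fermat.Agent.S28.H30
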