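/-
S28 (Igusa), WP-F, bridge BR at the identity coset (helper10).

For `d ∣ N`:
  `pexp N (fam N d E12 q1) = iotaN N (qExpand ℚ d jq) * pexp N (fam N d DeltaMF q1)`,
i.e. the `t`-expansion (`t = e^{2πiz/N}`) of `d¹¹ E₄(dz)³` is `j(t^{Nd})` times that of
`d¹¹ Δ(dz)`.  Built on helper76's level one bridge (`H76.coeffMap_jq_mul_disc`,
`H76.ofPS_qExpansion_natCast`) and helper22's `qExpansion_levelRaise_coeff`.
-/
import Fermat.Agent.S28.H30_Conj
import Fermat.Agent.S28.H76_Bridge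
import Fermat.Agent.S23.H22_LevelRaiseExp

set_option autoImplicit false

open UpperHalfPlane ModularForm ModularCurve
open scoped MatrixGroups ModularForm Manifold

noncomputable section

namespace Fermat.Agent.S28.H10

open Fermat.Agent.S23.H22 (G0 Q q1 E12 levelRaise Nice nice_G0 qExpansion_levelRaise_coeff)
open Fermat.Agent.S28.H30 (pexp fam raise DeltaMF)

local notation "ofPS" => HahnSeries.ofPowerSeries ℤ ℂ

/-- The `q`-expansion of a level raise `F ∣[k] α_d`, as a Laurent series. -/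
theorem ofPS_qExpansion_levelRaise (d : ℕ) [NeZero d] {k : ℤ} (F : ModularForm 𝒮ℒ k) :
    ofPS (qExpansion 1 (levelRaise d F)) =
      HahnSeries.C ((d : ℂ) ^ (k - 1)) * qExpand ℂ d (ofPS (qExpansion 1 F)) := by
  have hd : 0 < d := NeZero.pos d
  ext n
  rw [HahnSeries.C_mul_eq_smul, HahnSeries.coeff_smul, smul_eq_mul]
  rcases lt_or_ge n 0 with hn | hn
  · rw [ModularCurve.ofPowerSeries_coeff_of_neg _ hn]
    by_cases hdn : (d : ℤ) ∣ n
    · obtain ⟨m, rfl⟩ := hdn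
      rw [qExpand_coeff_mul]
      have hm : m < 0 := by
        by_contra hm
        rw [not_lt] at hm
        have : (0 : ℤ) ≤ (d : ℤ) * m := mul_nonneg (by positivity) hm
        omega
      rw [ModularCurve.ofPowerSeries_coeff_of_neg _ hm, mul_zero]
    · rw [qExpand_coeff_of_not_dvd _ _ hdn, mul_zero]
  · obtain ⟨m, rfl⟩ := Int.eq_ofNat_of_zero_le hn
    rw [HahnSeries.ofPowerSeries_apply_coeff, qExpansion_levelRaise_coeff d F m]
    by_cases hdm : d ∣ m
    · rw [if_pos hdm]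
      obtain ⟨l, rfl⟩ := hdm
      rw [Nat.mul_div_cancel_left _ hd]
      push_cast
      rw [qExpand_coeff_mul, HahnSeries.ofPowerSeries_apply_coeff]
    · rw [if_neg hdm, qExpand_coeff_of_not_dvd, mul_zero]
      exact_mod_cast hdm

/-- Extension of coefficients commutes with `q ↦ q^d`. -/
theorem coeffMap_qExpand (d : ℕ) [NeZero d] (f : LaurentSeries ℚ) :
    coeffMap (algebraMap ℚ ℂ) (qExpand ℚ d f) = qExpand ℂ d (coeffMap (algebraMap ℚ ℂ) f) := by
  ext n
  rw [coeffMap_coeff]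
  by_cases hdn : (d : ℤ) ∣ n
  · obtain ⟨m, rfl⟩ := hdn
    rw [qExpand_coeff_mul, qExpand_coeff_mul, coeffMap_coeff]
  · rw [qExpand_coeff_of_not_dvd _ _ hdn, qExpand_coeff_of_not_dvd _ _ hdn, map_zero]

theorem iotaN_qExpand (N : ℕ) [NeZero N] (d : ℕ) [NeZero d] (f : LaurentSeries ℚ) :
    iotaN N (qExpand ℚ d f) = qExpand ℂ N (qExpand ℂ d (coeffMap (algebraMap ℚ ℂ) f)) := by
  rw [iotaN, RingHom.comp_apply, coeffMap_qExpand]

/-- The `t`-expansion of the level raise `F ∣[k] α_d`, `d ∣ N`. -/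
theorem pexp_fam_q1 (N : ℕ) [NeZero N] (d : ℕ) [NeZero d] (hd : d ∣ N) {k : ℤ}
    (F : ModularForm 𝒮ℒ k) :
    pexp N (fam N d F q1) =
      HahnSeries.C ((d : ℂ) ^ (k - 1)) * qExpand ℂ N (qExpand ℂ d (ofPS (qExpansion 1 F))) := by
  have h1 : (fam N d F q1 : ℍ → ℂ) = (levelRaise d F : ℍ → ℂ) := by
    rw [Fermat.Agent.S28.H30.fam_q1, Fermat.Agent.S28.H30.raise_coe_of_dvd N hd]
    rfl
  have hnice : Nice 1 (levelRaise d F : ℍ → ℂ) := nice_G0 d (levelRaise d F)
  rw [pexp, h1, Fermat.Agent.S28.H76.ofPS_qExpansion_natCast N hnice,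
    ofPS_qExpansion_levelRaise d F, map_mul, qExpand_C]

theorem qExpansion_E12 : qExpansion 1 E12 = qExpansion 1 E₄ ^ 3 := by
  have h1 : (E12 : ℍ → ℂ) = ((E₄.mul E₄).mul E₄ : ModularForm 𝒮ℒ (4 + 4 + 4)) := rfl
  rw [h1, ModularForm.qExpansion_mul one_pos one_mem_strictPeriods_SL,
    ModularForm.qExpansion_mul one_pos one_mem_strictPeriods_SL]
  ring

/-- **Bridge BR.** -/
theorem bridge_BR (N : ℕ) [NeZero N] (d : ℕ) [NeZero d] (hd : d ∣ N) :
    pexp N (fam N d E12 q1) =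
      iotaN N (qExpand ℚ d jq) * pexp N (fam N d DeltaMF q1) := by
  rw [pexp_fam_q1 N d hd E12, pexp_fam_q1 N d hd DeltaMF, iotaN_qExpand]
  have hΔ : qExpansion 1 DeltaMF = qExpansion 1 ModularForm.discriminant := rfl
  rw [qExpansion_E12, hΔ, map_pow, ← Fermat.Agent.S28.H76.coeffMap_jq_mul_disc, map_mul, map_mul]
  ring

end Fermat.Agent.S28.H10
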