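import Fermat.Agent.S28.H30_CA
import Fermat.Agent.S28.H10_Bridge

/-!
# S28, WP-F, strengthened output for the reduction of `J₀(N)` (helper30, on request of helper73)

* `uls_Xfam`: the conjugates `X d q` of `j(dz)` have coefficients in `ℤ[ζ_N, 1/N]`, unit leading
  coefficient and order `-(gcd(c, d)² · N / d)`;
* `exists_caData_strong`: a `CAData N` with (a) all `X d q`, `d ∣ N`, integral and
  (b) `(X N q).coeff (-N²) = 0` for `q ≠ q₀`.
-/

set_option autoImplicit false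
set_option linter.unusedSectionVars false
set_option linter.unusedVariables false

open UpperHalfPlane ModularForm ModularCurve Function SlashInvariantForm
open scoped MatrixGroups ModularForm Manifold Real ArithmeticFunction.Moebius

noncomputable section

namespace Fermat.Agent.S28.H30

open Fermat.Agent.S23.H22 (G0 Q toSL piPerm q1 E12)

/-! ### Level one forms with integral `q`-expansion -/

/-- `F` has integral `q`-expansion coefficients. -/
def IntQ {k : ℤ} (F : ModularForm 𝒮ℒ k) : Prop :=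
  ∀ m : ℕ, ∃ c : ℤ, (qExpansion 1 F).coeff m = (c : ℂ)

lemma intQ_E12 : IntQ E12 := by
  intro m
  rw [Fermat.Agent.S28.H10.qExpansion_E12]
  exact (Fermat.Agent.S23.H96.mem_intSeries_iff _).mp
    (Subring.pow_mem _ Fermat.Agent.S23.H96.qExpansion_E₄_mem_intSeries 3) m

lemma qExpansion_E12_coeff_zero : (qExpansion 1 E12).coeff 0 = 1 := by
  rw [Fermat.Agent.S28.H10.qExpansion_E12, PowerSeries.coeff_zero_eq_constantCoeff, map_pow,
    ← PowerSeries.coeff_zero_eq_constantCoeff_apply, Fermat.Agent.S23.H96.qExpansion_E₄_eq,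
    PowerSeries.coeff_map, Fermat.Agent.S23.H96.coeff_e4Series]
  simp

variable (N : ℕ) [NeZero N]

section IntUT

variable {N}
variable {k : ℤ} (F : ModularForm 𝒮ℒ k)
variable (a b d : ℕ) (h : (a : ℝ) * (d : ℝ) ≠ 0)

include h in
lemma compCoeff_mem_of_intQ (hF : IntQ F) (hadN : a * d ∣ N) (n : ℕ) :
    Fermat.Agent.S23.H83.compCoeff F a b d n ∈ coeffRing N := by
  have hd0 : d ≠ 0 := by
    have := ad_pos a d h
    rintro rfl
    simp at this
  have hdN : d ∣ N := dvd_trans (dvd_mul_left d a) hadN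
  unfold Fermat.Agent.S23.H83.compCoeff
  split_ifs with hdiv
  · generalize n / a ^ 2 = y
    obtain ⟨c, hc⟩ := hF y
    rw [hc]
    refine (coeffRing N).mul_mem ?_ (intCast_mem_coeffRing N c)
    have := exp_mem_coeffRing N hdN hd0 ((b : ℤ) * (y : ℤ))
    convert this using 2
    push_cast
    ring
  · exact (coeffRing N).zero_mem

lemma pexp_compUT_coeff_eq (hadN : a * d ∣ N) (n : ℕ) :
    (pexp N (compUT F a b d h)).coeff (n : ℤ) =
      if (N / (a * d)) ∣ n then Fermat.Agent.S23.H83.compCoeff F a b d (n / (N / (a * d)))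
      else 0 := by
  rw [pexp_coeff_nat, qExpansion_compUT_coeff F a b d h hadN]

lemma pexp_compUT_coeff_mem (hF : IntQ F) (hadN : a * d ∣ N) (n : ℤ) :
    (pexp N (compUT F a b d h)).coeff n ∈ coeffRing N := by
  rcases lt_or_ge n 0 with hn | hn
  · rw [pexp_coeff_neg _ hn]; exact (coeffRing N).zero_mem
  · obtain ⟨m, rfl⟩ := Int.eq_ofNat_of_zero_le hn
    rw [pexp_compUT_coeff_eq F a b d h hadN]
    split_ifs
    · exact compCoeff_mem_of_intQ F a b d h hF hadN _
    · exact (coeffRing N).zero_mem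

/-- If `F = 1 + O(q)` is integral, the `t`-expansion of `F((az+b)/d)` is a unit power series. -/
theorem uls_compUT_of_intQ (hF : IntQ F) (hF0 : (qExpansion 1 F).coeff 0 = 1)
    (hadN : a * d ∣ N) :
    ULS (coeffRing N) (pexp N (compUT F a b d h)) 0 := by
  have hpos : 0 < a * d := ad_pos a d h
  have ha0 : a ≠ 0 := by rintro rfl; simp at hpos
  have ha2 : 0 < a ^ 2 := by positivity
  have hlead : (pexp N (compUT F a b d h)).coeff 0 = 1 := by
    have := pexp_compUT_coeff_eq F a b d h hadN 0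
    rw [Nat.cast_zero] at this
    rw [this, if_pos (dvd_zero _), Nat.zero_div]
    unfold Fermat.Agent.S23.H83.compCoeff
    rw [if_pos (dvd_zero _), Nat.zero_div, hF0]
    simp
  have hlead_ne : (pexp N (compUT F a b d h)).coeff 0 ≠ 0 := by
    rw [hlead]; exact one_ne_zero
  obtain ⟨hne, hord⟩ := order_eq_of_coeff hlead_ne (fun n hn => pexp_coeff_neg _ hn)
  refine ⟨pexp_compUT_coeff_mem F a b d h hF hadN, hne, hord, ?_⟩
  rw [HahnSeries.leadingCoeff_eq, hord, hlead, inv_one]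
  exact (coeffRing N).one_mem

end IntUT

/-! ### The slash constant -/

lemma zpow_mem_coeffRing {x : ℂ} (hx : x ∈ coeffRing N) (hx' : x⁻¹ ∈ coeffRing N) (n : ℤ) :
    x ^ n ∈ coeffRing N := by
  rcases Int.eq_nat_or_neg n with ⟨m, rfl | rfl⟩
  · rw [zpow_natCast]; exact (coeffRing N).pow_mem hx m
  · rw [zpow_neg, zpow_natCast, ← inv_pow]; exact (coeffRing N).pow_mem hx' m

lemma slashConst_mem {a d : ℕ} (hadN : a * d ∣ N) (k : ℤ) :
    ((a : ℂ) * (d : ℂ)) ^ (k - 1) * (d : ℂ) ^ (-k) ∈ coeffRing N ∧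
    (((a : ℂ) * (d : ℂ)) ^ (k - 1) * (d : ℂ) ^ (-k))⁻¹ ∈ coeffRing N := by
  have hdN : d ∣ N := dvd_trans (dvd_mul_left d a) hadN
  have h1 : ((a : ℂ) * (d : ℂ)) ∈ coeffRing N := by
    have := natCast_mem_coeffRing N (a * d)
    push_cast at this
    exact this
  have h1' : ((a : ℂ) * (d : ℂ))⁻¹ ∈ coeffRing N := by
    have := inv_natCast_mem_of_dvd N hadN
    push_cast at this
    exact this
  have h2 : (d : ℂ) ∈ coeffRing N := natCast_mem_coeffRing N d
  have h2' : ((d : ℂ))⁻¹ ∈ coeffRing N := inv_natCast_mem_of_dvd N hdN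
  refine ⟨(coeffRing N).mul_mem (zpow_mem_coeffRing N h1 h1' _) (zpow_mem_coeffRing N h2 h2' _), ?_⟩
  rw [mul_inv, ← zpow_neg, ← zpow_neg]
  exact (coeffRing N).mul_mem (zpow_mem_coeffRing N h1 h1' _) (zpow_mem_coeffRing N h2 h2' _)

/-! ### The conjugates of an integral level one form -/

theorem pexp_fam_coeff_mem {M : ℕ} (hM : M ∣ N) {k : ℤ} (F : ModularForm 𝒮ℒ k) (hF : IntQ F)
    (q : Q N) (n : ℤ) : (pexp N (fam N M F q)).coeff n ∈ coeffRing N := by
  obtain ⟨γ, rfl⟩ := exists_rep N q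
  obtain ⟨a, b, d, h, had, hgcd, heq⟩ := fam_eq_smul_compUT N hM F γ
  have hadN : a * d ∣ N := had ▸ hM
  rw [heq, pexp_smul _ (compUT_BPH F a b d h hadN), HahnSeries.C_mul_eq_smul,
    HahnSeries.coeff_smul, smul_eq_mul]
  exact (coeffRing N).mul_mem (slashConst_mem N hadN k).1
    (pexp_compUT_coeff_mem F a b d h hF hadN n)

theorem uls_fam_of_intQ {M : ℕ} (hM : M ∣ N) {k : ℤ} (F : ModularForm 𝒮ℒ k) (hF : IntQ F)
    (hF0 : (qExpansion 1 F).coeff 0 = 1) (q : Q N) :
    ULS (coeffRing N) (pexp N (fam N M F q)) 0 := by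
  obtain ⟨γ, rfl⟩ := exists_rep N q
  obtain ⟨a, b, d, h, had, hgcd, heq⟩ := fam_eq_smul_compUT N hM F γ
  have hadN : a * d ∣ N := had ▸ hM
  rw [heq, pexp_smul _ (compUT_BPH F a b d h hadN)]
  exact ULS.C_mul (slashConst_mem N hadN k).1 (slashConst_mem N hadN k).2
    (Fermat.Agent.S23.H83.slash_const_ne_zero a d h) (uls_compUT_of_intQ F a b d h hF hF0 hadN)

/-- **The conjugates of `j(dz)`**: coefficients in `ℤ[ζ_N, 1/N]`, unit leading coefficient,
order `-(gcd(c, d)² · N / d)`. -/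
theorem uls_Xfam {d : ℕ} (hd : d ∣ N) (γ : SL(2, ℤ)) :
    ULS (coeffRing N) (Fermat.Agent.S28.H76.Xfam N d (⟦toSL γ⟧ : Q N))
      (-((ordAt N d ((γ⁻¹ : SL(2, ℤ)) 1 0) : ℕ) : ℤ)) := by
  have h := (uls_fam_of_intQ N hd E12 intQ_E12 qExpansion_E12_coeff_zero (⟦toSL γ⟧ : Q N)).div
    (uls_fam_Delta N hd γ)
  rw [zero_sub] at h
  exact h

theorem Xfam_coeff_mem {d : ℕ} (hd : d ∣ N) (q : Q N) (n : ℤ) :
    (Fermat.Agent.S28.H76.Xfam N d q).coeff n ∈ coeffRing N := by
  obtain ⟨γ, rfl⟩ := exists_rep N q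
  exact (uls_Xfam N hd γ).coeffs n

/-- For `q ≠ q₀` the conjugate of `j(Nz)` has `t`-order `> -N²`. -/
theorem Xfam_order_gt (q : Q N) (hq : q ≠ q1) :
    -((N : ℤ) ^ 2) < (Fermat.Agent.S28.H76.Xfam N N q).order := by
  obtain ⟨γ, rfl⟩ := exists_rep N q
  rw [(uls_Xfam N dvd_rfl γ).ord, neg_lt_neg_iff]
  have hc := not_dvd_of_ne_q1 N hq
  set c := (γ⁻¹ : SL(2, ℤ)) 1 0 with hcdef
  have hNpos : 0 < N := Nat.pos_of_ne_zero (NeZero.ne N)
  have hgN : Int.gcd c (N : ℤ) ∣ N := by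
    have := Int.gcd_dvd_right c (N : ℤ)
    exact_mod_cast this
  have hlt : Int.gcd c (N : ℤ) < N := by
    refine lt_of_le_of_ne (Nat.le_of_dvd hNpos hgN) fun heq => hc ?_
    have := Int.gcd_dvd_left c (N : ℤ)
    rwa [heq] at this
  rw [ordAt, Nat.div_self hNpos, mul_one]
  have : (Int.gcd c (N : ℤ)) ^ 2 < N ^ 2 := Nat.pow_lt_pow_left hlt (by norm_num)
  exact_mod_cast this

theorem Xfam_coeff_neg_sq (q : Q N) (hq : q ≠ q1) :
    (Fermat.Agent.S28.H76.Xfam N N q).coeff (-((N : ℤ) ^ 2)) = 0 :=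
  HahnSeries.coeff_eq_zero_of_lt_order (Xfam_order_gt N q hq)

/-! ### The strengthened data -/

/-- The data for `N ≥ 2`, as a term. -/
def caDataEta (hN : 2 ≤ N) : CAData N where
  Q := Q N
  instFintype := inferInstance
  q₀ := q1
  D := Classical.choose (etaU_order_q1 N hN)
  D_pos := (Classical.choose_spec (etaU_order_q1 N hN)).1
  U := etaU N
  X := fun d q => Fermat.Agent.S28.H76.Xfam N d q
  U_coeff := fun q n => by
    obtain ⟨γ, rfl⟩ := exists_rep N q
    exact (uls_etaU N γ).coeffs n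
  U_ne := fun q => by
    obtain ⟨γ, rfl⟩ := exists_rep N q
    exact (uls_etaU N γ).ne
  U_lead := fun q => by
    obtain ⟨γ, rfl⟩ := exists_rep N q
    exact (uls_etaU N γ).lead
  U_order₀ := (Classical.choose_spec (etaU_order_q1 N hN)).2
  U_order_pos := fun q hq => etaU_order_pos N q hq
  X_q₀ := fun d _ hd => Fermat.Agent.S28.H76.Xfam_q1 N hd
  sym := fun d hd c s =>
    sym_of_stmt (mp := etaP N) (mm := etaMm N) Fermat.Agent.S28.H76.stmt_sym
      (etaM_dvd N) (eta_weight N) hd c s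

/-- **Strengthened WP-F** (for the reduction of `J₀(N)`): the data can be chosen with
(a) all conjugates of `j(dz)`, `d ∣ N`, having coefficients in `ℤ[ζ_N, 1/N]`, and
(b) the conjugates of `j(Nz)` at `q ≠ q₀` having `t`-order `> -N²`. -/
theorem exists_caData_strong (N : ℕ) [NeZero N] : ∃ D : CAData N,
    (∀ (d : ℕ) (q : D.Q) (n : ℤ), d ∣ N → (D.X d q).coeff n ∈ coeffRing N) ∧
    (∀ q : D.Q, q ≠ D.q₀ → (D.X N q).coeff (-((N : ℤ) ^ 2)) = 0) := by
  rcases Nat.lt_or_ge N 2 with h | h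
  · have hN0 : N ≠ 0 := NeZero.ne N
    have h1 : N = 1 := by omega
    subst h1
    refine ⟨Fermat.Agent.S28.H10.caDataOne, fun d q n hd => ?_, fun q hq => ?_⟩
    · exact iotaN_jq_coeffsIn 1 (coeffRing 1) n
    · exact absurd (Subsingleton.elim (α := Unit) q ()) hq
  · exact ⟨caDataEta N h, fun d q n hd => Xfam_coeff_mem N hd q n,
      fun q hq => Xfam_coeff_neg_sq N q hq⟩

end Fermat.Agent.S28.H30
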