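import Fermat.Agent.S28.Defs
import Mathlib.NumberTheory.ModularForms.QExpansion
import Mathlib.NumberTheory.ModularForms.LevelOne.Basic

/-!
# S28, WP-F (complex analysis): shared interface between helper30 (conjugates, orders,
leading units) and helper76 (symmetric functions, level one structure, bridge).

`pexp N f` is the `t`-expansion (`t = e^{2πiz/N}`) of a bounded holomorphic `N`-periodic
function, as a Laurent series.  `Stmt_Sym` is the abstract symmetric-function statement:
for slash-equivariant families `a, b` of the same weight (holomorphic, bounded, `N`-periodic,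
`b` nowhere zero) the product `∏_q pexp(a q) / pexp(b q)` is a polynomial in `J = j(t^N)`.
-/

set_option autoImplicit false

open UpperHalfPlane ModularForm ModularCurve
open scoped MatrixGroups ModularForm Manifold

noncomputable section

namespace Fermat.Agent.S28.H30

/-- The `t`-expansion, `t = e^{2πiz/N}`, as a Laurent series. -/
def pexp (N : ℕ) (f : ℍ → ℂ) : LaurentSeries ℂ :=
  HahnSeries.ofPowerSeries ℤ ℂ (qExpansion (N : ℝ) f)

/-- **F-sym (abstract form, owner helper76).** -/
def Stmt_Sym : Prop :=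
  ∀ (N : ℕ) [NeZero N] (Q : Type) [Fintype Q] (π : SL(2, ℤ) → Equiv.Perm Q) (k : ℤ)
    (a b : Q → ℍ → ℂ),
    (∀ γ q, a q ∣[k] γ = a (π γ q)) → (∀ γ q, b q ∣[k] γ = b (π γ q)) →
    (∀ q, MDiff (a q)) → (∀ q, MDiff (b q)) →
    (∀ q, IsBoundedAtImInfty (a q)) → (∀ q, IsBoundedAtImInfty (b q)) →
    (∀ q, Function.Periodic (a q ∘ UpperHalfPlane.ofComplex) (N : ℂ)) →
    (∀ q, Function.Periodic (b q ∘ UpperHalfPlane.ofComplex) (N : ℂ)) →
    (∀ q z, b q z ≠ 0) →
    (∏ q, pexp N (a q) / pexp N (b q)) ∈
      Algebra.adjoin ℂ ({iotaN N jq} : Set (LaurentSeries ℂ))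

end Fermat.Agent.S28.H30
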