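import Mathlib.NumberTheory.ModularForms.LevelOne.DimensionFormula
import Mathlib.NumberTheory.ModularForms.LevelOne.Basic
import Fermat.Agent.S23.H22_SymPoly
import Fermat.Agent.S23.H77_Upper
import Fermat.Agent.S24.JAnDef

/-!
# S28, WP-F (LP): level one functions of weight zero are polynomials in `j`
(helper76)

`exists_poly_j`: a holomorphic `SL(2,ℤ)`-invariant function `F` on the upper half plane such that
`Δ ^ m * F` is bounded at `i∞` is of the form `p(j)` for a polynomial `p` of degree `≤ m`.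
-/

set_option autoImplicit false

open UpperHalfPlane ModularForm Polynomial Filter
open scoped MatrixGroups ModularForm Manifold Topology

noncomputable section

namespace Fermat.Agent.S28.H76

open Fermat.Agent.S24 (jAn)

local notation "Δ" => ModularForm.discriminant

lemma jAn_eq (z : ℍ) : jAn z = E₄ z ^ 3 / Δ z := rfl

lemma E4_smul (γ : SL(2, ℤ)) (z : ℍ) : E₄ (γ • z) = denom γ z ^ (4 : ℤ) * E₄ z := by
  have hγ : (γ : GL (Fin 2) ℝ) ∈ 𝒮ℒ := ⟨γ, rfl⟩
  exact SlashInvariantForm.slash_action_eqn'' E₄ hγ z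

lemma disc_smul (γ : SL(2, ℤ)) (z : ℍ) : Δ (γ • z) = denom γ z ^ (12 : ℤ) * Δ z := by
  have hγ : (γ : GL (Fin 2) ℝ) ∈ 𝒮ℒ := ⟨γ, rfl⟩
  exact SlashInvariantForm.slash_action_eqn'' CuspForm.discriminant hγ z

lemma jAn_smul' (γ : SL(2, ℤ)) (z : ℍ) : jAn (γ • z) = jAn z := by
  rw [jAn_eq, jAn_eq, E4_smul, disc_smul]
  have hd : (denom γ z) ≠ 0 := denom_ne_zero _ _
  have hΔ : Δ z ≠ 0 := ModularForm.discriminant_ne_zero z
  have h12 : denom γ z ^ (12 : ℤ) = (denom γ z ^ (4 : ℤ)) ^ 3 := by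
    rw [← zpow_natCast, ← zpow_mul]; norm_num
  rw [h12, mul_pow]
  have h4 : (denom γ z ^ (4 : ℤ)) ^ 3 ≠ 0 := pow_ne_zero _ (zpow_ne_zero _ hd)
  field_simp

lemma mdiff_disc : MDiff (Δ : ℍ → ℂ) := CuspForm.discriminant.holo'

lemma mdiff_jAn : MDiff (jAn : ℍ → ℂ) := by
  have h1 : MDiff (fun z : ℍ => E₄ z ^ 3) := (ModularFormClass.holo E₄).pow 3
  rw [UpperHalfPlane.mdifferentiable_iff] at h1 ⊢
  have h2 := UpperHalfPlane.mdifferentiable_iff.mp mdiff_disc
  have : (jAn ∘ ofComplex) = fun w => ((fun z : ℍ => E₄ z ^ 3) ∘ ofComplex) w /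
      ((Δ : ℍ → ℂ) ∘ ofComplex) w := by
    ext w; simp [jAn_eq]
  rw [this]
  exact h1.div h2 fun w _ => ModularForm.discriminant_ne_zero _

lemma jAn_mul_disc (z : ℍ) : jAn z * Δ z = E₄ z ^ 3 := by
  rw [jAn_eq, div_mul_cancel₀ _ (ModularForm.discriminant_ne_zero z)]

/-- Invariant functions times `Δ ^ m` are slash invariant of weight `12 m`. -/
lemma slash_disc_pow_mul (m : ℕ) (F : ℍ → ℂ) (hF : ∀ (γ : SL(2, ℤ)) (z : ℍ), F (γ • z) = F z)
    (γ : SL(2, ℤ)) :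
    (fun z => Δ z ^ m * F z) ∣[(12 * m : ℤ)] γ = fun z => Δ z ^ m * F z := by
  ext z
  rw [SL_slash_apply, hF, disc_smul]
  have hd : (denom γ z) ≠ 0 := denom_ne_zero _ _
  rw [mul_pow, ← zpow_natCast (denom γ z ^ (12 : ℤ)), ← zpow_mul]
  have : denom γ z ^ ((12 : ℤ) * (m : ℤ)) * denom γ z ^ (-(12 * (m : ℤ))) = 1 := by
    rw [← zpow_add₀ hd]; simp
  calc denom γ z ^ ((12 : ℤ) * (m : ℤ)) * Δ z ^ m * F z * denom γ z ^ (-(12 * (m : ℤ)))
      = (denom γ z ^ ((12 : ℤ) * (m : ℤ)) * denom γ z ^ (-(12 * (m : ℤ)))) * (Δ z ^ m * F z) := by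
        ring
    _ = Δ z ^ m * F z := by rw [this, one_mul]

/-- **(LP)** A holomorphic `SL(2,ℤ)`-invariant function with at most a pole of order `m` at `i∞`
is a polynomial of degree `≤ m` in `j`. -/
theorem exists_poly_j : ∀ (m : ℕ) (F : ℍ → ℂ), MDiff F →
    (∀ (γ : SL(2, ℤ)) (z : ℍ), F (γ • z) = F z) →
    IsBoundedAtImInfty (fun z => Δ z ^ m * F z) →
    ∃ p : ℂ[X], p.natDegree ≤ m ∧ ∀ z, F z = p.eval (jAn z) := by
  intro m
  induction m with
  | zero =>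
    intro F hol hinv hb
    have hb' : IsBoundedAtImInfty F := by simpa using hb
    have hinv' : ∀ γ : SL(2, ℤ), F ∣[(0 : ℤ)] γ = F := by
      intro γ
      have := slash_disc_pow_mul 0 F hinv γ
      simpa using this
    obtain ⟨c, hc⟩ := ModularFormClass.levelOne_weight_zero_const (Fermat.Agent.S23.H22.mkLevelOne 0 F hinv' hol hb')
    refine ⟨C c, by simp, fun z => ?_⟩
    have := congrFun hc z
    simpa using this
  | succ m ih =>
    intro F hol hinv hb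
    -- the modular form `H = Δ^(m+1) F`
    have hHinv : ∀ γ : SL(2, ℤ),
        (fun z => Δ z ^ (m + 1) * F z) ∣[(12 * ((m + 1 : ℕ) : ℤ))] γ =
          fun z => Δ z ^ (m + 1) * F z := fun γ => slash_disc_pow_mul (m + 1) F hinv γ
    have hHol : MDiff (fun z => Δ z ^ (m + 1) * F z) := (mdiff_disc.pow (m + 1)).mul hol
    set H := Fermat.Agent.S23.H22.mkLevelOne (12 * ((m + 1 : ℕ) : ℤ)) _ hHinv hHol hb with hH
    set c : ℂ := (qExpansion 1 H).coeff 0 with hc
    have hHlim : Tendsto (fun z : ℍ => H z) atImInfty (𝓝 c) :=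
      Fermat.Agent.S23.H77.tendsto_levelOne_atImInfty H
    -- `F₁ = F - c j^(m+1)`
    set F₁ : ℍ → ℂ := fun z => F z - c * jAn z ^ (m + 1) with hF₁
    have hol₁ : MDiff F₁ := hol.sub ((mdifferentiable_const (c := c)).mul (mdiff_jAn.pow (m + 1)))
    have hinv₁ : ∀ (γ : SL(2, ℤ)) (z : ℍ), F₁ (γ • z) = F₁ z := by
      intro γ z
      simp only [hF₁, hinv γ z, jAn_smul' γ z]
    have hkey : ∀ z, Δ z ^ (m + 1) * F₁ z = H z - c * (E₄ z ^ 3) ^ (m + 1) := by
      intro z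
      have h1 : H z = Δ z ^ (m + 1) * F z := rfl
      rw [h1, hF₁, ← jAn_mul_disc z, mul_pow]
      ring
    have hzero : IsZeroAtImInfty (fun z => Δ z ^ (m + 1) * F₁ z) := by
      have h1 : Tendsto (fun z : ℍ => H z - c * (E₄ z ^ 3) ^ (m + 1)) atImInfty (𝓝 (c - c * (1 ^ 3) ^ (m + 1))) :=
        hHlim.sub (((Fermat.Agent.S23.H77.tendsto_E₄_atImInfty.pow 3).pow (m + 1)).const_mul c)
      have h2 : c - c * (1 ^ 3) ^ (m + 1) = 0 := by simp
      rw [h2] at h1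
      exact h1.congr fun z => (hkey z).symm
    have hinv₁' : ∀ γ : SL(2, ℤ),
        (fun z => Δ z ^ (m + 1) * F₁ z) ∣[(12 * ((m + 1 : ℕ) : ℤ))] γ =
          fun z => Δ z ^ (m + 1) * F₁ z := fun γ => slash_disc_pow_mul (m + 1) F₁ hinv₁ γ
    set f := Fermat.Agent.S23.H22.mkLevelOneCusp (12 * ((m + 1 : ℕ) : ℤ)) _ hinv₁'
      ((mdiff_disc.pow (m + 1)).mul hol₁) hzero with hf
    have hO := CuspForm.exp_decay_isBigO_discriminant f
    have hb₁ : IsBoundedAtImInfty (fun z => Δ z ^ m * F₁ z) := by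
      rw [IsBoundedAtImInfty, BoundedAtFilter]
      rw [Asymptotics.isBigO_iff] at hO ⊢
      obtain ⟨K, hK⟩ := hO
      refine ⟨K, hK.mono fun z hz => ?_⟩
      have hfz : f z = Δ z ^ (m + 1) * F₁ z := rfl
      have hΔ : Δ z ≠ 0 := ModularForm.discriminant_ne_zero z
      have hn : 0 < ‖Δ z‖ := norm_pos_iff.mpr hΔ
      rw [hfz, pow_succ, mul_assoc, mul_comm (Δ z), ← mul_assoc, norm_mul] at hz
      have := le_of_mul_le_mul_right hz hn
      simpa using this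
    obtain ⟨p₁, hp₁, hp₁'⟩ := ih F₁ hol₁ hinv₁ hb₁
    refine ⟨p₁ + C c * X ^ (m + 1), ?_, fun z => ?_⟩
    · refine (natDegree_add_le _ _).trans (max_le (hp₁.trans (Nat.le_succ m)) ?_)
      exact (natDegree_C_mul_le _ _).trans (natDegree_X_pow_le _)
    · have := hp₁' z
      simp only [hF₁] at this
      simp only [eval_add, eval_mul, eval_C, eval_pow, eval_X, ← this]
      ring

end Fermat.Agent.S28.H76
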