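import Mathlib.NumberTheory.ModularForms.LevelOne.DimensionFormula
import Fermat.Agent.S23.H22_Nice
import Fermat.Agent.S23.H22_SymPoly
import Fermat.Agent.S23.H77_Upper
import Fermat.Agent.S28.H76_LevelOnePoly
import Fermat.Prelude.Thm_UpperHalfPlane_qExpansion_prod
import Mathlib.RingTheory.LaurentSeries

/-!
# S28, WP-F (F-sym, core): products over an equivariant family are polynomials in `j`
(helper76)

For `SL(2,ℤ)`-equivariant families `a, b : Q → ℍ → ℂ` of the same weight (holomorphic, bounded at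
`i∞`, `N`-periodic, `b` nowhere zero), the quotient `∏ a q / ∏ b q` is a polynomial in `j`, and the
corresponding identity holds for the expansions in `t = e^{2πiz/N}`.
-/

set_option autoImplicit false

open UpperHalfPlane ModularForm Polynomial Filter Function
open scoped MatrixGroups ModularForm Manifold Topology

noncomputable section

namespace Fermat.Agent.S28.H76

open Fermat.Agent.S24 (jAn)
open Fermat.Agent.S23.H22 (Nice)

local notation "Δ" => ModularForm.discriminant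
local notation "𝕢" => Periodic.qParam

/-- A nowhere vanishing nice function is bounded below by a power of `q` near `i∞`. -/
lemma exists_pow_le_norm (B : ℍ → ℂ) (hB : Nice 1 B) (hB0 : ∀ z, B z ≠ 0) :
    ∃ (m : ℕ) (c : ℝ), 0 < c ∧ ∀ᶠ z : ℍ in atImInfty, c * ‖𝕢 1 z‖ ^ m ≤ ‖B z‖ := by
  have han := hB.analyticAt one_pos
  have hq : ∀ z : ℍ, cuspFunction 1 B (𝕢 1 z) = B z :=
    fun z => eq_cuspFunction z one_ne_zero hB.per
  have htend := qParam_tendsto_atImInfty (h := 1) one_pos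
  have hne : ¬ ∀ᶠ w in 𝓝 (0 : ℂ), cuspFunction 1 B w = 0 := by
    intro h
    have h2 := htend.eventually h
    obtain ⟨z, hz⟩ := h2.exists
    rw [hq z] at hz
    exact hB0 z hz
  obtain ⟨n, g, hg, hg0, hfg⟩ := (han.exists_eventuallyEq_pow_smul_nonzero_iff).mpr hne
  have hgc : ∀ᶠ w in 𝓝 (0 : ℂ), ‖g 0‖ / 2 < ‖g w‖ := by
    have : Tendsto (fun w => ‖g w‖) (𝓝 0) (𝓝 ‖g 0‖) := hg.continuousAt.norm
    exact this.eventually (lt_mem_nhds (half_lt_self (norm_pos_iff.mpr hg0)))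
  refine ⟨n, ‖g 0‖ / 2, half_pos (norm_pos_iff.mpr hg0), ?_⟩
  filter_upwards [htend.eventually hfg, htend.eventually hgc] with z h1 h2
  rw [← hq z, h1, sub_zero, smul_eq_mul, norm_mul, norm_pow, mul_comm]
  exact mul_le_mul_of_nonneg_left h2.le (pow_nonneg (norm_nonneg _) _)

/-- `Δ = O(q)` at `i∞`. -/
lemma exists_norm_disc_le : ∃ C : ℝ, 0 < C ∧ ∀ᶠ z : ℍ in atImInfty, ‖Δ z‖ ≤ C * ‖𝕢 1 z‖ := by
  have h := CuspFormClass.exp_decay_atImInfty (h := 1) CuspForm.discriminant one_pos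
    one_mem_strictPeriods_SL
  rw [Asymptotics.isBigO_iff'] at h
  obtain ⟨C, hC, h⟩ := h
  refine ⟨C, hC, h.mono fun z hz => ?_⟩
  have e : ‖𝕢 1 (z : ℂ)‖ = Real.exp (-2 * Real.pi * z.im / 1) := by
    rw [Periodic.norm_qParam]; rfl
  rw [e]
  simpa [abs_of_pos (Real.exp_pos _)] using hz


section Family

variable {Q : Type} [Fintype Q] (π : SL(2, ℤ) → Equiv.Perm Q) (k : ℤ)

/-- The product of an equivariant family transforms with weight `k * card Q`. -/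
lemma prod_family_smul (a : Q → ℍ → ℂ) (ha : ∀ γ q, a q ∣[k] γ = a (π γ q)) (γ : SL(2, ℤ))
    (z : ℍ) : ∏ q, a q (γ • z) = (∏ q, a q z) * (denom γ z ^ k) ^ Fintype.card Q := by
  have h1 : ∀ q, a q (γ • z) = a (π γ q) z * denom γ z ^ k := fun q =>
    Fermat.Agent.S23.H22.apply_smul_of_slash (ha γ q) z
  simp_rw [h1]
  rw [Finset.prod_mul_distrib, Finset.prod_const, Finset.card_univ,
    Equiv.prod_comp (π γ) (fun q => a q z)]

lemma prod_family_slash (a : Q → ℍ → ℂ) (ha : ∀ γ q, a q ∣[k] γ = a (π γ q)) (γ : SL(2, ℤ)) :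
    (fun z => ∏ q, a q z) ∣[k * (Fintype.card Q : ℤ)] γ = fun z => ∏ q, a q z := by
  ext z
  rw [SL_slash_apply, prod_family_smul π k a ha γ z]
  have hd : (denom γ z) ≠ 0 := denom_ne_zero _ _
  rw [← zpow_natCast (denom γ z ^ k), ← zpow_mul, mul_assoc, ← zpow_add₀ hd]
  simp

/-- The product of a bounded holomorphic equivariant family, as a level one modular form. -/
def prodForm (a : Q → ℍ → ℂ) (ha : ∀ γ q, a q ∣[k] γ = a (π γ q)) (hah : ∀ q, MDiff (a q))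
    (hab : ∀ q, IsBoundedAtImInfty (a q)) : ModularForm 𝒮ℒ (k * (Fintype.card Q : ℤ)) :=
  Fermat.Agent.S23.H22.mkLevelOne _ (fun z => ∏ q, a q z) (prod_family_slash π k a ha)
    (by
      have : (fun z => ∏ q, a q z) = ∏ q, a q := by ext z; simp
      rw [this]
      exact MDifferentiable.prod (fun q _ => hah q))
    (by
      have : (fun z => ∏ q, a q z) = ∏ q, a q := by ext z; simp
      rw [this]
      exact BoundedAtFilter.prod (s := Finset.univ) (fun q _ => hab q))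

end Family

section Main

variable {Q : Type} [Fintype Q] (π : SL(2, ℤ) → Equiv.Perm Q) (k : ℤ)

/-- **F-sym, function version.** The quotient of the products of two equivariant families is a
polynomial in `j`. -/
theorem exists_poly_family (a b : Q → ℍ → ℂ)
    (ha : ∀ γ q, a q ∣[k] γ = a (π γ q)) (hb : ∀ γ q, b q ∣[k] γ = b (π γ q))
    (hah : ∀ q, MDiff (a q)) (hbh : ∀ q, MDiff (b q))
    (hab : ∀ q, IsBoundedAtImInfty (a q)) (hbb : ∀ q, IsBoundedAtImInfty (b q))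
    (hb0 : ∀ q z, b q z ≠ 0) :
    ∃ (m : ℕ) (p : ℂ[X]), p.natDegree ≤ m ∧
      ∀ z, (∏ q, a q z) = p.eval (jAn z) * ∏ q, b q z := by
  set A := prodForm π k a ha hah hab with hA
  set B := prodForm π k b hb hbh hbb with hB
  have hAz : ∀ z, A z = ∏ q, a q z := fun z => rfl
  have hBz : ∀ z, B z = ∏ q, b q z := fun z => rfl
  have hB0 : ∀ z, B z ≠ 0 := fun z => by
    rw [hBz]; exact Finset.prod_ne_zero_iff.mpr fun q _ => hb0 q z
  set P : ℍ → ℂ := fun z => A z / B z with hP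
  have hPhol : MDiff P := by
    have h1 := UpperHalfPlane.mdifferentiable_iff.mp (ModularFormClass.holo A)
    have h2 := UpperHalfPlane.mdifferentiable_iff.mp (ModularFormClass.holo B)
    rw [UpperHalfPlane.mdifferentiable_iff]
    have : (P ∘ ofComplex) =
        fun w => ((A : ℍ → ℂ) ∘ ofComplex) w / ((B : ℍ → ℂ) ∘ ofComplex) w := by
      ext w; simp [hP]
    rw [this]
    exact h1.div h2 fun w _ => hB0 _
  have hPinv : ∀ (γ : SL(2, ℤ)) (z : ℍ), P (γ • z) = P z := by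
    intro γ z
    simp only [hP, hAz, hBz]
    rw [prod_family_smul π k a ha γ z, prod_family_smul π k b hb γ z]
    have hd : (denom γ z ^ k) ^ Fintype.card Q ≠ 0 :=
      pow_ne_zero _ (zpow_ne_zero _ (denom_ne_zero _ _))
    have hbz : (∏ q, b q z) ≠ 0 := Finset.prod_ne_zero_iff.mpr fun q _ => hb0 q z
    field_simp
  obtain ⟨m, c, hc, hlow⟩ := exists_pow_le_norm B (Fermat.Agent.S23.H22.nice_levelOne B) hB0
  obtain ⟨C, hC, hup⟩ := exists_norm_disc_le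
  have hAb : IsBoundedAtImInfty (A : ℍ → ℂ) := (Fermat.Agent.S23.H22.nice_levelOne A).bdd
  have hPb : IsBoundedAtImInfty (fun z => Δ z ^ m * P z) := by
    rw [IsBoundedAtImInfty, BoundedAtFilter, Asymptotics.isBigO_iff] at hAb ⊢
    obtain ⟨M, hM⟩ := hAb
    refine ⟨C ^ m * M / c, ?_⟩
    filter_upwards [hlow, hup, hM] with z h1 h2 h3
    simp only [Pi.one_apply, norm_one, mul_one] at h3 ⊢
    have hq : 0 < ‖𝕢 1 (z : ℂ)‖ := norm_pos_iff.mpr (Periodic.qParam_ne_zero _)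
    have hqm : 0 < ‖𝕢 1 (z : ℂ)‖ ^ m := pow_pos hq m
    have hBpos : 0 < ‖B z‖ := norm_pos_iff.mpr (hB0 z)
    have hM0 : 0 ≤ M := (norm_nonneg _).trans h3
    rw [hP, norm_mul, norm_div, norm_pow]
    have e1 : ‖Δ z‖ ^ m ≤ C ^ m * ‖𝕢 1 (z : ℂ)‖ ^ m := by
      rw [← mul_pow]; exact pow_le_pow_left₀ (norm_nonneg _) h2 m
    have e2 : ‖A z‖ / ‖B z‖ ≤ M / (c * ‖𝕢 1 (z : ℂ)‖ ^ m) :=
      div_le_div₀ hM0 h3 (mul_pos hc hqm) h1
    calc ‖Δ z‖ ^ m * (‖A z‖ / ‖B z‖)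
        ≤ (C ^ m * ‖𝕢 1 (z : ℂ)‖ ^ m) * (M / (c * ‖𝕢 1 (z : ℂ)‖ ^ m)) :=
          mul_le_mul e1 e2 (div_nonneg (norm_nonneg _) (norm_nonneg _))
            (mul_nonneg (pow_nonneg hC.le m) hqm.le)
      _ = C ^ m * M / c := by field_simp
  obtain ⟨p, hp, hpe⟩ := exists_poly_j m P hPhol hPinv hPb
  refine ⟨m, p, hp, fun z => ?_⟩
  rw [← hpe z, hP, ← hAz, ← hBz]
  have := hB0 z
  field_simp

end Main

section Series

variable {Q : Type} [Fintype Q] (π : SL(2, ℤ) → Equiv.Perm Q) (k : ℤ)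

local notation "ofPS" => HahnSeries.ofPowerSeries ℤ ℂ

lemma natCast_mem_strictPeriods_SL (N : ℕ) : (N : ℝ) ∈ (𝒮ℒ).strictPeriods := by
  simp only [Subgroup.strictPeriods_SL2Z]
  exact ⟨N, by simp⟩

lemma nice_E4 (N : ℕ) [NeZero N] : Nice (N : ℝ) (E₄ : ℍ → ℂ) :=
  Fermat.Agent.S23.H22.nice_of_modularForm E₄ (Nat.cast_pos.mpr (NeZero.pos N))
    (natCast_mem_strictPeriods_SL N)

lemma nice_disc (N : ℕ) [NeZero N] : Nice (N : ℝ) (Δ : ℍ → ℂ) :=
  Fermat.Agent.S23.H22.nice_of_modularForm CuspForm.discriminant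
    (Nat.cast_pos.mpr (NeZero.pos N)) (natCast_mem_strictPeriods_SL N)

lemma ofPS_qExpansion_ne_zero {h : ℝ} (hh : 0 < h) {F : ℍ → ℂ} (hF : Nice h F) (z : ℍ)
    (hz : F z ≠ 0) : ofPS (qExpansion h F) ≠ 0 := by
  intro h0
  have h1 : qExpansion h F = 0 := by
    apply HahnSeries.ofPowerSeries_injective (Γ := ℤ) (R := ℂ)
    rw [h0, map_zero]
  have := hF.eq_zero_of_qExpansion_eq_zero hh h1
  exact hz (by rw [this]; rfl)

/-- **F-sym, series version** (with `J = E₄³/Δ` expanded in `t`). -/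
theorem sym_series (N : ℕ) [NeZero N] (a b : Q → ℍ → ℂ)
    (ha : ∀ γ q, a q ∣[k] γ = a (π γ q)) (hb : ∀ γ q, b q ∣[k] γ = b (π γ q))
    (hah : ∀ q, MDiff (a q)) (hbh : ∀ q, MDiff (b q))
    (hab : ∀ q, IsBoundedAtImInfty (a q)) (hbb : ∀ q, IsBoundedAtImInfty (b q))
    (hap : ∀ q, Function.Periodic (a q ∘ UpperHalfPlane.ofComplex) (N : ℂ))
    (hbp : ∀ q, Function.Periodic (b q ∘ UpperHalfPlane.ofComplex) (N : ℂ))
    (hb0 : ∀ q z, b q z ≠ 0) :
    ∃ p : ℂ[X], (∏ q, ofPS (qExpansion (N : ℝ) (a q)) / ofPS (qExpansion (N : ℝ) (b q))) =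
      p.eval₂ HahnSeries.C (ofPS (qExpansion (N : ℝ) E₄) ^ 3 / ofPS (qExpansion (N : ℝ) Δ)) := by
  obtain ⟨m, p, hp, hpe⟩ := exists_poly_family π k a b ha hb hah hbh hab hbb hb0
  refine ⟨p, ?_⟩
  have hN : (0 : ℝ) < N := Nat.cast_pos.mpr (NeZero.pos N)
  have na : ∀ q, Nice (N : ℝ) (a q) := fun q =>
    ⟨by simpa using hap q, hah q, hab q⟩
  have nb : ∀ q, Nice (N : ℝ) (b q) := fun q =>
    ⟨by simpa using hbp q, hbh q, hbb q⟩
  have nA : Nice (N : ℝ) (∏ q, a q) := Nice.prod Finset.univ fun q _ => na q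
  have nB : Nice (N : ℝ) (∏ q, b q) := Nice.prod Finset.univ fun q _ => nb q
  have nE := nice_E4 N
  have nD := nice_disc N
  -- the numerator `R = Δ^m p(j)`
  set R : ℍ → ℂ := ∑ i ∈ Finset.range (m + 1),
    p.coeff i • ((E₄ : ℍ → ℂ) ^ (3 * i) * (Δ : ℍ → ℂ) ^ (m - i)) with hR
  have nRi : ∀ i ∈ Finset.range (m + 1),
      Nice (N : ℝ) (p.coeff i • ((E₄ : ℍ → ℂ) ^ (3 * i) * (Δ : ℍ → ℂ) ^ (m - i))) :=
    fun i _ => ((nE.pow (3 * i)).mul (nD.pow (m - i))).smul (p.coeff i)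
  have nR : Nice (N : ℝ) R := Nice.sum _ nRi
  have hfun : (Δ : ℍ → ℂ) ^ m * ∏ q, a q = R * ∏ q, b q := by
    ext z
    simp only [Pi.mul_apply, Pi.pow_apply, Finset.prod_apply, hR, Finset.sum_apply,
      Pi.smul_apply, smul_eq_mul]
    rw [hpe z, eval_eq_sum_range' (Nat.lt_succ_of_le hp), ← mul_assoc, Finset.mul_sum]
    congr 1
    refine Finset.sum_congr rfl fun i hi => ?_
    have hi' : i ≤ m := Nat.lt_succ_iff.mp (Finset.mem_range.mp hi)
    have e : Δ z ^ m = Δ z ^ (m - i) * Δ z ^ i := by rw [← pow_add, Nat.sub_add_cancel hi']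
    rw [e, pow_mul, ← jAn_mul_disc z, mul_pow]
    ring
  have hser : qExpansion (N : ℝ) (Δ : ℍ → ℂ) ^ m * qExpansion (N : ℝ) (∏ q, a q) =
      (∑ i ∈ Finset.range (m + 1), p.coeff i • (qExpansion (N : ℝ) (E₄ : ℍ → ℂ) ^ (3 * i) *
        qExpansion (N : ℝ) (Δ : ℍ → ℂ) ^ (m - i))) * qExpansion (N : ℝ) (∏ q, b q) := by
    rw [← Nice.qExpansion_pow hN nD, ← Nice.qExpansion_mul hN (nD.pow m) nA, hfun,
      Nice.qExpansion_mul hN nR nB, hR, Nice.qExpansion_sum hN _ nRi]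
    congr 1
    refine Finset.sum_congr rfl fun i _ => ?_
    rw [Nice.qExpansion_smul hN ((nE.pow (3 * i)).mul (nD.pow (m - i))),
      Nice.qExpansion_mul hN (nE.pow (3 * i)) (nD.pow (m - i)), Nice.qExpansion_pow hN nE,
      Nice.qExpansion_pow hN nD]
  -- transfer to Laurent series
  set 𝒟 := ofPS (qExpansion (N : ℝ) (Δ : ℍ → ℂ)) with h𝒟
  set ℰ := ofPS (qExpansion (N : ℝ) (E₄ : ℍ → ℂ)) with hℰ
  set 𝒜 := ofPS (qExpansion (N : ℝ) (∏ q, a q)) with h𝒜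
  set ℬ := ofPS (qExpansion (N : ℝ) (∏ q, b q)) with hℬ
  have z0 : ℍ := UpperHalfPlane.I
  have h𝒟0 : 𝒟 ≠ 0 := ofPS_qExpansion_ne_zero hN nD z0 (ModularForm.discriminant_ne_zero z0)
  have hℬ0 : ℬ ≠ 0 := ofPS_qExpansion_ne_zero hN nB z0 (by
    rw [Finset.prod_apply]; exact Finset.prod_ne_zero_iff.mpr fun q _ => hb0 q z0)
  have hL : 𝒟 ^ m * 𝒜 = (∑ i ∈ Finset.range (m + 1),
      HahnSeries.C (p.coeff i) * (ℰ ^ (3 * i) * 𝒟 ^ (m - i))) * ℬ := by
    have := congrArg (fun x => ofPS x) hser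
    simp only [map_mul, map_pow, map_sum] at this
    rw [this]
    congr 1
    refine Finset.sum_congr rfl fun i _ => ?_
    rw [Algebra.smul_def, map_mul, map_mul, map_pow, map_pow]
    congr 1
    rw [← HahnSeries.ofPowerSeries_C]; rfl
  have hlhs : (∏ q, ofPS (qExpansion (N : ℝ) (a q)) / ofPS (qExpansion (N : ℝ) (b q))) = 𝒜 / ℬ := by
    rw [Finset.prod_div_distrib, h𝒜, hℬ,
      UpperHalfPlane.qExpansion_prod Finset.univ (fun q _ => (na q).analyticAt hN),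
      UpperHalfPlane.qExpansion_prod Finset.univ (fun q _ => (nb q).analyticAt hN),
      map_prod, map_prod]
  rw [hlhs, eval₂_eq_sum_range' _ (Nat.lt_succ_of_le hp), div_eq_iff hℬ0, Finset.sum_mul]
  have h2 : 𝒜 = (∑ i ∈ Finset.range (m + 1),
      HahnSeries.C (p.coeff i) * (ℰ ^ (3 * i) * 𝒟 ^ (m - i))) * ℬ / 𝒟 ^ m := by
    rw [eq_div_iff (pow_ne_zero m h𝒟0), mul_comm, hL]
  rw [h2, Finset.sum_mul, Finset.sum_div]
  refine Finset.sum_congr rfl fun i hi => ?_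
  have hi' : i ≤ m := Nat.lt_succ_iff.mp (Finset.mem_range.mp hi)
  have e : 𝒟 ^ m = 𝒟 ^ (m - i) * 𝒟 ^ i := by rw [← pow_add, Nat.sub_add_cancel hi']
  rw [e, div_pow, pow_mul]
  have h1 : 𝒟 ^ (m - i) ≠ 0 := pow_ne_zero _ h𝒟0
  have h3 : 𝒟 ^ i ≠ 0 := pow_ne_zero _ h𝒟0
  field_simp

end Series

end Fermat.Agent.S28.H76
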