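import Fermat.Agent.S28.Defs
import Fermat.Agent.S28.H30_CAIface
import Fermat.Agent.S28.H76_SymCore
import Fermat.Agent.S28.H76_Bridge

/-!
# S28, WP-F (F-sym): proof of `H30.Stmt_Sym`
(helper76)
-/

set_option autoImplicit false

open UpperHalfPlane ModularForm ModularCurve
open scoped MatrixGroups ModularForm Manifold

noncomputable section

namespace Fermat.Agent.S28.H76

/-- The structure map of `ℂ((t))` over `ℂ` is `HahnSeries.C`. -/
theorem algebraMap_laurent_eq_C (c : ℂ) :
    algebraMap ℂ (LaurentSeries ℂ) c = (HahnSeries.C c : LaurentSeries ℂ) := by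
  change HahnSeries.ofPowerSeries ℤ ℂ (algebraMap ℂ (PowerSeries ℂ) c) = _
  rw [← HahnSeries.ofPowerSeries_C]; rfl

lemma C_mem_adjoin (c : ℂ) (J : LaurentSeries ℂ) :
    (HahnSeries.C c : LaurentSeries ℂ) ∈ Algebra.adjoin ℂ ({J} : Set (LaurentSeries ℂ)) := by
  rw [← algebraMap_laurent_eq_C]
  exact Subalgebra.algebraMap_mem _ _

/-- Polynomial expressions (with coefficients embedded by `HahnSeries.C`) lie in the adjoin. -/
lemma eval₂_C_mem_adjoin (J : LaurentSeries ℂ) (p : Polynomial ℂ) :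
    p.eval₂ HahnSeries.C J ∈ Algebra.adjoin ℂ ({J} : Set (LaurentSeries ℂ)) := by
  rw [Polynomial.eval₂_eq_sum_range]
  refine Subalgebra.sum_mem _ fun i _ => ?_
  exact Subalgebra.mul_mem _ (C_mem_adjoin _ J)
    (Subalgebra.pow_mem _ (Algebra.subset_adjoin (Set.mem_singleton J)) i)

/-- **F-sym.** -/
theorem stmt_sym : Fermat.Agent.S28.H30.Stmt_Sym := by
  intro N _ Q _ π k a b ha hb hah hbh hab hbb hap hbp hb0
  obtain ⟨p, hp⟩ := sym_series π k N a b ha hb hah hbh hab hbb hap hbp hb0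
  rw [bridge N] at hp
  simp only [Fermat.Agent.S28.H30.pexp]
  rw [hp]
  exact eval₂_C_mem_adjoin _ p

end Fermat.Agent.S28.H76
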