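import Fermat.Agent.S28.H30_Conj
import Fermat.Agent.S28.H76_Sym
import Fermat.Agent.S23.H22_LevelRaiseExp
import Fermat.Prelude.Thm_ModularCurve_coeffMap_qExpand

/-!
# S28, WP-F: the conjugates of `j(dz)` and the symmetric-function property of `CAData`
(helper76)

* `Xfam N d q`: the `t`-expansion of the conjugate of `j(dz)` at the coset `q`.
* `Xfam_q1`: at the trivial coset this is `iotaN N (qExpand ℚ d jq)`.
* `sym_of_families`: the `sym` field of `CAData` for any `U q = pexp (uNum q) / pexp (uDen q)`.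
-/

set_option autoImplicit false

open UpperHalfPlane ModularForm ModularCurve Function
open scoped MatrixGroups ModularForm Manifold

noncomputable section

namespace Fermat.Agent.S28.H76

open Fermat.Agent.S28.H30
open Fermat.Agent.S23.H22 (G0 Q toSL piPerm q1 E12 levelRaise Nice)

local notation "ofPS" => HahnSeries.ofPowerSeries ℤ ℂ

/-- A power series supported on multiples of `d` is a `qExpand`. -/
lemma ofPS_eq_C_mul_qExpand (d : ℕ) [NeZero d] (c : ℂ) (f g : PowerSeries ℂ)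
    (h : ∀ n : ℕ, PowerSeries.coeff n f = if d ∣ n then c * PowerSeries.coeff (n / d) g else 0) :
    ofPS f = HahnSeries.C c * qExpand ℂ d (ofPS g) := by
  have hd : 0 < d := NeZero.pos d
  ext n
  rw [HahnSeries.C_mul_eq_smul, HahnSeries.coeff_smul, smul_eq_mul]
  rcases lt_or_ge n 0 with hn | hn
  · rw [ModularCurve.ofPowerSeries_coeff_of_neg _ hn]
    by_cases hdv : (d : ℤ) ∣ n
    · obtain ⟨k, rfl⟩ := hdv
      rw [qExpand_coeff_mul]
      have hk : k < 0 := by
        by_contra hk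
        rw [not_lt] at hk
        have : (0 : ℤ) ≤ (d : ℤ) * k := mul_nonneg (by positivity) hk
        omega
      rw [ModularCurve.ofPowerSeries_coeff_of_neg _ hk, mul_zero]
    · rw [qExpand_coeff_of_not_dvd _ _ hdv, mul_zero]
  · obtain ⟨m, rfl⟩ := Int.eq_ofNat_of_zero_le hn
    rw [HahnSeries.ofPowerSeries_apply_coeff, h m]
    by_cases hdv : d ∣ m
    · rw [if_pos hdv]
      obtain ⟨k, rfl⟩ := hdv
      rw [Nat.mul_div_cancel_left _ hd]
      push_cast
      rw [qExpand_coeff_mul, HahnSeries.ofPowerSeries_apply_coeff]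
    · rw [if_neg hdv, qExpand_coeff_of_not_dvd, mul_zero]
      exact_mod_cast hdv

/-- The `q`-expansion of a level raise. -/
lemma ofPS_qExpansion_levelRaise (d : ℕ) [NeZero d] {k : ℤ} (F : ModularForm 𝒮ℒ k) :
    ofPS (qExpansion 1 (levelRaise d F)) =
      HahnSeries.C ((d : ℂ) ^ (k - 1)) * qExpand ℂ d (ofPS (qExpansion 1 F)) :=
  ofPS_eq_C_mul_qExpand d _ _ _
    (Fermat.Agent.S23.H22.qExpansion_levelRaise_coeff d F)

variable (N : ℕ) [NeZero N]

/-- The `t`-expansion of the level raise `F ∣ α_d`, `d ∣ N`. -/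
lemma pexp_fam_q1 {d : ℕ} [NeZero d] (hd : d ∣ N) {k : ℤ} (F : ModularForm 𝒮ℒ k) :
    pexp N (fam N d F (q1 : Q N)) =
      qExpand ℂ N (HahnSeries.C ((d : ℂ) ^ (k - 1)) * qExpand ℂ d (ofPS (qExpansion 1 F))) := by
  have e : fam N d F (q1 : Q N) = (levelRaise d F : ℍ → ℂ) := by
    rw [fam_q1, raise_coe_of_dvd N hd]; rfl
  rw [e, pexp, ofPS_qExpansion_natCast N (Fermat.Agent.S23.H22.nice_G0 d (levelRaise d F)),
    ofPS_qExpansion_levelRaise]


/-- The level one expansions: `E12 / Δ = j`. -/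
lemma ofPS_E12_div_Delta :
    ofPS (qExpansion 1 E12) / ofPS (qExpansion 1 DeltaMF) = coeffMap (algebraMap ℚ ℂ) jq := by
  have h := coeffMap_jq_mul_disc
  have hD : ofPS (qExpansion 1 ModularForm.discriminant) ≠ 0 := by
    intro h0
    have h2 : qExpansion 1 ModularForm.discriminant = 0 := by
      apply HahnSeries.ofPowerSeries_injective (Γ := ℤ) (R := ℂ)
      rw [h0, map_zero]
    have h3 := nice_one_disc.eq_zero_of_qExpansion_eq_zero one_pos h2
    exact ModularForm.discriminant_ne_zero UpperHalfPlane.I (by rw [h3]; rfl)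
  have e1 : (E12 : ℍ → ℂ) = (E₄ : ℍ → ℂ) ^ 3 := by
    ext z; rw [Fermat.Agent.S23.H22.E12_apply]; rfl
  rw [DeltaMF_coe, e1, Nice.qExpansion_pow one_pos nice_one_E4, map_pow, div_eq_iff hD, h]

/-- The `t`-expansion of the conjugate of `j(dz)` at the coset `q`. -/
def Xfam (d : ℕ) (q : Q N) : LaurentSeries ℂ :=
  pexp N (fam N d E12 q) / pexp N (fam N d DeltaMF q)

/-- At the trivial coset, `Xfam` is the formal `j(q^d)`. -/
theorem Xfam_q1 {d : ℕ} [NeZero d] (hd : d ∣ N) :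
    Xfam N d (q1 : Q N) = iotaN N (qExpand ℚ d jq) := by
  have hc : (HahnSeries.C ((d : ℂ) ^ ((12 : ℤ) - 1)) : LaurentSeries ℂ) ≠ 0 := by
    intro h0
    have : (d : ℂ) ^ ((12 : ℤ) - 1) = 0 := by
      have := congrArg (fun x : LaurentSeries ℂ => x.coeff 0) h0
      simpa [HahnSeries.C_apply] using this
    exact (zpow_ne_zero _ (Nat.cast_ne_zero.mpr (NeZero.ne d))) this
  rw [Xfam, pexp_fam_q1 N hd E12, pexp_fam_q1 N hd DeltaMF, ← map_div₀ (qExpand ℂ N),
    mul_div_mul_left _ _ hc, ← map_div₀ (qExpand ℂ d), ofPS_E12_div_Delta, iotaN,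
    RingHom.comp_apply, ModularCurve.coeffMap_qExpand]


/-- **Bridge (BR form).** -/
theorem pexp_E12_q1_eq {d : ℕ} [NeZero d] (hd : d ∣ N) :
    pexp N (fam N d E12 (q1 : Q N)) =
      iotaN N (qExpand ℚ d jq) * pexp N (fam N d DeltaMF (q1 : Q N)) := by
  have h := Xfam_q1 N hd
  have h2 : pexp N (fam N d DeltaMF (q1 : Q N)) ≠ 0 := by
    refine pexp_ne_zero (fam_BPH N hd DeltaMF _) (z := UpperHalfPlane.I) ?_
    obtain ⟨γ, hγ⟩ := exists_rep N (q1 : Q N)
    obtain ⟨a, b, d', h', -, -, heq⟩ := fam_eq_smul_compUT N hd DeltaMF γ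
    rw [hγ, heq, Pi.smul_apply, smul_eq_mul]
    refine mul_ne_zero (Fermat.Agent.S23.H83.slash_const_ne_zero a d' h') ?_
    rw [compUT, DeltaMF_coe]
    exact ModularForm.discriminant_ne_zero _
  rw [← h, Xfam, div_mul_cancel₀ _ h2]

/-- The conjugates of `Δ(Mz)` vanish nowhere. -/
lemma fam_Delta_ne_zero {M : ℕ} (hM : M ∣ N) (q : Q N) (z : ℍ) : fam N M DeltaMF q z ≠ 0 := by
  obtain ⟨γ, rfl⟩ := exists_rep N q
  obtain ⟨a, b, d, h, -, -, heq⟩ := fam_eq_smul_compUT N hM DeltaMF γ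
  rw [heq, Pi.smul_apply, smul_eq_mul]
  refine mul_ne_zero (Fermat.Agent.S23.H83.slash_const_ne_zero a d h) ?_
  rw [compUT, DeltaMF_coe]
  exact ModularForm.discriminant_ne_zero _

/-- Pointwise form of equivariance of a product-combination of families. -/
lemma slash_combo (k₁ k₂ : ℤ) (γ : SL(2, ℤ)) (c s : ℂ)
    (n n' dn dn' De De' Ee Ee' : ℍ → ℂ)
    (hn : n ∣[k₁] γ = n') (hdn : dn ∣[k₁] γ = dn') (hDe : De ∣[k₂] γ = De')
    (hEe : Ee ∣[k₂] γ = Ee') :
    (c • (dn * De) - n * De - s • (dn * Ee)) ∣[k₁ + k₂] γ =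
      c • (dn' * De') - n' * De' - s • (dn' * Ee') := by
  rw [sub_eq_add_neg, sub_eq_add_neg, SlashAction.add_slash, SlashAction.add_slash,
    SlashAction.neg_slash, SlashAction.neg_slash, ModularForm.SL_smul_slash,
    ModularForm.SL_smul_slash, ModularForm.mul_slash_SL2, ModularForm.mul_slash_SL2,
    ModularForm.mul_slash_SL2, hn, hdn, hDe, hEe, ← sub_eq_add_neg, ← sub_eq_add_neg]

/-- The field identity behind `sym_of_families`. -/
lemma combo_div {K : Type*} [Field K] (C S xn xd e D : K) (hxd : xd ≠ 0) (hD : D ≠ 0) :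
    C - xn / xd - S * (e / D) = (C * (xd * D) - xn * D - S * (xd * e)) / (xd * D) := by
  field_simp

/-- **The `sym` field of `CAData`** for a unit given as a quotient of two equivariant families. -/
theorem sym_of_families (ku : ℤ) (uNum uDen : Q N → ℍ → ℂ)
    (hn : ∀ γ q, uNum q ∣[ku] γ = uNum (piPerm N γ q))
    (hd : ∀ γ q, uDen q ∣[ku] γ = uDen (piPerm N γ q))
    (hnB : ∀ q, BPH N (uNum q)) (hdB : ∀ q, BPH N (uDen q)) (hd0 : ∀ q z, uDen q z ≠ 0)
    (d : ℕ) (hdN : d ∣ N) (c s : ℂ) :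
    (∏ q, (HahnSeries.C c - pexp N (uNum q) / pexp N (uDen q) - HahnSeries.C s * Xfam N d q)) ∈
      Algebra.adjoin ℂ ({iotaN N jq} : Set (LaurentSeries ℂ)) := by
  have hDeB : ∀ q, BPH N (fam N d DeltaMF q) := fun q => fam_BPH N hdN DeltaMF q
  have hEeB : ∀ q, BPH N (fam N d E12 q) := fun q => fam_BPH N hdN E12 q
  have hDe0 : ∀ q z, fam N d DeltaMF q z ≠ 0 := fun q z => fam_Delta_ne_zero N hdN q z
  have haB : ∀ q, BPH N (c • (uDen q * fam N d DeltaMF q) - uNum q * fam N d DeltaMF q -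
      s • (uDen q * fam N d E12 q)) := fun q =>
    ((((hdB q).mul (hDeB q)).smul c).sub ((hnB q).mul (hDeB q))).sub
      (((hdB q).mul (hEeB q)).smul s)
  have hbB : ∀ q, BPH N (uDen q * fam N d DeltaMF q) := fun q => (hdB q).mul (hDeB q)
  have key := stmt_sym N (Q N) (piPerm N) (ku + 12)
    (fun q => c • (uDen q * fam N d DeltaMF q) - uNum q * fam N d DeltaMF q -
      s • (uDen q * fam N d E12 q))
    (fun q => uDen q * fam N d DeltaMF q)
    (fun γ q => slash_combo ku 12 γ c s _ _ _ _ _ _ _ _ (hn γ q) (hd γ q)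
      (fam_slash N d DeltaMF γ q) (fam_slash N d E12 γ q))
    (fun γ q => by
      rw [ModularForm.mul_slash_SL2, hd, fam_slash])
    (fun q => (haB q).hol) (fun q => (hbB q).hol) (fun q => (haB q).bdd) (fun q => (hbB q).bdd)
    (fun q => (haB q).per) (fun q => (hbB q).per)
    (fun q z => mul_ne_zero (hd0 q z) (hDe0 q z))
  convert key using 1
  refine Finset.prod_congr rfl fun q _ => ?_
  have h1 : pexp N (uDen q) ≠ 0 := pexp_ne_zero (hdB q) (hd0 q UpperHalfPlane.I)
  have h2 : pexp N (fam N d DeltaMF q) ≠ 0 := pexp_ne_zero (hDeB q) (hDe0 q UpperHalfPlane.I)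
  rw [Xfam, combo_div _ _ _ _ _ _ h1 h2,
    pexp_sub ((((hdB q).mul (hDeB q)).smul c).sub ((hnB q).mul (hDeB q)))
      (((hdB q).mul (hEeB q)).smul s),
    pexp_sub (((hdB q).mul (hDeB q)).smul c) ((hnB q).mul (hDeB q)),
    pexp_smul c ((hdB q).mul (hDeB q)), pexp_smul s ((hdB q).mul (hEeB q)),
    pexp_mul (hdB q) (hDeB q), pexp_mul (hnB q) (hDeB q), pexp_mul (hdB q) (hEeB q)]

end Fermat.Agent.S28.H76
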