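import Fermat.Agent.S28.Defs

/-!
# S28, piece G1: a valuation subring of `ℂ` dominating `ℤ_(ℓ)`

* `exists_valuationSubring` : there is a valuation subring `O` of `ℂ` containing `ℤ_(ℓ)` in
  which `ℓ` is not invertible.
* `coeffRing_le` : for `ℓ ∤ N` every such `O` contains the coefficient ring `ℤ[ζ_N, 1/N]`.
-/

set_option autoImplicit false

namespace Fermat.Agent.S28.H48

/-- Elements of a valuation subring which are roots of unity inside the ambient field. -/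
theorem mem_of_pow_eq_one {K : Type*} [Field K] (O : ValuationSubring K) {z : K} {n : ℕ}
    (hn : n ≠ 0) (hz : z ^ n = 1) : z ∈ O := by
  rw [← ValuationSubring.valuation_le_one_iff]
  have h1 : (O.valuation z) ^ n = 1 := by rw [← map_pow, hz, map_one]
  rcases pow_eq_one_iff.mp h1 with h | h
  · exact le_of_eq h
  · exact absurd h hn

/-- If `ℓ` is a non-unit of the valuation subring `O ⊇ ℤ` and `d` is prime to `ℓ`
then `1 / d ∈ O`. -/
theorem inv_natCast_mem {K : Type*} [Field K] (O : ValuationSubring K) {ℓ d : ℕ}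
    (hℓ : O.valuation (ℓ : K) < 1) (hd : d.Coprime ℓ) : ((d : K))⁻¹ ∈ O := by
  rw [← ValuationSubring.valuation_le_one_iff, map_inv₀]
  have hdO : O.valuation (d : K) ≤ 1 := by
    rw [ValuationSubring.valuation_le_one_iff]; exact natCast_mem O d
  -- Bezout: `d * a + ℓ * b = 1` in `ℤ`
  have hbez : (d : ℤ) * Nat.gcdA d ℓ + (ℓ : ℤ) * Nat.gcdB d ℓ = 1 := by
    have := Nat.gcd_eq_gcd_ab d ℓ
    rw [Nat.Coprime.gcd_eq_one hd] at this
    exact_mod_cast this.symm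
  have hbezK : (d : K) * ((Nat.gcdA d ℓ : ℤ) : K) + (ℓ : K) * ((Nat.gcdB d ℓ : ℤ) : K) = 1 := by
    exact_mod_cast congrArg (Int.cast : ℤ → K) hbez
  have ha : O.valuation ((Nat.gcdA d ℓ : ℤ) : K) ≤ 1 := by
    rw [ValuationSubring.valuation_le_one_iff]; exact intCast_mem O _
  have hb : O.valuation ((Nat.gcdB d ℓ : ℤ) : K) ≤ 1 := by
    rw [ValuationSubring.valuation_le_one_iff]; exact intCast_mem O _
  -- the valuation of `d` is `1`, otherwise `1 = d a + ℓ b` has valuation `< 1`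
  have hd1 : O.valuation (d : K) = 1 := by
    by_contra hne
    have hlt : O.valuation (d : K) < 1 := lt_of_le_of_ne hdO hne
    have h1 : O.valuation ((d : K) * ((Nat.gcdA d ℓ : ℤ) : K)) < 1 := by
      rw [map_mul]
      exact mul_lt_one_of_lt_of_le hlt ha
    have h2 : O.valuation ((ℓ : K) * ((Nat.gcdB d ℓ : ℤ) : K)) < 1 := by
      rw [map_mul]
      exact mul_lt_one_of_lt_of_le hℓ hb
    have h3 := Valuation.map_add_lt (O.valuation) h1 h2
    rw [hbezK, map_one] at h3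
    exact lt_irrefl _ h3
  rw [hd1, inv_one]

/-- A rational number whose denominator is prime to `ℓ` lies in `O`, as soon as `O ⊇ ℤ` has `ℓ`
as a non-unit. -/
theorem ratCast_mem_of_coprime {K : Type*} [Field K] [CharZero K] (O : ValuationSubring K)
    {ℓ : ℕ} (hℓ : O.valuation (ℓ : K) < 1) (r : ℚ) (hr : r.den.Coprime ℓ) : (r : K) ∈ O := by
  have h : (r : K) = (r.num : K) * ((r.den : K))⁻¹ := by
    rw [Rat.cast_def, div_eq_mul_inv]
  rw [h]
  exact O.mul_mem _ _ (intCast_mem O _) (inv_natCast_mem O hℓ hr)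

theorem exists_valuationSubring (ℓ : ℕ) [Fact ℓ.Prime] :
    ∃ O : ValuationSubring ℂ,
      (∀ r : ℚ, r ∈ GaloisRep.ratLocalizedAt ℓ → (r : ℂ) ∈ O) ∧ ((ℓ : ℂ)⁻¹ ∉ O) := by
  have hℓ : ℓ.Prime := Fact.out
  -- the subring `ℤ ⊂ ℂ` and its ideal `(ℓ)`
  let A : Subring ℂ := (algebraMap ℤ ℂ).range
  let x : A := ⟨(ℓ : ℂ), ⟨(ℓ : ℤ), by simp⟩⟩
  have hI : Ideal.span ({x} : Set A) ≠ ⊤ := by
    intro htop
    rw [Ideal.span_singleton_eq_top] at htop
    obtain ⟨y, hy⟩ := isUnit_iff_exists_inv.mp htop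
    obtain ⟨n, hn⟩ := y.2
    have h1 : ((ℓ : ℂ)) * (y : ℂ) = 1 := congrArg Subtype.val hy
    rw [← hn] at h1
    have h2 : ((ℓ : ℤ) * n : ℤ) = 1 := by
      have : (((ℓ : ℤ) * n : ℤ) : ℂ) = ((1 : ℤ) : ℂ) := by
        push_cast
        simpa using h1
      exact_mod_cast this
    have h3 : IsUnit (ℓ : ℤ) := isUnit_iff_exists_inv.mpr ⟨n, h2⟩
    have h4 : IsUnit ℓ := Int.ofNat_isUnit.mp h3
    exact hℓ.not_isUnit h4
  obtain ⟨O, -, hO⟩ := Ideal.image_subset_nonunits_valuationSubring _ hI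
  have hval : O.valuation (ℓ : ℂ) < 1 := by
    have hmem : (ℓ : ℂ) ∈ O.nonunits :=
      hO ⟨x, Ideal.subset_span (Set.mem_singleton x), rfl⟩
    exact (ValuationSubring.mem_nonunits_iff O).mp hmem
  refine ⟨O, fun r hr => ratCast_mem_of_coprime O hval r hr, ?_⟩
  intro hmem
  have h1 : O.valuation ((ℓ : ℂ)⁻¹) ≤ 1 := (ValuationSubring.valuation_le_one_iff O _).mpr hmem
  have hne : (ℓ : ℂ) ≠ 0 := Nat.cast_ne_zero.mpr hℓ.ne_zero
  have h2 : O.valuation ((ℓ : ℂ) * (ℓ : ℂ)⁻¹) < 1 := by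
    rw [map_mul]
    exact mul_lt_one_of_lt_of_le hval h1
  rw [mul_inv_cancel₀ hne, map_one] at h2
  exact lt_irrefl _ h2

theorem coeffRing_le (N ℓ : ℕ) [NeZero N] [Fact ℓ.Prime] (hℓN : ¬ ℓ ∣ N)
    (O : ValuationSubring ℂ)
    (hO : ∀ r : ℚ, r ∈ GaloisRep.ratLocalizedAt ℓ → (r : ℂ) ∈ O) :
    Fermat.Agent.S28.coeffRing N ≤ O.toSubring := by
  have hℓ : ℓ.Prime := Fact.out
  unfold Fermat.Agent.S28.coeffRing
  rw [Subring.closure_le]
  rintro z (hz | hz)
  · exact mem_of_pow_eq_one O (NeZero.ne N) hz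
  · rw [Set.mem_singleton_iff] at hz
    subst hz
    have hmem : ((N : ℚ))⁻¹ ∈ GaloisRep.ratLocalizedAt ℓ := by
      show (((N : ℚ))⁻¹).den.Coprime ℓ
      have hden : (((N : ℚ))⁻¹).den = N := by
        have hN : 0 < N := Nat.pos_of_ne_zero (NeZero.ne N)
        rw [Rat.inv_natCast_den, if_neg hN.ne']
      rw [hden]
      exact (Nat.Coprime.symm ((Nat.Prime.coprime_iff_not_dvd hℓ).mpr hℓN))
    have := hO _ hmem
    simpa using this

end Fermat.Agent.S28.H48
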