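import Fermat.Statements.S28

/-!
# S28 (Igusa integrality): interface definitions (coordinator: helper82)

Architecture "Omega":  the algebra core runs over `(C, O)` with `C` an algebraically closed field
(in the application `C = ℂ`) and `O : ValuationSubring C` ARBITRARY (not discrete),
series ring `LaurentSeries C` (variable `t = q^(1/N)`).  One descent to `ℚ` at the very end.

Chain of implications (all `Stmt_*` are `Prop`s; the final file proves `S28` from them):

* `Stmt_CA`       : `∀ N, Nonempty (CAData N)`                       (complex analysis, WP-F)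
* `Stmt_Core`     : Lemma A + Lemma B over `(C, O)`                    (WP-C)
* `Stmt_Lagrange` : the other conjugate families lie in `C(u, J)`      (WP-C3)
* `Stmt_Descent`  : descent from `ℂ((t))` to `ℚ((q))`                   (WP-D)
* glue            : the four above give `KeyU N ℓ` for `ℓ ∤ N`         (helper82)
* `Stmt_WPB`      : `KeyU N ℓ` gives the three tensor facts           (WP-B)
* `WPA_Statement` : tensor facts give `S28`                            (WP-A, DONE by helper79)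
-/

set_option autoImplicit false
open ModularCurve ModularCurve.IgusaScheme
noncomputable section

namespace Fermat.Agent.S28

section Gauss

variable {C : Type} [Field C]

/-- All coefficients of the Laurent series lie in the subring `O`. -/
def CoeffsIn (O : Subring C) (f : LaurentSeries C) : Prop := ∀ n : ℤ, f.coeff n ∈ O

/-- `g` has coefficients in `O` and one coefficient is a unit of `O`. -/
def PrimSeries (O : Subring C) (g : LaurentSeries C) : Prop :=
  CoeffsIn O g ∧ ∃ n : ℤ, g.coeff n ≠ 0 ∧ (g.coeff n)⁻¹ ∈ O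

/-- Membership in the "Gauss valuation ring": `x * g` has coefficients in `O` for a primitive `g`. -/
def GaussInt (O : Subring C) (x : LaurentSeries C) : Prop :=
  ∃ g : LaurentSeries C, PrimSeries O g ∧ CoeffsIn O (x * g)

/-- Coefficients in `O`, nonzero, and the leading coefficient is a unit of `O`. -/
def UnitLead (O : Subring C) (f : LaurentSeries C) : Prop :=
  CoeffsIn O f ∧ f ≠ 0 ∧ (f.leadingCoeff)⁻¹ ∈ O

/-- A polynomial with coefficients in `O`, one of which is a unit of `O`. -/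
def PrimPoly (O : Subring C) (s : Polynomial C) : Prop :=
  (∀ i : ℕ, s.coeff i ∈ O) ∧ ∃ i : ℕ, s.coeff i ≠ 0 ∧ (s.coeff i)⁻¹ ∈ O

end Gauss

/-! ## The key claim (U) over `ℚ` -/

/-- **(U)**: every element of the function field which is Gauss-integral at `ℓ` becomes
integral over `ℤ_(ℓ)[j]` after multiplication by `s(j)` for a primitive polynomial `s`. -/
def KeyU (N : ℕ) [NeZero N] (ℓ : ℕ) [Fact ℓ.Prime] : Prop :=
  ∀ x : ↥(modularFunctionFieldFull N),
    GaussInt (GaloisRep.ratLocalizedAt ℓ) (x : LaurentSeries ℚ) →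
    ∃ s : Polynomial ↥(GaloisRep.ratLocalizedAt ℓ), (∃ i : ℕ, IsUnit (s.coeff i)) ∧
      IsIntegral (Algebra.adjoin ↥(GaloisRep.ratLocalizedAt ℓ) ({jFull N} : Set ↥(modularFunctionFieldFull N)))
        (Polynomial.aeval (jFull N) s * x)

/-- **WP-B**: `(U)` implies the three facts about the charts needed by WP-A. -/
def Stmt_WPB : Prop :=
  ∀ (N : ℕ) [NeZero N] (ℓ : ℕ) [Fact ℓ.Prime], KeyU N ℓ →
    ∀ (K : Type) [Field K] [CharP K ℓ] [Algebra ↥(GaloisRep.ratLocalizedAt ℓ) K],
      IsDomain (TensorProduct ↥(GaloisRep.ratLocalizedAt ℓ) ↥(chartAlgFin N ℓ) K) ∧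
      IsDomain (TensorProduct ↥(GaloisRep.ratLocalizedAt ℓ) ↥(chartAlgInf N ℓ) K) ∧
      Nontrivial (TensorProduct ↥(GaloisRep.ratLocalizedAt ℓ) ↥(chartAlgMid N ℓ) K)

/-! ## The abstract algebra core over `(C, O)` -/

/-- Hypotheses of the algebra core.  `J` plays the role of `j(t^N)`, `U q₀ = u` is the modular unit,
`U q` its conjugates. `nJ = N` is the ramification of `t` over `q`. -/
structure CoreHyp {C : Type} [Field C] (O : ValuationSubring C) {Q : Type} [Fintype Q]
    (q₀ : Q) (J : LaurentSeries C) (U : Q → LaurentSeries C) (nJ D : ℕ) : Prop where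
  nJ_pos : 0 < nJ
  D_pos : 0 < D
  J_unitLead : UnitLead O.toSubring J
  J_order : J.order = -(nJ : ℤ)
  U_unitLead : ∀ q, UnitLead O.toSubring (U q)
  U_order₀ : (U q₀).order = -((D : ℤ) * (nJ : ℤ))
  U_order_pos : ∀ q, q ≠ q₀ → 0 < (U q).order
  sym : ∀ c : C, (∏ q, (HahnSeries.C c - U q)) ∈ Algebra.adjoin C ({J} : Set (LaurentSeries C))

/-- **WP-C (core)**: Lemma A + Lemma B.  Every Gauss-integral element of `C(u, J)` becomes integral
over `O[J]` after multiplication by `n(J)`, `n` primitive. -/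
def Stmt_Core : Prop :=
  ∀ (C : Type) [Field C] [IsAlgClosed C] (O : ValuationSubring C) (Q : Type) [Fintype Q]
    (q₀ : Q) (J : LaurentSeries C) (U : Q → LaurentSeries C) (nJ D : ℕ),
    CoreHyp O q₀ J U nJ D →
    ∀ x : LaurentSeries C, x ∈ IntermediateField.adjoin C ({U q₀, J} : Set (LaurentSeries C)) →
      GaussInt O.toSubring x →
      ∃ n : Polynomial C, PrimPoly O.toSubring n ∧
        IsIntegral (Algebra.adjoin (↥O) ({J} : Set (LaurentSeries C))) (Polynomial.aeval J n * x)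

/-- **WP-C3 (Lagrange)**: if all `∏_q (c - U q - s X q)` are polynomials in `J`, then `X q₀ ∈ C(u, J)`.
(Only uses: `C` infinite, `U q ≠ U q₀` for `q ≠ q₀`.) -/
def Stmt_Lagrange : Prop :=
  ∀ (C : Type) [Field C] [IsAlgClosed C] (Q : Type) [Fintype Q]
    (q₀ : Q) (J : LaurentSeries C) (U X : Q → LaurentSeries C),
    (∀ q, q ≠ q₀ → U q ≠ U q₀) →
    (∀ c s : C, (∏ q, (HahnSeries.C c - U q - HahnSeries.C s * X q)) ∈
      Algebra.adjoin C ({J} : Set (LaurentSeries C))) →
    X q₀ ∈ IntermediateField.adjoin C ({U q₀, J} : Set (LaurentSeries C))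

/-! ## The interface from complex analysis -/

/-- The embedding `ℚ((q)) → ℂ((t))`, `q ↦ t^N`. -/
def iotaN (N : ℕ) [NeZero N] : LaurentSeries ℚ →+* LaurentSeries ℂ :=
  (qExpand ℂ N).comp (coeffMap (algebraMap ℚ ℂ))

/-- The coefficient ring `ℤ[ζ_N, 1/N] ⊂ ℂ`. -/
def coeffRing (N : ℕ) : Subring ℂ := Subring.closure ({z : ℂ | z ^ N = 1} ∪ {(N : ℂ)⁻¹})

/-- **Output of the complex analysis (WP-F)**: the `t`-expansions (`t = e^{2πiz/N}`) of the
conjugates `u ∘ γ_q`, `j(d γ_q z)` over the cosets `q` of `Γ₀(N)` in `SL₂(ℤ)`. -/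
structure CAData (N : ℕ) [NeZero N] where
  Q : Type
  instFintype : Fintype Q
  q₀ : Q
  D : ℕ
  D_pos : 0 < D
  U : Q → LaurentSeries ℂ
  X : ℕ → Q → LaurentSeries ℂ
  U_coeff : ∀ q n, (U q).coeff n ∈ coeffRing N
  U_ne : ∀ q, U q ≠ 0
  U_lead : ∀ q, ((U q).leadingCoeff)⁻¹ ∈ coeffRing N
  U_order₀ : (U q₀).order = -((D : ℤ) * (N : ℤ))
  U_order_pos : ∀ q, q ≠ q₀ → 0 < (U q).order
  X_q₀ : ∀ (d : ℕ) [NeZero d], d ∣ N → X d q₀ = iotaN N (qExpand ℚ d jq)
  sym : ∀ d : ℕ, d ∣ N → ∀ c s : ℂ,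
    (∏ q, (HahnSeries.C c - U q - HahnSeries.C s * X d q)) ∈
      Algebra.adjoin ℂ ({iotaN N jq} : Set (LaurentSeries ℂ))

attribute [instance] CAData.instFintype

/-- **WP-F**: the analytic data exist for every level. -/
def Stmt_CA : Prop := ∀ (N : ℕ) [NeZero N], Nonempty (CAData N)

/-! ## Descent -/

/-- **WP-D (descent)**: from integrality over `O[J]` in `ℂ((t))` to integrality over `ℤ_(ℓ)[j]`. -/
def Stmt_Descent : Prop :=
  ∀ (N : ℕ) [NeZero N] (ℓ : ℕ) [Fact ℓ.Prime] (O : ValuationSubring ℂ),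
    (∀ r : ℚ, r ∈ GaloisRep.ratLocalizedAt ℓ → (r : ℂ) ∈ O) → ((ℓ : ℂ)⁻¹ ∉ O) →
    ∀ x : ↥(modularFunctionFieldFull N),
      (∃ n : Polynomial ℂ, PrimPoly O.toSubring n ∧
        IsIntegral (Algebra.adjoin (↥O) ({iotaN N jq} : Set (LaurentSeries ℂ)))
          (Polynomial.aeval (iotaN N jq) n * iotaN N (x : LaurentSeries ℚ))) →
      ∃ s : Polynomial ↥(GaloisRep.ratLocalizedAt ℓ), (∃ i : ℕ, IsUnit (s.coeff i)) ∧
        IsIntegral (Algebra.adjoin ↥(GaloisRep.ratLocalizedAt ℓ) ({jFull N} : Set ↥(modularFunctionFieldFull N)))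
          (Polynomial.aeval (jFull N) s * x)

/-- **Glue (helper82)**: Core + Lagrange + Descent + CA give `(U)`. -/
def Stmt_Glue : Prop :=
  Stmt_Core → Stmt_Lagrange → Stmt_Descent → Stmt_CA →
    ∀ (N : ℕ) [NeZero N] (ℓ : ℕ) [Fact ℓ.Prime], ¬ ℓ ∣ N → KeyU N ℓ

end Fermat.Agent.S28
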