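/-
S28 (Igusa), work package C, Lemma A (helper73).

Abstract form of "`1, j, …, j^(D-1)` is an orthogonal basis of `ℚ(u, j)` over `ℚ(u)` for the Gauss
valuation":  if `x = ∑_{i<D} a_i j^i` lies in the Gauss ring `O` and every `a_i` is a quotient
`P_i(u)/Q_i(u)` of polynomials over `R`, then every `a_i` is a quotient `P'_i(u)/Q'_i(u)` with
`Q'_i` NONZERO MODULO THE UNIFORMIZER (i.e. `a_i` lies in the Gauss ring of `ℚ(u)`).

Everything is stated for an abstract "Gauss setup" (`GaussSetup`), so that it can be instantiated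
with the concrete Gauss ring of `ℚ((q))`.
-/
import Mathlib

set_option autoImplicit false

namespace Fermat.Agent.S28.H73

open Polynomial

/-! ### Valuation lemmas -/

section ValuationLemmas

variable {k E Γ₀ : Type*} [Field k] [Field E] [Algebra k E] [LinearOrderedCommGroupWithZero Γ₀]
  (w : Valuation E Γ₀)

/-- A finite sum whose nonzero members have pairwise distinct valuations vanishes only if all its
members vanish. -/
theorem eq_zero_of_sum_eq_zero {ι : Type*} (s : Finset ι) (c : ι → E)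
    (hinj : ∀ i ∈ s, ∀ i' ∈ s, c i ≠ 0 → c i' ≠ 0 → w (c i) = w (c i') → i = i')
    (hsum : ∑ i ∈ s, c i = 0) : ∀ i ∈ s, c i = 0 := by
  classical
  by_contra hne
  simp only [not_forall] at hne
  obtain ⟨i₁, hi₁, hc₁⟩ := hne
  obtain ⟨i₀, hi₀, hmax⟩ := Finset.exists_max_image s (fun i => w (c i)) ⟨i₁, hi₁⟩
  have hc₀ : c i₀ ≠ 0 := by
    intro h
    have h1 := hmax i₁ hi₁
    simp only [h, map_zero] at h1
    exact hc₁ ((map_eq_zero w).1 (le_antisymm h1 zero_le))
  have hw₀ : w (c i₀) ≠ 0 := (Valuation.ne_zero_iff w).2 hc₀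
  have hlt : ∀ i ∈ s \ {i₀}, w (c i) < w (c i₀) := by
    intro i hi
    rw [Finset.mem_sdiff, Finset.mem_singleton] at hi
    rcases eq_or_ne (c i) 0 with h0 | h0
    · rw [h0, map_zero]; exact zero_lt_iff.2 hw₀
    · refine lt_of_le_of_ne (hmax i hi.1) ?_
      intro heq
      exact hi.2 (hinj i hi.1 i₀ hi₀ h0 hc₀ heq)
  have := w.map_sum_eq_of_lt hi₀ hlt
  rw [hsum, map_zero] at this
  exact hw₀ this.symm

/-- If `w` is trivial on `k` and `1 < w t`, then `w (P(t)) = (w t) ^ deg P` for `P ≠ 0`. -/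
theorem valuation_aeval_eq_pow (hwk : ∀ c : k, c ≠ 0 → w (algebraMap k E c) = 1)
    {t : E} (ht : 1 < w t) (P : k[X]) (hP : P ≠ 0) :
    w (aeval t P) = w t ^ P.natDegree := by
  classical
  rw [aeval_eq_sum_range]
  have hlead : w (P.coeff P.natDegree • t ^ P.natDegree) = w t ^ P.natDegree := by
    rw [Algebra.smul_def, map_mul, hwk _ (by simpa using hP), one_mul, map_pow]
  rw [← hlead]
  refine w.map_sum_eq_of_lt (Finset.self_mem_range_succ _) ?_
  intro i hi
  rw [Finset.mem_sdiff, Finset.mem_range, Finset.mem_singleton] at hi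
  have hi' : i < P.natDegree := lt_of_le_of_ne (Nat.lt_succ_iff.1 hi.1) hi.2
  rw [hlead, Algebra.smul_def, map_mul, map_pow]
  have h0 : (0 : Γ₀) < w t := lt_trans zero_lt_one ht
  rcases eq_or_ne (P.coeff i) 0 with hc | hc
  · rw [hc, map_zero, map_zero, zero_mul]; exact pow_pos h0 _
  · rw [hwk _ hc, one_mul]
    exact pow_lt_pow_right₀ ht hi'

theorem aeval_ne_zero_of_one_lt (hwk : ∀ c : k, c ≠ 0 → w (algebraMap k E c) = 1)
    {t : E} (ht : 1 < w t) (P : k[X]) (hP : P ≠ 0) : aeval t P ≠ 0 := by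
  intro h
  have := valuation_aeval_eq_pow w hwk ht P hP
  rw [h, map_zero] at this
  exact (pow_pos (lt_trans zero_lt_one ht) _).ne this

/-- Orthogonality: if `w jb = g > 1` and every `b i` is `0` or has valuation in `g ^ (D ℤ)`, then
`∑_{i<D} b i * jb ^ i = 0` forces all `b i = 0`. -/
theorem orthogonality {g : Γ₀} (hg : 1 < g) {D : ℕ} {jb : E} (hj : w jb = g)
    (b : Fin D → E) (hb : ∀ i, b i = 0 ∨ ∃ m : ℤ, w (b i) = g ^ ((D : ℤ) * m))
    (hsum : ∑ i, b i * jb ^ (i : ℕ) = 0) : ∀ i, b i = 0 := by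
  have hg0 : (0 : Γ₀) < g := lt_trans zero_lt_one hg
  have hjb : jb ≠ 0 := by
    intro h; rw [h, map_zero] at hj; exact hg0.ne hj
  have key := eq_zero_of_sum_eq_zero w Finset.univ (fun i : Fin D => b i * jb ^ (i : ℕ)) ?_ hsum
  · intro i
    have := key i (Finset.mem_univ _)
    rcases mul_eq_zero.1 this with h | h
    · exact h
    · exact absurd h (pow_ne_zero _ hjb)
  · intro i _ i' _ hci hci' hww
    have hbi : b i ≠ 0 := left_ne_zero_of_mul hci
    have hbi' : b i' ≠ 0 := left_ne_zero_of_mul hci'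
    obtain ⟨m, hm⟩ := (hb i).resolve_left hbi
    obtain ⟨m', hm'⟩ := (hb i').resolve_left hbi'
    simp only [map_mul, map_pow, hj, hm, hm'] at hww
    rw [← zpow_natCast g (i : ℕ), ← zpow_natCast g (i' : ℕ), ← zpow_add₀ hg0.ne',
      ← zpow_add₀ hg0.ne'] at hww
    have hinj := (zpow_right_strictMono₀ hg).injective hww
    have hD : (0 : ℤ) < D := by
      have : 0 < D := Fin.pos i
      exact_mod_cast this
    have h1 : ((i : ℕ) : ℤ) % D = ((i' : ℕ) : ℤ) % D := by
      have := congrArg (· % (D : ℤ)) hinj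
      simpa [Int.add_mul_emod_self_left, Int.mul_add_emod_self_left, add_comm] using this
    have hi : ((i : ℕ) : ℤ) % D = (i : ℕ) :=
      Int.emod_eq_of_lt (by positivity) (by exact_mod_cast i.2)
    have hi' : ((i' : ℕ) : ℤ) % D = (i' : ℕ) :=
      Int.emod_eq_of_lt (by positivity) (by exact_mod_cast i'.2)
    rw [hi, hi'] at h1
    exact Fin.ext (by exact_mod_cast h1)

end ValuationLemmas

/-! ### The abstract Gauss setup -/

/-- Abstract Gauss setup: `O ⊆ Ω` is the "Gauss ring" (a local subring with residue map `red` to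
`E`, e.g. `E = k((q))`), `R` is the base discrete valuation ring with uniformizer `π` and residue
map `res : R → k`. -/
structure GaussSetup (R k Ω E : Type*) [CommRing R] [Field k] [Field Ω] [Field E]
    [Algebra R Ω] [Algebra k E] where
  /-- the Gauss ring -/
  O : Subalgebra R Ω
  /-- reduction map of the Gauss ring -/
  red : O →+* E
  /-- residue map of the base ring -/
  res : R →+* k
  red_algebraMap : ∀ r : R, red (algebraMap R O r) = algebraMap k E (res r)
  inv_mem : ∀ x : O, red x ≠ 0 → ((x : Ω))⁻¹ ∈ O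
  /-- the uniformizer -/
  π : R
  res_π : res π = 0
  π_ne_zero : algebraMap R Ω π ≠ 0
  exists_prim : ∀ P : R[X], P ≠ 0 →
    ∃ (n : ℕ) (P' : R[X]), P = C (π ^ n) * P' ∧ P'.map res ≠ 0

namespace GaussSetup

variable {R k Ω E Γ₀ : Type*} [CommRing R] [Field k] [Field Ω] [Field E]
  [Algebra R Ω] [Algebra k E] [LinearOrderedCommGroupWithZero Γ₀]
  (S : GaussSetup R k Ω E)

theorem red_aeval (u : S.O) (P : R[X]) :
    S.red (aeval u P) = aeval (S.red u) (P.map S.res) := by
  have hcomp : S.red.comp (algebraMap R S.O) = (algebraMap k E).comp S.res :=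
    RingHom.ext fun r => S.red_algebraMap r
  rw [aeval_def, hom_eval₂, hcomp, aeval_def, eval₂_map]

theorem red_π : S.red (algebraMap R S.O S.π) = 0 := by
  rw [S.red_algebraMap, S.res_π, map_zero]

/-- The Gauss ring of `Frac R (u)`: quotients `P(u)/Q(u)` with `Q` nonzero modulo `π`. -/
def IsGaussFrac (u : S.O) (a : Ω) : Prop :=
  ∃ P Q : R[X], Q.map S.res ≠ 0 ∧ a = aeval (u : Ω) P / aeval (u : Ω) Q

variable (w : Valuation E Γ₀)

/-- Evaluation at `u` of a polynomial which is nonzero mod `π` has nonzero reduction, of valuation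
`(w ū) ^ deg`. -/
theorem valuation_red_aeval (hwk : ∀ c : k, c ≠ 0 → w (algebraMap k E c) = 1)
    (u : S.O) (hu : 1 < w (S.red u)) (P : R[X]) (hP : P.map S.res ≠ 0) :
    w (S.red (aeval u P)) = w (S.red u) ^ (P.map S.res).natDegree := by
  rw [S.red_aeval]
  exact valuation_aeval_eq_pow w hwk hu _ hP

theorem red_aeval_ne_zero (hwk : ∀ c : k, c ≠ 0 → w (algebraMap k E c) = 1)
    (u : S.O) (hu : 1 < w (S.red u)) (P : R[X]) (hP : P.map S.res ≠ 0) :
    S.red (aeval u P) ≠ 0 := by
  rw [S.red_aeval]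
  exact aeval_ne_zero_of_one_lt w hwk hu _ hP

/-- A unit-like quotient `P(u)/Q(u)` (both nonzero mod `π`) as an element of `O`, with the
valuation of its reduction. -/
theorem exists_quot (hwk : ∀ c : k, c ≠ 0 → w (algebraMap k E c) = 1)
    {g : Γ₀} (hg : 1 < g) {D : ℕ} (hD : 0 < D) (u : S.O) (hu : w (S.red u) = g ^ D)
    (P Q : R[X]) (hP : P.map S.res ≠ 0) (hQ : Q.map S.res ≠ 0) :
    ∃ b : S.O, (b : Ω) = aeval (u : Ω) P / aeval (u : Ω) Q ∧ S.red b ≠ 0 ∧
      ∃ m : ℤ, w (S.red b) = g ^ ((D : ℤ) * m) := by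
  have hu1 : 1 < w (S.red u) := by rw [hu]; exact one_lt_pow₀ hg hD.ne'
  have hQ0 := S.red_aeval_ne_zero w hwk u hu1 Q hQ
  have hP0 := S.red_aeval_ne_zero w hwk u hu1 P hP
  have hQinv := S.inv_mem (aeval u Q) hQ0
  set qi : S.O := ⟨_, hQinv⟩ with hqi
  have hmul : aeval u Q * qi = 1 := by
    apply Subtype.ext
    have hne : ((aeval u Q : S.O) : Ω) ≠ 0 := by
      intro h
      apply hQ0
      have : (aeval u Q : S.O) = 0 := Subtype.ext h
      rw [this, map_zero]
    simp only [hqi, Subalgebra.coe_mul, Subalgebra.coe_one]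
    exact mul_inv_cancel₀ hne
  have hred : S.red (aeval u Q) * S.red qi = 1 := by rw [← map_mul, hmul, map_one]
  refine ⟨aeval u P * qi, ?_, ?_, ?_⟩
  · simp only [hqi, Subalgebra.coe_mul, aeval_subalgebra_coe, div_eq_mul_inv]
  · rw [map_mul]
    exact mul_ne_zero hP0 (right_ne_zero_of_mul_eq_one hred)
  · refine ⟨((P.map S.res).natDegree : ℤ) - ((Q.map S.res).natDegree : ℤ), ?_⟩
    have hg0 : g ≠ 0 := (lt_trans zero_lt_one hg).ne'
    have h1 : w (S.red qi) = (w (S.red (aeval u Q)))⁻¹ := by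
      have := congrArg w hred
      rw [map_mul, map_one] at this
      exact eq_inv_of_mul_eq_one_right this
    rw [map_mul, map_mul, h1, S.valuation_red_aeval w hwk u hu1 P hP,
      S.valuation_red_aeval w hwk u hu1 Q hQ, hu, ← pow_mul, ← pow_mul, mul_sub,
      zpow_sub₀ hg0, div_eq_mul_inv]
    norm_cast

theorem isGaussFrac_zero (u : S.O) : S.IsGaussFrac u 0 :=
  ⟨0, 1, by simp, by simp⟩

/-- **Lemma A** (orthogonality of `1, j, …, j^(D-1)` over the Gauss ring of `Frac R (u)`).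
If `w (red j) = g > 1`, `w (red u) = g ^ D`, and `x = ∑_{i<D} (P_i(u)/Q_i(u)) j^i ∈ O`, then every
coefficient `P_i(u)/Q_i(u)` lies in the Gauss ring of `Frac R (u)`. -/
theorem lemmaA (hwk : ∀ c : k, c ≠ 0 → w (algebraMap k E c) = 1)
    {g : Γ₀} (hg : 1 < g) {D : ℕ} (hD : 0 < D) (u j : S.O)
    (hj : w (S.red j) = g) (hu : w (S.red u) = g ^ D)
    (P Q : Fin D → R[X]) (hQ : ∀ i, Q i ≠ 0)
    (hx : ∑ i, (aeval (u : Ω) (P i) / aeval (u : Ω) (Q i)) * (j : Ω) ^ (i : ℕ) ∈ S.O) :
    ∀ i, S.IsGaussFrac u (aeval (u : Ω) (P i) / aeval (u : Ω) (Q i)) := by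
  classical
  have hπ : algebraMap R Ω S.π ≠ 0 := S.π_ne_zero
  have hu1 : 1 < w (S.red u) := by rw [hu]; exact one_lt_pow₀ hg hD.ne'
  -- primitive parts of the denominators
  choose m Q' hQeq hQ' using fun i => S.exists_prim (Q i) (hQ i)
  -- primitive parts of the numerators
  have hPdata : ∀ i, ∃ (n : ℕ) (P' : R[X]),
      P i = C (S.π ^ n) * P' ∧ (P i ≠ 0 → P'.map S.res ≠ 0) := by
    intro i
    by_cases h : P i = 0
    · exact ⟨0, 0, by simp [h], fun h' => absurd h h'⟩
    · obtain ⟨n, P', h1, h2⟩ := S.exists_prim (P i) h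
      exact ⟨n, P', h1, fun _ => h2⟩
  choose n P' hPeq hP' using hPdata
  -- evaluation of the primitive parts
  have hq0 : ∀ i, aeval (u : Ω) (Q' i) ≠ 0 := by
    intro i h
    apply S.red_aeval_ne_zero w hwk u hu1 (Q' i) (hQ' i)
    have : (aeval u (Q' i) : S.O) = 0 := Subtype.ext (by rw [aeval_subalgebra_coe]; exact h)
    rw [this, map_zero]
  have hPval : ∀ i, aeval (u : Ω) (P i) = algebraMap R Ω S.π ^ n i * aeval (u : Ω) (P' i) := by
    intro i
    conv_lhs => rw [hPeq i]
    rw [map_mul, aeval_C, map_pow]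
  have hQval : ∀ i, aeval (u : Ω) (Q i) = algebraMap R Ω S.π ^ m i * aeval (u : Ω) (Q' i) := by
    intro i
    conv_lhs => rw [hQeq i]
    rw [map_mul, aeval_C, map_pow]
  -- the key claim
  have key : ∀ i, P i ≠ 0 → m i ≤ n i := by
    by_contra hcon
    simp only [not_forall, not_le] at hcon
    obtain ⟨i₁, hi₁, hlt₁⟩ := hcon
    set I : Finset (Fin D) := Finset.univ.filter (fun i => P i ≠ 0) with hI
    set M : ℕ := Finset.univ.sup m with hM
    have hmM : ∀ i, m i ≤ M := fun i => Finset.le_sup (f := m) (Finset.mem_univ i)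
    set t : Fin D → ℕ := fun i => n i + (M - m i) with ht
    obtain ⟨i₀, hi₀I, hmin⟩ := Finset.exists_min_image I t ⟨i₁, by simp [hI, hi₁]⟩
    have hi₀ : P i₀ ≠ 0 := by simpa [hI] using hi₀I
    have hTM : t i₀ < M := by
      refine lt_of_le_of_lt (hmin i₁ (by simp [hI, hi₁])) ?_
      have := hmM i₁
      simp only [ht]; omega
    -- the unit quotients
    have hbex : ∀ i, ∃ b : S.O,
        (P i ≠ 0 → (b : Ω) = aeval (u : Ω) (P' i) / aeval (u : Ω) (Q' i) ∧ S.red b ≠ 0 ∧
          ∃ e : ℤ, w (S.red b) = g ^ ((D : ℤ) * e)) ∧ (P i = 0 → b = 0) := by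
      intro i
      by_cases h : P i = 0
      · exact ⟨0, fun h' => absurd h h', fun _ => rfl⟩
      · obtain ⟨b, h1, h2, h3⟩ :=
          S.exists_quot w hwk hg hD u hu (P' i) (Q' i) (hP' i h) (hQ' i)
        exact ⟨b, fun _ => ⟨h1, h2, h3⟩, fun h' => absurd h' h⟩
    choose b hb1 hb0 using hbex
    set ϖ : S.O := algebraMap R S.O S.π with hϖ
    have hϖc : (ϖ : Ω) = algebraMap R Ω S.π := rfl
    set y : S.O := ∑ i, ϖ ^ (t i - t i₀) * b i * j ^ (i : ℕ) with hy
    set xO : S.O := ⟨_, hx⟩ with hxO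
    have hyx : y = ϖ ^ (M - t i₀) * xO := by
      apply Subtype.ext
      have hT : algebraMap R Ω S.π ^ t i₀ ≠ 0 := pow_ne_zero _ hπ
      apply mul_right_cancel₀ hT
      simp only [hy, hxO, Subalgebra.coe_mul, Subalgebra.coe_pow, hϖc, AddSubmonoidClass.coe_finsetSum,
        Finset.sum_mul, Finset.mul_sum]
      refine Finset.sum_congr rfl fun i _ => ?_
      by_cases h : P i = 0
      · have hPi : aeval (u : Ω) (P i) = 0 := by rw [h, map_zero]
        rw [hb0 i h, hPi]
        simp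
      · obtain ⟨hbi, -, -⟩ := hb1 i h
        have hti : t i₀ ≤ t i := hmin i (by simp [hI, h])
        have hmi := hmM i
        rw [hbi, hPval i, hQval i]
        have e1 : algebraMap R Ω S.π ^ (t i - t i₀) * algebraMap R Ω S.π ^ t i₀
            = algebraMap R Ω S.π ^ (n i) * algebraMap R Ω S.π ^ (M - m i) := by
          rw [← pow_add, ← pow_add]
          congr 1
          simp only [ht] at hti ⊢
          omega
        have e2 : algebraMap R Ω S.π ^ (M - t i₀) * algebraMap R Ω S.π ^ t i₀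
            = algebraMap R Ω S.π ^ (M - m i) * algebraMap R Ω S.π ^ (m i) := by
          rw [← pow_add, ← pow_add]
          congr 1
          omega
        have hq := hq0 i
        have hm0 : algebraMap R Ω S.π ^ m i ≠ 0 := pow_ne_zero _ hπ
        calc algebraMap R Ω S.π ^ (t i - t i₀) * (aeval (u : Ω) (P' i) / aeval (u : Ω) (Q' i))
              * (j : Ω) ^ (i : ℕ) * algebraMap R Ω S.π ^ t i₀
            = (algebraMap R Ω S.π ^ (t i - t i₀) * algebraMap R Ω S.π ^ t i₀)
              * (aeval (u : Ω) (P' i) / aeval (u : Ω) (Q' i)) * (j : Ω) ^ (i : ℕ) := by ring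
          _ = (algebraMap R Ω S.π ^ (M - m i) * algebraMap R Ω S.π ^ (m i))
              * (algebraMap R Ω S.π ^ n i * aeval (u : Ω) (P' i)
                / (algebraMap R Ω S.π ^ m i * aeval (u : Ω) (Q' i))) * (j : Ω) ^ (i : ℕ) := by
            rw [e1]; field_simp
          _ = algebraMap R Ω S.π ^ (M - t i₀) * (algebraMap R Ω S.π ^ n i * aeval (u : Ω) (P' i)
                / (algebraMap R Ω S.π ^ m i * aeval (u : Ω) (Q' i)) * (j : Ω) ^ (i : ℕ))
              * algebraMap R Ω S.π ^ t i₀ := by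
            rw [← e2]; ring
    -- reduction of `y` vanishes
    have hredy : S.red y = 0 := by
      rw [hyx, map_mul, map_pow, hϖ, S.red_π, zero_pow (by omega), zero_mul]
    -- but orthogonality says otherwise
    have hsum : ∑ i, (S.red ϖ ^ (t i - t i₀) * S.red (b i)) * S.red j ^ (i : ℕ) = 0 := by
      rw [← hredy, hy, map_sum]
      refine Finset.sum_congr rfl fun i _ => ?_
      rw [map_mul, map_mul, map_pow, map_pow]
    have hc : ∀ i, S.red ϖ ^ (t i - t i₀) * S.red (b i) = 0 ∨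
        ∃ e : ℤ, w (S.red ϖ ^ (t i - t i₀) * S.red (b i)) = g ^ ((D : ℤ) * e) := by
      intro i
      by_cases h : P i = 0
      · left; rw [hb0 i h, map_zero, mul_zero]
      · by_cases hti : t i - t i₀ = 0
        · right
          obtain ⟨-, -, e, he⟩ := hb1 i h
          exact ⟨e, by rw [hti, pow_zero, one_mul, he]⟩
        · left
          rw [hϖ, S.red_π, zero_pow hti, zero_mul]
    have h0 := orthogonality w hg hj _ hc hsum i₀
    rw [Nat.sub_self, pow_zero, one_mul] at h0
    exact (hb1 i₀ hi₀).2.1 h0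
  -- conclusion
  intro i
  by_cases h : P i = 0
  · rw [h, map_zero, zero_div]
    exact S.isGaussFrac_zero u
  · refine ⟨C (S.π ^ (n i - m i)) * P' i, Q' i, hQ' i, ?_⟩
    have hle := key i h
    rw [hPval i, hQval i, map_mul, aeval_C, map_pow]
    have hq := hq0 i
    have hm0 : algebraMap R Ω S.π ^ m i ≠ 0 := pow_ne_zero _ hπ
    have e1 : algebraMap R Ω S.π ^ n i
        = algebraMap R Ω S.π ^ (n i - m i) * algebraMap R Ω S.π ^ m i := by
      rw [← pow_add]; congr 1; omega
    rw [e1]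
    field_simp

end GaussSetup

end Fermat.Agent.S28.H73
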