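/-
S28 (Igusa), work package C, Lemma A for an ARBITRARY valuation ring (helper73).

Same statement as `H73_LemmaA.lean`, but the base ring `R` is any valuation ring (total
divisibility), not necessarily discrete: no uniformizer is used.  This is the form needed when the
base is a valuation subring of `ℂ` dominating `ℤ_(ℓ)`.

Main result: `GaussSetupV.lemmaAV`.
-/
import Fermat.Agent.S28.H73_LemmaA

set_option autoImplicit false

namespace Fermat.Agent.S28.H73

open Polynomial

/-! ### Divisibility in a valuation ring -/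

section Dvd

variable {R : Type*} [CommRing R]

/-- In a ring with total divisibility, a nonempty finite family has a member dividing all
members. -/
theorem exists_dvd_all (htot : ∀ a b : R, a ∣ b ∨ b ∣ a) {ι : Type*} (s : Finset ι)
    (hs : s.Nonempty) (f : ι → R) : ∃ i₀ ∈ s, ∀ i ∈ s, f i₀ ∣ f i := by
  classical
  induction hs using Finset.Nonempty.cons_induction with
  | singleton a => exact ⟨a, Finset.mem_singleton_self a, fun i hi => by
      rw [Finset.mem_singleton] at hi; rw [hi]⟩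
  | cons a s ha _ ih =>
    obtain ⟨i₀, hi₀, h⟩ := ih
    rcases htot (f a) (f i₀) with h1 | h1
    · refine ⟨a, Finset.mem_cons_self a s, fun i hi => ?_⟩
      rcases Finset.mem_cons.1 hi with rfl | hi
      · exact dvd_rfl
      · exact h1.trans (h i hi)
    · refine ⟨i₀, Finset.mem_cons.2 (Or.inr hi₀), fun i hi => ?_⟩
      rcases Finset.mem_cons.1 hi with rfl | hi
      · exact h1
      · exact h i hi

/-- Primitive part of a nonzero polynomial over a valuation ring. -/
theorem exists_prim_of_dvd_total [IsDomain R] {k : Type*} [Field k] (res : R →+* k)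
    (htot : ∀ a b : R, a ∣ b ∨ b ∣ a) (P : R[X]) (hP : P ≠ 0) :
    ∃ (c : R) (P' : R[X]), c ≠ 0 ∧ P = C c * P' ∧ P'.map res ≠ 0 := by
  classical
  have hsupp : P.support.Nonempty := by
    rw [Finset.nonempty_iff_ne_empty, Ne, Polynomial.support_eq_empty]; exact hP
  obtain ⟨i₀, hi₀, h⟩ := exists_dvd_all htot P.support hsupp (fun i => P.coeff i)
  have hc : P.coeff i₀ ≠ 0 := Polynomial.mem_support_iff.1 hi₀
  have hdvd : C (P.coeff i₀) ∣ P := by
    rw [C_dvd_iff_dvd_coeff]
    intro i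
    by_cases hi : i ∈ P.support
    · exact h i hi
    · rw [Polynomial.notMem_support_iff.1 hi]; exact dvd_zero _
  obtain ⟨P', hP'⟩ := hdvd
  refine ⟨P.coeff i₀, P', hc, hP', ?_⟩
  have h1 : P'.coeff i₀ = 1 := by
    have := congrArg (fun q : R[X] => q.coeff i₀) hP'
    simp only [coeff_C_mul] at this
    exact mul_left_cancel₀ hc (by rw [← this, mul_one])
  intro h0
  have := congrArg (fun q : k[X] => q.coeff i₀) h0
  simp only [coeff_map, h1, map_one, coeff_zero] at this
  exact one_ne_zero this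

end Dvd

/-! ### The Gauss setup over a valuation ring -/

/-- Abstract Gauss setup over a valuation ring `R` (total divisibility, embedded in the field `Ω`):
`O ⊆ Ω` is the "Gauss ring" (a local subring with residue map `red` to `E`), `res : R → k` kills
the non-units of `R`. -/
structure GaussSetupV (R k Ω E : Type*) [CommRing R] [Field k] [Field Ω] [Field E]
    [Algebra R Ω] [Algebra k E] where
  /-- the Gauss ring -/
  O : Subalgebra R Ω
  /-- reduction map of the Gauss ring -/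
  red : O →+* E
  /-- residue map of the base ring -/
  res : R →+* k
  red_algebraMap : ∀ r : R, red (algebraMap R O r) = algebraMap k E (res r)
  inv_mem : ∀ x : O, red x ≠ 0 → ((x : Ω))⁻¹ ∈ O
  injective : Function.Injective (algebraMap R Ω)
  dvd_total : ∀ a b : R, a ∣ b ∨ b ∣ a
  res_eq_zero : ∀ r : R, ¬ IsUnit r → res r = 0

namespace GaussSetupV

set_option linter.unusedSectionVars false

variable {R k Ω E Γ₀ : Type*} [CommRing R] [IsDomain R] [Field k] [Field Ω] [Field E]
  [Algebra R Ω] [Algebra k E] [LinearOrderedCommGroupWithZero Γ₀]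
  (S : GaussSetupV R k Ω E)

theorem red_aeval (u : S.O) (P : R[X]) :
    S.red (aeval u P) = aeval (S.red u) (P.map S.res) := by
  have hcomp : S.red.comp (algebraMap R S.O) = (algebraMap k E).comp S.res :=
    RingHom.ext fun r => S.red_algebraMap r
  rw [aeval_def, hom_eval₂, hcomp, aeval_def, eval₂_map]

/-- The Gauss ring of `Frac R (u)`: quotients `P(u)/Q(u)` with `Q` nonzero modulo the maximal
ideal. -/
def IsGaussFrac (u : S.O) (a : Ω) : Prop :=
  ∃ P Q : R[X], Q.map S.res ≠ 0 ∧ a = aeval (u : Ω) P / aeval (u : Ω) Q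

theorem isGaussFrac_zero (u : S.O) : S.IsGaussFrac u 0 :=
  ⟨0, 1, by simp, by simp⟩

variable (w : Valuation E Γ₀)

theorem valuation_red_aeval (hwk : ∀ c : k, c ≠ 0 → w (algebraMap k E c) = 1)
    (u : S.O) (hu : 1 < w (S.red u)) (P : R[X]) (hP : P.map S.res ≠ 0) :
    w (S.red (aeval u P)) = w (S.red u) ^ (P.map S.res).natDegree := by
  rw [S.red_aeval]
  exact valuation_aeval_eq_pow w hwk hu _ hP

theorem red_aeval_ne_zero (hwk : ∀ c : k, c ≠ 0 → w (algebraMap k E c) = 1)
    (u : S.O) (hu : 1 < w (S.red u)) (P : R[X]) (hP : P.map S.res ≠ 0) :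
    S.red (aeval u P) ≠ 0 := by
  rw [S.red_aeval]
  exact aeval_ne_zero_of_one_lt w hwk hu _ hP

theorem aeval_ne_zero (hwk : ∀ c : k, c ≠ 0 → w (algebraMap k E c) = 1)
    (u : S.O) (hu : 1 < w (S.red u)) (P : R[X]) (hP : P.map S.res ≠ 0) :
    aeval (u : Ω) P ≠ 0 := by
  intro h
  apply S.red_aeval_ne_zero w hwk u hu P hP
  have : (aeval u P : S.O) = 0 := Subtype.ext (by rw [aeval_subalgebra_coe]; exact h)
  rw [this, map_zero]

/-- A quotient `P(u)/Q(u)` (both nonzero mod the maximal ideal) as an element of `O`, with the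
valuation of its reduction. -/
theorem exists_quot (hwk : ∀ c : k, c ≠ 0 → w (algebraMap k E c) = 1)
    {g : Γ₀} (hg : 1 < g) {D : ℕ} (hD : 0 < D) (u : S.O) (hu : w (S.red u) = g ^ D)
    (P Q : R[X]) (hP : P.map S.res ≠ 0) (hQ : Q.map S.res ≠ 0) :
    ∃ b : S.O, (b : Ω) = aeval (u : Ω) P / aeval (u : Ω) Q ∧ S.red b ≠ 0 ∧
      ∃ m : ℤ, w (S.red b) = g ^ ((D : ℤ) * m) := by
  have hu1 : 1 < w (S.red u) := by rw [hu]; exact one_lt_pow₀ hg hD.ne'
  have hQ0 := S.red_aeval_ne_zero w hwk u hu1 Q hQ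
  have hP0 := S.red_aeval_ne_zero w hwk u hu1 P hP
  have hQinv := S.inv_mem (aeval u Q) hQ0
  set qi : S.O := ⟨_, hQinv⟩ with hqi
  have hmul : aeval u Q * qi = 1 := by
    apply Subtype.ext
    have hne : ((aeval u Q : S.O) : Ω) ≠ 0 := by
      intro h
      apply hQ0
      have : (aeval u Q : S.O) = 0 := Subtype.ext h
      rw [this, map_zero]
    simp only [hqi, Subalgebra.coe_mul, Subalgebra.coe_one]
    exact mul_inv_cancel₀ hne
  have hred : S.red (aeval u Q) * S.red qi = 1 := by rw [← map_mul, hmul, map_one]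
  refine ⟨aeval u P * qi, ?_, ?_, ?_⟩
  · simp only [hqi, Subalgebra.coe_mul, aeval_subalgebra_coe, div_eq_mul_inv]
  · rw [map_mul]
    exact mul_ne_zero hP0 (right_ne_zero_of_mul_eq_one hred)
  · refine ⟨((P.map S.res).natDegree : ℤ) - ((Q.map S.res).natDegree : ℤ), ?_⟩
    have hg0 : g ≠ 0 := (lt_trans zero_lt_one hg).ne'
    have h1 : w (S.red qi) = (w (S.red (aeval u Q)))⁻¹ := by
      have := congrArg w hred
      rw [map_mul, map_one] at this
      exact eq_inv_of_mul_eq_one_right this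
    rw [map_mul, map_mul, h1, S.valuation_red_aeval w hwk u hu1 P hP,
      S.valuation_red_aeval w hwk u hu1 Q hQ, hu, ← pow_mul, ← pow_mul, mul_sub,
      zpow_sub₀ hg0, div_eq_mul_inv]
    norm_cast

/-- **Lemma A** over a valuation ring.
If `w (red j) = g > 1`, `w (red u) = g ^ D`, and `x = ∑_{i<D} (P_i(u)/Q_i(u)) j^i ∈ O` with
`P_i, Q_i ∈ R[X]`, `Q_i ≠ 0`, then every coefficient `P_i(u)/Q_i(u)` lies in the Gauss ring of
`Frac R (u)`, i.e. is of the form `P'(u)/Q'(u)` with `Q'` nonzero modulo the maximal ideal. -/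
theorem lemmaAV (hwk : ∀ c : k, c ≠ 0 → w (algebraMap k E c) = 1)
    {g : Γ₀} (hg : 1 < g) {D : ℕ} (hD : 0 < D) (u j : S.O)
    (hj : w (S.red j) = g) (hu : w (S.red u) = g ^ D)
    (P Q : Fin D → R[X]) (hQ : ∀ i, Q i ≠ 0)
    (hx : ∑ i, (aeval (u : Ω) (P i) / aeval (u : Ω) (Q i)) * (j : Ω) ^ (i : ℕ) ∈ S.O) :
    ∀ i, S.IsGaussFrac u (aeval (u : Ω) (P i) / aeval (u : Ω) (Q i)) := by
  classical
  have hinj := S.injective
  have hne : ∀ r : R, r ≠ 0 → algebraMap R Ω r ≠ 0 := fun r hr h =>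
    hr (hinj (by rw [h, map_zero]))
  have hu1 : 1 < w (S.red u) := by rw [hu]; exact one_lt_pow₀ hg hD.ne'
  -- primitive parts of the denominators
  choose d Q' hd hQeq hQ' using fun i => exists_prim_of_dvd_total S.res S.dvd_total (Q i) (hQ i)
  -- primitive parts of the numerators
  have hPdata : ∀ i, ∃ (c : R) (P' : R[X]),
      P i = C c * P' ∧ (P i ≠ 0 → c ≠ 0 ∧ P'.map S.res ≠ 0) ∧ (P i = 0 → c = 0) := by
    intro i
    by_cases h : P i = 0
    · exact ⟨0, 0, by simp [h], fun h' => absurd h h', fun _ => rfl⟩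
    · obtain ⟨c, P', h0, h1, h2⟩ := exists_prim_of_dvd_total S.res S.dvd_total (P i) h
      exact ⟨c, P', h1, fun _ => ⟨h0, h2⟩, fun h' => absurd h' h⟩
  choose c P' hPeq hP' hc0 using hPdata
  have hq0 : ∀ i, aeval (u : Ω) (Q' i) ≠ 0 := fun i => S.aeval_ne_zero w hwk u hu1 (Q' i) (hQ' i)
  have hPval : ∀ i, aeval (u : Ω) (P i) = algebraMap R Ω (c i) * aeval (u : Ω) (P' i) := by
    intro i
    conv_lhs => rw [hPeq i]
    rw [map_mul, aeval_C]
  have hQval : ∀ i, aeval (u : Ω) (Q i) = algebraMap R Ω (d i) * aeval (u : Ω) (Q' i) := by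
    intro i
    conv_lhs => rw [hQeq i]
    rw [map_mul, aeval_C]
  -- common denominator
  set δ : R := ∏ i, d i with hδ
  have hδ0 : δ ≠ 0 := Finset.prod_ne_zero_iff.2 fun i _ => hd i
  obtain ⟨c', hcd, hc'z, hc'nz⟩ : ∃ c' : Fin D → R, (∀ i, d i * c' i = c i * δ) ∧
      (∀ i, c i = 0 → c' i = 0) ∧ (∀ i, c i ≠ 0 → c' i ≠ 0) := by
    refine ⟨fun i => c i * ∏ i' ∈ Finset.univ.erase i, d i', fun i => ?_, fun i hi => ?_,
      fun i hi => ?_⟩
    · simp only [hδ]
      rw [← Finset.mul_prod_erase Finset.univ d (Finset.mem_univ i)]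
      ring
    · simp only [hi, zero_mul]
    · exact mul_ne_zero hi (Finset.prod_ne_zero_iff.2 fun i' _ => hd i')
  -- the unit quotients
  have hbex : ∀ i, ∃ b : S.O,
      (P i ≠ 0 → (b : Ω) = aeval (u : Ω) (P' i) / aeval (u : Ω) (Q' i) ∧ S.red b ≠ 0 ∧
        ∃ e : ℤ, w (S.red b) = g ^ ((D : ℤ) * e)) ∧ (P i = 0 → b = 0) := by
    intro i
    by_cases h : P i = 0
    · exact ⟨0, fun h' => absurd h h', fun _ => rfl⟩
    · obtain ⟨b, h1, h2, h3⟩ :=
        S.exists_quot w hwk hg hD u hu (P' i) (Q' i) (hP' i h).2 (hQ' i)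
      exact ⟨b, fun _ => ⟨h1, h2, h3⟩, fun h' => absurd h' h⟩
  choose b hb1 hb0 using hbex
  -- `δ * a_i = c'_i * b_i`
  have hδa : ∀ i, algebraMap R Ω δ * (aeval (u : Ω) (P i) / aeval (u : Ω) (Q i))
      = algebraMap R Ω (c' i) * (b i : Ω) := by
    intro i
    by_cases h : P i = 0
    · rw [h, map_zero, zero_div, mul_zero, hb0 i h]; simp
    · obtain ⟨hbi, -, -⟩ := hb1 i h
      rw [hbi, hPval i, hQval i]
      have hdi : algebraMap R Ω (d i) ≠ 0 := hne _ (hd i)
      have hq := hq0 i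
      have e : algebraMap R Ω (d i) * algebraMap R Ω (c' i)
          = algebraMap R Ω (c i) * algebraMap R Ω δ := by
        rw [← map_mul, ← map_mul, hcd i]
      field_simp
      linear_combination (-(aeval (u : Ω) (P' i))) * e
  -- trivial case: all numerators vanish
  by_cases hall : ∀ i, P i = 0
  · intro i
    rw [hall i, map_zero, zero_div]
    exact S.isGaussFrac_zero u
  simp only [not_forall] at hall
  obtain ⟨i₁, hi₁⟩ := hall
  set I : Finset (Fin D) := Finset.univ.filter (fun i => P i ≠ 0) with hI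
  obtain ⟨i₀, hi₀I, hdvd⟩ := exists_dvd_all S.dvd_total I ⟨i₁, by simp [hI, hi₁]⟩ c'
  have hi₀ : P i₀ ≠ 0 := by simpa [hI] using hi₀I
  have hc'ne : ∀ i, P i ≠ 0 → c' i ≠ 0 := fun i hi => hc'nz i (hP' i hi).1
  have hc'0 : c' i₀ ≠ 0 := hc'ne i₀ hi₀
  -- quotients `r_i = c'_i / c'_{i₀}`
  have hrex : ∀ i, ∃ r : R, c' i = c' i₀ * r ∧ (i = i₀ → r = 1) := by
    intro i
    by_cases hii : i = i₀
    · subst hii; exact ⟨1, by rw [mul_one], fun _ => rfl⟩
    · by_cases h : P i = 0
      · refine ⟨0, ?_, fun h' => absurd h' hii⟩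
        rw [hc'z i (hc0 i h), mul_zero]
      · obtain ⟨r, hr⟩ := hdvd i (by simp [hI, h])
        exact ⟨r, hr, fun h' => absurd h' hii⟩
  choose r hr hr1 using hrex
  set xO : S.O := ⟨_, hx⟩ with hxO
  -- key claim: `δ ∣ c' i₀`
  have key : δ ∣ c' i₀ := by
    by_contra hcon
    obtain ⟨s, hs⟩ := (S.dvd_total δ (c' i₀)).resolve_left hcon
    have hsunit : ¬ IsUnit s := by
      intro hsu
      apply hcon
      obtain ⟨s', hs'⟩ := hsu.exists_right_inv
      exact ⟨s', by rw [hs, mul_assoc, hs', mul_one]⟩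
    set y : S.O := ∑ i, algebraMap R S.O (r i) * b i * j ^ (i : ℕ) with hy
    have hyx : y = algebraMap R S.O s * xO := by
      apply Subtype.ext
      apply mul_left_cancel₀ (hne _ hc'0)
      simp only [hy, hxO, Subalgebra.coe_mul, Subalgebra.coe_pow, AddSubmonoidClass.coe_finsetSum,
        Subalgebra.coe_algebraMap, Finset.mul_sum]
      refine Finset.sum_congr rfl fun i _ => ?_
      have e1 := hδa i
      have e2 : algebraMap R Ω (c' i) = algebraMap R Ω (c' i₀) * algebraMap R Ω (r i) := by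
        rw [← map_mul, ← hr i]
      have e3 : algebraMap R Ω δ = algebraMap R Ω (c' i₀) * algebraMap R Ω s := by
        rw [← map_mul, ← hs]
      linear_combination (-(j : Ω) ^ (i : ℕ)) * e1 - (b i : Ω) * (j : Ω) ^ (i : ℕ) * e2
        + (aeval (u : Ω) (P i) / aeval (u : Ω) (Q i)) * (j : Ω) ^ (i : ℕ) * e3
    have hredy : S.red y = 0 := by
      rw [hyx, map_mul, S.red_algebraMap, S.res_eq_zero s hsunit, map_zero, zero_mul]
    have hsum : ∑ i, (algebraMap k E (S.res (r i)) * S.red (b i)) * S.red j ^ (i : ℕ) = 0 := by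
      rw [← hredy, hy, map_sum]
      refine Finset.sum_congr rfl fun i _ => ?_
      rw [map_mul, map_mul, map_pow, S.red_algebraMap]
    have hcc : ∀ i, algebraMap k E (S.res (r i)) * S.red (b i) = 0 ∨
        ∃ e : ℤ, w (algebraMap k E (S.res (r i)) * S.red (b i)) = g ^ ((D : ℤ) * e) := by
      intro i
      by_cases h : P i = 0
      · left; rw [hb0 i h, map_zero, mul_zero]
      · by_cases hri : S.res (r i) = 0
        · left; rw [hri, map_zero, zero_mul]
        · right
          obtain ⟨-, -, e, he⟩ := hb1 i h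
          exact ⟨e, by rw [map_mul, hwk _ hri, one_mul, he]⟩
    have h0 := orthogonality w hg hj _ hcc hsum i₀
    rw [hr1 i₀ rfl, map_one, map_one, one_mul] at h0
    exact (hb1 i₀ hi₀).2.1 h0
  -- conclusion
  obtain ⟨s₀, hs₀⟩ := key
  intro i
  by_cases h : P i = 0
  · rw [h, map_zero, zero_div]
    exact S.isGaussFrac_zero u
  · refine ⟨C (s₀ * r i) * P' i, Q' i, hQ' i, ?_⟩
    obtain ⟨hbi, -, -⟩ := hb1 i h
    have e1 := hδa i
    rw [hbi] at e1
    have e2 : algebraMap R Ω (c' i) = algebraMap R Ω (c' i₀) * algebraMap R Ω (r i) := by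
      rw [← map_mul, ← hr i]
    have e3 : algebraMap R Ω (c' i₀) = algebraMap R Ω δ * algebraMap R Ω s₀ := by
      rw [← map_mul, ← hs₀]
    have hδΩ : algebraMap R Ω δ ≠ 0 := hne _ hδ0
    rw [map_mul, aeval_C, map_mul]
    apply mul_left_cancel₀ hδΩ
    rw [e1, e2, e3]
    have hq := hq0 i
    field_simp

end GaussSetupV

end Fermat.Agent.S28.H73
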