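/-
S28 (Igusa), work package C (helper73): the Gauss ring of `C((t))` attached to an arbitrary
valuation subring `O` of the field `C`, with its reduction map to `k((t))` (`k` the residue field
of `O`), and the resulting `GaussSetupV`.

* `iotaV O : O((t)) →+* C((t))`, `redV O : O((t)) →+* k((t))` (coefficientwise),
* `gaussRingV O : Subalgebra O C((t))`, `mem_gaussRingV_iff_gaussInt : x ∈ gaussRingV O ↔ GaussInt O x`,
* `gaussRedV O : gaussRingV O →+* k((t))`,
* `gaussSetupV O : GaussSetupV O k C((t)) k((t))`.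

The construction follows helper90's `H90_Gauss.lean` (which treats `ℤ_(ℓ) ⊆ ℚ`).
-/
import Fermat.Agent.S28.Defs
import Fermat.Agent.S28.H73_LemmaAV

set_option autoImplicit false
set_option linter.unusedSectionVars false

noncomputable section

namespace Fermat.Agent.S28.H73

open ModularCurve

section Series

variable {C : Type} [Field C] (O : ValuationSubring C)

/-- The residue field of `O`. -/
abbrev kV : Type := IsLocalRing.ResidueField ↥O

/-- The residue map of `O`. -/
abbrev resV : ↥O →+* kV O := IsLocalRing.residue ↥O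

/-- `ι : O((t)) → C((t))`. -/
def iotaV : LaurentSeries ↥O →+* LaurentSeries C := coeffMap O.subtype

/-- `red : O((t)) → k((t))`. -/
def redV : LaurentSeries ↥O →+* LaurentSeries (kV O) := coeffMap (resV O)

@[simp] theorem iotaV_coeff (g : LaurentSeries ↥O) (n : ℤ) :
    (iotaV O g).coeff n = ((g.coeff n : ↥O) : C) := rfl

@[simp] theorem redV_coeff (g : LaurentSeries ↥O) (n : ℤ) :
    (redV O g).coeff n = resV O (g.coeff n) := rfl

theorem iotaV_injective : Function.Injective (iotaV O) := by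
  intro g h hgh
  ext n
  have := congrArg (fun x : LaurentSeries C => x.coeff n) hgh
  simpa using this

theorem coeffsIn_iotaV (g : LaurentSeries ↥O) : CoeffsIn O.toSubring (iotaV O g) :=
  fun n => (g.coeff n).2

/-- A series with coefficients in `O` comes from `O((t))`. -/
theorem exists_iotaV_eq {f : LaurentSeries C} (hf : CoeffsIn O.toSubring f) :
    ∃ g : LaurentSeries ↥O, iotaV O g = f := by
  have hsupp : (Function.support fun n : ℤ => (⟨f.coeff n, hf n⟩ : ↥O)) ⊆ f.support := by
    intro n hn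
    show f.coeff n ≠ 0
    intro h0
    apply hn
    exact Subtype.ext h0
  exact ⟨⟨fun n => ⟨f.coeff n, hf n⟩, f.isPWO_support.mono hsupp⟩, HahnSeries.ext rfl⟩

theorem redV_ne_zero_iff (g : LaurentSeries ↥O) :
    redV O g ≠ 0 ↔ ∃ n : ℤ, IsUnit (g.coeff n) := by
  constructor
  · intro h
    by_contra hcon
    simp only [not_exists] at hcon
    apply h
    ext n
    rw [redV_coeff, HahnSeries.coeff_zero]
    by_contra h1
    exact hcon n ((IsLocalRing.residue_ne_zero_iff_isUnit _).1 h1)
  · rintro ⟨n, hn⟩ h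
    have := congrArg (fun x : LaurentSeries (kV O) => x.coeff n) h
    simp only [redV_coeff, HahnSeries.coeff_zero] at this
    exact (IsLocalRing.residue_ne_zero_iff_isUnit _).2 hn this

theorem isUnit_iff_inv_mem (a : ↥O) : IsUnit a ↔ (a : C) ≠ 0 ∧ ((a : C))⁻¹ ∈ O := by
  constructor
  · intro h
    obtain ⟨b, hb⟩ := h.exists_right_inv
    have hb' : (a : C) * (b : C) = 1 := by
      have := congrArg (Subtype.val) hb
      simpa using this
    have ha : (a : C) ≠ 0 := left_ne_zero_of_mul_eq_one hb'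
    refine ⟨ha, ?_⟩
    have : ((a : C))⁻¹ = (b : C) := (eq_inv_of_mul_eq_one_right hb').symm
    rw [this]; exact b.2
  · rintro ⟨ha, hinv⟩
    refine IsUnit.of_mul_eq_one ⟨_, hinv⟩ (Subtype.ext ?_)
    show (a : C) * ((a : C))⁻¹ = 1
    exact mul_inv_cancel₀ ha

/-- `PrimSeries` in terms of the reduction map. -/
theorem primSeries_iff (f : LaurentSeries C) :
    PrimSeries O.toSubring f ↔ ∃ g : LaurentSeries ↥O, redV O g ≠ 0 ∧ iotaV O g = f := by
  constructor
  · rintro ⟨hf, n, hn0, hninv⟩
    obtain ⟨g, hg⟩ := exists_iotaV_eq O hf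
    refine ⟨g, (redV_ne_zero_iff O g).2 ⟨n, ?_⟩, hg⟩
    rw [isUnit_iff_inv_mem]
    have hc : ((g.coeff n : ↥O) : C) = f.coeff n := by rw [← hg]; rfl
    rw [hc]
    exact ⟨hn0, hninv⟩
  · rintro ⟨g, hg, rfl⟩
    obtain ⟨n, hn⟩ := (redV_ne_zero_iff O g).1 hg
    rw [isUnit_iff_inv_mem] at hn
    exact ⟨coeffsIn_iotaV O g, n, hn.1, hn.2⟩

theorem iotaV_ne_zero_of_redV_ne_zero {g : LaurentSeries ↥O} (hg : redV O g ≠ 0) :
    iotaV O g ≠ 0 := by
  intro h
  have : g = 0 := iotaV_injective O (by rw [h, map_zero])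
  exact hg (by rw [this, map_zero])

end Series

section Gauss

variable {C : Type} [Field C] (O : ValuationSubring C)

theorem algebraMap_eq_iotaV (r : ↥O) :
    algebraMap ↥O (LaurentSeries C) r = iotaV O (HahnSeries.C r) := by
  have h1 : algebraMap ↥O (PowerSeries C) r = PowerSeries.C (r : C) := by
    rw [IsScalarTower.algebraMap_apply ↥O C (PowerSeries C)]
    rfl
  rw [HahnSeries.algebraMap_apply', h1, HahnSeries.ofPowerSeries_C]
  exact (coeffMap_single O.subtype 0 r).symm

/-- auxiliary: the value of the reduction computed from a presentation -/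
theorem redV_div_eq_of_eq {x : LaurentSeries C} {g h g' h' : LaurentSeries ↥O}
    (hg : redV O g ≠ 0) (hx : iotaV O g * x = iotaV O h)
    (hg' : redV O g' ≠ 0) (hx' : iotaV O g' * x = iotaV O h') :
    redV O h / redV O g = redV O h' / redV O g' := by
  have e : h * g' = h' * g := by
    apply iotaV_injective O
    rw [map_mul, map_mul, ← hx, ← hx']; ring
  rw [div_eq_div_iff hg hg', ← map_mul, ← map_mul, e]

/-- The Gauss ring of `C((t))` with respect to `O`, as an `O`-subalgebra. -/
def gaussRingV : Subalgebra ↥O (LaurentSeries C) where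
  carrier := {x | ∃ g h : LaurentSeries ↥O, redV O g ≠ 0 ∧ iotaV O g * x = iotaV O h}
  mul_mem' := by
    rintro x y ⟨g, h, hg, hx⟩ ⟨g', h', hg', hy⟩
    refine ⟨g * g', h * h', ?_, ?_⟩
    · rw [map_mul]; exact mul_ne_zero hg hg'
    · rw [map_mul, map_mul, ← hx, ← hy]; ring
  add_mem' := by
    rintro x y ⟨g, h, hg, hx⟩ ⟨g', h', hg', hy⟩
    refine ⟨g * g', h * g' + h' * g, ?_, ?_⟩
    · rw [map_mul]; exact mul_ne_zero hg hg'
    · rw [map_mul, map_add, map_mul, map_mul, ← hx, ← hy]; ring
  algebraMap_mem' := by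
    intro r
    refine ⟨1, HahnSeries.C r, by rw [map_one]; exact one_ne_zero, ?_⟩
    rw [map_one, one_mul, algebraMap_eq_iotaV]

theorem mem_gaussRingV_iff (x : LaurentSeries C) :
    x ∈ gaussRingV O ↔
      ∃ g h : LaurentSeries ↥O, redV O g ≠ 0 ∧ iotaV O g * x = iotaV O h := Iff.rfl

/-- The Gauss ring is exactly the set of `GaussInt` series of `Defs.lean`. -/
theorem mem_gaussRingV_iff_gaussInt (x : LaurentSeries C) :
    x ∈ gaussRingV O ↔ GaussInt O.toSubring x := by
  constructor
  · rintro ⟨g, h, hg, hx⟩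
    refine ⟨iotaV O g, (primSeries_iff O _).2 ⟨g, hg, rfl⟩, ?_⟩
    rw [mul_comm, hx]
    exact coeffsIn_iotaV O h
  · rintro ⟨g, hg, hxg⟩
    obtain ⟨g₀, hg₀, rfl⟩ := (primSeries_iff O g).1 hg
    obtain ⟨h, hh⟩ := exists_iotaV_eq O hxg
    exact ⟨g₀, h, hg₀, by rw [hh, mul_comm]⟩

theorem iotaV_mem_gaussRingV (h : LaurentSeries ↥O) : iotaV O h ∈ gaussRingV O :=
  ⟨1, h, by rw [map_one]; exact one_ne_zero, by simp⟩

/-- The reduction map of the Gauss ring. -/
def gaussRedV : gaussRingV O →+* LaurentSeries (kV O) where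
  toFun x := redV O x.2.choose_spec.choose / redV O x.2.choose
  map_one' := by
    have h := (1 : gaussRingV O).2.choose_spec.choose_spec
    exact (redV_div_eq_of_eq O h.1 h.2 (g' := 1) (h' := 1) (by rw [map_one]; exact one_ne_zero)
      (by simp)).trans (by simp)
  map_zero' := by
    have h := (0 : gaussRingV O).2.choose_spec.choose_spec
    exact (redV_div_eq_of_eq O h.1 h.2 (g' := 1) (h' := 0) (by rw [map_one]; exact one_ne_zero)
      (by simp)).trans (by simp)
  map_mul' x y := by
    have hxy := (x * y).2.choose_spec.choose_spec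
    have hx := x.2.choose_spec.choose_spec
    have hy := y.2.choose_spec.choose_spec
    have hgg : redV O (x.2.choose * y.2.choose) ≠ 0 := by
      rw [map_mul]; exact mul_ne_zero hx.1 hy.1
    refine (redV_div_eq_of_eq O hxy.1 hxy.2 hgg
      (h' := x.2.choose_spec.choose * y.2.choose_spec.choose) ?_).trans ?_
    · rw [map_mul, map_mul, ← hx.2, ← hy.2]
      push_cast; ring
    · rw [map_mul, map_mul, mul_div_mul_comm]
  map_add' x y := by
    have hxy := (x + y).2.choose_spec.choose_spec
    have hx := x.2.choose_spec.choose_spec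
    have hy := y.2.choose_spec.choose_spec
    have hgg : redV O (x.2.choose * y.2.choose) ≠ 0 := by
      rw [map_mul]; exact mul_ne_zero hx.1 hy.1
    refine (redV_div_eq_of_eq O hxy.1 hxy.2 hgg
      (h' := x.2.choose_spec.choose * y.2.choose + y.2.choose_spec.choose * x.2.choose) ?_).trans ?_
    · rw [map_mul, map_add, map_mul, map_mul, ← hx.2, ← hy.2]
      push_cast; ring
    · rw [map_mul, map_add, map_mul, map_mul, div_add_div _ _ hx.1 hy.1]
      congr 1; ring

/-- The defining property of `gaussRedV`. -/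
theorem gaussRedV_eq (x : gaussRingV O) {g h : LaurentSeries ↥O} (hg : redV O g ≠ 0)
    (hx : iotaV O g * (x : LaurentSeries C) = iotaV O h) :
    gaussRedV O x = redV O h / redV O g := by
  have h0 := x.2.choose_spec.choose_spec
  exact redV_div_eq_of_eq O h0.1 h0.2 hg hx

@[simp] theorem gaussRedV_iotaV (h : LaurentSeries ↥O) :
    gaussRedV O ⟨iotaV O h, iotaV_mem_gaussRingV O h⟩ = redV O h := by
  rw [gaussRedV_eq O _ (g := 1) (h := h) (by rw [map_one]; exact one_ne_zero) (by simp)]
  simp

/-- Units: an element with nonzero reduction has its inverse in the Gauss ring. -/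
theorem inv_mem_gaussRingV {x : LaurentSeries C} (hx : x ∈ gaussRingV O)
    (hr : gaussRedV O ⟨x, hx⟩ ≠ 0) : x⁻¹ ∈ gaussRingV O := by
  have hx' := hx
  obtain ⟨g, h, hg, hgx⟩ := hx'
  have hh : redV O h ≠ 0 := by
    intro h0
    apply hr
    rw [gaussRedV_eq O ⟨x, hx⟩ hg hgx, h0, zero_div]
  have hx0 : x ≠ 0 := by
    rintro rfl
    rw [mul_zero] at hgx
    exact iotaV_ne_zero_of_redV_ne_zero O hh hgx.symm
  exact ⟨h, g, hh, by rw [← hgx, mul_assoc, mul_inv_cancel₀ hx0, mul_one]⟩

theorem algebraMap_kV (c : kV O) :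
    algebraMap (kV O) (LaurentSeries (kV O)) c = HahnSeries.C c := by
  rw [algebraMap_laurentSeries_eq_single]
  rfl

/-- The Gauss setup attached to `(C, O)`. -/
def gaussSetupV : GaussSetupV ↥O (kV O) (LaurentSeries C) (LaurentSeries (kV O)) where
  O := gaussRingV O
  red := gaussRedV O
  res := resV O
  red_algebraMap := by
    intro r
    have h : (algebraMap ↥O ↥(gaussRingV O) r) =
        ⟨iotaV O (HahnSeries.C r), iotaV_mem_gaussRingV O _⟩ :=
      Subtype.ext (algebraMap_eq_iotaV O r)
    rw [h, gaussRedV_iotaV, algebraMap_kV]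
    exact coeffMap_single (resV O) 0 r
  inv_mem := fun x hx => inv_mem_gaussRingV O x.2 hx
  injective := by
    intro a b hab
    rw [algebraMap_eq_iotaV, algebraMap_eq_iotaV] at hab
    have := iotaV_injective O hab
    exact HahnSeries.C_injective this
  dvd_total := fun a b => ValuationRing.dvd_total a b
  res_eq_zero := by
    intro r hr
    by_contra h
    exact hr ((IsLocalRing.residue_ne_zero_iff_isUnit _).1 h)

end Gauss

/-! ### The `t`-adic valuation on `k((t))` -/

section TValuation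

open WithZero

variable (k : Type) [Field k]

/-- The `t`-adic valuation on `k((t))`. -/
def tVal : Valuation (LaurentSeries k) ℤᵐ⁰ := Valued.v

theorem tVal_eq_exp_neg_order {f : LaurentSeries k} (hf : f ≠ 0) :
    tVal k f = exp (-f.order) := by
  have h1 : tVal k f ≤ exp (-f.order) :=
    (LaurentSeries.valuation_le_iff_coeff_lt_eq_zero k).2
      fun n hn => HahnSeries.coeff_eq_zero_of_lt_order hn
  refine le_antisymm h1 ?_
  by_contra hcon
  rw [not_le] at hcon
  have hv0 : tVal k f ≠ 0 := (Valuation.ne_zero_iff _).2 hf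
  have hlog : log (tVal k f) < -f.order := (log_lt_iff_lt_exp hv0).2 hcon
  have h2 : tVal k f ≤ exp (-(f.order + 1)) := by
    rw [← log_le_iff_le_exp hv0]
    omega
  have h3 := (LaurentSeries.valuation_le_iff_coeff_lt_eq_zero k).1 h2 f.order (by omega)
  exact hf (HahnSeries.coeff_order_eq_zero.1 h3)

theorem tVal_algebraMap {c : k} (hc : c ≠ 0) :
    tVal k (algebraMap k (LaurentSeries k) c) = 1 := by
  have hne : algebraMap k (LaurentSeries k) c ≠ 0 := by
    intro h
    exact hc ((map_eq_zero _).1 h)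
  rw [tVal_eq_exp_neg_order k hne, algebraMap_laurentSeries_eq_single,
    HahnSeries.order_single hc, neg_zero, exp_zero]

end TValuation

/-! ### Reduction of series with unit leading coefficient -/

section UnitLead

open WithZero

variable {C : Type} [Field C] (O : ValuationSubring C)

/-- A series with coefficients in `O` and unit leading coefficient lies in the Gauss ring, and its
reduction has the same order. -/
theorem exists_of_unitLead {f : LaurentSeries C} (hf : UnitLead O.toSubring f) :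
    ∃ x : gaussRingV O, (x : LaurentSeries C) = f ∧
      tVal (kV O) (gaussRedV O x) = exp (-f.order) := by
  obtain ⟨hco, hf0, hlead⟩ := hf
  obtain ⟨g, hg⟩ := exists_iotaV_eq O hco
  have hlc : f.leadingCoeff = f.coeff f.order := HahnSeries.leadingCoeff_eq
  have hcoef : ((g.coeff f.order : ↥O) : C) = f.coeff f.order := by rw [← hg]; rfl
  have hunit : IsUnit (g.coeff f.order) := by
    rw [isUnit_iff_inv_mem, hcoef, ← hlc]
    exact ⟨HahnSeries.leadingCoeff_ne_zero.2 hf0, hlead⟩
  have hres : resV O (g.coeff f.order) ≠ 0 := (IsLocalRing.residue_ne_zero_iff_isUnit _).2 hunit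
  have hred0 : redV O g ≠ 0 := (redV_ne_zero_iff O g).2 ⟨_, hunit⟩
  have hord : (redV O g).order = f.order := by
    apply le_antisymm
    · exact HahnSeries.order_le_of_coeff_ne_zero (by rw [redV_coeff]; exact hres)
    · by_contra hcon
      rw [not_le] at hcon
      have h1 : (redV O g).coeff (redV O g).order = 0 := by
        rw [redV_coeff]
        have h2 : f.coeff (redV O g).order = 0 := HahnSeries.coeff_eq_zero_of_lt_order hcon
        have h3 : g.coeff (redV O g).order = 0 := by
          apply Subtype.ext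
          have : ((g.coeff (redV O g).order : ↥O) : C) = f.coeff (redV O g).order := by
            rw [← hg]; rfl
          rw [this, h2]; rfl
        rw [h3, map_zero]
      exact hred0 (HahnSeries.coeff_order_eq_zero.1 h1)
  refine ⟨⟨iotaV O g, iotaV_mem_gaussRingV O g⟩, hg, ?_⟩
  rw [gaussRedV_iotaV, tVal_eq_exp_neg_order _ hred0, hord]

end UnitLead

/-! ### Concrete Lemma A -/

section Concrete

open WithZero Polynomial

variable {C : Type} [Field C] (O : ValuationSubring C)

/-- Simultaneous scaling of two polynomials over `C` into `O[X]`. -/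
theorem exists_scale (P Q : C[X]) (hQ : Q ≠ 0) :
    ∃ (e : C) (PR QR : (↥O)[X]), e ≠ 0 ∧ QR ≠ 0 ∧
      PR.map O.subtype = Polynomial.C e * P ∧ QR.map O.subtype = Polynomial.C e * Q := by
  classical
  set s : Finset C := P.coeffs ∪ Q.coeffs with hs
  have hlc : Q.leadingCoeff ∈ s := by
    rw [hs, Finset.mem_union]
    exact Or.inr (Polynomial.coeff_mem_coeffs (by simpa using hQ))
  obtain ⟨m, hm, hmax⟩ := Finset.exists_max_image s (fun c => O.valuation c) ⟨_, hlc⟩
  have hm0 : m ≠ 0 := by
    intro h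
    have h1 := hmax _ hlc
    rw [h, map_zero] at h1
    have : O.valuation Q.leadingCoeff = 0 := le_antisymm h1 zero_le
    exact (leadingCoeff_ne_zero.2 hQ) ((map_eq_zero _).1 this)
  have hv0 : O.valuation m ≠ 0 := (Valuation.ne_zero_iff _).2 hm0
  have hmem : ∀ c : C, (c ∈ s ∨ c = 0) → m⁻¹ * c ∈ O := by
    intro c hc
    rw [← ValuationSubring.valuation_le_one_iff, map_mul, map_inv₀]
    rcases hc with hc | hc
    · have := hmax c hc
      rw [inv_mul_le_iff₀ (zero_lt_iff.2 hv0), mul_one]
      exact this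
    · rw [hc, map_zero, mul_zero]; exact zero_le_one
  have hcoefP : ∀ n, P.coeff n ∈ s ∨ P.coeff n = 0 := by
    intro n
    by_cases h : P.coeff n = 0
    · exact Or.inr h
    · exact Or.inl (Finset.mem_union.2 (Or.inl (Polynomial.coeff_mem_coeffs h)))
  have hcoefQ : ∀ n, Q.coeff n ∈ s ∨ Q.coeff n = 0 := by
    intro n
    by_cases h : Q.coeff n = 0
    · exact Or.inr h
    · exact Or.inl (Finset.mem_union.2 (Or.inr (Polynomial.coeff_mem_coeffs h)))
  have hPl : Polynomial.C m⁻¹ * P ∈ Polynomial.lifts O.subtype := by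
    rw [Polynomial.lifts_iff_coeff_lifts]
    intro n
    rw [coeff_C_mul]
    exact ⟨⟨_, hmem _ (hcoefP n)⟩, rfl⟩
  have hQl : Polynomial.C m⁻¹ * Q ∈ Polynomial.lifts O.subtype := by
    rw [Polynomial.lifts_iff_coeff_lifts]
    intro n
    rw [coeff_C_mul]
    exact ⟨⟨_, hmem _ (hcoefQ n)⟩, rfl⟩
  obtain ⟨PR, hPR⟩ := (Polynomial.mem_lifts _).1 hPl
  obtain ⟨QR, hQR⟩ := (Polynomial.mem_lifts _).1 hQl
  refine ⟨m⁻¹, PR, QR, inv_ne_zero hm0, ?_, hPR, hQR⟩
  rintro rfl
  rw [Polynomial.map_zero] at hQR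
  have : Polynomial.C m⁻¹ * Q ≠ 0 := mul_ne_zero (by simpa using hm0) hQ
  exact this hQR.symm

theorem algebraMap_comp_subtype :
    (algebraMap C (LaurentSeries C)).comp O.subtype = algebraMap ↥O (LaurentSeries C) := by
  ext1 r
  rw [RingHom.comp_apply, algebraMap_eq_iotaV, algebraMap_laurentSeries_eq_single]
  exact (coeffMap_single O.subtype 0 r).symm

theorem aeval_map_subtype (x : LaurentSeries C) (p : (↥O)[X]) :
    aeval x (p.map O.subtype) = aeval x p := by
  rw [aeval_def, aeval_def, eval₂_map, algebraMap_comp_subtype]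

/-- **Lemma A, concrete form over `O[X]`** (deliverable C1).  `J` and `u` have coefficients in `O`
and unit leading coefficients, `ord J = -nJ`, `ord u = -D nJ`.  If
`x = ∑_{i<D} (P_i(u)/Q_i(u)) J^i` is Gauss-integral (`P_i, Q_i ∈ O[X]`, `Q_i ≠ 0`), then each
coefficient is of the form `P'(u)/Q'(u)` with `P', Q' ∈ O[X]` and `Q'` primitive (one coefficient
is a unit). -/
theorem lemmaA_concrete_O (J u : LaurentSeries C) (nJ D : ℕ) (hnJ : 0 < nJ) (hD : 0 < D)
    (hJ : UnitLead O.toSubring J) (hJo : J.order = -(nJ : ℤ))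
    (hu : UnitLead O.toSubring u) (huo : u.order = -((D : ℤ) * (nJ : ℤ)))
    (P Q : Fin D → (↥O)[X]) (hQ : ∀ i, Q i ≠ 0)
    (hx : GaussInt O.toSubring (∑ i, (aeval u (P i) / aeval u (Q i)) * J ^ (i : ℕ))) :
    ∀ i, ∃ P' Q' : (↥O)[X], (∃ n, IsUnit (Q'.coeff n)) ∧
      aeval u (P i) / aeval u (Q i) = aeval u P' / aeval u Q' := by
  classical
  obtain ⟨JG, hJG, hJv⟩ := exists_of_unitLead O hJ
  obtain ⟨uG, huG, huv⟩ := exists_of_unitLead O hu
  have hg : (1 : ℤᵐ⁰) < exp (nJ : ℤ) := by
    rw [← exp_zero, exp_lt_exp]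
    exact_mod_cast hnJ
  have hj' : tVal (kV O) ((gaussSetupV O).red JG) = exp (nJ : ℤ) := by
    show tVal (kV O) (gaussRedV O JG) = _
    rw [hJv, hJo, neg_neg]
  have hu' : tVal (kV O) ((gaussSetupV O).red uG) = exp (nJ : ℤ) ^ D := by
    show tVal (kV O) (gaussRedV O uG) = _
    rw [huv, huo, neg_neg, ← exp_nsmul, nsmul_eq_mul]
  have hxG : ∑ i, (aeval (uG : LaurentSeries C) (P i) / aeval (uG : LaurentSeries C) (Q i))
      * (JG : LaurentSeries C) ^ (i : ℕ) ∈ (gaussSetupV O).O := by
    show _ ∈ gaussRingV O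
    rw [mem_gaussRingV_iff_gaussInt, huG, hJG]
    exact hx
  have main := (gaussSetupV O).lemmaAV (tVal (kV O)) (fun c hc => tVal_algebraMap (kV O) hc)
    hg hD uG JG hj' hu' P Q hQ hxG
  intro i
  obtain ⟨P', Q', hQ', heq⟩ := main i
  refine ⟨P', Q', ?_, ?_⟩
  · have : ∃ n, (Q'.map (gaussSetupV O).res).coeff n ≠ 0 := by
      by_contra hcon
      simp only [not_exists, not_not] at hcon
      exact hQ' (Polynomial.ext fun n => by rw [hcon n, coeff_zero])
    obtain ⟨n, hn⟩ := this
    rw [coeff_map] at hn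
    exact ⟨n, (IsLocalRing.residue_ne_zero_iff_isUnit _).1 hn⟩
  · rw [← huG]; exact heq

/-- **Lemma A, concrete form over `C[X]`** (for `Defs.lean`).  Same as `lemmaA_concrete_O` with
`P_i, Q_i ∈ C[X]`, `Q_i ≠ 0`; the conclusion gives `P'` with coefficients in `O` and `Q'` primitive
(`PrimPoly`). -/
theorem lemmaA_concrete (J u : LaurentSeries C) (nJ D : ℕ) (hnJ : 0 < nJ) (hD : 0 < D)
    (hJ : UnitLead O.toSubring J) (hJo : J.order = -(nJ : ℤ))
    (hu : UnitLead O.toSubring u) (huo : u.order = -((D : ℤ) * (nJ : ℤ)))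
    (P Q : Fin D → C[X]) (hQ : ∀ i, Q i ≠ 0)
    (hx : GaussInt O.toSubring (∑ i, (aeval u (P i) / aeval u (Q i)) * J ^ (i : ℕ))) :
    ∀ i, ∃ P' Q' : C[X], (∀ n, P'.coeff n ∈ O) ∧ PrimPoly O.toSubring Q' ∧
      aeval u (P i) / aeval u (Q i) = aeval u P' / aeval u Q' := by
  classical
  choose e PR QR he hQR hPeq hQeq using fun i => exists_scale O (P i) (Q i) (hQ i)
  have hfrac : ∀ i, aeval u (PR i) / aeval u (QR i) = aeval u (P i) / aeval u (Q i) := by
    intro i
    rw [← aeval_map_subtype O u (PR i), ← aeval_map_subtype O u (QR i), hPeq i, hQeq i,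
      map_mul, map_mul, aeval_C]
    have hne : algebraMap C (LaurentSeries C) (e i) ≠ 0 := by
      intro h
      exact he i ((map_eq_zero _).1 h)
    exact mul_div_mul_left _ _ hne
  have hxR : GaussInt O.toSubring (∑ i, (aeval u (PR i) / aeval u (QR i)) * J ^ (i : ℕ)) := by
    have : ∑ i, (aeval u (PR i) / aeval u (QR i)) * J ^ (i : ℕ)
        = ∑ i, (aeval u (P i) / aeval u (Q i)) * J ^ (i : ℕ) :=
      Finset.sum_congr rfl fun i _ => by rw [hfrac i]
    rw [this]
    exact hx
  have main := lemmaA_concrete_O O J u nJ D hnJ hD hJ hJo hu huo PR QR hQR hxR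
  intro i
  obtain ⟨P', Q', ⟨n, hn⟩, heq⟩ := main i
  refine ⟨P'.map O.subtype, Q'.map O.subtype, ?_, ?_, ?_⟩
  · intro n
    rw [coeff_map]
    exact (P'.coeff n).2
  · refine ⟨fun n => by rw [coeff_map]; exact (Q'.coeff n).2, ?_⟩
    rw [isUnit_iff_inv_mem] at hn
    exact ⟨n, by rw [coeff_map]; exact hn.1, by rw [coeff_map]; exact hn.2⟩
  · rw [← hfrac i, heq, aeval_map_subtype, aeval_map_subtype]

end Concrete

end Fermat.Agent.S28.H73
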