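/-
S28 (Igusa), piece P1 (helper92): Möbius-sum arithmetic for the `t`-orders of the conjugates `u ∘ γ`
of the eta-quotient `u = Δ^φ(r) / ∏_{e ∣ r} Δ_{N/e}^{μ(e) r/e}`, `r = rad N`.

With `r := ∏ p ∈ N.primeFactors, p`, `μ := ArithmeticFunction.moebius`, `c : ℤ`:

* `P1a` : `¬ (N:ℤ) ∣ c → ∑ e ∈ r.divisors, μ e * (gcd c (N/e))^2 = 0`            (`N ≠ 0`)
* `P1a_dvd` : `(N:ℤ) ∣ c → ∑ e ∈ r.divisors, μ e * (gcd c (N/e))^2 = ∑ e ∈ r.divisors, μ e * (N/e)^2`
* `P1b` : `2 ≤ N → ∃ D > 0, N * φ r - r * ∑ e ∈ r.divisors, μ e * (N/e)^2 = -(D * N)`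
* `P1c` : `∑ e ∈ r.divisors, μ e * (r/e) = φ r`
-/
import Mathlib.NumberTheory.ArithmeticFunction.Moebius
import Mathlib.NumberTheory.ArithmeticFunction.Misc
import Mathlib.Data.Nat.Totient
import Mathlib.Data.Nat.Squarefree
import Mathlib.Data.Nat.Factorization.Basic
import Mathlib.Algebra.Order.BigOperators.GroupWithZero.Finset

set_option autoImplicit false

namespace Fermat.Agent.S28.H92

open ArithmeticFunction Finset
open scoped ArithmeticFunction.Moebius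

/-! ### Generalities -/

/-- The radical `∏ p ∈ N.primeFactors, p` is nonzero. -/
theorem rad_ne_zero (N : ℕ) : (∏ p ∈ N.primeFactors, p) ≠ 0 :=
  Finset.prod_ne_zero_iff.2 fun _ hp => (Nat.prime_of_mem_primeFactors hp).ne_zero

/-- The radical is squarefree. -/
theorem rad_squarefree (N : ℕ) : Squarefree (∏ p ∈ N.primeFactors, p) := by
  have h := Nat.primeFactors_prod_primeFactors N
  rw [Nat.squarefree_iff_prime_squarefree]
  intro p hp hdvd
  have h1 : p ∈ N.primeFactors := by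
    rw [← h]
    exact Nat.mem_primeFactors.2 ⟨hp, (dvd_mul_right p p).trans hdvd, rad_ne_zero N⟩
  rw [← Finset.mul_prod_erase _ _ h1] at hdvd
  have h2 : p ∣ ∏ q ∈ N.primeFactors.erase p, q := (Nat.mul_dvd_mul_iff_left hp.pos).1 hdvd
  obtain ⟨q, hq, hpq⟩ := (Prime.dvd_finsetProd_iff (Nat.Prime.prime hp) _).1 h2
  rw [Finset.mem_erase] at hq
  have := (Nat.prime_dvd_prime_iff_eq hp (Nat.prime_of_mem_primeFactors hq.2)).1 hpq
  exact hq.1 this.symm

/-- A squarefree divisor of `N ≠ 0` divides the radical of `N`. -/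
theorem dvd_rad_of_squarefree {N e : ℕ} (hN : N ≠ 0) (he : e ∣ N) (hsq : Squarefree e) :
    e ∣ ∏ p ∈ N.primeFactors, p := by
  rw [← Nat.prod_primeFactors_of_squarefree hsq]
  exact Finset.prod_dvd_prod_of_subset _ _ _ (Nat.primeFactors_mono he hN)

/-- Sums weighted by `μ` over the divisors of `rad N` and over the divisors of `N` agree. -/
theorem sum_moebius_rad_eq {N : ℕ} (hN : N ≠ 0) (F : ℕ → ℤ) :
    ∑ e ∈ (∏ p ∈ N.primeFactors, p).divisors, (μ e : ℤ) * F e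
      = ∑ e ∈ N.divisors, (μ e : ℤ) * F e := by
  refine Finset.sum_subset (Nat.divisors_subset_of_dvd hN (Nat.prod_primeFactors_dvd N)) ?_
  intro e he hne
  have hsq : ¬ Squarefree e := by
    intro hsq
    exact hne (Nat.mem_divisors.2 ⟨dvd_rad_of_squarefree hN (Nat.dvd_of_mem_divisors he) hsq,
      rad_ne_zero N⟩)
  rw [moebius_eq_zero_of_not_squarefree hsq, zero_mul]

/-- The Dirichlet convolution `μ * h` as a sum over divisors. -/
theorem moebius_mul_apply_eq (h : ArithmeticFunction ℤ) (N : ℕ) :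
    ((μ : ArithmeticFunction ℤ) * h) N = ∑ e ∈ N.divisors, (μ e : ℤ) * h (N / e) := by
  rw [mul_apply, Nat.sum_divisorsAntidiagonal (fun d e => (μ d : ℤ) * h e)]

/-- `(μ * h)(p^a) = h(p^a) - h(p^(a-1))` for `a ≥ 1`. -/
theorem moebius_mul_prime_pow (h : ArithmeticFunction ℤ) {p : ℕ} (hp : p.Prime) {a : ℕ}
    (ha : a ≠ 0) :
    ((μ : ArithmeticFunction ℤ) * h) (p ^ a) = h (p ^ a) - h (p ^ (a - 1)) := by
  obtain ⟨b, rfl⟩ := Nat.exists_eq_succ_of_ne_zero ha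
  rw [moebius_mul_apply_eq, Nat.sum_divisors_prime_pow hp, Finset.sum_range_succ',
    Finset.sum_range_succ']
  have h0 : ∑ k ∈ Finset.range b, (μ (p ^ (k + 1 + 1)) : ℤ) * h (p ^ (b + 1) / p ^ (k + 1 + 1)) = 0 := by
    refine Finset.sum_eq_zero fun k _ => ?_
    rw [moebius_apply_prime_pow hp (by omega), if_neg (by omega), zero_mul]
  rw [h0, zero_add, pow_zero, Nat.div_one, moebius_apply_one, one_mul, zero_add, pow_one,
    moebius_apply_prime hp, Nat.succ_sub_one]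
  have h1 : p ^ (b + 1) / p = p ^ b := by
    rw [pow_succ]; exact Nat.mul_div_cancel _ hp.pos
  rw [h1]
  ring

/-! ### The function `m ↦ gcd(c, m)^2` -/

/-- The arithmetic function `m ↦ gcd(c, m)^2` (value `0` at `m = 0`). -/
def gcdSq (c : ℕ) : ArithmeticFunction ℤ where
  toFun m := if m = 0 then 0 else ((Nat.gcd c m : ℕ) : ℤ) ^ 2
  map_zero' := by simp

theorem gcdSq_apply (c : ℕ) {m : ℕ} (hm : m ≠ 0) : gcdSq c m = ((Nat.gcd c m : ℕ) : ℤ) ^ 2 := by
  change (if m = 0 then (0 : ℤ) else ((Nat.gcd c m : ℕ) : ℤ) ^ 2) = _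
  rw [if_neg hm]

theorem isMultiplicative_gcdSq (c : ℕ) : (gcdSq c).IsMultiplicative := by
  rw [IsMultiplicative.iff_ne_zero]
  refine ⟨?_, fun {m n} hm hn hmn => ?_⟩
  · rw [gcdSq_apply c one_ne_zero]; simp
  · rw [gcdSq_apply _ (mul_ne_zero hm hn), gcdSq_apply _ hm, gcdSq_apply _ hn,
      Nat.Coprime.gcd_mul _ hmn]
    push_cast; ring

/-- The Möbius sum for the orders is a value of the multiplicative function `μ * gcdSq c`. -/
theorem moebSum_eq_conv {N : ℕ} (hN : N ≠ 0) (c : ℤ) :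
    ∑ e ∈ (∏ p ∈ N.primeFactors, p).divisors,
        (μ e : ℤ) * ((Int.gcd c ((N / e : ℕ) : ℤ) : ℤ)) ^ 2
      = ((μ : ArithmeticFunction ℤ) * gcdSq c.natAbs) N := by
  rw [moebius_mul_apply_eq,
    sum_moebius_rad_eq hN (fun e => ((Int.gcd c ((N / e : ℕ) : ℤ) : ℤ)) ^ 2)]
  refine Finset.sum_congr rfl fun e he => ?_
  have he' : N / e ≠ 0 := by
    have hdvd := Nat.dvd_of_mem_divisors he
    have hepos : 0 < e := Nat.pos_of_dvd_of_pos hdvd (Nat.pos_of_ne_zero hN)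
    exact (Nat.div_pos (Nat.le_of_dvd (Nat.pos_of_ne_zero hN) hdvd) hepos).ne'
  rw [gcdSq_apply _ he']
  rfl

/-- **P1a**: if `N ∤ c` the Möbius sum vanishes. -/
theorem P1a {N : ℕ} (hN : N ≠ 0) (c : ℤ) (hc : ¬ (N : ℤ) ∣ c) :
    ∑ e ∈ (∏ p ∈ N.primeFactors, p).divisors,
        (μ e : ℤ) * ((Int.gcd c ((N / e : ℕ) : ℤ) : ℤ)) ^ 2 = 0 := by
  rw [moebSum_eq_conv hN]
  have hc' : ¬ N ∣ c.natAbs := fun h => hc (Int.natCast_dvd.2 h)
  rw [Nat.dvd_iff_prime_pow_dvd_dvd] at hc'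
  push Not at hc'
  obtain ⟨p, k, hp, hkN, hkc⟩ := hc'
  -- `a = v_p(N)`
  set a := N.factorization p with ha
  have hka : k ≤ a := (hp.pow_dvd_iff_le_factorization hN).1 hkN
  have hac : ¬ p ^ a ∣ c.natAbs := fun h => hkc ((pow_dvd_pow p hka).trans h)
  have ha0 : a ≠ 0 := by
    rintro h0
    rw [h0] at hac
    exact hac (by simp)
  have hmult := isMultiplicative_moebius.mul (isMultiplicative_gcdSq c.natAbs)
  have hNfac : N = p ^ a * (N / p ^ a) := (Nat.ordProj_mul_ordCompl_eq_self N p).symm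
  have hcop : Nat.Coprime (p ^ a) (N / p ^ a) :=
    (Nat.coprime_ordCompl hp hN).pow_left _
  rw [hNfac, hmult.map_mul_of_coprime hcop, moebius_mul_prime_pow _ hp ha0]
  have hgcd : Nat.gcd c.natAbs (p ^ a) = Nat.gcd c.natAbs (p ^ (a - 1)) := by
    apply Nat.dvd_antisymm
    · refine Nat.dvd_gcd (Nat.gcd_dvd_left _ _) ?_
      obtain ⟨j, hj, hjeq⟩ := (Nat.dvd_prime_pow hp).1 (Nat.gcd_dvd_right c.natAbs (p ^ a))
      have hja : j ≠ a := by
        rintro rfl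
        exact hac (hjeq ▸ Nat.gcd_dvd_left _ _)
      rw [hjeq]
      exact pow_dvd_pow p (by omega)
    · exact Nat.dvd_gcd (Nat.gcd_dvd_left _ _)
        ((Nat.gcd_dvd_right _ _).trans (pow_dvd_pow p (Nat.sub_le _ _)))
  rw [gcdSq_apply _ (pow_ne_zero _ hp.ne_zero), gcdSq_apply _ (pow_ne_zero _ hp.ne_zero), hgcd,
    sub_self, zero_mul]

/-- **P1a'**: if `N ∣ c` the gcd's in the Möbius sum are `N / e`. -/
theorem P1a_dvd {N : ℕ} (c : ℤ) (hc : (N : ℤ) ∣ c) :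
    ∑ e ∈ (∏ p ∈ N.primeFactors, p).divisors,
        (μ e : ℤ) * ((Int.gcd c ((N / e : ℕ) : ℤ) : ℤ)) ^ 2
      = ∑ e ∈ (∏ p ∈ N.primeFactors, p).divisors, (μ e : ℤ) * (((N / e : ℕ) : ℤ)) ^ 2 := by
  refine Finset.sum_congr rfl fun e he => ?_
  have hdvd : e ∣ N := (Nat.dvd_of_mem_divisors he).trans (Nat.prod_primeFactors_dvd N)
  have h1 : ((N / e : ℕ) : ℤ) ∣ c :=
    (Int.natCast_dvd_natCast.2 (Nat.div_dvd_of_dvd hdvd)).trans hc
  have h2 : Int.gcd c ((N / e : ℕ) : ℤ) = N / e := by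
    rw [Int.gcd_eq_natAbs_right h1, Int.natAbs_natCast]
  rw [h2]

/-! ### The case `N ∣ c` -/

/-- `φ(rad N) = ∏_{p ∣ N} (p - 1)`. -/
theorem totient_rad (N : ℕ) :
    Nat.totient (∏ p ∈ N.primeFactors, p) = ∏ p ∈ N.primeFactors, (p - 1) := by
  have h := Nat.totient_mul_prod_primeFactors (∏ p ∈ N.primeFactors, p)
  rw [Nat.primeFactors_prod_primeFactors, mul_comm] at h
  exact Nat.eq_of_mul_eq_mul_left (Nat.pos_of_ne_zero (rad_ne_zero N)) h

/-- `J₂(rad N) = ∏_{p ∣ N} (p² - 1)`. -/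
theorem jordan_rad (N : ℕ) :
    ∑ e ∈ (∏ p ∈ N.primeFactors, p).divisors,
        (μ e : ℤ) * ((((∏ p ∈ N.primeFactors, p) / e : ℕ) : ℤ)) ^ 2
      = ∏ p ∈ N.primeFactors, ((p : ℤ) ^ 2 - 1) := by
  set r := ∏ p ∈ N.primeFactors, p with hr
  have hmult := isMultiplicative_moebius.mul
    ((isMultiplicative_pow (k := 2)).natCast (R := ℤ))
  have h1 : ∑ e ∈ r.divisors, (μ e : ℤ) * (((r / e : ℕ) : ℤ)) ^ 2
      = ((μ : ArithmeticFunction ℤ) * ((pow 2 : ArithmeticFunction ℕ) : ArithmeticFunction ℤ)) r := by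
    rw [moebius_mul_apply_eq]
    refine Finset.sum_congr rfl fun e _ => ?_
    rw [natCoe_apply, pow_apply, if_neg (by simp)]
    push_cast; rfl
  rw [h1, ← hmult.prod_primeFactors (rad_squarefree N), Nat.primeFactors_prod_primeFactors]
  refine Finset.prod_congr rfl fun p hp => ?_
  have hp' := Nat.prime_of_mem_primeFactors hp
  have := moebius_mul_prime_pow ((pow 2 : ArithmeticFunction ℕ) : ArithmeticFunction ℤ) hp'
    one_ne_zero
  rw [pow_one] at this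
  rw [this, natCoe_apply, natCoe_apply, pow_apply, pow_apply, if_neg (by simp), if_neg (by simp)]
  simp

/-- **P1b**: for `N ≥ 2` and `N ∣ c` the order of `u ∘ γ` is `-(D * N)` with `D ≥ 1`. -/
theorem P1b {N : ℕ} (hN : 2 ≤ N) : ∃ D : ℕ, 0 < D ∧
    (N : ℤ) * (Nat.totient (∏ p ∈ N.primeFactors, p) : ℤ)
      - ((∏ p ∈ N.primeFactors, p : ℕ) : ℤ) *
        ∑ e ∈ (∏ p ∈ N.primeFactors, p).divisors, (μ e : ℤ) * (((N / e : ℕ) : ℤ)) ^ 2
      = -((D : ℤ) * N) := by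
  set r := ∏ p ∈ N.primeFactors, p with hr
  have hrN : r ∣ N := Nat.prod_primeFactors_dvd N
  obtain ⟨m, hm⟩ := hrN
  have hN0 : N ≠ 0 := by omega
  have hr0 : r ≠ 0 := rad_ne_zero N
  have hm0 : 0 < m := by
    rcases Nat.eq_zero_or_pos m with h | h
    · rw [h, mul_zero] at hm; exact absurd hm hN0
    · exact h
  -- rewrite the sum
  have hsum : ∑ e ∈ r.divisors, (μ e : ℤ) * (((N / e : ℕ) : ℤ)) ^ 2
      = (m : ℤ) ^ 2 * ∏ p ∈ N.primeFactors, ((p : ℤ) ^ 2 - 1) := by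
    rw [← jordan_rad N, Finset.mul_sum]
    refine Finset.sum_congr rfl fun e he => ?_
    have hdvd : e ∣ r := Nat.dvd_of_mem_divisors he
    have h1 : N / e = m * (r / e) := by
      rw [hm, mul_comm r m, Nat.mul_div_assoc _ hdvd]
    rw [h1, Nat.cast_mul]
    ring
  -- the two products
  have hnonempty : N.primeFactors.Nonempty := by
    rw [Nat.nonempty_primeFactors]; omega
  have hlt : ∏ p ∈ N.primeFactors, (p - 1) < ∏ p ∈ N.primeFactors, (p ^ 2 - 1) := by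
    refine Finset.prod_lt_prod_of_nonempty (fun p hp => ?_) (fun p hp => ?_) hnonempty
    · have := (Nat.prime_of_mem_primeFactors hp).two_le; omega
    · have h2 := (Nat.prime_of_mem_primeFactors hp).two_le
      have : p < p ^ 2 := by nlinarith
      omega
  have hcast : (∏ p ∈ N.primeFactors, ((p : ℤ) ^ 2 - 1))
      = ((∏ p ∈ N.primeFactors, (p ^ 2 - 1) : ℕ) : ℤ) := by
    rw [Nat.cast_prod]
    refine Finset.prod_congr rfl fun p hp => ?_
    have h2 := (Nat.prime_of_mem_primeFactors hp).two_le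
    have : 1 ≤ p ^ 2 := Nat.one_le_pow _ _ (by omega)
    push_cast [Nat.cast_sub this]; ring
  set Pp := ∏ p ∈ N.primeFactors, (p ^ 2 - 1) with hPp
  set Pm := ∏ p ∈ N.primeFactors, (p - 1) with hPm
  have hle : Pm < m * Pp := lt_of_lt_of_le hlt (Nat.le_mul_of_pos_left _ hm0)
  refine ⟨m * Pp - Pm, Nat.sub_pos_of_lt hle, ?_⟩
  rw [hsum, hcast, totient_rad N, ← hPm, Nat.cast_sub hle.le, hm]
  push_cast
  ring

/-- Möbius inversion of `∑_{d ∣ n} φ(d) = n`. -/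
theorem sum_moebius_mul_div_eq_totient {n : ℕ} (hn : 0 < n) :
    ∑ e ∈ n.divisors, (μ e : ℤ) * (((n / e : ℕ) : ℤ)) = (Nat.totient n : ℤ) := by
  have h := (sum_eq_iff_sum_mul_moebius_eq (R := ℤ) (f := fun k => (Nat.totient k : ℤ))
    (g := fun k => (k : ℤ))).1 (fun k _ => by
      have := Nat.sum_totient k
      exact_mod_cast this) n hn
  simp only [Int.cast_id] at h
  rw [← h, Nat.sum_divisorsAntidiagonal (fun d e => (μ d : ℤ) * (e : ℤ))]

/-- **P1c**: weight of the numerator = weight of the denominator. -/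
theorem P1c (N : ℕ) :
    ∑ e ∈ (∏ p ∈ N.primeFactors, p).divisors,
        (μ e : ℤ) * ((((∏ p ∈ N.primeFactors, p) / e : ℕ) : ℤ))
      = (Nat.totient (∏ p ∈ N.primeFactors, p) : ℤ) :=
  sum_moebius_mul_div_eq_totient (Nat.pos_of_ne_zero (rad_ne_zero N))

end Fermat.Agent.S28.H92
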