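/-
S28 (Igusa), algebra core (helper90), part I: symmetric functions of the conjugates.

Over `(C, O)`: from `CoreHyp.sym` the characteristic polynomial `χ = ∏_q (X - U q)` has
coefficients in `C[J]`, of `J`-degree `≤ D`; hence `J` is algebraic of degree `≤ D` over `C(u)`,
`u = U q₀`, and every element of `C(u, J)` is `∑_{i<D} (P_i(u)/Q_i(u)) J^i`.
-/
import Fermat.Agent.S28.Defs
import Fermat.Agent.S28.H73_LemmaA

set_option autoImplicit false
set_option linter.unusedSectionVars false

noncomputable section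

namespace Fermat.Agent.S28.H90

open Polynomial

/-! ### The `t`-adic valuation on Laurent series -/

section Val

variable {K : Type*} [Field K]

/-- the `t`-adic valuation -/
abbrev tVal (K : Type*) [Field K] : Valuation (LaurentSeries K) (WithZero (Multiplicative ℤ)) :=
  Valued.v

theorem tVal_eq_exp_neg_order {f : LaurentSeries K} (hf : f ≠ 0) :
    tVal K f = WithZero.exp (-f.order) := by
  have hle : tVal K f ≤ WithZero.exp (-f.order) :=
    (LaurentSeries.valuation_le_iff_coeff_lt_eq_zero K).2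
      fun n hn => HahnSeries.coeff_eq_zero_of_lt_order hn
  by_contra hne
  have hlt : tVal K f < WithZero.exp (-f.order) := lt_of_le_of_ne hle hne
  have h0 : tVal K f ≠ 0 := (Valuation.ne_zero_iff _).2 hf
  have h1 : WithZero.log (tVal K f) < -f.order := (WithZero.log_lt_iff_lt_exp h0).2 hlt
  have h2 : WithZero.log (tVal K f) ≤ -(f.order + 1) := by omega
  have h3 : tVal K f ≤ WithZero.exp (-(f.order + 1)) := (WithZero.log_le_iff_le_exp h0).1 h2
  have h4 := (LaurentSeries.valuation_le_iff_coeff_lt_eq_zero K).1 h3 f.order (by omega)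
  exact hf (HahnSeries.coeff_order_eq_zero.1 h4)

theorem tVal_C {c : K} (hc : c ≠ 0) : tVal K (HahnSeries.C c) = 1 := by
  have hne : (HahnSeries.C c : LaurentSeries K) ≠ 0 := HahnSeries.C_ne_zero hc
  rw [tVal_eq_exp_neg_order hne]
  have : (HahnSeries.C c : LaurentSeries K).order = 0 := by
    rw [HahnSeries.C_apply, HahnSeries.order_single hc]
  rw [this, neg_zero, WithZero.exp_zero]

theorem tVal_algebraMap {c : K} (hc : c ≠ 0) : tVal K (algebraMap K (LaurentSeries K) c) = 1 := by
  rw [LaurentSeries.algebraMap_apply]; exact tVal_C hc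

theorem tVal_lt_one_of_order_pos {f : LaurentSeries K} (hf : 0 < f.order) : tVal K f < 1 := by
  have hne : f ≠ 0 := by
    rintro rfl
    simp at hf
  rw [tVal_eq_exp_neg_order hne, ← WithZero.exp_zero, WithZero.exp_lt_exp]
  omega

theorem one_lt_tVal_of_order_neg {f : LaurentSeries K} (hf : f.order < 0) : 1 < tVal K f := by
  have hne : f ≠ 0 := by
    rintro rfl
    simp at hf
  rw [tVal_eq_exp_neg_order hne, ← WithZero.exp_zero, WithZero.exp_lt_exp]
  omega

end Val

/-! ### Interpolation -/

section Interp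

variable {C L : Type*} [Field C] [Infinite C] [Field L] [Algebra C L]

theorem basisDivisor_map (x y : C) :
    Lagrange.basisDivisor (algebraMap C L x) (algebraMap C L y) =
      (Lagrange.basisDivisor x y).map (algebraMap C L) := by
  simp only [Lagrange.basisDivisor, Polynomial.map_mul, Polynomial.map_sub, Polynomial.map_X,
    Polynomial.map_C, map_inv₀, map_sub]

theorem basis_map {ι : Type*} [DecidableEq ι] (s : Finset ι) (v : ι → C) (i : ι) :
    Lagrange.basis s (fun j => algebraMap C L (v j)) i =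
      (Lagrange.basis s v i).map (algebraMap C L) := by
  simp only [Lagrange.basis, Polynomial.map_prod, basisDivisor_map]

/-- A polynomial over `L` all of whose values at the constants `c ∈ C` lie in a `C`-subspace `W`
has its coefficients in `W`. -/
theorem coeff_mem_of_eval_mem (W : Submodule C L) (f : L[X])
    (h : ∀ c : C, f.eval (algebraMap C L c) ∈ W) (k : ℕ) : f.coeff k ∈ W := by
  classical
  set n := f.natDegree + 1 with hn
  let v : Fin n → C := fun i => Infinite.natEmbedding C i
  have hinj : Function.Injective fun j : Fin n => algebraMap C L (v j) := by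
    intro i j hij
    have := (algebraMap C L).injective hij
    exact Fin.ext ((Infinite.natEmbedding C).injective this)
  have hdeg : f.degree < ((Finset.univ : Finset (Fin n)).card : WithBot ℕ) := by
    rw [Finset.card_univ, Fintype.card_fin]
    calc f.degree ≤ f.natDegree := Polynomial.degree_le_natDegree
      _ < n := by exact_mod_cast Nat.lt_succ_self _
  have := Lagrange.eq_interpolate (s := Finset.univ)
    (v := fun j : Fin n => algebraMap C L (v j)) (f := f) (hinj.injOn) hdeg
  rw [Lagrange.interpolate_apply] at this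
  rw [this, Polynomial.finsetSum_coeff]
  refine Submodule.sum_mem _ fun i _ => ?_
  rw [Polynomial.coeff_C_mul, basis_map, Polynomial.coeff_map, mul_comm, ← Algebra.smul_def]
  exact W.smul_mem _ (h (v i))

end Interp

/-! ### The characteristic polynomial of the conjugates -/

section Chi

variable {C : Type} [Field C] {Q : Type} [Fintype Q]

/-- The characteristic polynomial `χ = ∏_q (X - U q)`. -/
def chi (U : Q → LaurentSeries C) : (LaurentSeries C)[X] :=
  ∏ q, (X - Polynomial.C (U q))

theorem chi_monic (U : Q → LaurentSeries C) : (chi U).Monic :=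
  monic_prod_of_monic _ _ fun q _ => monic_X_sub_C (U q)

theorem chi_natDegree (U : Q → LaurentSeries C) : (chi U).natDegree = Fintype.card Q := by
  rw [chi, natDegree_prod_of_monic _ _ fun q _ => monic_X_sub_C (U q)]
  simp

theorem chi_eval (U : Q → LaurentSeries C) (x : LaurentSeries C) :
    (chi U).eval x = ∏ q, (x - U q) := by
  simp [chi, eval_prod]

theorem chi_eval_self (U : Q → LaurentSeries C) (q : Q) : (chi U).eval (U q) = 0 := by
  rw [chi_eval]
  exact Finset.prod_eq_zero (Finset.mem_univ q) (sub_self _)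

/-- All coefficients of a product of `X - a_q` with `a_q` in a subring lie in that subring. -/
theorem coeff_prod_X_sub_C_mem {L : Type*} [CommRing L] (S : Subring L) {ι : Type*}
    (s : Finset ι) (a : ι → L) (ha : ∀ i ∈ s, a i ∈ S) (k : ℕ) :
    (∏ i ∈ s, (X - Polynomial.C (a i))).coeff k ∈ S := by
  have h : (∏ i ∈ s, (X - Polynomial.C (a i))) ∈ Polynomial.lifts S.subtype := by
    refine Subsemiring.prod_mem _ fun i hi => ?_
    rw [Polynomial.lifts_iff_coeff_lifts]
    intro n
    rw [Polynomial.coeff_sub, Polynomial.coeff_X, Polynomial.coeff_C]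
    have h1 : (if 1 = n then (1 : L) else 0) ∈ S := by split_ifs <;> simp [one_mem, zero_mem]
    have h2 : (if n = 0 then a i else 0) ∈ S := by
      split_ifs
      · exact ha i hi
      · exact zero_mem _
    exact ⟨⟨_, sub_mem h1 h2⟩, rfl⟩
  rw [Polynomial.lifts_iff_coeff_lifts] at h
  obtain ⟨y, hy⟩ := h k
  rw [← hy]
  exact y.2

variable [IsAlgClosed C] {O : ValuationSubring C} {q₀ : Q} {J : LaurentSeries C}
  {U : Q → LaurentSeries C} {nJ D : ℕ}

theorem chi_coeff_mem_adjoin (hyp : CoreHyp O q₀ J U nJ D) (k : ℕ) :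
    (chi U).coeff k ∈ Algebra.adjoin C ({J} : Set (LaurentSeries C)) := by
  have := coeff_mem_of_eval_mem (C := C)
    (Subalgebra.toSubmodule (Algebra.adjoin C ({J} : Set (LaurentSeries C)))) (chi U)
    (fun c => by
      rw [chi_eval, LaurentSeries.algebraMap_apply]
      exact hyp.sym c) k
  exact this

theorem J_ne_zero (hyp : CoreHyp O q₀ J U nJ D) : J ≠ 0 := hyp.J_unitLead.2.1

theorem one_lt_tVal_J (hyp : CoreHyp O q₀ J U nJ D) : 1 < tVal C J := by
  apply one_lt_tVal_of_order_neg
  rw [hyp.J_order]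
  have := hyp.nJ_pos
  omega

theorem tVal_J (hyp : CoreHyp O q₀ J U nJ D) : tVal C J = WithZero.exp (nJ : ℤ) := by
  rw [tVal_eq_exp_neg_order (J_ne_zero hyp), hyp.J_order, neg_neg]

theorem u_ne_zero (hyp : CoreHyp O q₀ J U nJ D) : U q₀ ≠ 0 := (hyp.U_unitLead q₀).2.1

theorem tVal_u (hyp : CoreHyp O q₀ J U nJ D) :
    tVal C (U q₀) = WithZero.exp ((D : ℤ) * (nJ : ℤ)) := by
  rw [tVal_eq_exp_neg_order (u_ne_zero hyp), hyp.U_order₀, neg_neg]

theorem tVal_u_eq_pow (hyp : CoreHyp O q₀ J U nJ D) : tVal C (U q₀) = tVal C J ^ D := by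
  rw [tVal_u hyp, tVal_J hyp, ← WithZero.exp_nsmul, nsmul_eq_mul]

theorem one_lt_tVal_u (hyp : CoreHyp O q₀ J U nJ D) : 1 < tVal C (U q₀) := by
  rw [tVal_u_eq_pow hyp]
  exact one_lt_pow₀ (one_lt_tVal_J hyp) hyp.D_pos.ne'

/-- the valuation of the coefficients of `χ` is bounded by that of `u` -/
theorem tVal_chi_coeff_le (hyp : CoreHyp O q₀ J U nJ D) (k : ℕ) :
    tVal C ((chi U).coeff k) ≤ tVal C (U q₀) := by
  classical
  have hsplit : chi U = (X - Polynomial.C (U q₀)) *
      ∏ q ∈ (Finset.univ : Finset Q).erase q₀, (X - Polynomial.C (U q)) := by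
    rw [chi]
    exact (Finset.mul_prod_erase Finset.univ (fun q => X - Polynomial.C (U q))
      (Finset.mem_univ q₀)).symm
  set χ' := ∏ q ∈ (Finset.univ : Finset Q).erase q₀, (X - Polynomial.C (U q)) with hχ'
  have h1 : ∀ n, tVal C (χ'.coeff n) ≤ 1 := by
    intro n
    have := coeff_prod_X_sub_C_mem (tVal C).integer ((Finset.univ : Finset Q).erase q₀) U
      (fun q hq => by
        rw [Valuation.mem_integer_iff]
        exact (tVal_lt_one_of_order_pos (hyp.U_order_pos q (Finset.ne_of_mem_erase hq))).le) n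
    rwa [Valuation.mem_integer_iff] at this
  have hu := (one_lt_tVal_u hyp).le
  rw [hsplit]
  cases k with
  | zero =>
    rw [Polynomial.mul_coeff_zero, Polynomial.coeff_sub, Polynomial.coeff_X_zero,
      Polynomial.coeff_C_zero, zero_sub, neg_mul, Valuation.map_neg, map_mul]
    calc tVal C (U q₀) * tVal C (χ'.coeff 0) ≤ tVal C (U q₀) * 1 := by gcongr; exact h1 0
      _ = tVal C (U q₀) := mul_one _
  | succ k =>
    rw [Polynomial.coeff_X_sub_C_mul]
    refine le_trans (Valuation.map_sub _ _ _) (max_le ((h1 k).trans hu) ?_)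
    rw [map_mul]
    calc tVal C (U q₀) * tVal C (χ'.coeff (k + 1)) ≤ tVal C (U q₀) * 1 := by gcongr; exact h1 _
      _ = tVal C (U q₀) := mul_one _

/-- `J` is transcendental over `C`. -/
theorem aeval_J_ne_zero (hyp : CoreHyp O q₀ J U nJ D) {p : C[X]} (hp : p ≠ 0) :
    aeval J p ≠ 0 :=
  H73.aeval_ne_zero_of_one_lt (tVal C) (fun _ hc => tVal_algebraMap hc) (one_lt_tVal_J hyp) p hp

/-- `u` is transcendental over `C`. -/
theorem aeval_u_ne_zero (hyp : CoreHyp O q₀ J U nJ D) {p : C[X]} (hp : p ≠ 0) :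
    aeval (U q₀) p ≠ 0 :=
  H73.aeval_ne_zero_of_one_lt (tVal C) (fun _ hc => tVal_algebraMap hc) (one_lt_tVal_u hyp) p hp

/-- Polynomials in `J` of valuation `≤ w(u)` have degree `≤ D`. -/
theorem natDegree_le_of_tVal_le (hyp : CoreHyp O q₀ J U nJ D) (p : C[X])
    (h : tVal C (aeval J p) ≤ tVal C (U q₀)) : p.natDegree ≤ D := by
  by_cases hp : p = 0
  · subst hp; simp
  rw [H73.valuation_aeval_eq_pow (tVal C) (fun _ hc => tVal_algebraMap hc) (one_lt_tVal_J hyp) p hp,
    tVal_u_eq_pow hyp] at h
  exact (pow_le_pow_iff_right₀ (one_lt_tVal_J hyp)).1 h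

/-- The coefficients of `χ` as polynomials in `J`, of degree `≤ D`. -/
theorem exists_chi_coeff (hyp : CoreHyp O q₀ J U nJ D) (k : ℕ) :
    ∃ p : C[X], aeval J p = (chi U).coeff k ∧ p.natDegree ≤ D := by
  have h := chi_coeff_mem_adjoin hyp k
  rw [Algebra.adjoin_singleton_eq_range_aeval] at h
  obtain ⟨p, hp⟩ := h
  refine ⟨p, hp, natDegree_le_of_tVal_le hyp p ?_⟩
  have hp' : aeval J p = (chi U).coeff k := hp
  rw [hp']
  exact tVal_chi_coeff_le hyp k

end Chi

/-! ### `C(u, J) = ⊕_{i<D} C(u) J^i` -/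

section Decomp

open IntermediateField

variable {C : Type} [Field C] [IsAlgClosed C] {O : ValuationSubring C} {Q : Type} [Fintype Q]
  {q₀ : Q} {J : LaurentSeries C} {U : Q → LaurentSeries C} {nJ D : ℕ}

/-- `J` satisfies a nonzero polynomial of degree `≤ D` over `C(u)`. -/
theorem exists_relation (hyp : CoreHyp O q₀ J U nJ D) :
    ∃ g : (C⟮U q₀⟯)[X], g ≠ 0 ∧ aeval J g = 0 ∧ g.natDegree ≤ D := by
  classical
  choose p hp hpdeg using exists_chi_coeff hyp
  set m := Fintype.card Q with hm
  set uK : C⟮U q₀⟯ := AdjoinSimple.gen C (U q₀) with huK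
  have huK' : (uK : LaurentSeries C) = U q₀ := AdjoinSimple.coe_gen C (U q₀)
  -- the top coefficient
  have hpm : p m = 1 := by
    have h1 : aeval J (p m) = 1 := by
      rw [hp, hm, ← chi_natDegree U]
      exact (chi_monic U).coeff_natDegree
    by_contra hne
    have h2 : aeval J (p m - 1) = 0 := by rw [map_sub, h1, map_one, sub_self]
    exact aeval_J_ne_zero hyp (sub_ne_zero.2 hne) h2
  refine ⟨∑ k ∈ Finset.range (m + 1), Polynomial.C (uK ^ k) * (p k).map (algebraMap C C⟮U q₀⟯),
    ?_, ?_, ?_⟩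
  · intro h0
    have hc := congrArg (fun g : (C⟮U q₀⟯)[X] => ((g.coeff 0 : C⟮U q₀⟯) : LaurentSeries C)) h0
    simp only [Polynomial.finsetSum_coeff, Polynomial.coeff_C_mul, Polynomial.coeff_map,
      Polynomial.coeff_zero] at hc
    -- the polynomial `r₀`
    set r₀ : C[X] := ∑ k ∈ Finset.range (m + 1), Polynomial.C ((p k).coeff 0) * X ^ k with hr₀
    have hr₀ne : r₀ ≠ 0 := by
      intro h
      have := congrArg (fun r : C[X] => r.coeff m) h
      simp only [hr₀, Polynomial.finsetSum_coeff, Polynomial.coeff_C_mul, Polynomial.coeff_X_pow,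
        Polynomial.coeff_zero] at this
      rw [Finset.sum_eq_single m] at this
      · simp [hpm] at this
      · intro b _ hb
        simp [hb.symm]
      · intro h'
        exact absurd (Finset.self_mem_range_succ m) h'
    apply aeval_u_ne_zero hyp hr₀ne
    rw [hr₀, map_sum]
    have : (∑ k ∈ Finset.range (m + 1), aeval (U q₀) (Polynomial.C ((p k).coeff 0) * X ^ k)) =
        ((∑ k ∈ Finset.range (m + 1), uK ^ k * algebraMap C C⟮U q₀⟯ ((p k).coeff 0) :
          C⟮U q₀⟯) : LaurentSeries C) := by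
      push_cast
      refine Finset.sum_congr rfl fun k _ => ?_
      rw [map_mul, aeval_C, map_pow, aeval_X, huK', mul_comm]
    rw [this]
    exact hc
  · rw [map_sum]
    have hev : (chi U).eval (U q₀) = 0 := chi_eval_self U q₀
    rw [Polynomial.eval_eq_sum_range, chi_natDegree] at hev
    rw [← hev]
    refine Finset.sum_congr rfl fun k _ => ?_
    rw [map_mul, aeval_C, aeval_map_algebraMap, hp, mul_comm]
    congr 1
  · refine Polynomial.natDegree_sum_le_of_forall_le _ _ fun k _ => ?_
    exact (Polynomial.natDegree_C_mul_le _ _).trans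
      ((Polynomial.natDegree_map_le).trans (hpdeg k))

theorem isAlgebraic_J (hyp : CoreHyp O q₀ J U nJ D) : IsAlgebraic C⟮U q₀⟯ J := by
  obtain ⟨g, hg0, hg, -⟩ := exists_relation hyp
  exact ⟨g, hg0, hg⟩

theorem natDegree_minpoly_le (hyp : CoreHyp O q₀ J U nJ D) :
    (minpoly C⟮U q₀⟯ J).natDegree ≤ D := by
  obtain ⟨g, hg0, hg, hgD⟩ := exists_relation hyp
  exact (Polynomial.natDegree_le_natDegree (minpoly.degree_le_of_ne_zero _ _ hg0 hg)).trans hgD

/-- every element of `C(u, J)` is a `C(u)`-combination of `1, J, …, J^{D-1}` -/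
theorem mem_span_pow (hyp : CoreHyp O q₀ J U nJ D) {x : LaurentSeries C}
    (hx : x ∈ IntermediateField.adjoin C ({U q₀, J} : Set (LaurentSeries C))) :
    x ∈ Submodule.span C⟮U q₀⟯ (Set.range fun i : Fin D => J ^ (i : ℕ)) := by
  have halg := isAlgebraic_J hyp
  have hint : IsIntegral C⟮U q₀⟯ J := isAlgebraic_iff_isIntegral.1 halg
  have h1 : x ∈ (C⟮U q₀⟯)⟮J⟯ := by
    have := IntermediateField.adjoin_adjoin_left C ({U q₀} : Set (LaurentSeries C)) {J}
    have hx' : x ∈ IntermediateField.restrictScalars C ((C⟮U q₀⟯)⟮J⟯) := by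
      rw [this, Set.singleton_union]
      exact hx
    exact hx'
  have h2 : x ∈ Algebra.adjoin C⟮U q₀⟯ ({J} : Set (LaurentSeries C)) := by
    rw [← IntermediateField.adjoin_simple_toSubalgebra_of_isAlgebraic halg]
    exact h1
  rw [Algebra.adjoin_singleton_eq_range_aeval] at h2
  obtain ⟨f, hf⟩ := h2
  have h3 := hint.mem_span_pow (y := x) ⟨f, hf.symm⟩
  refine Submodule.span_mono ?_ h3
  rintro _ ⟨i, rfl⟩
  exact ⟨⟨i, lt_of_lt_of_le i.2 (natDegree_minpoly_le hyp)⟩, rfl⟩

/-- **(C3)**: every element of `C(u, J)` is `∑_{i<D} (P_i(u)/Q_i(u)) J^i`. -/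
theorem exists_decomp (hyp : CoreHyp O q₀ J U nJ D) {x : LaurentSeries C}
    (hx : x ∈ IntermediateField.adjoin C ({U q₀, J} : Set (LaurentSeries C))) :
    ∃ P Q : Fin D → C[X], (∀ i, Q i ≠ 0) ∧
      x = ∑ i, aeval (U q₀) (P i) / aeval (U q₀) (Q i) * J ^ (i : ℕ) := by
  classical
  obtain ⟨c, hc⟩ := (Submodule.mem_span_range_iff_exists_fun _).1 (mem_span_pow hyp hx)
  have hmem : ∀ i, ∃ r s : C[X], ((c i : C⟮U q₀⟯) : LaurentSeries C) =
      aeval (U q₀) r / aeval (U q₀) s := fun i =>
    (IntermediateField.mem_adjoin_simple_iff C _).1 (c i).2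
  choose r s hrs using hmem
  refine ⟨fun i => if s i = 0 then 0 else r i, fun i => if s i = 0 then 1 else s i, ?_, ?_⟩
  · intro i
    by_cases h : s i = 0
    · simp [h]
    · simp [h]
  · rw [← hc]
    refine Finset.sum_congr rfl fun i _ => ?_
    rw [IntermediateField.smul_def, smul_eq_mul]
    congr 1
    by_cases h : s i = 0
    · simp only [h, if_true, map_zero, zero_div]
      rw [hrs i, h, map_zero, div_zero]
    · simp only [h, if_false]
      exact hrs i

end Decomp

end Fermat.Agent.S28.H90
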