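/-
S28 (Igusa), work package C (helper73): primitivity lemmas for the assembly of `Stmt_Core`.

For `O : ValuationSubring C`:
* (Ba) `PrimSeries.mul`, `PrimPoly.mul`, and `Finset.prod` versions (Gauss lemma),
* (Bb) `primSeries_aeval`: `f` unit-lead of nonzero order, `Q` primitive ⇒ `Q(f)` primitive,
* (Bc1) `coeff_mem_of_coeffsIn_aeval`, (Bc2) `primPoly_of_primSeries_aeval`.
-/
import Fermat.Agent.S28.H73_GaussV

set_option autoImplicit false
set_option linter.unusedSectionVars false

noncomputable section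

namespace Fermat.Agent.S28.H73

open ModularCurve

/-! ### Transcendence of elements of valuation `≠ 1` -/

section Transc

open Polynomial

variable {k E Γ₀ : Type*} [Field k] [Field E] [Algebra k E] [LinearOrderedCommGroupWithZero Γ₀]
  (w : Valuation E Γ₀)

/-- If `w` is trivial on `k` and `w t ∉ {0, 1}`, then `t` is transcendental over `k`. -/
theorem aeval_ne_zero_of_valuation_ne_one (hwk : ∀ c : k, c ≠ 0 → w (algebraMap k E c) = 1)
    {t : E} (ht0 : t ≠ 0) (ht1 : w t ≠ 1) (P : k[X]) (hP : P ≠ 0) : aeval t P ≠ 0 := by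
  intro h
  rw [aeval_eq_sum_range] at h
  have hγ0 : (0 : Γ₀) < w t := zero_lt_iff.2 ((Valuation.ne_zero_iff w).2 ht0)
  have key := eq_zero_of_sum_eq_zero w (Finset.range (P.natDegree + 1))
    (fun i => P.coeff i • t ^ i) ?_ h
  · have h1 := key P.natDegree (Finset.self_mem_range_succ _)
    rw [Algebra.smul_def] at h1
    rcases mul_eq_zero.1 h1 with h2 | h2
    · have : P.coeff P.natDegree = 0 := by
        by_contra hc
        have := hwk _ hc
        rw [h2, map_zero] at this
        exact zero_ne_one this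
      exact hP (leadingCoeff_eq_zero.1 this)
    · exact pow_ne_zero _ ht0 h2
  · intro i _ i' _ hci hci' hww
    have hc : P.coeff i ≠ 0 := by
      intro h0; apply hci; rw [h0, zero_smul]
    have hc' : P.coeff i' ≠ 0 := by
      intro h0; apply hci'; rw [h0, zero_smul]
    simp only [Algebra.smul_def, map_mul, map_pow, hwk _ hc, hwk _ hc', one_mul] at hww
    exact pow_right_injective₀ hγ0 ht1 hww

end Transc

/-! ### Primitive polynomials and series in terms of the reduction maps -/

section Prim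

open Polynomial

variable {C : Type} [Field C] (O : ValuationSubring C)

/-- `PrimPoly` in terms of the reduction. -/
theorem primPoly_iff (P : C[X]) :
    PrimPoly O.toSubring P ↔
      ∃ P₀ : (↥O)[X], P₀.map (resV O) ≠ 0 ∧ P₀.map O.subtype = P := by
  constructor
  · rintro ⟨hco, n, hn0, hninv⟩
    have hl : P ∈ Polynomial.lifts O.subtype := by
      rw [Polynomial.lifts_iff_coeff_lifts]
      intro i
      exact ⟨⟨_, hco i⟩, rfl⟩
    obtain ⟨P₀, hP₀⟩ := (Polynomial.mem_lifts _).1 hl
    refine ⟨P₀, ?_, hP₀⟩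
    intro h0
    have h1 := congrArg (fun q : (kV O)[X] => q.coeff n) h0
    simp only [coeff_map, coeff_zero] at h1
    have hc : ((P₀.coeff n : ↥O) : C) = P.coeff n := by
      rw [← hP₀, coeff_map]; rfl
    have hunit : IsUnit (P₀.coeff n) := by
      rw [isUnit_iff_inv_mem, hc]; exact ⟨hn0, hninv⟩
    exact (IsLocalRing.residue_ne_zero_iff_isUnit _).2 hunit h1
  · rintro ⟨P₀, hP₀, rfl⟩
    refine ⟨fun i => by rw [coeff_map]; exact (P₀.coeff i).2, ?_⟩
    have : ∃ n, (P₀.map (resV O)).coeff n ≠ 0 := by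
      by_contra hcon
      simp only [not_exists, not_not] at hcon
      exact hP₀ (Polynomial.ext fun n => by rw [hcon n, coeff_zero])
    obtain ⟨n, hn⟩ := this
    rw [coeff_map] at hn
    have hunit : IsUnit (P₀.coeff n) := (IsLocalRing.residue_ne_zero_iff_isUnit _).1 hn
    rw [isUnit_iff_inv_mem] at hunit
    exact ⟨n, by rw [coeff_map]; exact hunit.1, by rw [coeff_map]; exact hunit.2⟩

/-- (Ba) Gauss lemma for series: the product of primitive series is primitive. -/
theorem PrimSeries.mul {f g : LaurentSeries C} (hf : PrimSeries O.toSubring f)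
    (hg : PrimSeries O.toSubring g) : PrimSeries O.toSubring (f * g) := by
  obtain ⟨f₀, hf₀, rfl⟩ := (primSeries_iff O f).1 hf
  obtain ⟨g₀, hg₀, rfl⟩ := (primSeries_iff O g).1 hg
  exact (primSeries_iff O _).2 ⟨f₀ * g₀, by rw [map_mul]; exact mul_ne_zero hf₀ hg₀, map_mul _ _ _⟩

theorem primSeries_one : PrimSeries O.toSubring (1 : LaurentSeries C) :=
  (primSeries_iff O _).2 ⟨1, by rw [map_one]; exact one_ne_zero, map_one _⟩

/-- (Ba) product version. -/
theorem PrimSeries.prod {ι : Type*} (s : Finset ι) (f : ι → LaurentSeries C)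
    (hf : ∀ i ∈ s, PrimSeries O.toSubring (f i)) : PrimSeries O.toSubring (∏ i ∈ s, f i) := by
  classical
  induction s using Finset.induction_on with
  | empty => rw [Finset.prod_empty]; exact primSeries_one O
  | insert a s ha ih =>
    rw [Finset.prod_insert ha]
    exact PrimSeries.mul O (hf a (Finset.mem_insert_self a s))
      (ih fun i hi => hf i (Finset.mem_insert_of_mem hi))

/-- (Ba) Gauss lemma for polynomials: the product of primitive polynomials is primitive. -/
theorem PrimPoly.mul {P Q : C[X]} (hP : PrimPoly O.toSubring P)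
    (hQ : PrimPoly O.toSubring Q) : PrimPoly O.toSubring (P * Q) := by
  obtain ⟨P₀, hP₀, rfl⟩ := (primPoly_iff O P).1 hP
  obtain ⟨Q₀, hQ₀, rfl⟩ := (primPoly_iff O Q).1 hQ
  exact (primPoly_iff O _).2
    ⟨P₀ * Q₀, by rw [Polynomial.map_mul]; exact mul_ne_zero hP₀ hQ₀, Polynomial.map_mul _⟩

theorem primPoly_one : PrimPoly O.toSubring (1 : C[X]) :=
  (primPoly_iff O _).2 ⟨1, by rw [Polynomial.map_one]; exact one_ne_zero, Polynomial.map_one _⟩

/-- (Ba) product version. -/
theorem PrimPoly.prod {ι : Type*} (s : Finset ι) (f : ι → C[X])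
    (hf : ∀ i ∈ s, PrimPoly O.toSubring (f i)) : PrimPoly O.toSubring (∏ i ∈ s, f i) := by
  classical
  induction s using Finset.induction_on with
  | empty => rw [Finset.prod_empty]; exact primPoly_one O
  | insert a s ha ih =>
    rw [Finset.prod_insert ha]
    exact PrimPoly.mul O (hf a (Finset.mem_insert_self a s))
      (ih fun i hi => hf i (Finset.mem_insert_of_mem hi))

/-! ### Evaluation of polynomials at series -/

theorem iotaV_comp_C :
    (iotaV O).comp (HahnSeries.C : ↥O →+* LaurentSeries ↥O)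
      = (algebraMap C (LaurentSeries C)).comp O.subtype := by
  ext1 r
  rw [RingHom.comp_apply, RingHom.comp_apply, algebraMap_laurentSeries_eq_single]
  exact coeffMap_single O.subtype 0 r

theorem redV_comp_C :
    (redV O).comp (HahnSeries.C : ↥O →+* LaurentSeries ↥O)
      = (algebraMap (kV O) (LaurentSeries (kV O))).comp (resV O) := by
  ext1 r
  rw [RingHom.comp_apply, RingHom.comp_apply, algebraMap_laurentSeries_eq_single]
  exact coeffMap_single (resV O) 0 r

theorem iotaV_eval₂ (P₀ : (↥O)[X]) (f₀ : LaurentSeries ↥O) :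
    iotaV O (P₀.eval₂ HahnSeries.C f₀) = aeval (iotaV O f₀) (P₀.map O.subtype) := by
  rw [hom_eval₂, iotaV_comp_C, aeval_def, eval₂_map]

theorem redV_eval₂ (P₀ : (↥O)[X]) (f₀ : LaurentSeries ↥O) :
    redV O (P₀.eval₂ HahnSeries.C f₀) = aeval (redV O f₀) (P₀.map (resV O)) := by
  rw [hom_eval₂, redV_comp_C, aeval_def, eval₂_map]

/-- A unit-lead series comes from `O((t))`, and its reduction is nonzero of the same order. -/
theorem exists_lift_of_unitLead {f : LaurentSeries C} (hf : UnitLead O.toSubring f) :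
    ∃ f₀ : LaurentSeries ↥O, iotaV O f₀ = f ∧ redV O f₀ ≠ 0 ∧ (redV O f₀).order = f.order := by
  obtain ⟨hco, hf0, hlead⟩ := hf
  obtain ⟨g, hg⟩ := exists_iotaV_eq O hco
  have hlc : f.leadingCoeff = f.coeff f.order := HahnSeries.leadingCoeff_eq
  have hcoef : ((g.coeff f.order : ↥O) : C) = f.coeff f.order := by rw [← hg]; rfl
  have hunit : IsUnit (g.coeff f.order) := by
    rw [isUnit_iff_inv_mem, hcoef, ← hlc]
    exact ⟨HahnSeries.leadingCoeff_ne_zero.2 hf0, hlead⟩
  have hres : resV O (g.coeff f.order) ≠ 0 := (IsLocalRing.residue_ne_zero_iff_isUnit _).2 hunit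
  have hred0 : redV O g ≠ 0 := (redV_ne_zero_iff O g).2 ⟨_, hunit⟩
  refine ⟨g, hg, hred0, ?_⟩
  apply le_antisymm
  · exact HahnSeries.order_le_of_coeff_ne_zero (by rw [redV_coeff]; exact hres)
  · by_contra hcon
    rw [not_le] at hcon
    have h1 : (redV O g).coeff (redV O g).order = 0 := by
      rw [redV_coeff]
      have h2 : f.coeff (redV O g).order = 0 := HahnSeries.coeff_eq_zero_of_lt_order hcon
      have h3 : g.coeff (redV O g).order = 0 := by
        apply Subtype.ext
        have : ((g.coeff (redV O g).order : ↥O) : C) = f.coeff (redV O g).order := by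
          rw [← hg]; rfl
        rw [this, h2]; rfl
      rw [h3, map_zero]
    exact hred0 (HahnSeries.coeff_order_eq_zero.1 h1)

/-- (Bb) A primitive polynomial evaluated at a unit-lead series of nonzero order is a primitive
series. -/
theorem primSeries_aeval {f : LaurentSeries C} (hf : UnitLead O.toSubring f)
    (hord : f.order ≠ 0) {Q : C[X]} (hQ : PrimPoly O.toSubring Q) :
    PrimSeries O.toSubring (aeval f Q) := by
  obtain ⟨f₀, hf₀, hred0, hordr⟩ := exists_lift_of_unitLead O hf
  obtain ⟨Q₀, hQ₀, rfl⟩ := (primPoly_iff O Q).1 hQ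
  refine (primSeries_iff O _).2 ⟨Q₀.eval₂ HahnSeries.C f₀, ?_, ?_⟩
  · rw [redV_eval₂]
    refine aeval_ne_zero_of_valuation_ne_one (tVal (kV O))
      (fun c hc => tVal_algebraMap (kV O) hc) hred0 ?_ _ hQ₀
    rw [tVal_eq_exp_neg_order _ hred0, hordr, ← WithZero.exp_zero]
    intro h
    have := WithZero.exp_injective h
    omega
  · rw [iotaV_eval₂, hf₀]

/-! ### Scaling by the largest coefficient -/

/-- A nonzero polynomial is `m` times a primitive polynomial, `m` one of its coefficients. -/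
theorem exists_prim_scale (p : C[X]) (hp : p ≠ 0) :
    ∃ (m : C) (p₁ : C[X]), m ≠ 0 ∧ (∃ i, p.coeff i = m) ∧ PrimPoly O.toSubring p₁ ∧
      p = Polynomial.C m * p₁ := by
  classical
  have hsupp : p.support.Nonempty := by
    rw [Finset.nonempty_iff_ne_empty, Ne, Polynomial.support_eq_empty]; exact hp
  obtain ⟨i₀, hi₀, hmax⟩ := Finset.exists_max_image p.support (fun i => O.valuation (p.coeff i))
    hsupp
  have hm0 : p.coeff i₀ ≠ 0 := Polynomial.mem_support_iff.1 hi₀
  have hv0 : O.valuation (p.coeff i₀) ≠ 0 := (Valuation.ne_zero_iff _).2 hm0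
  refine ⟨p.coeff i₀, Polynomial.C (p.coeff i₀)⁻¹ * p, hm0, ⟨i₀, rfl⟩, ⟨?_, i₀, ?_, ?_⟩, ?_⟩
  · intro i
    rw [coeff_C_mul]
    show (p.coeff i₀)⁻¹ * p.coeff i ∈ O
    rw [← ValuationSubring.valuation_le_one_iff, map_mul, map_inv₀,
      inv_mul_le_iff₀ (zero_lt_iff.2 hv0), mul_one]
    by_cases hi : i ∈ p.support
    · exact hmax i hi
    · rw [Polynomial.notMem_support_iff.1 hi, map_zero]; exact zero_le
  · rw [coeff_C_mul, inv_mul_cancel₀ hm0]; exact one_ne_zero
  · rw [coeff_C_mul, inv_mul_cancel₀ hm0, inv_one]; exact O.toSubring.one_mem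
  · rw [← mul_assoc, ← map_mul, mul_inv_cancel₀ hm0, map_one, one_mul]

theorem aeval_C_mul_coeff (J : LaurentSeries C) (m : C) (p₁ : C[X]) (n : ℤ) :
    (aeval J (Polynomial.C m * p₁)).coeff n = m * (aeval J p₁).coeff n := by
  rw [map_mul, aeval_C, algebraMap_laurentSeries_eq_single]
  have : (HahnSeries.single (0 : ℤ) m : LaurentSeries C) = HahnSeries.C m := rfl
  rw [this, HahnSeries.C_mul_eq_smul, HahnSeries.coeff_smul, smul_eq_mul]

/-- (Bc1) If `p(J)` has coefficients in `O` (`J` unit-lead of negative order) then `p` has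
coefficients in `O`. -/
theorem coeff_mem_of_coeffsIn_aeval {J : LaurentSeries C} (hJ : UnitLead O.toSubring J)
    (hord : J.order < 0) {p : C[X]} (h : CoeffsIn O.toSubring (aeval J p)) :
    ∀ n, p.coeff n ∈ O := by
  by_cases hp : p = 0
  · intro n; rw [hp, coeff_zero]; exact O.toSubring.zero_mem
  obtain ⟨m, p₁, hm0, -, hp₁, hpe⟩ := exists_prim_scale O p hp
  obtain ⟨hco₁, n₀, hn₀, hn₀inv⟩ := primSeries_aeval O hJ hord.ne hp₁
  have hmO : m ∈ O := by
    have h1 : m * (aeval J p₁).coeff n₀ ∈ O := by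
      have := h n₀
      rw [hpe, aeval_C_mul_coeff] at this
      exact this
    have : m = m * (aeval J p₁).coeff n₀ * ((aeval J p₁).coeff n₀)⁻¹ := by
      rw [mul_assoc, mul_inv_cancel₀ hn₀, mul_one]
    rw [this]
    exact O.toSubring.mul_mem h1 hn₀inv
  intro n
  rw [hpe, coeff_C_mul]
  exact O.toSubring.mul_mem hmO (hp₁.1 n)

/-- (Bc2) If `p(J)` is a primitive series (`J` unit-lead of negative order) then `p` is a
primitive polynomial. -/
theorem primPoly_of_primSeries_aeval {J : LaurentSeries C} (hJ : UnitLead O.toSubring J)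
    (hord : J.order < 0) {p : C[X]} (h : PrimSeries O.toSubring (aeval J p)) :
    PrimPoly O.toSubring p := by
  have hco := coeff_mem_of_coeffsIn_aeval O hJ hord h.1
  obtain ⟨-, n₁, hn₁, hn₁inv⟩ := h
  have hp : p ≠ 0 := by
    rintro rfl
    rw [map_zero, HahnSeries.coeff_zero] at hn₁
    exact hn₁ rfl
  obtain ⟨m, p₁, hm0, ⟨i, hi⟩, hp₁, hpe⟩ := exists_prim_scale O p hp
  obtain ⟨hco₁, -⟩ := primSeries_aeval O hJ hord.ne hp₁
  refine ⟨hco, i, by rw [hi]; exact hm0, ?_⟩
  rw [hi]
  -- `m * c₁` is a unit of `O` with `c₁ ∈ O`, hence `m⁻¹ = c₁ * (m c₁)⁻¹ ∈ O`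
  have hc : (aeval J p).coeff n₁ = m * (aeval J p₁).coeff n₁ := by
    conv_lhs => rw [hpe]
    exact aeval_C_mul_coeff J m p₁ n₁
  rw [hc] at hn₁ hn₁inv
  have hc₁0 : (aeval J p₁).coeff n₁ ≠ 0 := right_ne_zero_of_mul hn₁
  have : m⁻¹ = (aeval J p₁).coeff n₁ * (m * (aeval J p₁).coeff n₁)⁻¹ := by
    field_simp
  rw [this]
  exact O.toSubring.mul_mem (hco₁ n₁) hn₁inv

end Prim

end Fermat.Agent.S28.H73
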