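import Fermat.Agent.S28.Defs

/-!
# S28 glue, part A: elementary lemmas on `iotaN`, transfer of `GaussInt`, the series `J`
-/

set_option autoImplicit false
open ModularCurve ModularCurve.IgusaScheme
noncomputable section

namespace Fermat.Agent.S28

variable (N : ℕ) [NeZero N]

theorem iotaN_coeff_mul (f : LaurentSeries ℚ) (k : ℤ) :
    (iotaN N f).coeff ((N : ℤ) * k) = ((f.coeff k : ℚ) : ℂ) := by
  simp [iotaN]

theorem iotaN_coeff_of_not_dvd (f : LaurentSeries ℚ) {k : ℤ} (hk : ¬ (N : ℤ) ∣ k) :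
    (iotaN N f).coeff k = 0 := by
  simp only [iotaN, RingHom.comp_apply]
  exact qExpand_coeff_of_not_dvd N _ hk

theorem iotaN_coeff_mem (O : Subring ℂ) (R : Subring ℚ) (hRO : ∀ r : ℚ, r ∈ R → (r : ℂ) ∈ O)
    (f : LaurentSeries ℚ) (hf : CoeffsIn R f) : CoeffsIn O (iotaN N f) := by
  intro n
  by_cases hn : (N : ℤ) ∣ n
  · obtain ⟨k, rfl⟩ := hn
    rw [iotaN_coeff_mul]
    exact hRO _ (hf k)
  · rw [iotaN_coeff_of_not_dvd N f hn]
    exact zero_mem _

theorem iotaN_primSeries (O : Subring ℂ) (R : Subring ℚ) (hRO : ∀ r : ℚ, r ∈ R → (r : ℂ) ∈ O)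
    (g : LaurentSeries ℚ) (hg : PrimSeries R g) : PrimSeries O (iotaN N g) := by
  refine ⟨iotaN_coeff_mem N O R hRO g hg.1, ?_⟩
  obtain ⟨n, hn0, hn⟩ := hg.2
  refine ⟨(N : ℤ) * n, ?_, ?_⟩
  · rw [iotaN_coeff_mul]
    exact_mod_cast hn0
  · rw [iotaN_coeff_mul]
    have := hRO _ hn
    simpa using this

theorem iotaN_gaussInt (O : Subring ℂ) (R : Subring ℚ) (hRO : ∀ r : ℚ, r ∈ R → (r : ℂ) ∈ O)
    (x : LaurentSeries ℚ) (hx : GaussInt R x) : GaussInt O (iotaN N x) := by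
  obtain ⟨g, hg, hxg⟩ := hx
  refine ⟨iotaN N g, iotaN_primSeries N O R hRO g hg, ?_⟩
  rw [← map_mul]
  exact iotaN_coeff_mem N O R hRO _ hxg

theorem iotaN_injective : Function.Injective (iotaN N) := by
  intro a b h
  have : ∀ k, a.coeff k = b.coeff k := by
    intro k
    have h1 := congrArg (fun f => f.coeff ((N : ℤ) * k)) h
    simp only [iotaN_coeff_mul] at h1
    exact_mod_cast h1
  ext k
  exact this k

theorem iotaN_C (r : ℚ) : iotaN N (HahnSeries.C r) = HahnSeries.C (r : ℂ) := by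
  have h1 : (HahnSeries.C r : LaurentSeries ℚ) = HahnSeries.single 0 r := rfl
  have h2 : (HahnSeries.C (r : ℂ) : LaurentSeries ℂ) = HahnSeries.single 0 (r : ℂ) := rfl
  rw [h1, h2]
  simp only [iotaN, RingHom.comp_apply, coeffMap_single, qExpand_single, mul_zero]
  rfl

/-- all coefficients of `jq` are integers -/
theorem jq_coeff_int (k : ℤ) : ∃ m : ℤ, jq.coeff k = (m : ℚ) := by
  rw [jq, HahnSeries.coeff_single_mul, one_mul]
  by_cases hk : 0 ≤ k - (-1)
  · obtain ⟨n, hn⟩ := Int.eq_ofNat_of_zero_le hk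
    rw [hn, HahnSeries.ofPowerSeries_apply_coeff, jNumQ, PowerSeries.coeff_map]
    exact ⟨_, rfl⟩
  · rw [ofPowerSeries_coeff_of_neg _ (not_le.mp hk)]
    exact ⟨0, by simp⟩

theorem iotaN_jq_coeffsIn (O : Subring ℂ) : CoeffsIn O (iotaN N jq) := by
  intro n
  by_cases hn : (N : ℤ) ∣ n
  · obtain ⟨k, rfl⟩ := hn
    rw [iotaN_coeff_mul]
    obtain ⟨m, hm⟩ := jq_coeff_int k
    rw [hm]
    push_cast
    exact intCast_mem O m
  · rw [iotaN_coeff_of_not_dvd N _ hn]
    exact zero_mem _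

theorem iotaN_jq_ne_zero : iotaN N jq ≠ 0 := by
  intro h
  have := iotaN_injective N (h.trans (map_zero _).symm)
  exact jq_ne_zero this

theorem iotaN_jq_coeff_neg : (iotaN N jq).coeff (-(N : ℤ)) = 1 := by
  have h := iotaN_coeff_mul N jq (-1)
  rw [mul_neg_one] at h
  rw [h, coeff_jq_neg_one]
  simp

theorem iotaN_jq_coeff_of_lt {k : ℤ} (hk : k < -(N : ℤ)) : (iotaN N jq).coeff k = 0 := by
  by_cases hn : (N : ℤ) ∣ k
  · obtain ⟨m, rfl⟩ := hn
    rw [iotaN_coeff_mul]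
    have hN : (0 : ℤ) < N := by exact_mod_cast Nat.pos_of_ne_zero (NeZero.ne N)
    have hm : m < -1 := by
      by_contra hcon
      rw [not_lt] at hcon
      have : -(N : ℤ) ≤ (N : ℤ) * m := by nlinarith
      omega
    rw [coeff_jq_of_lt hm]
    simp
  · exact iotaN_coeff_of_not_dvd N _ hn

theorem iotaN_jq_order : (iotaN N jq).order = -(N : ℤ) := by
  have hne := iotaN_jq_ne_zero N
  apply le_antisymm
  · exact HahnSeries.order_le_of_coeff_ne_zero (by rw [iotaN_jq_coeff_neg]; exact one_ne_zero)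
  · by_contra hcon
    rw [not_le] at hcon
    have := iotaN_jq_coeff_of_lt N hcon
    exact (HahnSeries.coeff_order_eq_zero.not.mpr hne) this

theorem iotaN_jq_leadingCoeff : (iotaN N jq).leadingCoeff = 1 := by
  rw [HahnSeries.leadingCoeff_eq, iotaN_jq_order, iotaN_jq_coeff_neg]

theorem iotaN_jq_unitLead (O : Subring ℂ) : UnitLead O (iotaN N jq) :=
  ⟨iotaN_jq_coeffsIn N O, iotaN_jq_ne_zero N, by rw [iotaN_jq_leadingCoeff]; simp⟩

end Fermat.Agent.S28
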