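/-
S28 (Igusa), WP-F, the trivial level `N = 1` (helper10):  `Nonempty (CAData 1)`.
Here `Q = Unit`, `U = X 1 = J = iotaN 1 jq`, `D = 1`.
-/
import Fermat.Agent.S28.GlueA

set_option autoImplicit false
open ModularCurve ModularCurve.IgusaScheme
noncomputable section

namespace Fermat.Agent.S28.H10

/-- The analytic data at level one. -/
def caDataOne : CAData 1 where
  Q := Unit
  instFintype := inferInstance
  q₀ := ()
  D := 1
  D_pos := Nat.one_pos
  U := fun _ => iotaN 1 jq
  X := fun _ _ => iotaN 1 jq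
  U_coeff := fun _ n => iotaN_jq_coeffsIn 1 (coeffRing 1) n
  U_ne := fun _ => iotaN_jq_ne_zero 1
  U_lead := fun _ => by
    rw [iotaN_jq_leadingCoeff, inv_one]
    exact one_mem _
  U_order₀ := by
    rw [iotaN_jq_order]
    simp
  U_order_pos := fun q hq => absurd (Subsingleton.elim q ()) hq
  X_q₀ := fun d _ hd => by
    have hd1 : d = 1 := Nat.dvd_one.mp hd
    subst hd1
    rw [qExpand_one_apply]
  sym := fun d _ c s => by
    rw [Finset.prod_const, Finset.card_univ, Fintype.card_unit, pow_one]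
    have hJ : iotaN 1 jq ∈ Algebra.adjoin ℂ ({iotaN 1 jq} : Set (LaurentSeries ℂ)) :=
      Algebra.subset_adjoin (Set.mem_singleton _)
    have hC : ∀ a : ℂ, (HahnSeries.C a : LaurentSeries ℂ) ∈
        Algebra.adjoin ℂ ({iotaN 1 jq} : Set (LaurentSeries ℂ)) := by
      intro a
      have h2 : (HahnSeries.C a : LaurentSeries ℂ) = algebraMap ℂ (LaurentSeries ℂ) a := by
        rw [HahnSeries.algebraMap_apply']
        simp
      rw [h2]
      exact Subalgebra.algebraMap_mem _ a
    exact Subalgebra.sub_mem _ (Subalgebra.sub_mem _ (hC c) hJ) (Subalgebra.mul_mem _ (hC s) hJ)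

theorem nonempty_caData_one : Nonempty (CAData 1) := ⟨caDataOne⟩

end Fermat.Agent.S28.H10
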