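import Fermat.Agent.S28.H30_Eta
import Fermat.Agent.S28.H76_X
import Fermat.Agent.S28.H10_CAOne
import Fermat.Agent.S28.H92_Moebius

/-!
# S28, WP-F: the record assembly `Stmt_CA` (helper30)

For `N ≥ 2`, with `r = ∏_{p ∣ N} p`, the modular unit is the eta quotient
`u = Δ^{φ(r)} / ∏_{e ∣ r} Δ_{N/e}^{μ(e) r/e}`; index set `insert 0 r.divisors ⊂ ℕ`
(`0` is the index of `Δ = Δ₁`).
-/

set_option autoImplicit false
set_option linter.unusedSectionVars false
set_option linter.unusedVariables false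

open UpperHalfPlane ModularForm ModularCurve Function SlashInvariantForm
open scoped MatrixGroups ModularForm Manifold Real ArithmeticFunction.Moebius

noncomputable section

namespace Fermat.Agent.S28.H30

open Fermat.Agent.S23.H22 (G0 Q toSL piPerm q1 E12)

/-- The radical of `N`. -/
def etaRad (N : ℕ) : ℕ := ∏ p ∈ N.primeFactors, p

/-- The index set: `0` (for `Δ`) and the divisors of the radical. -/
def etaS (N : ℕ) : Finset ℕ := insert 0 (etaRad N).divisors

/-- The levels. -/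
def etaM (N e : ℕ) : ℕ := if e = 0 then 1 else N / e

/-- Exponents in the numerator. -/
def etaP (N e : ℕ) : ℕ :=
  if e = 0 then (etaRad N).totient else if μ e = -1 then etaRad N / e else 0

/-- Exponents in the denominator. -/
def etaMm (N e : ℕ) : ℕ :=
  if e = 0 then 0 else if μ e = 1 then etaRad N / e else 0

lemma etaRad_pos (N : ℕ) : 0 < etaRad N :=
  Nat.pos_of_ne_zero (Fermat.Agent.S28.H92.rad_ne_zero N)

lemma etaRad_dvd (N : ℕ) : etaRad N ∣ N := Nat.prod_primeFactors_dvd N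

lemma zero_notMem_etaDiv (N : ℕ) : (0 : ℕ) ∉ (etaRad N).divisors := by
  intro h
  exact (Nat.pos_of_mem_divisors h).ne' rfl

lemma etaP_sub_etaMm (N : ℕ) {e : ℕ} (he : e ≠ 0) :
    (etaP N e : ℤ) - (etaMm N e : ℤ) = -((μ e : ℤ) * ((etaRad N / e : ℕ) : ℤ)) := by
  unfold etaP etaMm
  rw [if_neg he, if_neg he]
  rcases ArithmeticFunction.moebius_eq_or e with h | h | h
  · rw [h]; simp
  · rw [h]; simp
  · rw [h]; simp

lemma etaM_dvd (N : ℕ) : ∀ e ∈ etaS N, etaM N e ∣ N := by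
  intro e he
  unfold etaM
  split_ifs with h
  · exact one_dvd N
  · rw [etaS, Finset.mem_insert] at he
    rcases he with he | he
    · exact absurd he h
    · exact Nat.div_dvd_of_dvd ((Nat.dvd_of_mem_divisors he).trans (etaRad_dvd N))

/-- The weights of numerator and denominator agree. -/
lemma eta_weight (N : ℕ) :
    ∑ e ∈ etaS N, (etaP N e : ℤ) = ∑ e ∈ etaS N, (etaMm N e : ℤ) := by
  rw [← sub_eq_zero, ← Finset.sum_sub_distrib, etaS, Finset.sum_insert (zero_notMem_etaDiv N)]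
  have h0 : (etaP N 0 : ℤ) - (etaMm N 0 : ℤ) = ((etaRad N).totient : ℤ) := by
    simp [etaP, etaMm]
  rw [h0]
  have h1 : ∑ e ∈ (etaRad N).divisors, ((etaP N e : ℤ) - (etaMm N e : ℤ))
      = - ∑ e ∈ (etaRad N).divisors, (μ e : ℤ) * ((etaRad N / e : ℕ) : ℤ) := by
    rw [← Finset.sum_neg_distrib]
    refine Finset.sum_congr rfl fun e he => ?_
    exact etaP_sub_etaMm N (Nat.pos_of_mem_divisors he).ne'
  rw [h1]
  have := Fermat.Agent.S28.H92.P1c N
  unfold etaRad
  rw [this]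
  ring

/-- The order of the conjugate at the coset with lower-left entry `c`. -/
lemma eta_order_sum (N : ℕ) [NeZero N] (c : ℤ) :
    ∑ e ∈ etaS N, ((etaP N e : ℤ) - (etaMm N e : ℤ)) * ((ordAt N (etaM N e) c : ℕ) : ℤ)
      = (N : ℤ) * ((etaRad N).totient : ℤ) - (etaRad N : ℤ) *
          ∑ e ∈ (etaRad N).divisors, (μ e : ℤ) * ((Int.gcd c ((N / e : ℕ) : ℤ) : ℤ)) ^ 2 := by
  have hN0 : N ≠ 0 := NeZero.ne N
  rw [etaS, Finset.sum_insert (zero_notMem_etaDiv N)]
  have h0 : ((etaP N 0 : ℤ) - (etaMm N 0 : ℤ)) * ((ordAt N (etaM N 0) c : ℕ) : ℤ)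
      = (N : ℤ) * ((etaRad N).totient : ℤ) := by
    simp [etaP, etaMm, etaM, ordAt, mul_comm]
  rw [h0, sub_eq_add_neg, Finset.mul_sum, ← Finset.sum_neg_distrib]
  congr 1
  refine Finset.sum_congr rfl fun e he => ?_
  have he0 : e ≠ 0 := (Nat.pos_of_mem_divisors he).ne'
  have her : e ∣ etaRad N := Nat.dvd_of_mem_divisors he
  have heN : e ∣ N := her.trans (etaRad_dvd N)
  rw [etaP_sub_etaMm N he0]
  have hM : etaM N e = N / e := by simp [etaM, he0]
  have h1 : N / (N / e) = e := Nat.div_div_self heN hN0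
  have h2 : ((etaRad N / e : ℕ) : ℤ) * (e : ℤ) = (etaRad N : ℤ) := by
    exact_mod_cast Nat.div_mul_cancel her
  rw [hM, ordAt, h1, Nat.cast_mul, Nat.cast_pow, ← h2]
  ring

variable (N : ℕ) [NeZero N]

/-- The conjugates of the modular unit. -/
def etaU (q : Q N) : LaurentSeries ℂ := Ueta N (etaS N) (etaM N) (etaP N) (etaMm N) q

lemma uls_etaU (γ : SL(2, ℤ)) :
    ULS (coeffRing N) (etaU N (⟦toSL γ⟧ : Q N))
      ((N : ℤ) * ((etaRad N).totient : ℤ) - (etaRad N : ℤ) *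
          ∑ e ∈ (etaRad N).divisors,
            (μ e : ℤ) * ((Int.gcd ((γ⁻¹ : SL(2, ℤ)) 1 0) ((N / e : ℕ) : ℤ) : ℤ)) ^ 2) :=
  ULS.congr_ord (uls_Ueta (mp := etaP N) (mm := etaMm N) (etaM_dvd N) γ) (eta_order_sum N _)

lemma etaU_order_pos (q : Q N) (hq : q ≠ q1) : 0 < (etaU N q).order := by
  obtain ⟨γ, rfl⟩ := exists_rep N q
  rw [(uls_etaU N γ).ord]
  have h := Fermat.Agent.S28.H92.P1a (NeZero.ne N) _ (not_dvd_of_ne_q1 N hq)
  unfold etaRad
  rw [h, mul_zero, sub_zero]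
  have h1 : 0 < N := Nat.pos_of_ne_zero (NeZero.ne N)
  have h2 : 0 < (∏ p ∈ N.primeFactors, p).totient := Nat.totient_pos.mpr (etaRad_pos N)
  positivity

lemma etaU_order_q1 (hN : 2 ≤ N) :
    ∃ D : ℕ, 0 < D ∧ (etaU N (q1 : Q N)).order = -((D : ℤ) * (N : ℤ)) := by
  obtain ⟨D, hD, hDeq⟩ := Fermat.Agent.S28.H92.P1b hN
  refine ⟨D, hD, ?_⟩
  have hq : (q1 : Q N) = (⟦toSL (1 : SL(2, ℤ))⟧ : Q N) :=
    (mk_toSL_eq_q1' N (one_mem _)).symm
  rw [hq, (uls_etaU N 1).ord, ← hDeq]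
  unfold etaRad
  rw [Fermat.Agent.S28.H92.P1a_dvd _ (by simp)]

/-- **WP-F for `N ≥ 2`.** -/
theorem nonempty_caData_of_two_le (hN : 2 ≤ N) : Nonempty (CAData N) := by
  obtain ⟨D, hD, hDeq⟩ := etaU_order_q1 N hN
  exact ⟨{
    Q := Q N
    instFintype := inferInstance
    q₀ := q1
    D := D
    D_pos := hD
    U := etaU N
    X := fun d q => Fermat.Agent.S28.H76.Xfam N d q
    U_coeff := fun q n => by
      obtain ⟨γ, rfl⟩ := exists_rep N q
      exact (uls_etaU N γ).coeffs n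
    U_ne := fun q => by
      obtain ⟨γ, rfl⟩ := exists_rep N q
      exact (uls_etaU N γ).ne
    U_lead := fun q => by
      obtain ⟨γ, rfl⟩ := exists_rep N q
      exact (uls_etaU N γ).lead
    U_order₀ := hDeq
    U_order_pos := fun q hq => etaU_order_pos N q hq
    X_q₀ := fun d _ hd => Fermat.Agent.S28.H76.Xfam_q1 N hd
    sym := fun d hd c s =>
      sym_of_stmt (mp := etaP N) (mm := etaMm N) Fermat.Agent.S28.H76.stmt_sym
        (etaM_dvd N) (eta_weight N) hd c s }⟩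

/-- **WP-F**: `Stmt_CA`. -/
theorem stmt_CA : Stmt_CA := by
  intro N _
  rcases Nat.lt_or_ge N 2 with h | h
  · have hN0 : N ≠ 0 := NeZero.ne N
    have h1 : N = 1 := by omega
    subst h1
    have := Fermat.Agent.S28.H10.nonempty_caData_one
    convert this
  · exact nonempty_caData_of_two_le N h

end Fermat.Agent.S28.H30
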