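/-
S28 (Igusa), WP-D: the descent `ℂ((t)) → ℚ((q))`  (helper10).

`Fermat.Agent.S28.H10.descent : Fermat.Agent.S28.Stmt_Descent`.

Idea.  Integrality of `n(J) · ι x` over `O[J]` gives a relation
`∑_{i ≤ e} c_i(J) (ι x)^i = 0` with `c_i ∈ O[Y]` and `c_e = n^e` having a unit coefficient `u`
(Gauss lemma over the valuation ring `O`).  The finitely many coefficients of the `c_i` span a
free `ℤ`-module `M ⊆ O`; since `ℓ⁻¹ ∉ O`, `u ∉ ℓ M`, so some coordinate functional of a `ℤ`-basis
of `M` takes a value prime to `ℓ` at `u`.  Extend it to a `ℚ`-linear functional `Φ : ℂ → ℚ`.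
Applying `Φ` coefficientwise to the relation (the series `ι (j^a x^i)` have rational
coefficients) gives `∑_{i ≤ e} P_i(j) x^i = 0` with `P_i ∈ ℤ[Y]` and `P_e` having a coefficient
prime to `ℓ`; hence `P_e(j) · x` is integral over `ℤ_(ℓ)[j]`.
-/
import Fermat.Agent.S28.Defs

set_option autoImplicit false
set_option linter.style.haveILetI false
open ModularCurve ModularCurve.IgusaScheme
noncomputable section

namespace Fermat.Agent.S28.H10

open Polynomial Module

/-! ### Part 1: from integrality to an explicit relation -/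

/-- Gauss lemma for powers over a local ring: if `p` has a unit coefficient,
so has every power of `p`. -/
theorem exists_isUnit_coeff_pow {A : Type*} [CommRing A] [IsDomain A] [IsLocalRing A]
    (p : Polynomial A) (i : ℕ) (hi : IsUnit (p.coeff i)) (e : ℕ) :
    ∃ a, IsUnit ((p ^ e).coeff a) := by
  have h1 : p.map (IsLocalRing.residue A) ≠ 0 := by
    intro h0
    have := congrArg (fun q => q.coeff i) h0
    simp only [coeff_map, coeff_zero] at this
    rw [IsLocalRing.residue_eq_zero_iff] at this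
    exact (IsLocalRing.mem_maximalIdeal _).1 this hi
  have h2 : (p ^ e).map (IsLocalRing.residue A) ≠ 0 := by
    rw [Polynomial.map_pow]
    exact pow_ne_zero _ h1
  by_contra hcon
  push Not at hcon
  apply h2
  ext a
  simp only [coeff_map, coeff_zero]
  rw [IsLocalRing.residue_eq_zero_iff]
  exact (IsLocalRing.mem_maximalIdeal _).2 (hcon a)

theorem isScalarTower_laurent {C : Type} [Field C] (O : ValuationSubring C) :
    @IsScalarTower (↥O) C (LaurentSeries C) _ Algebra.toSMul Algebra.toSMul := by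
  refine IsScalarTower.of_algebraMap_eq (R := ↥O) (S := C) (A := LaurentSeries C) (fun x => ?_)
  rw [HahnSeries.algebraMap_apply', HahnSeries.algebraMap_apply']
  congr 1
  ext n
  simp [PowerSeries.coeff_C, Algebra.algebraMap_eq_smul_one]

theorem relation_of_isIntegral {C : Type} [Field C] (O : ValuationSubring C)
    (J X : LaurentSeries C)
    (n : Polynomial C) (hn : PrimPoly O.toSubring n)
    (hint : IsIntegral (Algebra.adjoin (↥O) ({J} : Set (LaurentSeries C)))
      (Polynomial.aeval J n * X)) :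
    ∃ (e : ℕ) (c : ℕ → Polynomial C), (∀ i a, (c i).coeff a ∈ O) ∧
      (∃ a, (c e).coeff a ≠ 0 ∧ ((c e).coeff a)⁻¹ ∈ O) ∧
      ∑ i ∈ Finset.range (e + 1), Polynomial.aeval J (c i) * X ^ i = 0 := by
  classical
  haveI := isScalarTower_laurent O
  obtain ⟨G, hGm, hG⟩ := hint
  obtain ⟨hnO, i₀, hi₀, hi₀'⟩ := hn
  have hsub : (↑n.coeffs : Set C) ⊆ ↑O.toSubring := by
    intro z hz
    obtain ⟨i, -, rfl⟩ := Polynomial.mem_coeffs_iff.1 (Finset.mem_coe.1 hz)
    exact hnO i
  let n' : Polynomial ↥O := n.toSubring O.toSubring hsub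
  have hn'coeff : ∀ a, ((n'.coeff a : O) : C) = n.coeff a := fun a =>
    Polynomial.coeff_toSubring n O.toSubring hsub
  have hn'map : n'.map (algebraMap O C) = n := by
    ext a
    rw [coeff_map]
    exact hn'coeff a
  have hcoef : ∀ i, ∃ g : Polynomial ↥O,
      Polynomial.aeval J g = ((G.coeff i : Algebra.adjoin ↥O {J}) : LaurentSeries C) := by
    intro i
    have h1 : ((G.coeff i : Algebra.adjoin ↥O {J}) : LaurentSeries C) ∈
        (Polynomial.aeval J : Polynomial ↥O →ₐ[↥O] LaurentSeries C).range := by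
      rw [← Algebra.adjoin_singleton_eq_range_aeval]
      exact (G.coeff i).2
    exact h1
  choose g hg using hcoef
  let c' : ℕ → Polynomial ↥O := fun i => (if i = G.natDegree then 1 else g i) * n' ^ i
  refine ⟨G.natDegree, fun i => (c' i).map (algebraMap O C), ?_, ?_, ?_⟩
  · intro i a
    rw [coeff_map]
    exact ((c' i).coeff a).2
  · have hu : IsUnit (n'.coeff i₀) := by
      rw [isUnit_iff_exists_inv]
      refine ⟨⟨(n.coeff i₀)⁻¹, hi₀'⟩, Subtype.ext ?_⟩
      show ((n'.coeff i₀ : O) : C) * (n.coeff i₀)⁻¹ = 1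
      rw [hn'coeff, mul_inv_cancel₀ hi₀]
    obtain ⟨a, ha⟩ := exists_isUnit_coeff_pow n' i₀ hu G.natDegree
    refine ⟨a, ?_, ?_⟩
    · simp only [c', if_true, one_mul, coeff_map]
      intro h0
      have : (n' ^ G.natDegree).coeff a = 0 := Subtype.ext h0
      rw [this] at ha
      exact not_isUnit_zero ha
    · simp only [c', if_true, one_mul, coeff_map]
      obtain ⟨v, hv⟩ := isUnit_iff_exists_inv.1 ha
      have hv' : (((n' ^ G.natDegree).coeff a : O) : C) * (v : C) = 1 := by
        have := congrArg (Subtype.val) hv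
        simpa using this
      have : (algebraMap O C ((n' ^ G.natDegree).coeff a))⁻¹ = (v : C) := by
        rw [inv_eq_iff_eq_inv]
        exact eq_inv_of_mul_eq_one_left hv'
      rw [this]
      exact v.2
  · have key : ∀ i, Polynomial.aeval J ((c' i).map (algebraMap O C)) * X ^ i =
        ((G.coeff i : Algebra.adjoin ↥O {J}) : LaurentSeries C) *
          (Polynomial.aeval J n * X) ^ i := by
      intro i
      rw [Polynomial.aeval_map_algebraMap]
      simp only [c']
      rw [map_mul, map_pow, mul_pow]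
      have h1 : Polynomial.aeval J n' = Polynomial.aeval J n := by
        rw [← hn'map, Polynomial.aeval_map_algebraMap]
      have h2 : Polynomial.aeval J (if i = G.natDegree then (1 : Polynomial ↥O) else g i) =
          ((G.coeff i : Algebra.adjoin ↥O {J}) : LaurentSeries C) := by
        split_ifs with h
        · rw [h, map_one]
          have : G.coeff G.natDegree = 1 := hGm
          rw [this]
          rfl
        · exact hg i
      rw [h1, h2]
      ring
    rw [Finset.sum_congr rfl (fun i _ => key i)]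
    rw [Polynomial.eval₂_eq_sum_range] at hG
    exact hG

/-! ### Part 2: an integral functional -/

/-- For a finite set `S ⊆ O` containing a unit `u` of `O`, where `O` is a valuation ring of `ℂ`
with `ℓ⁻¹ ∉ O`: there is a `ℚ`-linear functional on `ℂ` with integer values on `S` and a value
prime to `ℓ` at `u`. -/
theorem exists_functional (ℓ : ℕ) [Fact ℓ.Prime] (O : ValuationSubring ℂ)
    (hℓ : (ℓ : ℂ)⁻¹ ∉ O) (S : Set ℂ) (hSfin : S.Finite) (hS : ∀ h ∈ S, h ∈ O)
    (u : ℂ) (hu : u ∈ S) (hu0 : u ≠ 0) (hu' : u⁻¹ ∈ O) :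
    ∃ Φ : ℂ →ₗ[ℚ] ℚ, (∀ h ∈ S, ∃ z : ℤ, Φ h = z) ∧ ∃ z : ℤ, Φ u = z ∧ ¬ (ℓ : ℤ) ∣ z := by
  classical
  let M : Submodule ℤ ℂ := Submodule.span ℤ S
  haveI : Module.Finite ℤ M := Module.Finite.iff_fg.2 (Submodule.fg_span hSfin)
  haveI : Module.Free ℤ M := inferInstance
  let b := Module.Free.chooseBasis ℤ M
  have hb : LinearIndependent ℤ (fun i => ((b i : M) : ℂ)) :=
    b.linearIndependent.map' M.subtype (Submodule.ker_subtype M)
  have hbQ : LinearIndependent ℚ (fun i => ((b i : M) : ℂ)) :=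
    (LinearIndependent.iff_fractionRing ℤ ℚ).1 hb
  -- `M ⊆ O`
  have hMO : ∀ m ∈ M, m ∈ O := by
    intro m hm
    induction hm using Submodule.span_induction with
    | mem x hx => exact hS x hx
    | zero => exact O.zero_mem
    | add x y _ _ hx hy => exact O.add_mem _ _ hx hy
    | smul a x _ hx =>
      rw [zsmul_eq_mul]
      exact O.mul_mem _ _ (by simp) hx
  have huM : u ∈ M := Submodule.subset_span hu
  -- some coordinate of `u` is prime to `ℓ`
  obtain ⟨i₀, hi₀⟩ : ∃ i₀, ¬ (ℓ : ℤ) ∣ b.repr ⟨u, huM⟩ i₀ := by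
    by_contra hcon
    push Not at hcon
    choose w hw using hcon
    apply hℓ
    have key : (⟨u, huM⟩ : M) = (ℓ : ℤ) • ∑ i, w i • b i := by
      conv_lhs => rw [← b.sum_repr ⟨u, huM⟩]
      rw [Finset.smul_sum]
      refine Finset.sum_congr rfl fun i _ => ?_
      rw [hw i, mul_smul]
    have key2 : u = (ℓ : ℂ) * ((∑ i, w i • b i : M) : ℂ) := by
      have := congrArg (Subtype.val) key
      simpa using this
    have hm : ((∑ i, w i • b i : M) : ℂ) ∈ O := hMO _ (Submodule.coe_mem _)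
    have hl0 : (ℓ : ℂ) ≠ 0 := by exact_mod_cast (Fact.out : ℓ.Prime).ne_zero
    have : (ℓ : ℂ)⁻¹ = ((∑ i, w i • b i : M) : ℂ) * u⁻¹ := by
      have hm0 : ((∑ i, w i • b i : M) : ℂ) ≠ 0 := by
        intro h0
        rw [h0, mul_zero] at key2
        exact hu0 key2
      rw [key2, mul_inv, mul_comm (ℓ : ℂ)⁻¹, ← mul_assoc, mul_inv_cancel₀ hm0, one_mul]
    rw [this]
    exact O.mul_mem _ _ hm hu'
  -- the functional
  let f : Submodule.span ℚ (Set.range fun i => ((b i : M) : ℂ)) →ₗ[ℚ] ℚ :=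
    (Basis.span hbQ).coord i₀
  obtain ⟨Φ, hΦ⟩ := LinearMap.exists_extend f
  have hΦb : ∀ i, Φ ((b i : M) : ℂ) = if i = i₀ then 1 else 0 := by
    intro i
    have h1 : Φ ((b i : M) : ℂ) = f (Basis.span hbQ i) := by
      rw [← hΦ]
      simp [Basis.span_apply]
    rw [h1]
    simp only [f, Basis.coord_apply, Basis.repr_self]
    rw [Finsupp.single_apply]
  have hΦM : ∀ m : M, Φ (m : ℂ) = b.repr m i₀ := by
    intro m
    conv_lhs => rw [← b.sum_repr m]
    simp only [Submodule.coe_sum, Submodule.coe_smul, map_sum, map_zsmul, hΦb]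
    simp
  exact ⟨Φ, fun h hh => ⟨_, hΦM ⟨h, Submodule.subset_span hh⟩⟩, _, hΦM ⟨u, huM⟩, hi₀⟩

/-! ### Part 3: applying the functional coefficientwise -/

/-- apply a `ℚ`-linear functional to the coefficients of a polynomial -/
def phiPoly (Φ : ℂ →ₗ[ℚ] ℚ) (p : Polynomial ℂ) : Polynomial ℚ :=
  ∑ a ∈ Finset.range (p.natDegree + 1), Polynomial.monomial a (Φ (p.coeff a))

@[simp] theorem phiPoly_coeff (Φ : ℂ →ₗ[ℚ] ℚ) (p : Polynomial ℂ) (a : ℕ) :
    (phiPoly Φ p).coeff a = Φ (p.coeff a) := by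
  classical
  rw [phiPoly, Polynomial.finsetSum_coeff]
  simp only [Polynomial.coeff_monomial]
  rw [Finset.sum_ite_eq' (Finset.range (p.natDegree + 1)) a]
  split_ifs with h
  · rfl
  · rw [Finset.mem_range, not_lt] at h
    rw [Polynomial.coeff_eq_zero_of_natDegree_lt (by omega), map_zero]

theorem natDegree_phiPoly_le (Φ : ℂ →ₗ[ℚ] ℚ) (p : Polynomial ℂ) :
    (phiPoly Φ p).natDegree ≤ p.natDegree := by
  rw [Polynomial.natDegree_le_iff_coeff_eq_zero]
  intro a ha
  rw [phiPoly_coeff, Polynomial.coeff_eq_zero_of_natDegree_lt ha, map_zero]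

theorem iotaN_coeff_mul (N : ℕ) [NeZero N] (f : LaurentSeries ℚ) (k : ℤ) :
    (iotaN N f).coeff ((N : ℤ) * k) = ((f.coeff k : ℚ) : ℂ) := by
  simp [iotaN]

theorem algebraMap_mul_coeff {K : Type*} [Field K] (c : K) (g : LaurentSeries K) (m : ℤ) :
    (algebraMap K (LaurentSeries K) c * g).coeff m = c * g.coeff m := by
  rw [algebraMap_laurentSeries_eq_single, HahnSeries.coeff_single_mul, sub_zero]

theorem key_coeff (N : ℕ) [NeZero N] (Φ : ℂ →ₗ[ℚ] ℚ) (p : Polynomial ℂ)
    (f w : LaurentSeries ℚ) (k : ℤ) :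
    Φ ((Polynomial.aeval (iotaN N f) p * iotaN N w).coeff ((N : ℤ) * k)) =
      (Polynomial.aeval f (phiPoly Φ p) * w).coeff k := by
  rw [Polynomial.aeval_def, Polynomial.aeval_def, Polynomial.eval₂_eq_sum_range,
    Polynomial.eval₂_eq_sum_range' _ (Nat.lt_succ_of_le (natDegree_phiPoly_le Φ p)),
    Finset.sum_mul, Finset.sum_mul, HahnSeries.coeff_sum, HahnSeries.coeff_sum, map_sum]
  refine Finset.sum_congr rfl fun a _ => ?_
  rw [mul_assoc, mul_assoc, algebraMap_mul_coeff, algebraMap_mul_coeff, ← map_pow, ← map_mul,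
    iotaN_coeff_mul, phiPoly_coeff]
  have : p.coeff a * (((f ^ a * w).coeff k : ℚ) : ℂ) = ((f ^ a * w).coeff k : ℚ) • p.coeff a := by
    rw [Algebra.smul_def, mul_comm]
    rfl
  rw [this, map_smul, smul_eq_mul, mul_comm]

/-! ### Part 4: integrality from a relation -/

theorem isIntegral_of_relation {R A : Type*} [CommRing R] [CommRing A] [Algebra R A]
    (S' : Subalgebra R A) (e : ℕ) (a : ℕ → A) (ha : ∀ i, a i ∈ S') (x : A)
    (h : ∑ i ∈ Finset.range (e + 1), a i * x ^ i = 0) : IsIntegral S' (a e * x) := by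
  classical
  by_cases hae : a e = 0
  · rw [hae, zero_mul]
    exact isIntegral_zero
  let p : Polynomial S' :=
    ∑ i ∈ Finset.range (e + 1), Polynomial.C (⟨a i, ha i⟩ : S') * Polynomial.X ^ i
  have hcoeff : ∀ i, p.coeff i = if i ∈ Finset.range (e + 1) then (⟨a i, ha i⟩ : S') else 0 := by
    intro i
    simp only [p, Polynomial.finsetSum_coeff, Polynomial.coeff_C_mul_X_pow]
    rw [Finset.sum_ite_eq (Finset.range (e + 1)) i]
  have hdeg : p.natDegree = e := by
    apply le_antisymm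
    · rw [Polynomial.natDegree_le_iff_coeff_eq_zero]
      intro i hi
      rw [hcoeff, if_neg]
      rw [Finset.mem_range]
      omega
    · apply Polynomial.le_natDegree_of_ne_zero
      rw [hcoeff, if_pos (Finset.self_mem_range_succ e)]
      intro h0
      exact hae (congrArg Subtype.val h0)
  have hlead : p.leadingCoeff = (⟨a e, ha e⟩ : S') := by
    rw [Polynomial.leadingCoeff, hdeg, hcoeff, if_pos (Finset.self_mem_range_succ e)]
  have hroot : Polynomial.aeval x p = 0 := by
    simp only [p, map_sum, map_mul, map_pow, Polynomial.aeval_C, Polynomial.aeval_X]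
    exact h
  have := isIntegral_leadingCoeff_smul p x hroot
  rw [hlead] at this
  exact this

/-! ### Assembly -/

theorem isUnit_intCast_of_not_dvd (ℓ : ℕ) [Fact ℓ.Prime] (z : ℤ) (hz : ¬ (ℓ : ℤ) ∣ z) :
    IsUnit ((z : ℤ) : ↥(GaloisRep.ratLocalizedAt ℓ)) := by
  have hz0 : z ≠ 0 := by
    rintro rfl
    exact hz (dvd_zero _)
  have hmem : ((z : ℚ))⁻¹ ∈ GaloisRep.ratLocalizedAt ℓ := by
    show ((z : ℚ))⁻¹.den.Coprime ℓ
    rw [Rat.inv_intCast_den, if_neg hz0]
    apply Nat.Coprime.symm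
    rw [Nat.Prime.coprime_iff_not_dvd (Fact.out : ℓ.Prime)]
    intro h
    exact hz (Int.natCast_dvd.2 h)
  rw [isUnit_iff_exists_inv]
  refine ⟨⟨_, hmem⟩, Subtype.ext ?_⟩
  show (((z : ↥(GaloisRep.ratLocalizedAt ℓ)) : ℚ)) * ((z : ℚ))⁻¹ = 1
  have : (((z : ↥(GaloisRep.ratLocalizedAt ℓ)) : ℚ)) = (z : ℚ) := by simp
  rw [this, mul_inv_cancel₀]
  exact_mod_cast hz0

theorem coe_aeval_jFull (N : ℕ) [NeZero N] (ℓ : ℕ) [Fact ℓ.Prime] (Q : Polynomial ℤ) :
    ((Polynomial.aeval (jFull N) (Q.map (Int.castRingHom ↥(GaloisRep.ratLocalizedAt ℓ))) :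
      ↥(modularFunctionFieldFull N)) : LaurentSeries ℚ) =
      Polynomial.aeval jq (Q.map (Int.castRingHom ℚ)) := by
  rw [Polynomial.aeval_def, Polynomial.aeval_def, Polynomial.eval₂_map, Polynomial.eval₂_map]
  have h := Polynomial.hom_eval₂ Q
    ((algebraMap ↥(GaloisRep.ratLocalizedAt ℓ) ↥(modularFunctionFieldFull N)).comp
      (Int.castRingHom ↥(GaloisRep.ratLocalizedAt ℓ)))
    ((modularFunctionFieldFull N).val : ↥(modularFunctionFieldFull N) →+* LaurentSeries ℚ)
    (jFull N)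
  have e1 : (((modularFunctionFieldFull N).val :
      ↥(modularFunctionFieldFull N) →+* LaurentSeries ℚ).comp
      ((algebraMap ↥(GaloisRep.ratLocalizedAt ℓ) ↥(modularFunctionFieldFull N)).comp
        (Int.castRingHom ↥(GaloisRep.ratLocalizedAt ℓ)))) =
      (algebraMap ℚ (LaurentSeries ℚ)).comp (Int.castRingHom ℚ) :=
    RingHom.ext_int _ _
  rw [e1] at h
  exact h

theorem descent : Stmt_Descent := by
  intro N _ ℓ _ O hO hℓ x ⟨n, hn, hint⟩
  classical
  obtain ⟨e, c, hcO, ⟨a₀, ha₀, ha₀'⟩, hsum⟩ :=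
    relation_of_isIntegral O (iotaN N jq) (iotaN N (x : LaurentSeries ℚ)) n hn hint
  let S : Finset ℂ := (Finset.range (e + 1)).biUnion
    fun i => (Finset.range ((c i).natDegree + 1)).image fun a => (c i).coeff a
  have hSO : ∀ h ∈ (S : Set ℂ), h ∈ O := by
    intro h hh
    simp only [S, Finset.coe_biUnion, Finset.coe_image, Set.mem_iUnion, Set.mem_image] at hh
    obtain ⟨i, -, a, -, rfl⟩ := hh
    exact hcO i a
  have hmemS : ∀ i ∈ Finset.range (e + 1), ∀ a, (c i).coeff a ≠ 0 → (c i).coeff a ∈ (S : Set ℂ) := by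
    intro i hi a ha
    simp only [S, Finset.coe_biUnion, Finset.coe_image, Set.mem_iUnion, Set.mem_image]
    refine ⟨i, hi, a, ?_, rfl⟩
    rw [Finset.mem_coe, Finset.mem_range]
    exact Nat.lt_succ_of_le (Polynomial.le_natDegree_of_ne_zero ha)
  obtain ⟨Φ, hΦS, z₀, hz₀, hz₀'⟩ := exists_functional ℓ O hℓ S S.finite_toSet hSO _
    (hmemS e (Finset.self_mem_range_succ e) a₀ ha₀) ha₀ ha₀'
  have hΦint : ∀ i ∈ Finset.range (e + 1), ∀ a, ∃ z : ℤ, Φ ((c i).coeff a) = z := by
    intro i hi a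
    by_cases h0 : (c i).coeff a = 0
    · exact ⟨0, by rw [h0, map_zero, Int.cast_zero]⟩
    · exact hΦS _ (hmemS i hi a h0)
  have hP : ∀ i, ∃ P : Polynomial ℤ, i ∈ Finset.range (e + 1) →
      P.map (Int.castRingHom ℚ) = phiPoly Φ (c i) := by
    intro i
    by_cases hi : i ∈ Finset.range (e + 1)
    · have : phiPoly Φ (c i) ∈ Polynomial.lifts (Int.castRingHom ℚ) := by
        rw [Polynomial.lifts_iff_coeff_lifts]
        intro a
        obtain ⟨z, hz⟩ := hΦint i hi a
        exact ⟨z, by rw [phiPoly_coeff, hz]; rfl⟩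
      obtain ⟨P, hP⟩ := (Polynomial.mem_lifts _).1 this
      exact ⟨P, fun _ => hP⟩
    · exact ⟨0, fun h => absurd h hi⟩
  choose P hP using hP
  -- the relation over `ℚ`
  have hid : ∑ i ∈ Finset.range (e + 1),
      Polynomial.aeval jq (phiPoly Φ (c i)) * (x : LaurentSeries ℚ) ^ i = 0 := by
    ext k
    rw [HahnSeries.coeff_sum, HahnSeries.coeff_zero]
    have h1 := congrArg (fun g : LaurentSeries ℂ => Φ (g.coeff ((N : ℤ) * k))) hsum
    simp only [HahnSeries.coeff_sum, map_sum, HahnSeries.coeff_zero, map_zero] at h1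
    rw [← h1]
    refine Finset.sum_congr rfl fun i _ => ?_
    rw [← map_pow, key_coeff]
  -- conclusion
  refine ⟨(P e).map (Int.castRingHom ↥(GaloisRep.ratLocalizedAt ℓ)), ⟨a₀, ?_⟩, ?_⟩
  · rw [Polynomial.coeff_map]
    have h1 : (((P e).coeff a₀ : ℤ) : ℚ) = (z₀ : ℚ) := by
      have := congrArg (fun q => q.coeff a₀) (hP e (Finset.self_mem_range_succ e))
      simp only [Polynomial.coeff_map, phiPoly_coeff] at this
      rw [hz₀] at this
      exact this
    have h2 : (P e).coeff a₀ = z₀ := by exact_mod_cast h1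
    rw [h2]
    exact isUnit_intCast_of_not_dvd ℓ z₀ hz₀'
  · apply isIntegral_of_relation
      (Algebra.adjoin ↥(GaloisRep.ratLocalizedAt ℓ) ({jFull N} : Set ↥(modularFunctionFieldFull N)))
      e (fun i => Polynomial.aeval (jFull N)
        ((P i).map (Int.castRingHom ↥(GaloisRep.ratLocalizedAt ℓ))))
      (fun i => Polynomial.aeval_mem_adjoin_singleton _ _) x
    apply Subtype.val_injective
    rw [ZeroMemClass.coe_zero, ← hid]
    rw [AddSubmonoidClass.coe_finsetSum]
    refine Finset.sum_congr rfl fun i hi => ?_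
    rw [MulMemClass.coe_mul, SubmonoidClass.coe_pow, coe_aeval_jFull, hP i hi]

end Fermat.Agent.S28.H10
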