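import Mathlib

/-!
# S28 work package B1, generic core: an integrality criterion

`D` an integrally closed domain, `L` a field containing `D`, `p ∈ D` a prime element,
`s ∈ D` with `p ∤ s`.  If `p z` and `s z` are both integral over `D`, then so is `z`.
(Compare the minimal polynomials of `p z`, `s z` and `z` over `Frac D`.)
-/

set_option autoImplicit false

open Polynomial

namespace Fermat.Agent.S28.H79

section field

variable {K L : Type*} [Field K] [Field L] [Algebra K L]

/-- Over a field, `minpoly (c z)` is `minpoly z` with roots scaled by `c ≠ 0`. -/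
theorem minpoly_mul_eq_scaleRoots {c : K} (hc : c ≠ 0) {z : L} (hz : IsIntegral K z) :
    minpoly K (algebraMap K L c * z) = (minpoly K z).scaleRoots c := by
  have hcz : IsIntegral K (algebraMap K L c * z) := isIntegral_algebraMap.mul hz
  have h1 : minpoly K (algebraMap K L c * z) ∣ (minpoly K z).scaleRoots c :=
    minpoly.dvd K _ (scaleRoots_aeval_eq_zero (minpoly.aeval K z))
  have h2 : minpoly K z ∣ (minpoly K (algebraMap K L c * z)).scaleRoots c⁻¹ := by
    refine minpoly.dvd K _ ?_
    have h := scaleRoots_aeval_eq_zero (r := c⁻¹) (minpoly.aeval K (algebraMap K L c * z))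
    rwa [← mul_assoc, ← map_mul, inv_mul_cancel₀ hc, map_one, one_mul] at h
  have hm1 : ((minpoly K z).scaleRoots c).Monic :=
    (monic_scaleRoots_iff c).mpr (minpoly.monic hz)
  have hm2 : ((minpoly K (algebraMap K L c * z)).scaleRoots c⁻¹).Monic :=
    (monic_scaleRoots_iff c⁻¹).mpr (minpoly.monic hcz)
  have hdeg : ((minpoly K z).scaleRoots c).natDegree ≤
      (minpoly K (algebraMap K L c * z)).natDegree := by
    rw [natDegree_scaleRoots]
    have := natDegree_le_of_dvd h2 hm2.ne_zero
    rwa [natDegree_scaleRoots] at this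
  exact (eq_of_monic_of_dvd_of_natDegree_le (minpoly.monic hcz) hm1 h1 hdeg).symm

end field

section main

variable {D L : Type*} [CommRing D] [IsDomain D] [IsIntegrallyClosed D]
  [Field L] [Algebra D L] [FaithfulSMul D L]

/-- **Integrality criterion.**  `D` integrally closed, `p` prime, `p ∤ s`, `p z` and `s z`
integral over `D` ⟹ `z` integral over `D`. -/
theorem isIntegral_of_prime_mul_of_mul {p s : D} (hp : Prime p) (hs : ¬ p ∣ s) {z : L}
    (h1 : IsIntegral D (algebraMap D L p * z)) (h2 : IsIntegral D (algebraMap D L s * z)) :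
    IsIntegral D z := by
  classical
  let _ : Algebra (FractionRing D) L := FractionRing.liftAlgebra D L
  have : IsScalarTower D (FractionRing D) L := FractionRing.isScalarTower_liftAlgebra D L
  set K := FractionRing D with hK
  have hinj : Function.Injective (algebraMap D K) := IsFractionRing.injective D K
  have hp0 : p ≠ 0 := hp.ne_zero
  have hs0 : s ≠ 0 := by rintro rfl; exact hs (dvd_zero p)
  have hpK : algebraMap D K p ≠ 0 := fun h => hp0 (hinj (by rw [h, map_zero]))
  have hsK : algebraMap D K s ≠ 0 := fun h => hs0 (hinj (by rw [h, map_zero]))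
  have hpL : algebraMap D L p ≠ 0 := fun h =>
    hp0 (FaithfulSMul.algebraMap_injective D L (by rw [h, map_zero]))
  -- `z` is integral over `K`
  have hzK : IsIntegral K z := by
    have h : IsIntegral K (algebraMap D L p * z) := h1.tower_top
    have h' : IsIntegral K (algebraMap K L (algebraMap D K p)⁻¹ * (algebraMap D L p * z)) :=
      isIntegral_algebraMap.mul h
    rwa [← mul_assoc, IsScalarTower.algebraMap_apply D K L, ← map_mul, inv_mul_cancel₀ hpK,
      map_one, one_mul] at h'
  set Q := minpoly K z with hQ
  have hQm : Q.Monic := minpoly.monic hzK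
  -- the key comparison
  have key : ∀ c : D, c ≠ 0 → IsIntegral D (algebraMap D L c * z) →
      (minpoly D (algebraMap D L c * z)).map (algebraMap D K) = Q.scaleRoots (algebraMap D K c) := by
    intro c hc hint
    have hcK : algebraMap D K c ≠ 0 := fun h => hc (hinj (by rw [h, map_zero]))
    rw [← minpoly.isIntegrallyClosed_eq_field_fractions' K hint,
      IsScalarTower.algebraMap_apply D K L, minpoly_mul_eq_scaleRoots hcK hzK]
  -- every coefficient of `Q` comes from `D`
  have hcoeff : ∀ i, ∃ d : D, algebraMap D K d = Q.coeff i := by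
    intro i
    have e1 := congrArg (fun P => P.coeff i) (key p hp0 h1)
    have e2 := congrArg (fun P => P.coeff i) (key s hs0 h2)
    simp only [coeff_map, coeff_scaleRoots] at e1 e2
    set m := Q.natDegree - i
    set a := (minpoly D (algebraMap D L p * z)).coeff i
    set b := (minpoly D (algebraMap D L s * z)).coeff i
    have e3 : a * s ^ m = b * p ^ m := by
      apply hinj
      rw [map_mul, map_mul, map_pow, map_pow, e1, e2]
      ring
    have hdvd : p ^ m ∣ a := by
      refine hp.pow_dvd_of_dvd_mul_right (b := s ^ m) m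
        (fun h => hs (hp.dvd_of_dvd_pow h)) ?_
      exact ⟨b, by rw [e3, mul_comm]⟩
    obtain ⟨d, hd⟩ := hdvd
    refine ⟨d, ?_⟩
    have : algebraMap D K d * algebraMap D K p ^ m = Q.coeff i * algebraMap D K p ^ m := by
      rw [← e1, hd, map_mul, map_pow, mul_comm]
    exact mul_right_cancel₀ (pow_ne_zero m hpK) this
  have hlifts : Q ∈ Polynomial.lifts (algebraMap D K) :=
    (Polynomial.lifts_iff_coeff_lifts Q).mpr fun i => by
      obtain ⟨d, hd⟩ := hcoeff i
      exact ⟨d, hd⟩
  obtain ⟨Q', hQ'Q, -, hQ'monic⟩ := Polynomial.lifts_and_natDegree_eq_and_monic hlifts hQm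
  refine ⟨Q', hQ'monic, ?_⟩
  have : aeval z Q = 0 := minpoly.aeval K z
  rw [← hQ'Q, aeval_map_algebraMap] at this
  exact this

end main

end Fermat.Agent.S28.H79
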