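import Mathlib
import Fermat.Prelude.Def_ModularCurve_LaurentCoeff

/-!
# S28 work package B2: a reduction map with kernel `(ℓ)` makes the base change a domain

`A` an `R`-algebra, `k` a residue field of `R` (`R → k` surjective), `K` a field over `k`.
If `ρ : A →+* k((q))` is compatible with `R → k` and `ker ρ ⊆ (ker (R → k)) • A`,
then `A ⊗[R] K` embeds in `K((q))`, hence is a domain.
-/

set_option autoImplicit false

open TensorProduct ModularCurve

namespace Fermat.Agent.S28.H79

section generic

variable {R A k K : Type*} [CommRing R] [CommRing A] [Algebra R A] [Field k] [Field K]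
  [Algebra R k] [Algebra k K] [Algebra R K] [IsScalarTower R k K]

theorem algebraMap_laurent_eq_C (r : R) :
    algebraMap R (LaurentSeries K) r = HahnSeries.C (algebraMap R K r) := by
  rw [HahnSeries.algebraMap_apply', PowerSeries.algebraMap_apply, HahnSeries.ofPowerSeries_C]

/-- The two scalar actions of `R` on `K((q))` agree enough for `IsScalarTower R R K((q))`. -/
theorem isScalarTower_laurent :
    @IsScalarTower R R (LaurentSeries K) _ (Algebra.toSMul) (Algebra.toSMul) := by
  refine @IsScalarTower.mk R R (LaurentSeries K) _ (Algebra.toSMul) (Algebra.toSMul) ?_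
  intro x y z
  rw [Algebra.smul_def, Algebra.smul_def, Algebra.smul_def, map_mul, mul_assoc]
  rfl

/-- The first leg `A → K((q))`, `a ↦ ρ(a)` with coefficients pushed to `K`. -/
noncomputable def legA (ρ : A →+* LaurentSeries k)
    (hρ : ∀ r : R, ρ (algebraMap R A r) = HahnSeries.C (algebraMap R k r)) :
    A →ₐ[R] LaurentSeries K where
  toRingHom := (coeffMap (algebraMap k K)).comp ρ
  commutes' r := by
    show coeffMap (algebraMap k K) (ρ (algebraMap R A r)) = algebraMap R (LaurentSeries K) r
    rw [hρ, algebraMap_laurent_eq_C, HahnSeries.C_apply, coeffMap_single, HahnSeries.C_apply,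
      ← IsScalarTower.algebraMap_apply]

/-- The second leg `K → K((q))`, constants. -/
noncomputable def legK : K →ₐ[R] LaurentSeries K where
  toRingHom := HahnSeries.C
  commutes' r := by
    show HahnSeries.C (algebraMap R K r) = algebraMap R (LaurentSeries K) r
    rw [algebraMap_laurent_eq_C]

/-- The comparison map `A ⊗[R] K → K((q))`. -/
noncomputable def redTensor (ρ : A →+* LaurentSeries k)
    (hρ : ∀ r : R, ρ (algebraMap R A r) = HahnSeries.C (algebraMap R k r)) :
    A ⊗[R] K →ₐ[R] LaurentSeries K :=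
  haveI := isScalarTower_laurent (R := R) (K := K)
  Algebra.TensorProduct.lift (legA ρ hρ) (legK (R := R)) (fun _ _ => Commute.all _ _)

theorem redTensor_tmul (ρ : A →+* LaurentSeries k)
    (hρ : ∀ r : R, ρ (algebraMap R A r) = HahnSeries.C (algebraMap R k r)) (a : A) (c : K) :
    redTensor ρ hρ (a ⊗ₜ[R] c) = coeffMap (algebraMap k K) (ρ a) * HahnSeries.C c := by
  have := isScalarTower_laurent (R := R) (K := K)
  show Algebra.TensorProduct.lift (legA ρ hρ) (legK (R := R)) (fun _ _ => Commute.all _ _)
    (a ⊗ₜ[R] c) = _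
  rw [Algebra.TensorProduct.lift_tmul]
  rfl

theorem redTensor_tmul_coeff (ρ : A →+* LaurentSeries k)
    (hρ : ∀ r : R, ρ (algebraMap R A r) = HahnSeries.C (algebraMap R k r)) (a : A) (c : K)
    (n : ℤ) :
    (redTensor ρ hρ (a ⊗ₜ[R] c)).coeff n = (ρ a).coeff n • c := by
  rw [redTensor_tmul, HahnSeries.C_apply, HahnSeries.coeff_mul_single_zero, coeffMap_coeff,
    Algebra.smul_def]

/-- Elements of `m • A` (`m = ker (R → k)`) die in `A ⊗[R] K`. -/
theorem tmul_eq_zero_of_mem_map_ker {a : A}
    (ha : a ∈ (RingHom.ker (algebraMap R k)).map (algebraMap R A)) (c : K) :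
    a ⊗ₜ[R] c = 0 := by
  rw [Ideal.map] at ha
  induction ha using Submodule.span_induction generalizing c with
  | mem x hx =>
    obtain ⟨r, hr, rfl⟩ := hx
    have hr' : algebraMap R k r = 0 := hr
    rw [Algebra.algebraMap_eq_smul_one, TensorProduct.smul_tmul, Algebra.smul_def,
      IsScalarTower.algebraMap_apply R k K, hr', map_zero, zero_mul, TensorProduct.tmul_zero]
  | zero => exact TensorProduct.zero_tmul _ _
  | add x y _ _ hx hy => rw [TensorProduct.add_tmul, hx, hy, add_zero]
  | smul b x _ hx =>
    have : (b • x) ⊗ₜ[R] c = (b ⊗ₜ[R] (1 : K)) * (x ⊗ₜ[R] c) := by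
      rw [Algebra.TensorProduct.tmul_mul_tmul, one_mul, smul_eq_mul]
    rw [this, hx, mul_zero]

variable (R A) in
/-- `(aᵢ)ᵢ ↦ ∑ aᵢ ⊗ eᵢ`. -/
noncomputable def sumTmul {ι : Type*} (e : ι → K) : (ι →₀ A) →ₗ[R] A ⊗[R] K :=
  Finsupp.lsum R fun i => (TensorProduct.mk R A K).flip (e i)

theorem sumTmul_apply {ι : Type*} (e : ι → K) (f : ι →₀ A) :
    sumTmul R A e f = f.sum fun i a => a ⊗ₜ[R] e i := by
  rw [sumTmul, Finsupp.lsum_apply]
  rfl

theorem sumTmul_surjective (hsurj : Function.Surjective (algebraMap R k))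
    {ι : Type*} (e : Module.Basis ι k K) :
    Function.Surjective (sumTmul R A (K := K) e) := by
  rw [← LinearMap.range_eq_top, eq_top_iff]
  rintro t -
  induction t using TensorProduct.induction_on with
  | zero => exact zero_mem _
  | add x y hx hy => exact add_mem hx hy
  | tmul a c =>
    -- write `c = ∑ cᵢ eᵢ`, lift `cᵢ` to `R`
    have hc : c = (e.repr c).sum fun i x => x • e i := (e.linearCombination_repr c).symm
    rw [hc, Finsupp.sum, TensorProduct.tmul_sum]
    refine Submodule.sum_mem _ fun i _ => ?_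
    obtain ⟨r, hr⟩ := hsurj (e.repr c i)
    have h1 : (e.repr c i) • e i = r • e i := by
      rw [← hr, algebraMap_smul]
    rw [h1, ← TensorProduct.smul_tmul]
    refine ⟨Finsupp.single i (r • a), ?_⟩
    rw [sumTmul_apply]
    exact Finsupp.sum_single_index (TensorProduct.zero_tmul _ _)

theorem redTensor_injective (hsurj : Function.Surjective (algebraMap R k))
    (ρ : A →+* LaurentSeries k)
    (hρ : ∀ r : R, ρ (algebraMap R A r) = HahnSeries.C (algebraMap R k r))
    (hker : ∀ a : A, ρ a = 0 → a ∈ (RingHom.ker (algebraMap R k)).map (algebraMap R A)) :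
    Function.Injective (redTensor (K := K) ρ hρ) := by
  rw [injective_iff_map_eq_zero]
  intro t ht
  let e := Module.Basis.ofVectorSpace k K
  obtain ⟨f, rfl⟩ := sumTmul_surjective (A := A) hsurj e t
  rw [sumTmul_apply] at ht ⊢
  have hcoef : ∀ n : ℤ, ∀ i ∈ f.support, (ρ (f i)).coeff n = 0 := by
    intro n
    have hn : (redTensor (K := K) ρ hρ (f.sum fun i a => a ⊗ₜ[R] e i)).coeff n = 0 := by
      rw [ht]; rfl
    rw [Finsupp.sum, map_sum] at hn
    have hn' : ∑ i ∈ f.support, (ρ (f i)).coeff n • e i = 0 := by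
      rw [← hn]
      rw [← HahnSeries.coeff.addMonoidHom_apply, map_sum]
      refine Finset.sum_congr rfl fun i _ => ?_
      rw [HahnSeries.coeff.addMonoidHom_apply, redTensor_tmul_coeff]
    exact fun i hi => linearIndependent_iff'.mp e.linearIndependent f.support _ hn' i hi
  refine Finset.sum_eq_zero fun i hi => ?_
  refine tmul_eq_zero_of_mem_map_ker (hker _ ?_) _
  ext n
  exact hcoef n i hi

/-- **WP-B2.**  If `A` has a "reduction mod `m`" into `k((q))` whose kernel is `m • A`
(`m = ker (R → k)`), then `A ⊗[R] K` is a domain for every field `K` over `k`. -/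
theorem isDomain_tensor_of_reduction (hsurj : Function.Surjective (algebraMap R k))
    (ρ : A →+* LaurentSeries k)
    (hρ : ∀ r : R, ρ (algebraMap R A r) = HahnSeries.C (algebraMap R k r))
    (hker : ∀ a : A, ρ a = 0 → a ∈ (RingHom.ker (algebraMap R k)).map (algebraMap R A)) :
    IsDomain (A ⊗[R] K) :=
  Function.Injective.isDomain (redTensor (K := K) ρ hρ).toRingHom
    (redTensor_injective hsurj ρ hρ hker)

end generic

end Fermat.Agent.S28.H79
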