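/-
S28 (Igusa), shared "Gauss valuation" interface (helper90).

`R = ℤ_(ℓ) = GaloisRep.ratLocalizedAt ℓ`, `k = ZMod ℓ`.
* `resZl ℓ : R →+* ZMod ℓ`  (residue map, surjective, kernel `(ℓ)`),
* `iotaL ℓ : R((q)) →+* ℚ((q))`, `redL ℓ : R((q)) →+* k((q))` (coefficientwise),
* `gaussRing ℓ : Subring ℚ((q))` = `{x | ∃ g h ∈ R((q)), red g ≠ 0 ∧ ι g * x = ι h}`
  (the localization of `R((q))` at the prime `(ℓ)`, a discrete valuation ring with uniformizer `ℓ`),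
* `gaussRed ℓ : gaussRing ℓ →+* k((q))` with kernel `(ℓ)`.
-/
import Mathlib
import Fermat.Prelude.Def_ModularCurve_IgusaScheme
import Fermat.Prelude.Def_ModularCurve_X0ModL

set_option autoImplicit false
set_option linter.unusedSectionVars false

noncomputable section

namespace Fermat.Agent.S28.H90

open ModularCurve

section Residue

variable (ℓ : ℕ) [Fact ℓ.Prime]

/-- `ℤ_(ℓ)`. -/
abbrev Rl : Type := ↥(GaloisRep.ratLocalizedAt ℓ)

omit [Fact ℓ.Prime] in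
theorem mem_ratLocalizedAt_iff (x : ℚ) : x ∈ GaloisRep.ratLocalizedAt ℓ ↔ x.den.Coprime ℓ :=
  Iff.rfl

theorem not_dvd_den (x : Rl ℓ) : ¬ ℓ ∣ (x : ℚ).den := by
  have h : (x : ℚ).den.Coprime ℓ := x.2
  intro hd
  have := Nat.Coprime.eq_one_of_dvd h.symm hd
  exact (Fact.out : ℓ.Prime).one_lt.ne' this

theorem norm_le_one (x : Rl ℓ) : ‖((x : ℚ) : ℚ_[ℓ])‖ ≤ 1 :=
  Padic.norm_rat_le_one (not_dvd_den ℓ x)

/-- The embedding `ℤ_(ℓ) → ℤ_ℓ`. -/
def toPadicInt : Rl ℓ →+* ℤ_[ℓ] where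
  toFun x := ⟨((x : ℚ) : ℚ_[ℓ]), norm_le_one ℓ x⟩
  map_zero' := by apply Subtype.ext; simp
  map_one' := by apply Subtype.ext; simp
  map_add' x y := by
    apply Subtype.ext
    show (((x + y : Rl ℓ) : ℚ) : ℚ_[ℓ]) = ((x : ℚ) : ℚ_[ℓ]) + ((y : ℚ) : ℚ_[ℓ])
    push_cast; rfl
  map_mul' x y := by
    apply Subtype.ext
    show (((x * y : Rl ℓ) : ℚ) : ℚ_[ℓ]) = ((x : ℚ) : ℚ_[ℓ]) * ((y : ℚ) : ℚ_[ℓ])
    push_cast; rfl

@[simp] theorem coe_toPadicInt (x : Rl ℓ) : ((toPadicInt ℓ x : ℤ_[ℓ]) : ℚ_[ℓ]) = ((x : ℚ) : ℚ_[ℓ]) :=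
  rfl

/-- The residue map `ℤ_(ℓ) → 𝔽_ℓ`. -/
def resZl : Rl ℓ →+* ZMod ℓ := (PadicInt.toZMod).comp (toPadicInt ℓ)

omit [Fact ℓ.Prime] in
theorem intCast_mem (n : ℤ) : (n : ℚ) ∈ GaloisRep.ratLocalizedAt ℓ := by
  rw [mem_ratLocalizedAt_iff]; simp

theorem resZl_intCast (n : ℤ) : resZl ℓ (n : Rl ℓ) = (n : ZMod ℓ) := map_intCast _ n

theorem resZl_natCast (n : ℕ) : resZl ℓ (n : Rl ℓ) = (n : ZMod ℓ) := map_natCast _ n

theorem resZl_surjective : Function.Surjective (resZl ℓ) := by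
  intro a
  refine ⟨((ZMod.val a : ℕ) : Rl ℓ), ?_⟩
  rw [resZl_natCast]
  exact ZMod.natCast_zmod_val a

/-- the element `ℓ` of `ℤ_(ℓ)` -/
theorem resZl_ell : resZl ℓ (ℓ : Rl ℓ) = 0 := by
  rw [resZl_natCast]; exact ZMod.natCast_self ℓ

theorem resZl_eq_zero_iff (x : Rl ℓ) : resZl ℓ x = 0 ↔ ∃ y : Rl ℓ, x = (ℓ : Rl ℓ) * y := by
  constructor
  · intro h
    have h1 : toPadicInt ℓ x ∈ RingHom.ker (PadicInt.toZMod (p := ℓ)) := h
    rw [PadicInt.ker_toZMod, IsLocalRing.mem_maximalIdeal, PadicInt.mem_nonunits] at h1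
    -- ‖x‖ < 1 hence ℓ ∣ num
    have hx : ‖((x : ℚ) : ℚ_[ℓ])‖ < 1 := h1
    have hnum : (ℓ : ℤ) ∣ (x : ℚ).num := by
      have hden : ‖(((x : ℚ).den : ℤ) : ℚ_[ℓ])‖ = 1 := by
        have := PadicInt.isUnit_den (p := ℓ) (x : ℚ) (norm_le_one ℓ x)
        rw [PadicInt.isUnit_iff] at this
        simpa using this
      have hq : ((x : ℚ) : ℚ_[ℓ]) * (((x : ℚ).den : ℤ) : ℚ_[ℓ]) = (((x : ℚ).num : ℤ) : ℚ_[ℓ]) := by
        have h0 := Rat.mul_den_eq_num (x : ℚ)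
        have h2 : (((x : ℚ) * ((x : ℚ).den : ℚ) : ℚ) : ℚ_[ℓ]) = ((((x : ℚ).num : ℚ)) : ℚ_[ℓ]) :=
          congrArg (fun t : ℚ => (t : ℚ_[ℓ])) h0
        push_cast at h2
        exact_mod_cast h2
      have hn : ‖(((x : ℚ).num : ℤ) : ℚ_[ℓ])‖ < 1 := by
        rw [← hq, norm_mul, hden, mul_one]; exact hx
      have : ‖(((x : ℚ).num : ℤ) : ℤ_[ℓ])‖ < 1 := by simpa using hn
      exact (PadicInt.norm_int_lt_one_iff_dvd _).1 this
    obtain ⟨m, hm⟩ := hnum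
    have hy : ((m : ℚ) / (x : ℚ).den) ∈ GaloisRep.ratLocalizedAt ℓ := by
      rw [mem_ratLocalizedAt_iff]
      have hd : ((m : ℚ) / (x : ℚ).den).den ∣ (x : ℚ).den := by
        have := Rat.den_dvd m ((x : ℚ).den : ℤ)
        rw [Rat.divInt_eq_div] at this
        exact_mod_cast this
      exact Nat.Coprime.coprime_dvd_left hd x.2
    refine ⟨⟨_, hy⟩, Subtype.ext ?_⟩
    have hd0 : ((x : ℚ).den : ℚ) ≠ 0 := by exact_mod_cast (x : ℚ).den_nz
    have hxq : (x : ℚ) = (x : ℚ).num / (x : ℚ).den := (Rat.num_div_den (x : ℚ)).symm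
    show (x : ℚ) = ((ℓ : Rl ℓ) : ℚ) * ((m : ℚ) / (x : ℚ).den)
    have hl : ((ℓ : Rl ℓ) : ℚ) = (ℓ : ℚ) := by simp
    rw [hl]
    conv_lhs => rw [hxq, hm]
    push_cast
    ring
  · rintro ⟨y, rfl⟩
    rw [map_mul, resZl_ell, zero_mul]

theorem ker_resZl : RingHom.ker (resZl ℓ) = Ideal.span {(ℓ : Rl ℓ)} := by
  ext x
  rw [RingHom.mem_ker, resZl_eq_zero_iff, Ideal.mem_span_singleton']
  constructor
  · rintro ⟨y, rfl⟩; exact ⟨y, mul_comm _ _⟩
  · rintro ⟨y, rfl⟩; exact ⟨y, mul_comm _ _⟩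

end Residue

section Series

variable (ℓ : ℕ) [Fact ℓ.Prime]

/-- `ι : R((q)) → ℚ((q))`. -/
def iotaL : LaurentSeries (Rl ℓ) →+* LaurentSeries ℚ :=
  coeffMap (GaloisRep.ratLocalizedAt ℓ).subtype

/-- `red : R((q)) → 𝔽_ℓ((q))`. -/
def redL : LaurentSeries (Rl ℓ) →+* LaurentSeries (ZMod ℓ) :=
  coeffMap (resZl ℓ)

omit [Fact ℓ.Prime] in
@[simp] theorem iotaL_coeff (g : LaurentSeries (Rl ℓ)) (n : ℤ) :
    (iotaL ℓ g).coeff n = ((g.coeff n : Rl ℓ) : ℚ) := rfl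

@[simp] theorem redL_coeff (g : LaurentSeries (Rl ℓ)) (n : ℤ) :
    (redL ℓ g).coeff n = resZl ℓ (g.coeff n) := rfl

omit [Fact ℓ.Prime] in
theorem iotaL_injective : Function.Injective (iotaL ℓ) := by
  intro g h hgh
  ext n
  have := congrArg (fun x : LaurentSeries ℚ => x.coeff n) hgh
  simpa using this

/-- coefficientwise lift of a Laurent series -/
theorem coeffMap_surjective {A B : Type*} [CommRing A] [CommRing B] (f : A →+* B)
    (hf : Function.Surjective f) : Function.Surjective (coeffMap f) := by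
  intro y
  classical
  choose s hs using hf
  have hsupp : (Function.support fun n : ℤ => if y.coeff n = 0 then (0 : A) else s (y.coeff n)) ⊆
      y.support := by
    intro n hn
    by_contra h0
    apply hn
    have : y.coeff n = 0 := by simpa using h0
    simp [this]
  refine ⟨⟨fun n => if y.coeff n = 0 then 0 else s (y.coeff n), y.isPWO_support.mono hsupp⟩, ?_⟩
  ext n
  rw [coeffMap_coeff]
  show f (if y.coeff n = 0 then 0 else s (y.coeff n)) = y.coeff n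
  split_ifs with h
  · rw [map_zero, h]
  · exact hs _

theorem redL_surjective : Function.Surjective (redL ℓ) :=
  coeffMap_surjective _ (resZl_surjective ℓ)

theorem redL_ell : redL ℓ (ℓ : LaurentSeries (Rl ℓ)) = 0 := by
  rw [map_natCast]
  have h : ((ℓ : ℕ) : LaurentSeries (ZMod ℓ)) = HahnSeries.C ((ℓ : ℕ) : ZMod ℓ) :=
    (map_natCast (HahnSeries.C : ZMod ℓ →+* LaurentSeries (ZMod ℓ)) ℓ).symm
  rw [h, ZMod.natCast_self, map_zero]

theorem ell_ne_zero : ((ℓ : Rl ℓ) : ℚ) ≠ 0 := by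
  have : (ℓ : ℚ) ≠ 0 := by exact_mod_cast (Fact.out : ℓ.Prime).ne_zero
  simpa using this

omit [Fact ℓ.Prime] in
theorem natCast_mul_coeff (g : LaurentSeries (Rl ℓ)) (n : ℤ) :
    (((ℓ : ℕ) : LaurentSeries (Rl ℓ)) * g).coeff n = (ℓ : Rl ℓ) * g.coeff n := by
  have h : ((ℓ : ℕ) : LaurentSeries (Rl ℓ)) = HahnSeries.C ((ℓ : ℕ) : Rl ℓ) :=
    (map_natCast (HahnSeries.C : Rl ℓ →+* LaurentSeries (Rl ℓ)) ℓ).symm
  rw [h, HahnSeries.C_mul_eq_smul, HahnSeries.coeff_smul, smul_eq_mul]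

/-- `red g = 0` iff `g` is divisible by `ℓ`. -/
theorem redL_eq_zero_iff (g : LaurentSeries (Rl ℓ)) :
    redL ℓ g = 0 ↔ ∃ g' : LaurentSeries (Rl ℓ), g = (ℓ : LaurentSeries (Rl ℓ)) * g' := by
  classical
  constructor
  · intro h
    have hc : ∀ n : ℤ, ∃ y : Rl ℓ, g.coeff n = (ℓ : Rl ℓ) * y := fun n => by
      rw [← resZl_eq_zero_iff]
      have := congrArg (fun x : LaurentSeries (ZMod ℓ) => x.coeff n) h
      simpa using this
    choose y hy using hc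
    have hl0 : (ℓ : Rl ℓ) ≠ 0 := fun h0 => ell_ne_zero ℓ (by rw [h0]; rfl)
    have hsupp : Function.support y ⊆ g.support := by
      intro n hn
      have : y n ≠ 0 := hn
      show g.coeff n ≠ 0
      rw [hy n]
      exact mul_ne_zero hl0 this
    refine ⟨⟨y, g.isPWO_support.mono hsupp⟩, HahnSeries.ext (funext fun n => ?_)⟩
    rw [natCast_mul_coeff]
    exact hy n
  · rintro ⟨g', rfl⟩
    rw [map_mul, redL_ell, zero_mul]

theorem padicValRat_nonneg (y : Rl ℓ) : 0 ≤ padicValRat ℓ (y : ℚ) := by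
  have h : padicValRat ℓ (y : ℚ) = padicValInt ℓ (y : ℚ).num - padicValNat ℓ (y : ℚ).den := rfl
  rw [h, padicValNat.eq_zero_of_not_dvd (not_dvd_den ℓ y)]
  simp

/-- Every nonzero element of `R((q))` is `ℓ ^ n` times an element with nonzero reduction. -/
theorem exists_eq_pow_mul (g : LaurentSeries (Rl ℓ)) (hg : g ≠ 0) :
    ∃ (n : ℕ) (g₀ : LaurentSeries (Rl ℓ)), g = (ℓ : LaurentSeries (Rl ℓ)) ^ n * g₀ ∧
      redL ℓ g₀ ≠ 0 := by
  obtain ⟨k, hk⟩ : ∃ k, g.coeff k ≠ 0 := by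
    by_contra h
    push Not at h
    exact hg (HahnSeries.ext (funext h))
  have key : ∀ (m : ℕ) (g : LaurentSeries (Rl ℓ)), g.coeff k ≠ 0 →
      padicValRat ℓ ((g.coeff k : Rl ℓ) : ℚ) = m →
      ∃ (n : ℕ) (g₀ : LaurentSeries (Rl ℓ)), g = (ℓ : LaurentSeries (Rl ℓ)) ^ n * g₀ ∧
        redL ℓ g₀ ≠ 0 := by
    intro m
    induction m with
    | zero =>
      intro g hk hv
      refine ⟨0, g, by simp, ?_⟩
      intro h0
      obtain ⟨g', rfl⟩ := (redL_eq_zero_iff ℓ g).1 h0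
      rw [natCast_mul_coeff] at hk hv
      have hg'k : ((g'.coeff k : Rl ℓ) : ℚ) ≠ 0 := by
        intro h
        apply hk
        have : g'.coeff k = 0 := Subtype.ext h
        rw [this, mul_zero]
      have : padicValRat ℓ (((ℓ : Rl ℓ) * g'.coeff k : Rl ℓ) : ℚ) =
          1 + padicValRat ℓ ((g'.coeff k : Rl ℓ) : ℚ) := by
        have e : (((ℓ : Rl ℓ) * g'.coeff k : Rl ℓ) : ℚ) = (ℓ : ℚ) * ((g'.coeff k : Rl ℓ) : ℚ) := by
          push_cast; rfl
        rw [e, padicValRat.mul (by exact_mod_cast (Fact.out : ℓ.Prime).ne_zero) hg'k,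
          padicValRat.self (Fact.out : ℓ.Prime).one_lt]
      rw [this] at hv
      have := padicValRat_nonneg ℓ (g'.coeff k)
      simp at hv
      omega
    | succ m ih =>
      intro g hk hv
      by_cases h0 : redL ℓ g = 0
      · obtain ⟨g', rfl⟩ := (redL_eq_zero_iff ℓ g).1 h0
        rw [natCast_mul_coeff] at hk hv
        have hg'k0 : g'.coeff k ≠ 0 := by
          intro h
          apply hk
          rw [h, mul_zero]
        have hg'k : ((g'.coeff k : Rl ℓ) : ℚ) ≠ 0 := fun h => hg'k0 (Subtype.ext h)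
        have : padicValRat ℓ (((ℓ : Rl ℓ) * g'.coeff k : Rl ℓ) : ℚ) =
            1 + padicValRat ℓ ((g'.coeff k : Rl ℓ) : ℚ) := by
          have e : (((ℓ : Rl ℓ) * g'.coeff k : Rl ℓ) : ℚ) =
              (ℓ : ℚ) * ((g'.coeff k : Rl ℓ) : ℚ) := by
            push_cast; rfl
          rw [e, padicValRat.mul (by exact_mod_cast (Fact.out : ℓ.Prime).ne_zero) hg'k,
            padicValRat.self (Fact.out : ℓ.Prime).one_lt]
        rw [this] at hv
        obtain ⟨n, g₀, hg₀, hr⟩ := ih g' hg'k0 (by push_cast at hv; omega)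
        exact ⟨n + 1, g₀, by rw [hg₀, pow_succ']; ring, hr⟩
      · exact ⟨0, g, by simp, h0⟩
  have hnn := padicValRat_nonneg ℓ (g.coeff k)
  obtain ⟨m, hm⟩ := Int.eq_ofNat_of_zero_le hnn
  exact key m g hk hm

end Series

section Gauss

variable (ℓ : ℕ) [Fact ℓ.Prime]

theorem ell_ne_zero' : (ℓ : LaurentSeries ℚ) ≠ 0 := by
  have h : ((ℓ : ℕ) : LaurentSeries ℚ) = HahnSeries.C ((ℓ : ℕ) : ℚ) :=
    (map_natCast (HahnSeries.C : ℚ →+* LaurentSeries ℚ) ℓ).symm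
  rw [h]
  exact HahnSeries.C_ne_zero (by exact_mod_cast (Fact.out : ℓ.Prime).ne_zero)

/-- The Gauss valuation ring `O_V ⊆ ℚ((q))`: the localization of `R((q))` at the prime `(ℓ)`. -/
def gaussRing : Subring (LaurentSeries ℚ) where
  carrier := {x | ∃ g h : LaurentSeries (Rl ℓ), redL ℓ g ≠ 0 ∧ iotaL ℓ g * x = iotaL ℓ h}
  mul_mem' := by
    rintro x y ⟨g, h, hg, hx⟩ ⟨g', h', hg', hy⟩
    refine ⟨g * g', h * h', ?_, ?_⟩
    · rw [map_mul]; exact mul_ne_zero hg hg'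
    · rw [map_mul, map_mul, ← hx, ← hy]; ring
  one_mem' := ⟨1, 1, by rw [map_one]; exact one_ne_zero, by simp⟩
  add_mem' := by
    rintro x y ⟨g, h, hg, hx⟩ ⟨g', h', hg', hy⟩
    refine ⟨g * g', h * g' + h' * g, ?_, ?_⟩
    · rw [map_mul]; exact mul_ne_zero hg hg'
    · rw [map_mul, map_add, map_mul, map_mul, ← hx, ← hy]; ring
  zero_mem' := ⟨1, 0, by rw [map_one]; exact one_ne_zero, by simp⟩
  neg_mem' := by
    rintro x ⟨g, h, hg, hx⟩
    exact ⟨g, -h, hg, by rw [map_neg, ← hx]; ring⟩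

theorem mem_gaussRing_iff (x : LaurentSeries ℚ) :
    x ∈ gaussRing ℓ ↔
      ∃ g h : LaurentSeries (Rl ℓ), redL ℓ g ≠ 0 ∧ iotaL ℓ g * x = iotaL ℓ h := Iff.rfl

theorem iotaL_mem_gaussRing (h : LaurentSeries (Rl ℓ)) : iotaL ℓ h ∈ gaussRing ℓ :=
  ⟨1, h, by rw [map_one]; exact one_ne_zero, by simp⟩

theorem iotaL_ne_zero_of_redL_ne_zero {g : LaurentSeries (Rl ℓ)} (hg : redL ℓ g ≠ 0) :
    iotaL ℓ g ≠ 0 := by
  intro h
  have : g = 0 := iotaL_injective ℓ (by rw [h, map_zero])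
  exact hg (by rw [this, map_zero])

/-- auxiliary: the value of the reduction computed from a presentation -/
theorem redL_div_eq_of_eq {x : LaurentSeries ℚ} {g h g' h' : LaurentSeries (Rl ℓ)}
    (hg : redL ℓ g ≠ 0) (hx : iotaL ℓ g * x = iotaL ℓ h)
    (hg' : redL ℓ g' ≠ 0) (hx' : iotaL ℓ g' * x = iotaL ℓ h') :
    redL ℓ h / redL ℓ g = redL ℓ h' / redL ℓ g' := by
  have e : h * g' = h' * g := by
    apply iotaL_injective ℓ
    rw [map_mul, map_mul, ← hx, ← hx']; ring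
  rw [div_eq_div_iff hg hg', ← map_mul, ← map_mul, e]

/-- The reduction map `O_V → 𝔽_ℓ((q))`. -/
def gaussRed : gaussRing ℓ →+* LaurentSeries (ZMod ℓ) where
  toFun x := redL ℓ x.2.choose_spec.choose / redL ℓ x.2.choose
  map_one' := by
    have h := (1 : gaussRing ℓ).2.choose_spec.choose_spec
    exact (redL_div_eq_of_eq ℓ h.1 h.2 (g' := 1) (h' := 1) (by rw [map_one]; exact one_ne_zero)
      (by simp)).trans (by simp)
  map_zero' := by
    have h := (0 : gaussRing ℓ).2.choose_spec.choose_spec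
    exact (redL_div_eq_of_eq ℓ h.1 h.2 (g' := 1) (h' := 0) (by rw [map_one]; exact one_ne_zero)
      (by simp)).trans (by simp)
  map_mul' x y := by
    have hxy := (x * y).2.choose_spec.choose_spec
    have hx := x.2.choose_spec.choose_spec
    have hy := y.2.choose_spec.choose_spec
    have hgg : redL ℓ (x.2.choose * y.2.choose) ≠ 0 := by
      rw [map_mul]; exact mul_ne_zero hx.1 hy.1
    refine (redL_div_eq_of_eq ℓ hxy.1 hxy.2 hgg
      (h' := x.2.choose_spec.choose * y.2.choose_spec.choose) ?_).trans ?_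
    · rw [map_mul, map_mul, ← hx.2, ← hy.2]
      push_cast; ring
    · rw [map_mul, map_mul, mul_div_mul_comm]
  map_add' x y := by
    have hxy := (x + y).2.choose_spec.choose_spec
    have hx := x.2.choose_spec.choose_spec
    have hy := y.2.choose_spec.choose_spec
    have hgg : redL ℓ (x.2.choose * y.2.choose) ≠ 0 := by
      rw [map_mul]; exact mul_ne_zero hx.1 hy.1
    refine (redL_div_eq_of_eq ℓ hxy.1 hxy.2 hgg
      (h' := x.2.choose_spec.choose * y.2.choose + y.2.choose_spec.choose * x.2.choose) ?_).trans ?_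
    · rw [map_mul, map_add, map_mul, map_mul, ← hx.2, ← hy.2]
      push_cast; ring
    · rw [map_mul, map_add, map_mul, map_mul, div_add_div _ _ hx.1 hy.1]
      congr 1; ring

/-- The defining property of `gaussRed`. -/
theorem gaussRed_eq (x : gaussRing ℓ) {g h : LaurentSeries (Rl ℓ)} (hg : redL ℓ g ≠ 0)
    (hx : iotaL ℓ g * (x : LaurentSeries ℚ) = iotaL ℓ h) :
    gaussRed ℓ x = redL ℓ h / redL ℓ g := by
  have h0 := x.2.choose_spec.choose_spec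
  exact redL_div_eq_of_eq ℓ h0.1 h0.2 hg hx

theorem redL_mul_gaussRed (x : gaussRing ℓ) {g h : LaurentSeries (Rl ℓ)} (hg : redL ℓ g ≠ 0)
    (hx : iotaL ℓ g * (x : LaurentSeries ℚ) = iotaL ℓ h) :
    redL ℓ g * gaussRed ℓ x = redL ℓ h := by
  rw [gaussRed_eq ℓ x hg hx, mul_div_cancel₀ _ hg]

@[simp] theorem gaussRed_iotaL (h : LaurentSeries (Rl ℓ)) :
    gaussRed ℓ ⟨iotaL ℓ h, iotaL_mem_gaussRing ℓ h⟩ = redL ℓ h := by
  rw [gaussRed_eq ℓ _ (g := 1) (h := h) (by rw [map_one]; exact one_ne_zero) (by simp)]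
  simp

/-- The kernel of the reduction is generated by `ℓ`. -/
theorem gaussRed_eq_zero_iff (x : gaussRing ℓ) :
    gaussRed ℓ x = 0 ↔ ∃ y : gaussRing ℓ, x = (ℓ : gaussRing ℓ) * y := by
  obtain ⟨g, h, hg, hx⟩ := x.2
  constructor
  · intro h0
    rw [gaussRed_eq ℓ x hg hx, div_eq_zero_iff] at h0
    have hh : redL ℓ h = 0 := h0.resolve_right hg
    obtain ⟨h', rfl⟩ := (redL_eq_zero_iff ℓ h).1 hh
    have hl : (ℓ : LaurentSeries ℚ) ≠ 0 := ell_ne_zero' ℓ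
    have hg0 := iotaL_ne_zero_of_redL_ne_zero ℓ hg
    have hy : (x : LaurentSeries ℚ) / (ℓ : LaurentSeries ℚ) ∈ gaussRing ℓ := by
      refine ⟨g, h', hg, ?_⟩
      rw [mul_div_assoc', hx, map_mul, map_natCast, mul_div_cancel_left₀ _ hl]
    refine ⟨⟨_, hy⟩, Subtype.ext ?_⟩
    show (x : LaurentSeries ℚ) = ((ℓ : gaussRing ℓ) : LaurentSeries ℚ) * ((x : LaurentSeries ℚ) / ℓ)
    push_cast
    rw [mul_div_cancel₀ _ hl]
  · rintro ⟨y, rfl⟩
    rw [map_mul]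
    have : gaussRed ℓ (ℓ : gaussRing ℓ) = 0 := by
      rw [map_natCast]
      have h : ((ℓ : ℕ) : LaurentSeries (ZMod ℓ)) = HahnSeries.C ((ℓ : ℕ) : ZMod ℓ) :=
        (map_natCast (HahnSeries.C : ZMod ℓ →+* LaurentSeries (ZMod ℓ)) ℓ).symm
      rw [h, ZMod.natCast_self, map_zero]
    rw [this, zero_mul]

theorem ker_gaussRed : RingHom.ker (gaussRed ℓ) = Ideal.span {(ℓ : gaussRing ℓ)} := by
  ext x
  rw [RingHom.mem_ker, gaussRed_eq_zero_iff, Ideal.mem_span_singleton']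
  constructor
  · rintro ⟨y, rfl⟩; exact ⟨y, mul_comm _ _⟩
  · rintro ⟨y, rfl⟩; exact ⟨y, mul_comm _ _⟩

/-- Units: an element with nonzero reduction has its inverse in `O_V`. -/
theorem inv_mem_gaussRing {x : LaurentSeries ℚ} (hx : x ∈ gaussRing ℓ)
    (hr : gaussRed ℓ ⟨x, hx⟩ ≠ 0) : x⁻¹ ∈ gaussRing ℓ := by
  have hx' := hx
  obtain ⟨g, h, hg, hgx⟩ := hx'
  have hh : redL ℓ h ≠ 0 := by
    intro h0
    apply hr
    rw [gaussRed_eq ℓ ⟨x, hx⟩ hg hgx, h0, zero_div]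
  have hx0 : x ≠ 0 := by
    rintro rfl
    rw [mul_zero] at hgx
    exact iotaL_ne_zero_of_redL_ne_zero ℓ hh hgx.symm
  exact ⟨h, g, hh, by rw [← hgx, mul_assoc, mul_inv_cancel₀ hx0, mul_one]⟩

/-- The fraction field of `O_V` inside `ℚ((q))`. -/
def gaussFrac : Subfield (LaurentSeries ℚ) where
  carrier := {x | ∃ g h : LaurentSeries (Rl ℓ), g ≠ 0 ∧ iotaL ℓ g * x = iotaL ℓ h}
  mul_mem' := by
    rintro x y ⟨g, h, hg, hx⟩ ⟨g', h', hg', hy⟩
    refine ⟨g * g', h * h', mul_ne_zero hg hg', ?_⟩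
    rw [map_mul, map_mul, ← hx, ← hy]; ring
  one_mem' := ⟨1, 1, one_ne_zero, by simp⟩
  add_mem' := by
    rintro x y ⟨g, h, hg, hx⟩ ⟨g', h', hg', hy⟩
    refine ⟨g * g', h * g' + h' * g, mul_ne_zero hg hg', ?_⟩
    rw [map_mul, map_add, map_mul, map_mul, ← hx, ← hy]; ring
  zero_mem' := ⟨1, 0, one_ne_zero, by simp⟩
  neg_mem' := by
    rintro x ⟨g, h, hg, hx⟩
    exact ⟨g, -h, hg, by rw [map_neg, ← hx]; ring⟩
  inv_mem' := by
    rintro x ⟨g, h, hg, hx⟩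
    by_cases hx0 : x = 0
    · subst hx0
      exact ⟨1, 0, one_ne_zero, by simp⟩
    · have hg0 : iotaL ℓ g ≠ 0 := fun h0 => hg (iotaL_injective ℓ (by rw [h0, map_zero]))
      have hh : h ≠ 0 := by
        rintro rfl
        rw [map_zero] at hx
        exact (mul_ne_zero hg0 hx0) hx
      exact ⟨h, g, hh, by rw [← hx, mul_assoc, mul_inv_cancel₀ hx0, mul_one]⟩

theorem mem_gaussFrac_iff (x : LaurentSeries ℚ) :
    x ∈ gaussFrac ℓ ↔ ∃ g h : LaurentSeries (Rl ℓ), g ≠ 0 ∧ iotaL ℓ g * x = iotaL ℓ h := Iff.rfl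

theorem gaussRing_le_gaussFrac {x : LaurentSeries ℚ} (hx : x ∈ gaussRing ℓ) : x ∈ gaussFrac ℓ := by
  obtain ⟨g, h, hg, hgx⟩ := hx
  exact ⟨g, h, fun h0 => hg (by rw [h0, map_zero]), hgx⟩

theorem iotaL_natCast (n : ℕ) : iotaL ℓ (n : LaurentSeries (Rl ℓ)) = (n : LaurentSeries ℚ) :=
  map_natCast _ n

/-- Normal form of elements of the fraction field: `x = ℓ ^ a * y / ℓ ^ b` with `y` a unit of
`O_V`, or `x = 0`. -/
theorem exists_unit_of_mem_gaussFrac {x : LaurentSeries ℚ} (hx : x ∈ gaussFrac ℓ) (hx0 : x ≠ 0) :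
    ∃ (a b : ℕ) (y : LaurentSeries ℚ) (hy : y ∈ gaussRing ℓ), gaussRed ℓ ⟨y, hy⟩ ≠ 0 ∧
      (ℓ : LaurentSeries ℚ) ^ b * x = (ℓ : LaurentSeries ℚ) ^ a * y := by
  obtain ⟨g, h, hg, hgx⟩ := hx
  have hg0 : iotaL ℓ g ≠ 0 := fun h0 => hg (iotaL_injective ℓ (by rw [h0, map_zero]))
  have hh : h ≠ 0 := by
    rintro rfl
    rw [map_zero] at hgx
    exact (mul_ne_zero hg0 hx0) hgx
  obtain ⟨b, g₀, rfl, hg₀⟩ := exists_eq_pow_mul ℓ g hg
  obtain ⟨a, h₀, rfl, hh₀⟩ := exists_eq_pow_mul ℓ h hh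
  have hg₀' := iotaL_ne_zero_of_redL_ne_zero ℓ hg₀
  have hy : iotaL ℓ h₀ / iotaL ℓ g₀ ∈ gaussRing ℓ :=
    ⟨g₀, h₀, hg₀, by field_simp⟩
  refine ⟨a, b, _, hy, ?_, ?_⟩
  · rw [gaussRed_eq ℓ ⟨_, hy⟩ (g := g₀) (h := h₀) hg₀ (by field_simp)]
    exact div_ne_zero hh₀ hg₀
  · rw [map_mul, map_mul, map_pow, map_pow, iotaL_natCast] at hgx
    field_simp
    linear_combination hgx

/-- `O_V` is a valuation ring of its fraction field. -/
theorem mem_or_inv_mem_gaussRing {x : LaurentSeries ℚ} (hx : x ∈ gaussFrac ℓ) :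
    x ∈ gaussRing ℓ ∨ x⁻¹ ∈ gaussRing ℓ := by
  by_cases hx0 : x = 0
  · subst hx0; exact Or.inl (zero_mem _)
  obtain ⟨a, b, y, hy, hyr, he⟩ := exists_unit_of_mem_gaussFrac ℓ hx hx0
  have hl : (ℓ : LaurentSeries ℚ) ≠ 0 := ell_ne_zero' ℓ
  have hlmem : (ℓ : LaurentSeries ℚ) ∈ gaussRing ℓ := natCast_mem _ ℓ
  have hyinv := inv_mem_gaussRing ℓ hy hyr
  have hy0 : y ≠ 0 := by
    rintro rfl
    apply hyr
    exact map_zero (gaussRed ℓ)
  rcases le_total b a with hba | hab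
  · left
    have : x = (ℓ : LaurentSeries ℚ) ^ (a - b) * y := by
      have e : (ℓ : LaurentSeries ℚ) ^ a = (ℓ : LaurentSeries ℚ) ^ b * (ℓ : LaurentSeries ℚ) ^ (a - b) := by
        rw [← pow_add, Nat.add_sub_cancel' hba]
      rw [e, mul_assoc] at he
      exact mul_left_cancel₀ (pow_ne_zero b hl) he
    rw [this]
    exact mul_mem (pow_mem hlmem _) hy
  · right
    have : x⁻¹ = (ℓ : LaurentSeries ℚ) ^ (b - a) * y⁻¹ := by
      have e : (ℓ : LaurentSeries ℚ) ^ b = (ℓ : LaurentSeries ℚ) ^ a * (ℓ : LaurentSeries ℚ) ^ (b - a) := by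
        rw [← pow_add, Nat.add_sub_cancel' hab]
      rw [e, mul_assoc] at he
      have he' := mul_left_cancel₀ (pow_ne_zero a hl) he
      rw [← he']
      field_simp
    rw [this]
    exact mul_mem (pow_mem hlmem _) hyinv

/-- Every element of the fraction field is `ℓ ^ (-n)` times an element of `O_V`. -/
theorem exists_pow_mul_mem_gaussRing {x : LaurentSeries ℚ} (hx : x ∈ gaussFrac ℓ) :
    ∃ n : ℕ, (ℓ : LaurentSeries ℚ) ^ n * x ∈ gaussRing ℓ := by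
  by_cases hx0 : x = 0
  · subst hx0; exact ⟨0, by simp [zero_mem]⟩
  obtain ⟨a, b, y, hy, -, he⟩ := exists_unit_of_mem_gaussFrac ℓ hx hx0
  exact ⟨b, by rw [he]; exact mul_mem (pow_mem (natCast_mem _ ℓ) _) hy⟩

theorem one_not_mem_ell_mul (w : LaurentSeries ℚ) (hw : w ∈ gaussRing ℓ) :
    (1 : LaurentSeries ℚ) ≠ (ℓ : LaurentSeries ℚ) * w := by
  intro h
  have h1 : (1 : gaussRing ℓ) = (ℓ : gaussRing ℓ) * ⟨w, hw⟩ := Subtype.ext (by push_cast; exact h)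
  have h2 : gaussRed ℓ (1 : gaussRing ℓ) = 0 := (gaussRed_eq_zero_iff ℓ 1).2 ⟨_, h1⟩
  rw [map_one] at h2
  exact one_ne_zero h2

/-- A non-unit of `O_V` (in the fraction field) whose inverse is not in `O_V`... : if `x ∉ O_V`
then `x⁻¹ ∈ ℓ O_V`. -/
theorem inv_mem_ell_mul_of_not_mem {x : LaurentSeries ℚ} (hx : x ∈ gaussFrac ℓ)
    (hnot : x ∉ gaussRing ℓ) : ∃ z ∈ gaussRing ℓ, x⁻¹ = (ℓ : LaurentSeries ℚ) * z := by
  have hy : x⁻¹ ∈ gaussRing ℓ := (mem_or_inv_mem_gaussRing ℓ hx).resolve_left hnot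
  have hr : gaussRed ℓ ⟨x⁻¹, hy⟩ = 0 := by
    by_contra hr
    apply hnot
    have := inv_mem_gaussRing ℓ hy hr
    rwa [inv_inv] at this
  obtain ⟨z, hz⟩ := (gaussRed_eq_zero_iff ℓ _).1 hr
  refine ⟨z, z.2, ?_⟩
  have := congrArg (Subtype.val) hz
  simpa using this

/-- `O_V` is integrally closed in its fraction field. -/
theorem mem_gaussRing_of_isIntegral {x : LaurentSeries ℚ} (hx : x ∈ gaussFrac ℓ)
    (hint : IsIntegral (gaussRing ℓ) x) : x ∈ gaussRing ℓ := by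
  by_contra hnot
  obtain ⟨z, hz, hxz⟩ := inv_mem_ell_mul_of_not_mem ℓ hx hnot
  have hx0 : x ≠ 0 := by
    rintro rfl
    exact hnot (zero_mem _)
  obtain ⟨p, hmonic, hp⟩ := hint
  rw [Polynomial.eval₂_eq_sum_range, Finset.sum_range_succ, hmonic.coeff_natDegree, map_one,
    one_mul] at hp
  set n := p.natDegree with hn
  -- multiply by `x⁻¹ ^ n`
  have h1 : (∑ i ∈ Finset.range n,
      algebraMap (gaussRing ℓ) (LaurentSeries ℚ) (p.coeff i) * x ^ i) * x⁻¹ ^ n + 1 = 0 := by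
    have := congrArg (fun t => t * x⁻¹ ^ n) hp
    simp only [add_mul, zero_mul] at this
    rw [← this]
    congr 1
    rw [← mul_pow, mul_inv_cancel₀ hx0, one_pow]
  have h2 : (∑ i ∈ Finset.range n,
      algebraMap (gaussRing ℓ) (LaurentSeries ℚ) (p.coeff i) * x ^ i) * x⁻¹ ^ n =
      x⁻¹ * ∑ i ∈ Finset.range n,
        algebraMap (gaussRing ℓ) (LaurentSeries ℚ) (p.coeff i) * x⁻¹ ^ (n - 1 - i) := by
    rw [Finset.sum_mul, Finset.mul_sum]
    refine Finset.sum_congr rfl fun i hi => ?_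
    have hi' : i < n := Finset.mem_range.1 hi
    have e : n = i + (n - 1 - i) + 1 := by omega
    have : x ^ i * x⁻¹ ^ n = x⁻¹ * x⁻¹ ^ (n - 1 - i) := by
      conv_lhs => rw [e, pow_succ, pow_add, ← mul_assoc, ← mul_assoc, ← mul_pow,
        mul_inv_cancel₀ hx0, one_pow, one_mul]
      rw [mul_comm]
    rw [mul_assoc, this]; ring
  have hyO : x⁻¹ ∈ gaussRing ℓ := by
    rw [hxz]; exact mul_mem (natCast_mem _ ℓ) hz
  have hsum : (∑ i ∈ Finset.range n,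
        algebraMap (gaussRing ℓ) (LaurentSeries ℚ) (p.coeff i) * x⁻¹ ^ (n - 1 - i)) ∈
      gaussRing ℓ :=
    sum_mem fun i _ => mul_mem (p.coeff i).2 (pow_mem hyO _)
  rw [h2] at h1
  set S := ∑ i ∈ Finset.range n,
        algebraMap (gaussRing ℓ) (LaurentSeries ℚ) (p.coeff i) * x⁻¹ ^ (n - 1 - i) with hS
  refine one_not_mem_ell_mul ℓ (-(z * S)) (neg_mem (mul_mem hz hsum)) ?_
  linear_combination h1 - S * hxz

end Gauss

section Modular

variable (ℓ : ℕ) [Fact ℓ.Prime]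

theorem iotaL_jqModC : iotaL ℓ (jqModC (Rl ℓ)) = jq :=
  coeffMap_jqModC (GaloisRep.ratLocalizedAt ℓ).subtype

theorem redL_jqModC : redL ℓ (jqModC (Rl ℓ)) = jqModC (ZMod ℓ) :=
  coeffMap_jqModC (resZl ℓ)

theorem iotaL_jqNModC (d : ℕ) [NeZero d] : iotaL ℓ (jqNModC (Rl ℓ) d) = qExpand ℚ d jq :=
  coeffMap_jqNModC (GaloisRep.ratLocalizedAt ℓ).subtype d

theorem redL_jqNModC (d : ℕ) [NeZero d] : redL ℓ (jqNModC (Rl ℓ) d) = jqNModC (ZMod ℓ) d :=
  coeffMap_jqNModC (resZl ℓ) d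

theorem jq_mem_gaussRing : jq ∈ gaussRing ℓ := by
  rw [← iotaL_jqModC ℓ]; exact iotaL_mem_gaussRing ℓ _

theorem gaussRed_jq : gaussRed ℓ ⟨jq, jq_mem_gaussRing ℓ⟩ = jqModC (ZMod ℓ) := by
  rw [gaussRed_eq ℓ _ (g := 1) (h := jqModC (Rl ℓ)) (by rw [map_one]; exact one_ne_zero)
    (by rw [map_one, one_mul, iotaL_jqModC])]
  rw [map_one, div_one, redL_jqModC]

theorem jqd_mem_gaussRing (d : ℕ) [NeZero d] : qExpand ℚ d jq ∈ gaussRing ℓ := by
  rw [← iotaL_jqNModC ℓ]; exact iotaL_mem_gaussRing ℓ _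

theorem gaussRed_jqd (d : ℕ) [NeZero d] :
    gaussRed ℓ ⟨qExpand ℚ d jq, jqd_mem_gaussRing ℓ d⟩ = jqNModC (ZMod ℓ) d := by
  rw [gaussRed_eq ℓ _ (g := 1) (h := jqNModC (Rl ℓ) d) (by rw [map_one]; exact one_ne_zero)
    (by rw [map_one, one_mul, iotaL_jqNModC])]
  rw [map_one, div_one, redL_jqNModC]

theorem jq_inv_mem_gaussRing : jq⁻¹ ∈ gaussRing ℓ := by
  apply inv_mem_gaussRing ℓ (jq_mem_gaussRing ℓ)
  rw [gaussRed_jq]
  exact jqModC_ne_zero_of_nontrivial (ZMod ℓ)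

/-- The fraction field of `O_V` as an intermediate field. -/
def gaussFracI : IntermediateField ℚ (LaurentSeries ℚ) :=
  Subfield.toIntermediateField (gaussFrac ℓ) fun c => by
    rw [eq_ratCast]
    exact SubfieldClass.ratCast_mem (gaussFrac ℓ) c

/-- The function field `F = ℚ(j(q^d) : d ∣ N)` is contained in the fraction field of `O_V`. -/
theorem modularFunctionFieldFull_le (N : ℕ) : modularFunctionFieldFull N ≤ gaussFracI ℓ := by
  rw [modularFunctionFieldFull, IntermediateField.adjoin_le_iff]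
  rintro x ⟨d, hd, -, rfl⟩
  have := hd
  exact gaussRing_le_gaussFrac ℓ (jqd_mem_gaussRing ℓ d)

theorem mem_gaussFrac_of_mem_full {N : ℕ} {x : LaurentSeries ℚ}
    (hx : x ∈ modularFunctionFieldFull N) : x ∈ gaussFrac ℓ :=
  modularFunctionFieldFull_le ℓ N hx

end Modular

section Charts

open ModularCurve.IgusaScheme

variable (N : ℕ) [NeZero N] (ℓ : ℕ) [Fact ℓ.Prime]

theorem algebraMap_Rl_coe (a : Rl ℓ) :
    ((algebraMap (Rl ℓ) ↥(modularFunctionFieldFull N) a : ↥(modularFunctionFieldFull N)) :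
      LaurentSeries ℚ) = iotaL ℓ (HahnSeries.single 0 a) := by
  rw [iotaL, coeffMap_single]
  have h1 : (algebraMap (Rl ℓ) ↥(modularFunctionFieldFull N) a : ↥(modularFunctionFieldFull N)) =
      algebraMap ℚ ↥(modularFunctionFieldFull N) (algebraMap (Rl ℓ) ℚ a) :=
    IsScalarTower.algebraMap_apply _ ℚ _ a
  rw [h1, eq_ratCast]
  have h2 : (((algebraMap (Rl ℓ) ℚ a : ℚ) : ↥(modularFunctionFieldFull N)) : LaurentSeries ℚ) =
      ((algebraMap (Rl ℓ) ℚ a : ℚ) : LaurentSeries ℚ) := rfl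
  rw [h2, ← eq_ratCast (algebraMap ℚ (LaurentSeries ℚ)), algebraMap_apply_eq_single]
  rfl

theorem algebraMap_Rl_mem_gaussRing (a : Rl ℓ) :
    ((algebraMap (Rl ℓ) ↥(modularFunctionFieldFull N) a : ↥(modularFunctionFieldFull N)) :
      LaurentSeries ℚ) ∈ gaussRing ℓ := by
  rw [algebraMap_Rl_coe]; exact iotaL_mem_gaussRing ℓ _

theorem gaussRed_algebraMap_Rl (a : Rl ℓ) :
    gaussRed ℓ ⟨_, algebraMap_Rl_mem_gaussRing N ℓ a⟩ = HahnSeries.single 0 (resZl ℓ a) := by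
  have h : (⟨_, algebraMap_Rl_mem_gaussRing N ℓ a⟩ : gaussRing ℓ) =
      ⟨iotaL ℓ (HahnSeries.single 0 a), iotaL_mem_gaussRing ℓ _⟩ :=
    Subtype.ext (algebraMap_Rl_coe N ℓ a)
  rw [h, gaussRed_iotaL, redL, coeffMap_single]

/-- If the generators are in `O_V`, so is the adjoined algebra. -/
theorem adjoin_le_gaussRing {S : Set ↥(modularFunctionFieldFull N)}
    (hS : ∀ s ∈ S, (s : LaurentSeries ℚ) ∈ gaussRing ℓ) {y : ↥(modularFunctionFieldFull N)}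
    (hy : y ∈ Algebra.adjoin (Rl ℓ) S) : (y : LaurentSeries ℚ) ∈ gaussRing ℓ := by
  induction hy using Algebra.adjoin_induction with
  | mem y hy => exact hS y hy
  | algebraMap a => exact algebraMap_Rl_mem_gaussRing N ℓ a
  | add y z _ _ hy hz => exact add_mem hy hz
  | mul y z _ _ hy hz => exact mul_mem hy hz

/-- The ring homomorphism `ℤ_(ℓ)[S] → O_V`. -/
def adjoinToGauss {S : Set ↥(modularFunctionFieldFull N)}
    (hS : ∀ s ∈ S, (s : LaurentSeries ℚ) ∈ gaussRing ℓ) :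
    ↥(Algebra.adjoin (Rl ℓ) S) →+* gaussRing ℓ where
  toFun y := ⟨((y : ↥(modularFunctionFieldFull N)) : LaurentSeries ℚ),
    adjoin_le_gaussRing N ℓ hS y.2⟩
  map_one' := rfl
  map_mul' _ _ := rfl
  map_zero' := rfl
  map_add' _ _ := rfl

/-- Elements integral over `ℤ_(ℓ)[S]` are in `O_V` when the generators are. -/
theorem chartAlg_le_gaussRing {S : Set ↥(modularFunctionFieldFull N)}
    (hS : ∀ s ∈ S, (s : LaurentSeries ℚ) ∈ gaussRing ℓ) {x : ↥(modularFunctionFieldFull N)}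
    (hx : x ∈ chartAlg N ℓ S) : (x : LaurentSeries ℚ) ∈ gaussRing ℓ := by
  rw [mem_chartAlg_iff] at hx
  apply mem_gaussRing_of_isIntegral ℓ (mem_gaussFrac_of_mem_full ℓ x.2)
  exact hx.map_of_comp_eq (adjoinToGauss N ℓ hS)
    ((modularFunctionFieldFull N).val : ↥(modularFunctionFieldFull N) →+* LaurentSeries ℚ)
    (by ext; rfl)

theorem chartAlgFin_le_gaussRing {x : ↥(modularFunctionFieldFull N)}
    (hx : x ∈ chartAlgFin N ℓ) : (x : LaurentSeries ℚ) ∈ gaussRing ℓ :=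
  chartAlg_le_gaussRing N ℓ (by
    intro s hs
    rw [Set.mem_singleton_iff] at hs
    subst hs
    exact jq_mem_gaussRing ℓ) hx

theorem chartAlgInf_le_gaussRing {x : ↥(modularFunctionFieldFull N)}
    (hx : x ∈ chartAlgInf N ℓ) : (x : LaurentSeries ℚ) ∈ gaussRing ℓ :=
  chartAlg_le_gaussRing N ℓ (by
    intro s hs
    rw [Set.mem_singleton_iff] at hs
    subst hs
    exact jq_inv_mem_gaussRing ℓ) hx

theorem chartAlgMid_le_gaussRing {x : ↥(modularFunctionFieldFull N)}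
    (hx : x ∈ chartAlgMid N ℓ) : (x : LaurentSeries ℚ) ∈ gaussRing ℓ :=
  chartAlg_le_gaussRing N ℓ (by
    intro s hs
    rcases hs with rfl | hs
    · exact jq_mem_gaussRing ℓ
    · rw [Set.mem_singleton_iff] at hs
      subst hs
      exact jq_inv_mem_gaussRing ℓ) hx

/-- The reduction map on a chart algebra (`ρ` of WP-B). -/
def chartRed (S : Set ↥(modularFunctionFieldFull N))
    (hS : ∀ s ∈ S, (s : LaurentSeries ℚ) ∈ gaussRing ℓ) :
    ↥(chartAlg N ℓ S) →+* LaurentSeries (ZMod ℓ) :=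
  (gaussRed ℓ).comp
    { toFun := fun x => ⟨((x : ↥(modularFunctionFieldFull N)) : LaurentSeries ℚ),
        chartAlg_le_gaussRing N ℓ hS x.2⟩
      map_one' := rfl
      map_mul' := fun _ _ => rfl
      map_zero' := rfl
      map_add' := fun _ _ => rfl }

theorem chartRed_apply (S : Set ↥(modularFunctionFieldFull N))
    (hS : ∀ s ∈ S, (s : LaurentSeries ℚ) ∈ gaussRing ℓ) (x : ↥(chartAlg N ℓ S)) :
    chartRed N ℓ S hS x = gaussRed ℓ ⟨((x : ↥(modularFunctionFieldFull N)) : LaurentSeries ℚ),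
        chartAlg_le_gaussRing N ℓ hS x.2⟩ := rfl

end Charts

end Fermat.Agent.S28.H90
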