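import Fermat.Agent.S28.Defs
import Fermat.Agent.S28.H90_Gauss
import Fermat.Agent.S28.H79_WPB2
import Fermat.Agent.S28.H79_IntegralPrime

/-!
# S28 work package B1: `(U)` gives a reduction map on the charts with kernel `(ℓ)`
-/

set_option autoImplicit false
set_option linter.unusedSectionVars false
set_option linter.style.haveILetI false

open ModularCurve ModularCurve.IgusaScheme Polynomial
open Fermat.Agent.S28.H90

noncomputable section

namespace Fermat.Agent.S28.H79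

/-! ## 1. Facts about `R = ℤ_(ℓ)` -/

section Rfacts

variable (ℓ : ℕ) [Fact ℓ.Prime]

/-- `ℤ_(ℓ)` as a valuation subring of `ℚ`. -/
def valSubZl : ValuationSubring ℚ :=
  { GaloisRep.ratLocalizedAt ℓ with
    mem_or_inv_mem' := fun x => by
      have hℓ : ℓ.Prime := Fact.out
      by_cases h : ℓ ∣ x.den
      · right
        have hx0 : x ≠ 0 := by
          rintro rfl
          rw [Rat.den_zero] at h
          exact hℓ.one_lt.ne' (Nat.dvd_one.mp h)
        show (x⁻¹).den.Coprime ℓ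
        rw [Rat.den_inv_of_ne_zero hx0]
        refine (Nat.Coprime.symm ((Nat.Prime.coprime_iff_not_dvd hℓ).2 fun h' => ?_))
        have := Nat.eq_one_of_dvd_coprimes x.reduced h' h
        exact hℓ.one_lt.ne' this
      · left
        exact (Nat.Coprime.symm ((Nat.Prime.coprime_iff_not_dvd hℓ).2 h)) }

theorem valSubZl_toSubring : (valSubZl ℓ).toSubring = GaloisRep.ratLocalizedAt ℓ := rfl

theorem isIntegrallyClosed_Rl : IsIntegrallyClosed (Rl ℓ) :=
  inferInstanceAs (IsIntegrallyClosed (valSubZl ℓ).toSubring)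

theorem isLocalRing_Rl : IsLocalRing (Rl ℓ) :=
  inferInstanceAs (IsLocalRing (valSubZl ℓ))

theorem isUnit_of_resZl_ne_zero {x : Rl ℓ} (hx : resZl ℓ x ≠ 0) : IsUnit x := by
  have := isLocalRing_Rl ℓ
  have hmax : (RingHom.ker (resZl ℓ)).IsMaximal :=
    RingHom.ker_isMaximal_of_surjective _ (resZl_surjective ℓ)
  have hker : RingHom.ker (resZl ℓ) = IsLocalRing.maximalIdeal (Rl ℓ) :=
    IsLocalRing.eq_maximalIdeal hmax
  by_contra hnu
  have : x ∈ IsLocalRing.maximalIdeal (Rl ℓ) := (IsLocalRing.mem_maximalIdeal x).2 hnu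
  rw [← hker] at this
  exact hx this

theorem resZl_ne_zero_of_isUnit {x : Rl ℓ} (hx : IsUnit x) : resZl ℓ x ≠ 0 :=
  (hx.map (resZl ℓ)).ne_zero

/-- Ring homomorphisms out of `ℤ_(ℓ)` are unique. -/
theorem ringHom_Rl_ext {S : Type*} [CommRing S] (f g : Rl ℓ →+* S) : f = g := by
  ext x
  have hℓ : ℓ.Prime := Fact.out
  set d : Rl ℓ := ((x : ℚ).den : Rl ℓ) with hd
  set n : Rl ℓ := ((x : ℚ).num : Rl ℓ) with hn
  have hxd : x * d = n := by
    apply Subtype.ext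
    show (x : ℚ) * ((((x : ℚ).den : Rl ℓ)) : ℚ) = (((x : ℚ).num : Rl ℓ) : ℚ)
    push_cast
    exact Rat.mul_den_eq_num (x : ℚ)
  have hdu : IsUnit d := by
    apply isUnit_of_resZl_ne_zero
    rw [hd, resZl_natCast]
    intro h0
    exact not_dvd_den ℓ x ((ZMod.natCast_eq_zero_iff _ _).1 h0)
  have hf : f x * f d = f n := by rw [← map_mul, hxd]
  have hg : g x * g d = g n := by rw [← map_mul, hxd]
  have hfd : f d = g d := by rw [hd, map_natCast, map_natCast]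
  have hfn : f n = g n := by rw [hn, map_intCast, map_intCast]
  have hu : IsUnit (f d) := hdu.map f
  have : f x * f d = g x * f d := by rw [hf, hfn, ← hg, hfd]
  exact hu.mul_right_cancel this

end Rfacts

/-! ## 2. Bridge between `GaussInt` (Defs) and `gaussRing` (H90) -/

section Bridge

variable (ℓ : ℕ) [Fact ℓ.Prime]

theorem coeffsIn_iotaL (g : LaurentSeries (Rl ℓ)) :
    CoeffsIn (GaloisRep.ratLocalizedAt ℓ) (iotaL ℓ g) := fun n => by
  rw [iotaL_coeff]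
  exact (g.coeff n).2

theorem primSeries_iotaL {g : LaurentSeries (Rl ℓ)} (hg : redL ℓ g ≠ 0) :
    PrimSeries (GaloisRep.ratLocalizedAt ℓ) (iotaL ℓ g) := by
  refine ⟨coeffsIn_iotaL ℓ g, ?_⟩
  obtain ⟨n, hn⟩ : ∃ n, (redL ℓ g).coeff n ≠ 0 := by
    by_contra h
    push Not at h
    exact hg (HahnSeries.ext (funext h))
  rw [redL_coeff] at hn
  obtain ⟨u, hu⟩ := isUnit_of_resZl_ne_zero ℓ hn
  refine ⟨n, ?_, ?_⟩
  · rw [iotaL_coeff]
    intro h0
    apply hn
    have : g.coeff n = 0 := Subtype.ext h0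
    rw [this, map_zero]
  · rw [iotaL_coeff, ← hu]
    have h1 : ((u : Rl ℓ) : ℚ) * (((u⁻¹ : (Rl ℓ)ˣ) : Rl ℓ) : ℚ) = 1 := by
      have h := congrArg (fun y : Rl ℓ => (y : ℚ)) (u.mul_inv)
      exact h
    rw [inv_eq_of_mul_eq_one_right h1]
    exact ((u⁻¹ : (Rl ℓ)ˣ) : Rl ℓ).2

/-- Elements of H90's Gauss ring are Gauss-integral in the sense of `Defs`. -/
theorem gaussInt_of_mem_gaussRing {x : LaurentSeries ℚ} (hx : x ∈ gaussRing ℓ) :
    GaussInt (GaloisRep.ratLocalizedAt ℓ) x := by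
  obtain ⟨g, h, hg, hgx⟩ := hx
  refine ⟨iotaL ℓ g, primSeries_iotaL ℓ hg, ?_⟩
  rw [mul_comm, hgx]
  exact coeffsIn_iotaL ℓ h

theorem gaussRed_of_eq_iotaL (x : gaussRing ℓ) (h : LaurentSeries (Rl ℓ))
    (hx : (x : LaurentSeries ℚ) = iotaL ℓ h) : gaussRed ℓ x = redL ℓ h := by
  rw [gaussRed_eq ℓ x (g := 1) (h := h) (by rw [map_one]; exact one_ne_zero)
    (by rw [map_one, one_mul, hx]), map_one, div_one]

theorem jq_eq_iotaL : jq = iotaL ℓ (jqModC (Rl ℓ)) := by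
  rw [iotaL, coeffMap_jqModC]
  rfl

theorem gaussRed_eq_jqModC (x : gaussRing ℓ) (hx : (x : LaurentSeries ℚ) = jq) :
    gaussRed ℓ x = jqModC (ZMod ℓ) := by
  rw [gaussRed_of_eq_iotaL ℓ x _ (hx.trans (jq_eq_iotaL ℓ)), redL, coeffMap_jqModC]

theorem algebraMap_eq_iotaL (r : Rl ℓ) :
    algebraMap ℚ (LaurentSeries ℚ) (r : ℚ) = iotaL ℓ (HahnSeries.single 0 r) := by
  rw [algebraMap_laurentSeries_eq_single, iotaL, coeffMap_single]
  rfl

theorem gaussRed_const (x : gaussRing ℓ) (r : Rl ℓ)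
    (hx : (x : LaurentSeries ℚ) = algebraMap ℚ (LaurentSeries ℚ) (r : ℚ)) :
    gaussRed ℓ x = HahnSeries.C (resZl ℓ r) := by
  rw [gaussRed_of_eq_iotaL ℓ x _ (hx.trans (algebraMap_eq_iotaL ℓ r)), redL, coeffMap_single,
    HahnSeries.C_apply]

end Bridge

/-! ## 3. Transcendence of `j` and `j⁻¹` -/

section Transcendence

variable (K₀ : Type*)

theorem eval₂_jqModC_eq_zero [CommRing K₀] {p : K₀[X]}
    (h : p.eval₂ (HahnSeries.C : K₀ →+* LaurentSeries K₀) (jqModC K₀) = 0) : p = 0 := by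
  by_contra hp
  have hc : (p.eval₂ (HahnSeries.C : K₀ →+* LaurentSeries K₀) (jqModC K₀)).coeff
      (-(p.natDegree : ℤ)) = p.leadingCoeff := by
    rw [Polynomial.eval₂_eq_sum_range, ← HahnSeries.coeff.addMonoidHom_apply, map_sum,
      Finset.sum_eq_single p.natDegree]
    · rw [HahnSeries.coeff.addMonoidHom_apply, HahnSeries.C_mul_eq_smul, HahnSeries.coeff_smul,
        coeff_jqModC_pow_self, smul_eq_mul, mul_one]
      rfl
    · intro i hi hne
      have hlt : i < p.natDegree := lt_of_le_of_ne (Nat.lt_succ_iff.mp (Finset.mem_range.mp hi)) hne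
      rw [HahnSeries.coeff.addMonoidHom_apply, HahnSeries.C_mul_eq_smul, HahnSeries.coeff_smul,
        coeff_jqModC_pow_of_lt K₀ (by omega), smul_zero]
    · intro hn
      exact absurd (Finset.mem_range.mpr (Nat.lt_succ_self _)) hn
  rw [h, HahnSeries.coeff_zero] at hc
  exact hp (Polynomial.leadingCoeff_eq_zero.mp hc.symm)

theorem eval₂_jqModC_inv_eq_zero [Field K₀] {p : K₀[X]}
    (h : p.eval₂ (HahnSeries.C : K₀ →+* LaurentSeries K₀) (jqModC K₀)⁻¹ = 0) : p = 0 := by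
  have hx : jqModC K₀ ≠ 0 := jqModC_ne_zero_of_nontrivial K₀
  letI : Invertible (jqModC K₀)⁻¹ := ⟨jqModC K₀, mul_inv_cancel₀ hx, inv_mul_cancel₀ hx⟩
  have h' := (Polynomial.eval₂_reverse_eq_zero_iff (HahnSeries.C : K₀ →+* LaurentSeries K₀)
    (jqModC K₀)⁻¹ p).2 h
  have : ⅟((jqModC K₀)⁻¹) = jqModC K₀ := rfl
  rw [this] at h'
  exact Polynomial.reverse_eq_zero.mp (eval₂_jqModC_eq_zero K₀ h')

end Transcendence

/-! ## 4. The reduction map on a chart -/

section Charts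

variable (N : ℕ) [NeZero N] (ℓ : ℕ) [Fact ℓ.Prime]

/-- The function field `F = ℚ(j(q^d) : d ∣ N)`. -/
abbrev FF (N : ℕ) [NeZero N] : Type := ↥(modularFunctionFieldFull N)

/-- The inclusion `F → ℚ((q))`. -/
def valF : FF N →+* LaurentSeries ℚ := (modularFunctionFieldFull N).toSubfield.subtype

@[simp] theorem valF_apply (x : FF N) : valF N x = (x : LaurentSeries ℚ) := rfl

theorem valF_injective : Function.Injective (valF N) := Subtype.val_injective

theorem valF_algebraMap (r : Rl ℓ) :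
    valF N (algebraMap (Rl ℓ) (FF N) r) = algebraMap ℚ (LaurentSeries ℚ) (r : ℚ) := by
  rw [IsScalarTower.algebraMap_apply (Rl ℓ) ℚ (FF N), RingHom.map_rat_algebraMap]
  rfl

theorem valF_jFull : valF N (jFull N) = jq := rfl

/-- The inclusion of a chart algebra into `ℚ((q))`. -/
def chartToLaurent (S : Set (FF N)) : chartAlg N ℓ S →+* LaurentSeries ℚ :=
  (valF N).comp (chartAlg N ℓ S).val.toRingHom

@[simp] theorem chartToLaurent_apply (S : Set (FF N)) (x : chartAlg N ℓ S) :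
    chartToLaurent N ℓ S x = ((x : FF N) : LaurentSeries ℚ) := rfl

/-- The hypothesis that a chart lies in the Gauss valuation ring. -/
def ChartInGauss (S : Set (FF N)) : Prop :=
  ∀ x : chartAlg N ℓ S, ((x : FF N) : LaurentSeries ℚ) ∈ gaussRing ℓ

variable {N ℓ}

/-- The reduction map on a chart. -/
def chRed {S : Set (FF N)} (hS : ChartInGauss N ℓ S) :
    chartAlg N ℓ S →+* LaurentSeries (ZMod ℓ) :=
  (gaussRed ℓ).comp ((chartToLaurent N ℓ S).codRestrict (gaussRing ℓ) hS)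

theorem chRed_apply {S : Set (FF N)} (hS : ChartInGauss N ℓ S) (x : chartAlg N ℓ S) :
    chRed hS x = gaussRed ℓ ⟨((x : FF N) : LaurentSeries ℚ), hS x⟩ := rfl

theorem chRed_algebraMap {S : Set (FF N)} (hS : ChartInGauss N ℓ S) (r : Rl ℓ) :
    chRed hS (algebraMap (Rl ℓ) (chartAlg N ℓ S) r) = HahnSeries.C (resZl ℓ r) := by
  rw [chRed_apply]
  exact gaussRed_const ℓ _ r (valF_algebraMap N ℓ r)

theorem chRed_eq_zero_iff {S : Set (FF N)} (hS : ChartInGauss N ℓ S) (x : chartAlg N ℓ S) :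
    chRed hS x = 0 ↔
      ∃ y : gaussRing ℓ, ((x : FF N) : LaurentSeries ℚ) = (ℓ : LaurentSeries ℚ) * y := by
  rw [chRed_apply, gaussRed_eq_zero_iff]
  constructor
  · rintro ⟨y, hy⟩
    refine ⟨y, ?_⟩
    have := congrArg (fun t : gaussRing ℓ => (t : LaurentSeries ℚ)) hy
    simpa using this
  · rintro ⟨y, hy⟩
    refine ⟨y, Subtype.ext ?_⟩
    simpa using hy

end Charts

/-! ## 5. Charts generated by a single element `z` -/

section SingleGenerator

variable {N : ℕ} [NeZero N] {ℓ : ℕ} [Fact ℓ.Prime] (z : FF N)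

/-- `z` as an element of its chart. -/
def zChart : chartAlg N ℓ ({z} : Set (FF N)) := ⟨z, subset_chartAlg N ℓ _ rfl⟩

/-- `D = R[z]`. -/
abbrev DD (ℓ : ℕ) [Fact ℓ.Prime] (z : FF N) : Subalgebra (Rl ℓ) (FF N) :=
  Algebra.adjoin (Rl ℓ) ({z} : Set (FF N))

/-- The inclusion `R[z] → chartAlg {z}`. -/
def DDincl : DD ℓ z →ₐ[Rl ℓ] chartAlg N ℓ ({z} : Set (FF N)) :=
  Subalgebra.inclusion (adjoin_le_chartAlg N ℓ {z})

@[simp] theorem coe_DDincl (t : DD ℓ z) : ((DDincl z t : chartAlg N ℓ ({z} : Set (FF N))) : FF N) = t :=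
  rfl

variable (hS : ChartInGauss N ℓ ({z} : Set (FF N)))

/-- The reduction map on `R[z]`. -/
def DDred : DD ℓ z →+* LaurentSeries (ZMod ℓ) := (chRed hS).comp (DDincl z).toRingHom

theorem chRed_aeval (u : (Rl ℓ)[X]) :
    chRed hS (aeval (zChart (ℓ := ℓ) z) u) =
      (u.map (resZl ℓ)).eval₂ HahnSeries.C (chRed hS (zChart z)) := by
  rw [Polynomial.aeval_def, Polynomial.hom_eval₂, Polynomial.eval₂_map]
  congr 1
  exact RingHom.ext fun r => chRed_algebraMap hS r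

theorem exists_aeval_eq (t : DD ℓ z) : ∃ u : (Rl ℓ)[X], aeval z u = (t : FF N) := by
  have h : (t : FF N) ∈ Algebra.adjoin (Rl ℓ) ({z} : Set (FF N)) := t.2
  have h' : (t : FF N) ∈ (aeval z : (Rl ℓ)[X] →ₐ[Rl ℓ] FF N).range :=
    (Algebra.adjoin_singleton_eq_range_aeval (Rl ℓ) z) ▸ h
  exact h'

theorem aeval_mem_DD (u : (Rl ℓ)[X]) : aeval z u ∈ DD ℓ z :=
  Polynomial.aeval_mem_adjoin_singleton (Rl ℓ) z

theorem coe_aeval_zChart (u : (Rl ℓ)[X]) :
    ((aeval (zChart (ℓ := ℓ) z) u : chartAlg N ℓ ({z} : Set (FF N))) : FF N) = aeval z u := by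
  have := Polynomial.aeval_algHom_apply (chartAlg N ℓ ({z} : Set (FF N))).val (zChart z) u
  exact this.symm

theorem DDred_aeval (u : (Rl ℓ)[X]) :
    DDred z hS ⟨aeval z u, aeval_mem_DD z u⟩ =
      (u.map (resZl ℓ)).eval₂ HahnSeries.C (chRed hS (zChart z)) := by
  rw [← chRed_aeval]
  show chRed hS (DDincl z ⟨aeval z u, aeval_mem_DD z u⟩) = _
  congr 1
  exact Subtype.ext (coe_aeval_zChart z u).symm

/-- The reduction of the generator is transcendental over `𝔽_ℓ`. -/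
def RedTranscendental : Prop :=
  ∀ p : (ZMod ℓ)[X], p.eval₂ HahnSeries.C (chRed hS (zChart z)) = 0 → p = 0

variable {z} {hS}

/-- The kernel of the reduction on `R[z]` is generated by `ℓ`. -/
theorem dvd_of_DDred_eq_zero (htr : RedTranscendental z hS) {t : DD ℓ z}
    (ht : DDred z hS t = 0) : algebraMap (Rl ℓ) (DD ℓ z) (ℓ : Rl ℓ) ∣ t := by
  obtain ⟨u, hu⟩ := exists_aeval_eq z t
  have ht' : t = ⟨aeval z u, aeval_mem_DD z u⟩ := Subtype.ext hu.symm
  rw [ht', DDred_aeval] at ht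
  have hu0 : u.map (resZl ℓ) = 0 := htr _ ht
  have hdvd : Polynomial.C (ℓ : Rl ℓ) ∣ u := by
    rw [Polynomial.C_dvd_iff_dvd_coeff]
    intro i
    have hi : resZl ℓ (u.coeff i) = 0 := by
      rw [← Polynomial.coeff_map, hu0, Polynomial.coeff_zero]
    obtain ⟨y, hy⟩ := (resZl_eq_zero_iff ℓ _).1 hi
    exact ⟨y, hy⟩
  obtain ⟨u', rfl⟩ := hdvd
  refine ⟨⟨aeval z u', aeval_mem_DD z u'⟩, Subtype.ext ?_⟩
  rw [← hu, map_mul, Polynomial.aeval_C]
  rfl

theorem DDred_algebraMap (r : Rl ℓ) :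
    DDred z hS (algebraMap (Rl ℓ) (DD ℓ z) r) = HahnSeries.C (resZl ℓ r) := by
  show chRed hS (DDincl z (algebraMap (Rl ℓ) (DD ℓ z) r)) = _
  rw [AlgHom.commutes, chRed_algebraMap]

theorem DDred_ell : DDred z hS (algebraMap (Rl ℓ) (DD ℓ z) (ℓ : Rl ℓ)) = 0 := by
  rw [DDred_algebraMap, resZl_ell, map_zero]

/-- `ℓ` is a prime element of `R[z]`. -/
theorem prime_ell_DD (htr : RedTranscendental z hS) :
    Prime (algebraMap (Rl ℓ) (DD ℓ z) (ℓ : Rl ℓ)) := by
  refine ⟨?_, ?_, ?_⟩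
  · intro h0
    have h1 : algebraMap (Rl ℓ) (FF N) (ℓ : Rl ℓ) = 0 := by
      have := congrArg (fun t : DD ℓ z => (t : FF N)) h0
      simpa using this
    rw [map_natCast] at h1
    have hℓ : ℓ.Prime := Fact.out
    exact hℓ.ne_zero (by exact_mod_cast h1)
  · intro hu
    have := hu.map (DDred z hS)
    rw [DDred_ell] at this
    exact not_isUnit_zero this
  · intro a b hab
    obtain ⟨c, hc⟩ := hab
    have h0 : DDred z hS a * DDred z hS b = 0 := by
      rw [← map_mul, hc, map_mul, DDred_ell, zero_mul]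
    rcases mul_eq_zero.mp h0 with h | h
    · exact Or.inl (dvd_of_DDred_eq_zero htr h)
    · exact Or.inr (dvd_of_DDred_eq_zero htr h)

theorem not_dvd_of_DDred_ne_zero {t : DD ℓ z} (ht : DDred z hS t ≠ 0) :
    ¬ algebraMap (Rl ℓ) (DD ℓ z) (ℓ : Rl ℓ) ∣ t := by
  rintro ⟨c, rfl⟩
  apply ht
  rw [map_mul, DDred_ell, zero_mul]

/-- `R[z]` is integrally closed when `z` is transcendental over `R`. -/
theorem isIntegrallyClosed_DD
    (hinj : Function.Injective (aeval z : (Rl ℓ)[X] →ₐ[Rl ℓ] FF N)) :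
    IsIntegrallyClosed (DD ℓ z) := by
  haveI := isIntegrallyClosed_Rl ℓ
  let e₁ : (Rl ℓ)[X] ≃ₐ[Rl ℓ] (aeval z : (Rl ℓ)[X] →ₐ[Rl ℓ] FF N).range :=
    AlgEquiv.ofInjective _ hinj
  let e₂ : (aeval z : (Rl ℓ)[X] →ₐ[Rl ℓ] FF N).range ≃ₐ[Rl ℓ] DD ℓ z :=
    Subalgebra.equivOfEq _ _ (Algebra.adjoin_singleton_eq_range_aeval (Rl ℓ) z).symm
  exact IsIntegrallyClosed.of_equiv (e₁.trans e₂).toRingEquiv

/-- Transcendence of `z` over `R` from transcendence of its `q`-expansion over `ℚ`. -/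
theorem aeval_injective_of_valF
    (hz : ∀ p : ℚ[X], p.eval₂ (HahnSeries.C : ℚ →+* LaurentSeries ℚ) (valF N z) = 0 → p = 0) :
    Function.Injective (aeval z : (Rl ℓ)[X] →ₐ[Rl ℓ] FF N) := by
  rw [injective_iff_map_eq_zero]
  intro p hp
  have h1 : valF N (aeval z p) = 0 := by rw [hp, map_zero]
  rw [Polynomial.aeval_def, Polynomial.hom_eval₂] at h1
  have h2 : (valF N).comp (algebraMap (Rl ℓ) (FF N)) =
      (HahnSeries.C : ℚ →+* LaurentSeries ℚ).comp (GaloisRep.ratLocalizedAt ℓ).subtype := by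
    refine RingHom.ext fun r => ?_
    show valF N (algebraMap (Rl ℓ) (FF N) r) = HahnSeries.C (r : ℚ)
    rw [valF_algebraMap, algebraMap_laurentSeries_eq_single, HahnSeries.C_apply]
  rw [h2, ← Polynomial.eval₂_map] at h1
  have h3 := hz _ h1
  exact Polynomial.map_injective _ Subtype.val_injective (by rw [h3, Polynomial.map_zero])

/-- **Kernel of the reduction on a chart.** -/
theorem mem_map_ker_of_chRed_eq_zero
    (hint : IsIntegrallyClosed (DD ℓ z)) (htr : RedTranscendental z hS)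
    (hU : ∀ y : FF N, (y : LaurentSeries ℚ) ∈ gaussRing ℓ →
      ∃ s : DD ℓ z, DDred z hS s ≠ 0 ∧
        IsIntegral (DD ℓ z) (algebraMap (DD ℓ z) (FF N) s * y))
    {x : chartAlg N ℓ ({z} : Set (FF N))} (hx : chRed hS x = 0) :
    x ∈ (RingHom.ker (resZl ℓ)).map
      (algebraMap (Rl ℓ) (chartAlg N ℓ ({z} : Set (FF N)))) := by
  have hℓ : ℓ.Prime := Fact.out
  obtain ⟨y, hy⟩ := (chRed_eq_zero_iff hS x).1 hx
  have hℓF : ((ℓ : ℕ) : FF N) ≠ 0 := by exact_mod_cast hℓ.ne_zero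
  have hℓL : ((ℓ : ℕ) : LaurentSeries ℚ) ≠ 0 := ell_ne_zero' ℓ
  set yF : FF N := (x : FF N) * ((ℓ : ℕ) : FF N)⁻¹ with hyF
  have hxy : (x : FF N) = ((ℓ : ℕ) : FF N) * yF := by
    rw [hyF]; field_simp
  have hyFy : (yF : LaurentSeries ℚ) = y := by
    have h1 : ((x : FF N) : LaurentSeries ℚ) = ((ℓ : ℕ) : LaurentSeries ℚ) * (yF : LaurentSeries ℚ) := by
      have := congrArg (valF N) hxy
      simpa using this
    rw [hy] at h1
    exact (mul_left_cancel₀ hℓL h1).symm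
  obtain ⟨s, hs, hsint⟩ := hU yF (by rw [hyFy]; exact y.2)
  have h1 : IsIntegral (DD ℓ z)
      (algebraMap (DD ℓ z) (FF N) (algebraMap (Rl ℓ) (DD ℓ z) (ℓ : Rl ℓ)) * yF) := by
    have e : algebraMap (DD ℓ z) (FF N) (algebraMap (Rl ℓ) (DD ℓ z) (ℓ : Rl ℓ)) * yF = (x : FF N) := by
      rw [hxy, ← IsScalarTower.algebraMap_apply, map_natCast]
    rw [e]
    exact (mem_chartAlg_iff N ℓ).1 x.2
  have hyint : IsIntegral (DD ℓ z) yF :=
    isIntegral_of_prime_mul_of_mul (prime_ell_DD htr) (not_dvd_of_DDred_ne_zero hs) h1 hsint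
  have hymem : yF ∈ chartAlg N ℓ ({z} : Set (FF N)) := (mem_chartAlg_iff N ℓ).2 hyint
  have hx' : x = algebraMap (Rl ℓ) (chartAlg N ℓ ({z} : Set (FF N))) (ℓ : Rl ℓ) * ⟨yF, hymem⟩ := by
    apply Subtype.ext
    rw [Subalgebra.coe_mul, hxy, map_natCast]
    rfl
  rw [hx']
  refine Ideal.mul_mem_right _ _ (Ideal.mem_map_of_mem _ ?_)
  rw [RingHom.mem_ker]
  exact resZl_ell ℓ

end SingleGenerator

/-! ## 6. The three charts -/

section ThreeCharts

variable (N : ℕ) [NeZero N] (ℓ : ℕ) [Fact ℓ.Prime]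

theorem chartInGauss_fin : ChartInGauss N ℓ ({jFull N} : Set (FF N)) :=
  fun x => chartAlgFin_le_gaussRing N ℓ x.2

theorem chartInGauss_inf : ChartInGauss N ℓ ({(jFull N)⁻¹} : Set (FF N)) :=
  fun x => chartAlgInf_le_gaussRing N ℓ x.2

theorem chartInGauss_mid : ChartInGauss N ℓ ({jFull N, (jFull N)⁻¹} : Set (FF N)) :=
  fun x => chartAlgMid_le_gaussRing N ℓ x.2

theorem chRed_fin_gen :
    chRed (chartInGauss_fin N ℓ) (zChart (jFull N)) = jqModC (ZMod ℓ) :=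
  gaussRed_eq_jqModC ℓ _ rfl

theorem chRed_inf_gen :
    chRed (chartInGauss_inf N ℓ) (zChart (jFull N)⁻¹) = (jqModC (ZMod ℓ))⁻¹ := by
  rw [chRed_apply]
  have h1 : (⟨jq, jq_mem_gaussRing ℓ⟩ : gaussRing ℓ) * ⟨jq⁻¹, jq_inv_mem_gaussRing ℓ⟩ = 1 :=
    Subtype.ext (mul_inv_cancel₀ jq_ne_zero)
  have h2 := congrArg (gaussRed ℓ) h1
  rw [map_mul, map_one, gaussRed_jq] at h2
  exact eq_inv_of_mul_eq_one_right h2

theorem redTranscendental_fin : RedTranscendental (jFull N) (chartInGauss_fin N ℓ) := by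
  intro p hp
  rw [chRed_fin_gen] at hp
  exact eval₂_jqModC_eq_zero _ hp

theorem redTranscendental_inf : RedTranscendental (jFull N)⁻¹ (chartInGauss_inf N ℓ) := by
  intro p hp
  rw [chRed_inf_gen] at hp
  exact eval₂_jqModC_inv_eq_zero _ hp

theorem isIntegrallyClosed_DD_fin : IsIntegrallyClosed (DD ℓ (jFull N)) :=
  isIntegrallyClosed_DD (aeval_injective_of_valF fun _ hp => eval₂_jqModC_eq_zero ℚ hp)

theorem isIntegrallyClosed_DD_inf : IsIntegrallyClosed (DD ℓ (jFull N)⁻¹) :=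
  isIntegrallyClosed_DD (aeval_injective_of_valF fun p hp => by
    have h : valF N (jFull N)⁻¹ = (jqModC ℚ)⁻¹ := by
      rw [map_inv₀]; rfl
    rw [h] at hp
    exact eval₂_jqModC_inv_eq_zero ℚ hp)

variable {N ℓ}

theorem map_resZl_ne_zero {s : (Rl ℓ)[X]} (hs : ∃ i : ℕ, IsUnit (s.coeff i)) :
    s.map (resZl ℓ) ≠ 0 := by
  obtain ⟨i, hi⟩ := hs
  intro h0
  have := congrArg (fun p : (ZMod ℓ)[X] => p.coeff i) h0
  simp only [Polynomial.coeff_map, Polynomial.coeff_zero] at this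
  exact resZl_ne_zero_of_isUnit ℓ hi this

/-- `(U)` in the form consumed by the `j`-chart. -/
theorem hU_fin (hU : KeyU N ℓ) (y : FF N) (hy : (y : LaurentSeries ℚ) ∈ gaussRing ℓ) :
    ∃ s : DD ℓ (jFull N), DDred (jFull N) (chartInGauss_fin N ℓ) s ≠ 0 ∧
      IsIntegral (DD ℓ (jFull N)) (algebraMap (DD ℓ (jFull N)) (FF N) s * y) := by
  obtain ⟨s, hs, hint⟩ := hU y (gaussInt_of_mem_gaussRing ℓ hy)
  refine ⟨⟨aeval (jFull N) s, aeval_mem_DD _ s⟩, ?_, hint⟩
  rw [DDred_aeval]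
  intro h0
  exact map_resZl_ne_zero hs (redTranscendental_fin N ℓ _ h0)

/-- `(U)` in the form consumed by the `j⁻¹`-chart. -/
theorem hU_inf (hU : KeyU N ℓ) (y : FF N) (hy : (y : LaurentSeries ℚ) ∈ gaussRing ℓ) :
    ∃ s : DD ℓ (jFull N)⁻¹, DDred (jFull N)⁻¹ (chartInGauss_inf N ℓ) s ≠ 0 ∧
      IsIntegral (DD ℓ (jFull N)⁻¹) (algebraMap (DD ℓ (jFull N)⁻¹) (FF N) s * y) := by
  obtain ⟨s, hs, hint⟩ := hU y (gaussInt_of_mem_gaussRing ℓ hy)
  have hj0 : jFull N ≠ 0 := jFull_ne_zero N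
  have hji0 : (jFull N)⁻¹ ≠ 0 := inv_ne_zero hj0
  -- `w = s(j) y` lies in the middle chart
  have hw : aeval (jFull N) s * y ∈ chartAlg N ℓ ({jFull N} : Set (FF N)) :=
    (mem_chartAlg_iff N ℓ).2 hint
  have hw' : aeval (jFull N) s * y ∈
      chartAlg N ℓ (insert ((jFull N)⁻¹)⁻¹ ({(jFull N)⁻¹} : Set (FF N))) := by
    rw [inv_inv]
    exact chartAlg_mono N ℓ (sFin_subset N) hw
  obtain ⟨n, hn⟩ := exists_pow_mul_mem_chartAlg (Set.mem_singleton _) hji0 hw'
  set d := s.natDegree with hd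
  set u : (Rl ℓ)[X] := Polynomial.X ^ n * Polynomial.reflect d s with hu
  -- the key identity
  have hrefl : aeval (jFull N)⁻¹ (Polynomial.reflect d s) * (jFull N) ^ d =
      aeval (jFull N) s := by
    letI : Invertible (jFull N) := invertibleOfNonzero hj0
    have := Polynomial.eval₂_reflect_mul_pow (algebraMap (Rl ℓ) (FF N)) (jFull N) d s le_rfl
    rwa [invOf_eq_inv] at this
  have hrefl' : aeval (jFull N)⁻¹ (Polynomial.reflect d s) =
      aeval (jFull N) s * ((jFull N)⁻¹) ^ d := by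
    rw [← hrefl, mul_assoc, ← mul_pow, mul_inv_cancel₀ hj0, one_pow, mul_one]
  have hkey : aeval (jFull N)⁻¹ u * y =
      ((jFull N)⁻¹) ^ d * (((jFull N)⁻¹) ^ n * (aeval (jFull N) s * y)) := by
    rw [hu, map_mul, map_pow, Polynomial.aeval_X, hrefl']
    ring
  refine ⟨⟨aeval (jFull N)⁻¹ u, aeval_mem_DD _ u⟩, ?_, ?_⟩
  · rw [DDred_aeval]
    intro h0
    refine map_resZl_ne_zero ?_ (redTranscendental_inf N ℓ _ h0)
    obtain ⟨i, hi⟩ := hs
    refine ⟨Polynomial.revAt d i + n, ?_⟩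
    rw [hu, Polynomial.coeff_X_pow_mul, Polynomial.coeff_reflect, Polynomial.revAt_invol]
    exact hi
  · show IsIntegral (DD ℓ (jFull N)⁻¹) (aeval (jFull N)⁻¹ u * y)
    rw [hkey]
    refine (mem_chartAlg_iff N ℓ).1 ?_
    have hji : (jFull N)⁻¹ ∈ chartAlg N ℓ ({(jFull N)⁻¹} : Set (FF N)) :=
      subset_chartAlg N ℓ _ (Set.mem_singleton _)
    exact (chartAlg N ℓ ({(jFull N)⁻¹} : Set (FF N))).mul_mem
      ((chartAlg N ℓ ({(jFull N)⁻¹} : Set (FF N))).pow_mem hji d) hn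

end ThreeCharts

/-! ## 7. WP-B -/

/-- **WP-B**: `(U)` implies that the base changes of the charts are domains
(resp. nontrivial for the middle chart). -/
theorem stmt_WPB : Stmt_WPB := by
  intro N _ ℓ _ hU K _ _ _
  letI algRk : Algebra (Rl ℓ) (ZMod ℓ) := (resZl ℓ).toAlgebra
  letI algkK : Algebra (ZMod ℓ) K := ZMod.algebra K ℓ
  haveI : IsScalarTower (Rl ℓ) (ZMod ℓ) K :=
    IsScalarTower.of_algebraMap_eq' (ringHom_Rl_ext ℓ _ _)
  have hsurj : Function.Surjective (algebraMap (Rl ℓ) (ZMod ℓ)) := resZl_surjective ℓ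
  refine ⟨?_, ?_, ?_⟩
  · exact isDomain_tensor_of_reduction (K := K) hsurj (chRed (chartInGauss_fin N ℓ))
      (fun r => chRed_algebraMap _ r)
      (fun a ha => mem_map_ker_of_chRed_eq_zero (isIntegrallyClosed_DD_fin N ℓ)
        (redTranscendental_fin N ℓ) (hU_fin hU) ha)
  · exact isDomain_tensor_of_reduction (K := K) hsurj (chRed (chartInGauss_inf N ℓ))
      (fun r => chRed_algebraMap _ r)
      (fun a ha => mem_map_ker_of_chRed_eq_zero (isIntegrallyClosed_DD_inf N ℓ)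
        (redTranscendental_inf N ℓ) (hU_inf hU) ha)
  · exact (redTensor (K := K) (chRed (chartInGauss_mid N ℓ))
      (fun r => chRed_algebraMap _ r)).toRingHom.domain_nontrivial

end Fermat.Agent.S28.H79

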