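/-
S28 (Igusa), algebra core (helper90), part II: Lemma B and the assembly of `Stmt_Core`,
relative to the "primitivity" interface `PrimHyp` (proved by helper73 in `H73_Prim.lean`).
-/
import Fermat.Agent.S28.H90_Sym
import Fermat.Agent.S28.H73_GaussV

set_option autoImplicit false
set_option linter.unusedSectionVars false

noncomputable section

namespace Fermat.Agent.S28.H90

open Polynomial

/-- The primitivity interface (Gauss lemma for series and polynomials over a valuation ring,
primitivity of `Q(f)` for `f` of nonzero order with unit leading coefficient, and the converse for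
polynomials in `J`). -/
structure PrimHyp {C : Type} [Field C] (O : ValuationSubring C) : Prop where
  series_mul : ∀ {f g : LaurentSeries C}, PrimSeries O.toSubring f → PrimSeries O.toSubring g →
    PrimSeries O.toSubring (f * g)
  poly_mul : ∀ {p q : C[X]}, PrimPoly O.toSubring p → PrimPoly O.toSubring q →
    PrimPoly O.toSubring (p * q)
  aeval_prim : ∀ {f : LaurentSeries C}, UnitLead O.toSubring f → f.order ≠ 0 →
    ∀ {Q : C[X]}, PrimPoly O.toSubring Q → PrimSeries O.toSubring (aeval f Q)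
  coeff_mem : ∀ {J : LaurentSeries C}, UnitLead O.toSubring J → J.order < 0 →
    ∀ {p : C[X]}, CoeffsIn O.toSubring (aeval J p) → ∀ n, p.coeff n ∈ O
  primPoly : ∀ {J : LaurentSeries C}, UnitLead O.toSubring J → J.order < 0 →
    ∀ {p : C[X]}, PrimSeries O.toSubring (aeval J p) → PrimPoly O.toSubring p

section Basic

variable {C : Type} [Field C] {O : ValuationSubring C}

theorem primSeries_one : PrimSeries O.toSubring (1 : LaurentSeries C) := by
  refine ⟨fun n => ?_, 0, ?_, ?_⟩
  · rw [HahnSeries.coeff_one]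
    split_ifs
    · exact one_mem _
    · exact zero_mem _
  · simp
  · simp [one_mem]

theorem primPoly_one : PrimPoly O.toSubring (1 : C[X]) := by
  refine ⟨fun n => ?_, 0, ?_, ?_⟩
  · rw [Polynomial.coeff_one]
    split_ifs
    · exact one_mem _
    · exact zero_mem _
  · simp
  · simp [one_mem]

theorem PrimHyp.series_prod (h : PrimHyp O) {ι : Type*} (s : Finset ι)
    (f : ι → LaurentSeries C) (hf : ∀ i ∈ s, PrimSeries O.toSubring (f i)) :
    PrimSeries O.toSubring (∏ i ∈ s, f i) := by
  classical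
  induction s using Finset.induction_on with
  | empty => simpa using primSeries_one
  | insert a s ha ih =>
    rw [Finset.prod_insert ha]
    exact h.series_mul (hf a (Finset.mem_insert_self a s))
      (ih fun i hi => hf i (Finset.mem_insert_of_mem hi))

theorem PrimHyp.poly_prod (h : PrimHyp O) {ι : Type*} (s : Finset ι)
    (f : ι → C[X]) (hf : ∀ i ∈ s, PrimPoly O.toSubring (f i)) :
    PrimPoly O.toSubring (∏ i ∈ s, f i) := by
  classical
  induction s using Finset.induction_on with
  | empty => simpa using primPoly_one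
  | insert a s ha ih =>
    rw [Finset.prod_insert ha]
    exact h.poly_mul (hf a (Finset.mem_insert_self a s))
      (ih fun i hi => hf i (Finset.mem_insert_of_mem hi))

theorem primPoly_ne_zero {p : C[X]} (hp : PrimPoly O.toSubring p) : p ≠ 0 := by
  rintro rfl
  obtain ⟨-, n, hn, -⟩ := hp
  exact hn (by simp)

/-- Elements of the subalgebra `O[J]` are integral over it. -/
theorem isIntegral_of_mem_adjoin {J x : LaurentSeries C}
    (hx : x ∈ Algebra.adjoin ↥O ({J} : Set (LaurentSeries C))) :
    IsIntegral (Algebra.adjoin ↥O ({J} : Set (LaurentSeries C))) x :=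
  isIntegral_algebraMap (x := (⟨x, hx⟩ : Algebra.adjoin ↥O ({J} : Set (LaurentSeries C))))

/-- A polynomial over `C` with coefficients in `O` comes from `O[X]`. -/
theorem exists_map_subtype_eq {p : C[X]} (hp : ∀ n, p.coeff n ∈ O) :
    ∃ p' : (↥O)[X], p'.map O.subtype = p := by
  have : p ∈ Polynomial.lifts O.subtype :=
    (Polynomial.lifts_iff_coeff_lifts p).2 fun n => ⟨⟨p.coeff n, hp n⟩, rfl⟩
  exact (Polynomial.mem_lifts p).1 this

theorem aeval_mem_adjoin_of_coeffs {p : C[X]} (hp : ∀ n, p.coeff n ∈ O) (x : LaurentSeries C) :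
    aeval x p ∈ Algebra.adjoin ↥O ({x} : Set (LaurentSeries C)) := by
  obtain ⟨p', rfl⟩ := exists_map_subtype_eq hp
  rw [H73.aeval_map_subtype]
  exact aeval_mem_adjoin_singleton _ _

theorem algebraMap_mem_adjoin {c : C} (hc : c ∈ O) (J : LaurentSeries C) :
    algebraMap C (LaurentSeries C) c ∈ Algebra.adjoin ↥O ({J} : Set (LaurentSeries C)) := by
  have := Subalgebra.algebraMap_mem (Algebra.adjoin ↥O ({J} : Set (LaurentSeries C))) ⟨c, hc⟩
  rwa [← H73.algebraMap_comp_subtype] at this

/-- `P(x)` is integral over `O[J]` if `x` is and `P` has coefficients in `O`. -/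
theorem isIntegral_aeval {J x : LaurentSeries C}
    (hx : IsIntegral (Algebra.adjoin ↥O ({J} : Set (LaurentSeries C))) x) {p : C[X]}
    (hp : ∀ n, p.coeff n ∈ O) :
    IsIntegral (Algebra.adjoin ↥O ({J} : Set (LaurentSeries C))) (aeval x p) := by
  rw [aeval_eq_sum_range]
  refine IsIntegral.sum _ fun i _ => ?_
  rw [Algebra.smul_def]
  exact (isIntegral_of_mem_adjoin (algebraMap_mem_adjoin (hp i) J)).mul (hx.pow i)

end Basic

section Core

variable {C : Type} [Field C] [IsAlgClosed C] {O : ValuationSubring C} {Q : Type} [Fintype Q]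
  {q₀ : Q} {J : LaurentSeries C} {U : Q → LaurentSeries C} {nJ D : ℕ}

/-- The multiplicative map `P ↦ ∏_q P(U q)`. -/
def normHom (U : Q → LaurentSeries C) : C[X] →* LaurentSeries C :=
  ∏ q, ((aeval (U q) : C[X] →ₐ[C] LaurentSeries C) : C[X] →* LaurentSeries C)

theorem normHom_apply (U : Q → LaurentSeries C) (P : C[X]) :
    normHom U P = ∏ q, aeval (U q) P := by
  simp [normHom, MonoidHom.finsetProd_apply]

/-- `∏_q P(U q) ∈ C[J]` for every polynomial `P` (factor `P` into linear factors). -/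
theorem prod_aeval_mem_adjoin (hyp : CoreHyp O q₀ J U nJ D) (P : C[X]) :
    ∏ q, aeval (U q) P ∈ Algebra.adjoin C ({J} : Set (LaurentSeries C)) := by
  rw [← normHom_apply]
  have hsplit := (IsAlgClosed.splits P).eq_prod_roots
  rw [hsplit, map_mul, map_multiset_prod, Multiset.map_map]
  refine mul_mem ?_ (Subalgebra.multiset_prod_mem _ ?_)
  · rw [normHom_apply]
    refine prod_mem fun q _ => ?_
    rw [aeval_C]
    exact Subalgebra.algebraMap_mem _ _
  · intro y hy
    rw [Multiset.mem_map] at hy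
    obtain ⟨a, -, rfl⟩ := hy
    show normHom U (X - Polynomial.C a) ∈ _
    rw [normHom_apply]
    have h1 : ∀ q, aeval (U q) (X - Polynomial.C a) = -(HahnSeries.C a - U q) := by
      intro q
      rw [map_sub, aeval_X, aeval_C, LaurentSeries.algebraMap_apply]
      ring
    simp only [h1]
    rw [Finset.prod_neg]
    refine mul_mem ?_ (hyp.sym a)
    exact pow_mem (neg_mem (one_mem _)) _

theorem coeffsIn_chi_coeff (hyp : CoreHyp O q₀ J U nJ D) (k : ℕ) :
    CoeffsIn O.toSubring ((chi U).coeff k) := by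
  have := coeff_prod_X_sub_C_mem (H73.iotaV O).range (Finset.univ : Finset Q) U
    (fun q _ => by
      obtain ⟨g, hg⟩ := H73.exists_iotaV_eq O (hyp.U_unitLead q).1
      exact ⟨g, hg⟩) k
  obtain ⟨g, hg⟩ := this
  have hg' : (chi U).coeff k = H73.iotaV O g := hg.symm
  rw [hg']
  exact H73.coeffsIn_iotaV O g

theorem J_order_neg (hyp : CoreHyp O q₀ J U nJ D) : J.order < 0 := by
  rw [hyp.J_order]
  have := hyp.nJ_pos
  omega

theorem U_order_ne_zero (hyp : CoreHyp O q₀ J U nJ D) (q : Q) : (U q).order ≠ 0 := by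
  by_cases hq : q = q₀
  · subst hq
    rw [hyp.U_order₀]
    have h1 := hyp.nJ_pos
    have h2 := hyp.D_pos
    have : (0 : ℤ) < (D : ℤ) * (nJ : ℤ) := by positivity
    omega
  · exact (hyp.U_order_pos q hq).ne'

/-- The coefficients of `χ` lie in `O[J]`. -/
theorem chi_coeff_mem_adjoinO (hP : PrimHyp O) (hyp : CoreHyp O q₀ J U nJ D) (k : ℕ) :
    (chi U).coeff k ∈ Algebra.adjoin ↥O ({J} : Set (LaurentSeries C)) := by
  obtain ⟨p, hp, -⟩ := exists_chi_coeff hyp k
  rw [← hp]
  refine aeval_mem_adjoin_of_coeffs (hP.coeff_mem hyp.J_unitLead (J_order_neg hyp) ?_) J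
  rw [hp]
  exact coeffsIn_chi_coeff hyp k

/-- Every conjugate `U q` is integral over `O[J]`. -/
theorem isIntegral_U (hP : PrimHyp O) (hyp : CoreHyp O q₀ J U nJ D) (q : Q) :
    IsIntegral (Algebra.adjoin ↥O ({J} : Set (LaurentSeries C))) (U q) := by
  have hl : chi U ∈ Polynomial.lifts
      (algebraMap (Algebra.adjoin ↥O ({J} : Set (LaurentSeries C))) (LaurentSeries C)) :=
    (Polynomial.lifts_iff_coeff_lifts _).2 fun k =>
      ⟨⟨_, chi_coeff_mem_adjoinO hP hyp k⟩, rfl⟩
  obtain ⟨q', hq', -, hmonic⟩ := Polynomial.lifts_and_natDegree_eq_and_monic hl (chi_monic U)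
  exact ⟨q', hmonic, by rw [Polynomial.eval₂_eq_eval_map, hq', chi_eval_self]⟩

/-- **Lemma B.** For `P'` with coefficients in `O` and `Q'` primitive there is a primitive `n`
with `n(J) · P'(u)/Q'(u)` integral over `O[J]`. -/
theorem lemmaB (hP : PrimHyp O) (hyp : CoreHyp O q₀ J U nJ D) {Pn Qd : C[X]}
    (hPn : ∀ n, Pn.coeff n ∈ O) (hQd : PrimPoly O.toSubring Qd) :
    ∃ n : C[X], PrimPoly O.toSubring n ∧
      IsIntegral (Algebra.adjoin ↥O ({J} : Set (LaurentSeries C)))
        (aeval J n * (aeval (U q₀) Pn / aeval (U q₀) Qd)) := by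
  classical
  have hmem := prod_aeval_mem_adjoin hyp Qd
  rw [Algebra.adjoin_singleton_eq_range_aeval] at hmem
  obtain ⟨n, hn⟩ := hmem
  have hn' : aeval J n = ∏ q, aeval (U q) Qd := hn
  have hprim : PrimSeries O.toSubring (∏ q, aeval (U q) Qd) :=
    hP.series_prod _ _ fun q _ => hP.aeval_prim (hyp.U_unitLead q) (U_order_ne_zero hyp q) hQd
  refine ⟨n, hP.primPoly hyp.J_unitLead (J_order_neg hyp) (by rw [hn']; exact hprim), ?_⟩
  have hQu : aeval (U q₀) Qd ≠ 0 := aeval_u_ne_zero hyp (primPoly_ne_zero hQd)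
  have hrew : aeval J n * (aeval (U q₀) Pn / aeval (U q₀) Qd) =
      aeval (U q₀) Pn * ∏ q ∈ (Finset.univ : Finset Q).erase q₀, aeval (U q) Qd := by
    rw [hn', ← Finset.mul_prod_erase Finset.univ (fun q => aeval (U q) Qd) (Finset.mem_univ q₀)]
    field_simp
  rw [hrew]
  exact (isIntegral_aeval (isIntegral_U hP hyp q₀) hPn).mul
    (IsIntegral.prod _ fun q _ => isIntegral_aeval (isIntegral_U hP hyp q) hQd.1)

/-- **Assembly of the algebra core** (relative to the primitivity interface). -/
theorem core_of_primHyp (hP : PrimHyp O) (hyp : CoreHyp O q₀ J U nJ D)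
    {x : LaurentSeries C}
    (hx : x ∈ IntermediateField.adjoin C ({U q₀, J} : Set (LaurentSeries C)))
    (hG : GaussInt O.toSubring x) :
    ∃ n : C[X], PrimPoly O.toSubring n ∧
      IsIntegral (Algebra.adjoin ↥O ({J} : Set (LaurentSeries C))) (aeval J n * x) := by
  classical
  obtain ⟨P, Qp, hQ0, hxeq⟩ := exists_decomp hyp hx
  have hA := H73.lemmaA_concrete O J (U q₀) nJ D hyp.nJ_pos hyp.D_pos hyp.J_unitLead hyp.J_order
    (hyp.U_unitLead q₀) hyp.U_order₀ P Qp hQ0 (by rw [← hxeq]; exact hG)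
  choose P' Q' hP' hQ' heq using hA
  choose n hn hint using fun i => lemmaB hP hyp (hP' i) (hQ' i)
  refine ⟨∏ i, n i, hP.poly_prod _ _ fun i _ => hn i, ?_⟩
  rw [hxeq, Finset.mul_sum]
  refine IsIntegral.sum _ fun i _ => ?_
  have hrew : aeval J (∏ i, n i) *
      (aeval (U q₀) (P i) / aeval (U q₀) (Qp i) * J ^ (i : ℕ)) =
      (∏ i' ∈ (Finset.univ : Finset (Fin D)).erase i, aeval J (n i')) *
        (aeval J (n i) * (aeval (U q₀) (P' i) / aeval (U q₀) (Q' i))) * J ^ (i : ℕ) := by
    rw [map_prod, ← Finset.mul_prod_erase Finset.univ (fun i' => aeval J (n i'))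
      (Finset.mem_univ i), heq i]
    ring
  rw [hrew]
  have hJmem : J ∈ Algebra.adjoin ↥O ({J} : Set (LaurentSeries C)) :=
    Algebra.subset_adjoin rfl
  refine ((IsIntegral.prod _ fun i' _ => ?_).mul (hint i)).mul
    ((isIntegral_of_mem_adjoin hJmem).pow _)
  exact isIntegral_of_mem_adjoin (aeval_mem_adjoin_of_coeffs (hn i').1 J)

end Core

end Fermat.Agent.S28.H90
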