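/-
S28 (Igusa): `Stmt_Core` (work package C), assembled from
* `H73_GaussV.lean`, `H73_LemmaAV.lean` (Lemma A, helper73),
* `H73_Prim.lean` (primitivity lemmas, helper73),
* `H90_Sym.lean`, `H90_Core.lean` (symmetric functions, Lemma B, assembly, helper90).
-/
import Fermat.Agent.S28.H90_Core
import Fermat.Agent.S28.H73_Prim

set_option autoImplicit false

namespace Fermat.Agent.S28.H90

/-- The primitivity interface holds for every valuation subring. -/
theorem primHyp {C : Type} [Field C] (O : ValuationSubring C) : PrimHyp O where
  series_mul := fun hf hg => H73.PrimSeries.mul O hf hg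
  poly_mul := fun hp hq => H73.PrimPoly.mul O hp hq
  aeval_prim := fun hf hord _ hQ => H73.primSeries_aeval O hf hord hQ
  coeff_mem := fun hJ hord _ h => H73.coeff_mem_of_coeffsIn_aeval O hJ hord h
  primPoly := fun hJ hord _ h => H73.primPoly_of_primSeries_aeval O hJ hord h

/-- **WP-C**: the algebra core. -/
theorem stmt_core : Stmt_Core := by
  intro C _ _ O Q _ q₀ J U nJ D hyp x hx hG
  exact core_of_primHyp (primHyp O) hyp hx hG

end Fermat.Agent.S28.H90
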