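/-
S28 (Igusa), work package C3 (helper92): abstract Lagrange interpolation lemma.

Setting: `F` an infinite field, `L` a field which is an `F`-algebra, `A` an `F`-subalgebra of `L`,
`Q` a finite index set with a distinguished element `q₀`, and two families `U X : Q → L` such that
`∏ q, (c - U q - s * X q) ∈ A` for all `c s : F`.  If `U q ≠ U q₀` for all `q ≠ q₀`, then
`X q₀ = G(U q₀) / H(U q₀)` for polynomials `G, H` with coefficients in `A` and `H(U q₀) ≠ 0`;
in particular `X q₀` lies in every intermediate field containing `A` and `U q₀`.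

Main results:
* `coeff_mem_of_forall_eval_mem` : values at all points of an infinite subfield lie in a
  submodule ⇒ all coefficients lie in it;
* `lagrange_abstract` : the abstract statement;
* `stmt_lagrange : Fermat.Agent.S28.Stmt_Lagrange`.
-/
import Fermat.Agent.S28.Defs

set_option autoImplicit false

namespace Fermat.Agent.S28.H92

open Polynomial

/-- If all values of a polynomial `p` over a field `L` at the points of an infinite subfield `F`
lie in an `F`-submodule `A` of `L`, then all coefficients of `p` lie in `A`. -/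
theorem coeff_mem_of_forall_eval_mem {F L : Type*} [Field F] [Infinite F] [Field L] [Algebra F L]
    (A : Submodule F L) (p : L[X]) (h : ∀ c : F, p.eval (algebraMap F L c) ∈ A) (k : ℕ) :
    p.coeff k ∈ A := by
  classical
  obtain ⟨s, hs⟩ := Infinite.exists_subset_card_eq F (p.natDegree + 1)
  have hinj : Set.InjOn (fun c : F => algebraMap F L c) (s : Set F) :=
    (algebraMap F L).injective.injOn
  have hdeg : p.degree < s.card := by
    rw [hs]
    exact lt_of_le_of_lt degree_le_natDegree (by exact_mod_cast Nat.lt_succ_self _)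
  have hp := Lagrange.eq_interpolate (f := p) (s := s) (v := fun c : F => algebraMap F L c) hinj hdeg
  have hbasis : ∀ i ∈ s, Lagrange.basis s (fun c : F => algebraMap F L c) i
      = (Lagrange.basis s (fun c : F => c) i).map (algebraMap F L) := by
    intro i _
    simp only [Lagrange.basis, Lagrange.basisDivisor, Polynomial.map_prod, Polynomial.map_mul,
      Polynomial.map_sub, Polynomial.map_X, Polynomial.map_C, map_inv₀, map_sub]
  rw [hp, Lagrange.interpolate_apply, finsetSum_coeff]
  refine Submodule.sum_mem _ fun i hi => ?_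
  rw [hbasis i hi, coeff_C_mul, coeff_map, mul_comm, ← Algebra.smul_def]
  exact A.smul_mem _ (h i)

/-- A polynomial whose coefficients lie in an intermediate field `E` takes values in `E` at points
of `E`. -/
theorem eval_mem_of_coeff_mem {F L : Type*} [Field F] [Field L] [Algebra F L]
    (E : IntermediateField F L) (p : L[X]) (hp : ∀ k, p.coeff k ∈ E) {a : L} (ha : a ∈ E) :
    p.eval a ∈ E := by
  rw [eval_eq_sum_range]
  exact E.sum_mem fun k _ => E.mul_mem (hp k) (pow_mem ha k)

/-- **Abstract Lagrange lemma.** -/
theorem lagrange_abstract {F L : Type*} [Field F] [Infinite F] [Field L] [Algebra F L]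
    {Q : Type*} [Fintype Q] (q₀ : Q) (A : Subalgebra F L) (E : IntermediateField F L)
    (hAE : ∀ a ∈ A, a ∈ E) (U Y : Q → L) (hU₀ : U q₀ ∈ E)
    (hU : ∀ q, q ≠ q₀ → U q ≠ U q₀)
    (hsym : ∀ c s : F, (∏ q, (algebraMap F L c - U q - algebraMap F L s * Y q)) ∈ A) :
    Y q₀ ∈ E := by
  classical
  -- the two-variable polynomial: outer variable `T`, inner variable `S`
  set W : L[X][X] := ∏ q, (X - C (C (U q) + X * C (Y q))) with hW
  have hmap : ∀ a : L, W.map (evalRingHom a) = ∏ q, (X - C (U q + a * Y q)) := by
    intro a
    simp only [hW, Polynomial.map_prod, Polynomial.map_sub, Polynomial.map_X, Polynomial.map_C,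
      coe_evalRingHom, eval_add, eval_mul, eval_C, eval_X]
  have hcoeff : ∀ k m, (W.coeff k).coeff m ∈ A := by
    intro k m
    refine coeff_mem_of_forall_eval_mem (Subalgebra.toSubmodule A) _ (fun s => ?_) m
    have h1 : (W.coeff k).eval (algebraMap F L s)
        = (W.map (evalRingHom (algebraMap F L s))).coeff k := by
      rw [coeff_map]; rfl
    rw [h1, hmap]
    refine coeff_mem_of_forall_eval_mem (Subalgebra.toSubmodule A) _ (fun c => ?_) k
    rw [eval_prod]
    simp only [eval_sub, eval_X, eval_C]
    have h2 := hsym c s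
    have h3 : (∏ q, (algebraMap F L c - (U q + algebraMap F L s * Y q)))
        = ∏ q, (algebraMap F L c - U q - algebraMap F L s * Y q) :=
      Finset.prod_congr rfl fun q _ => by ring
    rw [h3]
    exact h2
  -- evaluation at `T = U q₀`
  set Z : L[X] := W.eval (C (U q₀)) with hZ
  have hZ1 : Z.coeff 1 ∈ E := by
    rw [hZ, eval_eq_sum_range, finsetSum_coeff]
    refine E.sum_mem fun k _ => ?_
    rw [← C_pow, coeff_mul_C]
    exact E.mul_mem (hAE _ (hcoeff k 1)) (pow_mem hU₀ k)
  have hZprod : Z = ∏ q, (C (U q₀) - (C (U q) + X * C (Y q))) := by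
    rw [hZ, hW, eval_prod]
    simp
  set den : L := ∏ q ∈ Finset.univ.erase q₀, (U q₀ - U q) with hden
  have hZ1' : Z.coeff 1 = -(Y q₀ * den) := by
    rw [hZprod, ← Finset.mul_prod_erase Finset.univ _ (Finset.mem_univ q₀)]
    have h4 : (C (U q₀) - (C (U q₀) + X * C (Y q₀)) : L[X]) = X * (- C (Y q₀)) := by ring
    rw [h4, mul_assoc, coeff_X_mul, ← C_neg, coeff_C_mul, coeff_zero_eq_eval_zero, eval_prod]
    simp [hden]
  have hden0 : den ≠ 0 := by
    rw [hden, Finset.prod_ne_zero_iff]
    intro q hq
    rw [Finset.mem_erase] at hq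
    exact sub_ne_zero.2 (hU q hq.1).symm
  -- the denominator via the derivative of `P₀ = ∏ (T - U q)`
  set P₀ : L[X] := ∏ q, (X - C (U q)) with hP₀
  have hP₀coeff : ∀ k, P₀.coeff k ∈ A := by
    intro k
    refine coeff_mem_of_forall_eval_mem (Subalgebra.toSubmodule A) _ (fun c => ?_) k
    rw [hP₀, eval_prod]
    simp only [eval_sub, eval_X, eval_C]
    have h2 := hsym c 0
    have h3 : (∏ q, (algebraMap F L c - U q))
        = ∏ q, (algebraMap F L c - U q - algebraMap F L 0 * Y q) :=
      Finset.prod_congr rfl fun q _ => by rw [map_zero, zero_mul, sub_zero]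
    rw [h3]
    exact h2
  have hdenE : den ∈ E := by
    have h5 : (derivative P₀).eval (U q₀) = den := by
      rw [hP₀, derivative_prod_finset, eval_finsetSum]
      rw [Finset.sum_eq_single q₀]
      · simp [eval_prod, hden]
      · intro q _ hq
        rw [eval_mul, eval_prod]
        have : ∏ j ∈ Finset.univ.erase q, eval (U q₀) (X - C (U j)) = 0 := by
          refine Finset.prod_eq_zero (i := q₀) (Finset.mem_erase.2 ⟨hq.symm, Finset.mem_univ _⟩) ?_
          simp
        rw [this, zero_mul]
      · intro h
        exact absurd (Finset.mem_univ q₀) h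
    rw [← h5]
    refine eval_mem_of_coeff_mem E _ (fun k => ?_) hU₀
    rw [coeff_derivative]
    refine E.mul_mem (hAE _ (hP₀coeff _)) ?_
    have : ((k : L) + 1) = ((k + 1 : ℕ) : L) := by push_cast; rfl
    rw [this]
    exact natCast_mem E _
  have hfin : Y q₀ = -(Z.coeff 1) / den := by
    rw [hZ1', neg_neg, mul_div_assoc, div_self hden0, mul_one]
  rw [hfin]
  exact E.div_mem (E.neg_mem hZ1) hdenE

/-- The constant Laurent series `HahnSeries.C c` is `algebraMap C (LaurentSeries C) c` for the
algebra structure that instance resolution finds on `LaurentSeries C` (namely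
`HahnSeries.powerSeriesAlgebra`, which is not reducibly the same as `HahnSeries.instAlgebra`). -/
theorem hahnC_eq_algebraMap {C : Type} [Field C] (c : C) :
    (HahnSeries.C c : LaurentSeries C) = algebraMap C (LaurentSeries C) c := by
  rw [HahnSeries.algebraMap_apply', ← HahnSeries.ofPowerSeries_C]
  rfl

/-- **WP-C3**: the statement `Stmt_Lagrange` of `Fermat/Agent/S28/Defs.lean`. -/
theorem stmt_lagrange : Fermat.Agent.S28.Stmt_Lagrange := by
  intro C _ _ Q _ q₀ J U X hU hsym
  refine lagrange_abstract (F := C) (L := LaurentSeries C) q₀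
    (Algebra.adjoin C ({J} : Set (LaurentSeries C)))
    (IntermediateField.adjoin C ({U q₀, J} : Set (LaurentSeries C))) ?_ U X ?_ hU ?_
  · intro a ha
    have hle : Algebra.adjoin C ({J} : Set (LaurentSeries C))
        ≤ (IntermediateField.adjoin C ({U q₀, J} : Set (LaurentSeries C))).toSubalgebra := by
      refine Algebra.adjoin_le ?_
      intro x hx
      rw [Set.mem_singleton_iff] at hx
      subst hx
      exact IntermediateField.subset_adjoin C _ (by simp)
    exact hle ha
  · exact IntermediateField.subset_adjoin C _ (by simp)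
  · intro c s
    have := hsym c s
    simp only [hahnC_eq_algebraMap] at this
    exact this

end Fermat.Agent.S28.H92
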