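import Fermat.Agent.S28.Final
import Fermat.Agent.S28.H90_StmtCore
import Fermat.Agent.S28.H92_Lagrange
import Fermat.Agent.S28.H10_Descent
import Fermat.Agent.S28.H48_ValSub
import Fermat.Agent.S28.H79_WPB1

/-!
# S28: everything except the complex-analytic input `Stmt_CA`
-/

set_option autoImplicit false
open AlgebraicGeometry CategoryTheory CategoryTheory.Limits ModularCurve ModularCurve.IgusaScheme
noncomputable section

namespace Fermat.Agent.S28

theorem stmt_valSub : Stmt_ValSub := fun ℓ _ => H48.exists_valuationSubring ℓ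

theorem stmt_coeffRing : Stmt_CoeffRing := fun N ℓ _ _ hℓN O hO => H48.coeffRing_le N ℓ hℓN O hO

set_option maxHeartbeats 4000000 in
set_option synthInstance.maxHeartbeats 400000 in
theorem S28_of_CA (hCA : Stmt_CA)
    (N : ℕ) [NeZero N] (ℓ : ℕ) [Fact ℓ.Prime] (hℓN : ¬ ℓ ∣ N)
    (K : Type) [Field K] [CharP K ℓ] [Algebra ↥(GaloisRep.ratLocalizedAt ℓ) K] :
    IsIntegral ↑(pullback (igusaTo N ℓ)
      (Spec.map (CommRingCat.ofHom (algebraMap ↥(GaloisRep.ratLocalizedAt ℓ) K)))) :=
  S28_of_stmts H90.stmt_core H92.stmt_lagrange H10.descent hCA stmt_valSub stmt_coeffRing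
    H79.stmt_WPB N ℓ hℓN K

end Fermat.Agent.S28
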