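import Fermat.Agent.S28.WPA_Statement

/-!
# S28 work package A: integrality of the base change of the Igusa scheme from its charts
-/

set_option autoImplicit false
open AlgebraicGeometry CategoryTheory CategoryTheory.Limits ModularCurve ModularCurve.IgusaScheme
noncomputable section

namespace Fermat.Agent.S28

/-- A space covered by two irreducible open subsets with nonempty intersection is irreducible. -/
theorem irreducibleSpace_of_two_opens {X : Type*} [TopologicalSpace X] {U V : Set X}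
    (hV : IsOpen V) (hUi : IsIrreducible U) (hVi : IsIrreducible V)
    (hUV : (U ∩ V).Nonempty) (hcov : U ∪ V = Set.univ) (hU : IsOpen U) : IrreducibleSpace X := by
  have hW : IsIrreducible (U ∩ V) :=
    ⟨hUV, hUi.2.open_subset (hU.inter hV) Set.inter_subset_left⟩
  have hcl : closure (U ∩ V) = Set.univ := by
    rw [Set.eq_univ_iff_forall]
    intro x
    rw [mem_closure_iff]
    intro O hO hxO
    have hx : x ∈ U ∪ V := hcov ▸ Set.mem_univ x
    rcases hx with hx | hx
    · have := hUi.2 O V hO hV ⟨x, hx, hxO⟩ hUV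
      obtain ⟨y, hyU, hyO, hyV⟩ := this
      exact ⟨y, hyO, hyU, hyV⟩
    · have := hVi.2 O U hO hU ⟨x, hx, hxO⟩ (by rwa [Set.inter_comm])
      obtain ⟨y, hyV, hyO, hyU⟩ := this
      exact ⟨y, hyO, hyU, hyV⟩
  have h := hW.closure
  rw [hcl] at h
  exact (irreducibleSpace_def X).mpr h

universe u

/-- A scheme covered by two integral open subschemes with nonempty intersection is integral. -/
theorem isIntegral_of_two_charts {Y Y₁ Y₂ Y₀ : Scheme.{u}} (f₁ : Y₁ ⟶ Y) (f₂ : Y₂ ⟶ Y)
    [IsOpenImmersion f₁] [IsOpenImmersion f₂] [IsIntegral Y₁] [IsIntegral Y₂]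
    (g₁ : Y₀ ⟶ Y₁) (g₂ : Y₀ ⟶ Y₂) (h : g₁ ≫ f₁ = g₂ ≫ f₂) [Nonempty Y₀]
    (hcov : ∀ y : Y, y ∈ Set.range f₁ ∨ y ∈ Set.range f₂) : IsIntegral Y := by
  rw [isIntegral_iff_irreducibleSpace_and_isReduced]
  constructor
  · refine irreducibleSpace_of_two_opens (U := Set.range f₁) (V := Set.range f₂)
      f₂.isOpenEmbedding.isOpen_range ?_ ?_ ?_ ?_ f₁.isOpenEmbedding.isOpen_range
    · rw [← Set.image_univ]
      exact (IrreducibleSpace.isIrreducible_univ Y₁).image _ f₁.continuous.continuousOn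
    · rw [← Set.image_univ]
      exact (IrreducibleSpace.isIrreducible_univ Y₂).image _ f₂.continuous.continuousOn
    · obtain ⟨y₀⟩ := (inferInstance : Nonempty Y₀)
      refine ⟨(g₁ ≫ f₁) y₀, ⟨g₁ y₀, rfl⟩, ?_⟩
      rw [h]
      exact ⟨g₂ y₀, rfl⟩
    · rw [Set.eq_univ_iff_forall]
      exact hcov
  · have (y : Y) : _root_.IsReduced (Y.presheaf.stalk y) := by
      rcases hcov y with ⟨x, rfl⟩ | ⟨x, rfl⟩
      · exact isReduced_of_injective _
          (asIso <| f₁.stalkMap x).commRingCatIsoToRingEquiv.injective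
      · exact isReduced_of_injective _
          (asIso <| f₂.stalkMap x).commRingCatIsoToRingEquiv.injective
    exact isReduced_of_isReduced_stalk _

/-- The spectrum of a nontrivial ring is nonempty. -/
theorem nonempty_of_iso_Spec {Y : Scheme.{u}} {R : CommRingCat.{u}} [Nontrivial R]
    (e : Y ≅ Spec R) : Nonempty Y := by
  obtain ⟨x⟩ := (inferInstance : Nonempty (PrimeSpectrum R))
  exact ⟨e.inv x⟩

/-- The image of the base change of an open immersion `i` is the preimage of the image of `i`. -/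
theorem mem_range_pullback_map_of_mem_range {X Y Z U : Scheme.{u}} (f : X ⟶ Z) (g : Y ⟶ Z)
    (i : U ⟶ X) (y : ↥(pullback f g)) (hy : pullback.fst f g y ∈ Set.range i) :
    y ∈ Set.range (pullback.map (i ≫ f) g f g i (𝟙 Y) (𝟙 Z) (by simp) (by simp)) := by
  rw [Scheme.Pullback.range_map]
  refine ⟨hy, ?_⟩
  exact ⟨pullback.snd f g y, rfl⟩

set_option maxHeartbeats 4000000 in
set_option synthInstance.maxHeartbeats 400000 in
/-- WP-A: the base change of the Igusa scheme is integral as soon as the two big charts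
become domains and the middle chart stays nontrivial after base change. -/
theorem isIntegral_pullback_of_charts : WPA_Statement := by
  intro N _ ℓ _ K _ _ hFin hInf hMid
  let f := igusaTo N ℓ
  let g := Spec.map (CommRingCat.ofHom (algebraMap ↥(GaloisRep.ratLocalizedAt ℓ) K))
  -- the three structure maps of the charts
  have hL : ιFin N ℓ ≫ f =
      Spec.map (CommRingCat.ofHom (algebraMap ↥(GaloisRep.ratLocalizedAt ℓ) (chartAlgFin N ℓ))) :=
    ιFin_igusaTo N ℓ
  have hR : ιInf N ℓ ≫ f =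
      Spec.map (CommRingCat.ofHom (algebraMap ↥(GaloisRep.ratLocalizedAt ℓ) (chartAlgInf N ℓ))) :=
    ιInf_igusaTo N ℓ
  have hM : (fFin N ℓ ≫ ιFin N ℓ) ≫ f =
      Spec.map (CommRingCat.ofHom (algebraMap ↥(GaloisRep.ratLocalizedAt ℓ) (chartAlgMid N ℓ))) := by
    rw [Category.assoc, hL, ← Spec.map_comp, ← CommRingCat.ofHom_comp]
    congr 2
  -- the charts of the pullback
  let eL : pullback (ιFin N ℓ ≫ f) g ≅ Spec (.of <| TensorProduct ↥(GaloisRep.ratLocalizedAt ℓ)
      ↥(chartAlgFin N ℓ) K) :=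
    pullback.congrHom hL rfl ≪≫ pullbackSpecIso _ _ _
  let eR : pullback (ιInf N ℓ ≫ f) g ≅ Spec (.of <| TensorProduct ↥(GaloisRep.ratLocalizedAt ℓ)
      ↥(chartAlgInf N ℓ) K) :=
    pullback.congrHom hR rfl ≪≫ pullbackSpecIso _ _ _
  let eM : pullback ((fFin N ℓ ≫ ιFin N ℓ) ≫ f) g ≅
      Spec (.of <| TensorProduct ↥(GaloisRep.ratLocalizedAt ℓ) ↥(chartAlgMid N ℓ) K) :=
    pullback.congrHom hM rfl ≪≫ pullbackSpecIso _ _ _
  have : IsIntegral (pullback (ιFin N ℓ ≫ f) g) := IsIntegral.of_isIso eL.inv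
  have : IsIntegral (pullback (ιInf N ℓ ≫ f) g) := IsIntegral.of_isIso eR.inv
  have : Nonempty ↥(pullback ((fFin N ℓ ≫ ιFin N ℓ) ≫ f) g) := nonempty_of_iso_Spec eM
  -- the inclusions of the two big charts
  let jL : pullback (ιFin N ℓ ≫ f) g ⟶ pullback f g :=
    pullback.map _ _ _ _ (ιFin N ℓ) (𝟙 _) (𝟙 _) (by simp) (by simp)
  let jR : pullback (ιInf N ℓ ≫ f) g ⟶ pullback f g :=
    pullback.map _ _ _ _ (ιInf N ℓ) (𝟙 _) (𝟙 _) (by simp) (by simp)
  have : IsOpenImmersion jL := by dsimp only [jL]; infer_instance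
  have : IsOpenImmersion jR := by dsimp only [jR]; infer_instance
  -- the middle chart maps to both big charts
  let g₁ : pullback ((fFin N ℓ ≫ ιFin N ℓ) ≫ f) g ⟶ pullback (ιFin N ℓ ≫ f) g :=
    pullback.map _ _ _ _ (fFin N ℓ) (𝟙 _) (𝟙 _) (by simp) (by simp)
  let g₂ : pullback ((fFin N ℓ ≫ ιFin N ℓ) ≫ f) g ⟶ pullback (ιInf N ℓ ≫ f) g :=
    pullback.map _ _ _ _ (fInf N ℓ) (𝟙 _) (𝟙 _)
      (by rw [Category.comp_id, glue_condition N ℓ, Category.assoc]) (by simp)
  have h : g₁ ≫ jL = g₂ ≫ jR := by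
    apply pullback.hom_ext
    · simp only [g₁, g₂, jL, jR, Category.assoc, pullback.lift_fst, pullback.lift_fst_assoc]
      rw [glue_condition N ℓ]
    · simp only [g₁, g₂, jL, jR, Category.assoc, pullback.lift_snd, Category.comp_id]
  refine isIntegral_of_two_charts jL jR g₁ g₂ h ?_
  intro y
  rcases mem_range_ιFin_or_mem_range_ιInf N ℓ (pullback.fst f g y) with hy | hy
  · exact Or.inl (mem_range_pullback_map_of_mem_range f g (ιFin N ℓ) y hy)
  · exact Or.inr (mem_range_pullback_map_of_mem_range f g (ιInf N ℓ) y hy)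

end Fermat.Agent.S28
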