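import Fermat.Agent.S28.GlueB
import Fermat.Agent.S28.WPA

/-!
# S28: final assembly from the work-package statements
-/

set_option autoImplicit false
open AlgebraicGeometry CategoryTheory CategoryTheory.Limits ModularCurve ModularCurve.IgusaScheme
noncomputable section

namespace Fermat.Agent.S28

set_option maxHeartbeats 4000000 in
set_option synthInstance.maxHeartbeats 400000 in
theorem S28_of_stmts (hCore : Stmt_Core) (hLag : Stmt_Lagrange) (hDesc : Stmt_Descent)
    (hCA : Stmt_CA) (hVal : Stmt_ValSub) (hCoeff : Stmt_CoeffRing) (hWPB : Stmt_WPB)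
    (N : ℕ) [NeZero N] (ℓ : ℕ) [Fact ℓ.Prime] (hℓN : ¬ ℓ ∣ N)
    (K : Type) [Field K] [CharP K ℓ] [Algebra ↥(GaloisRep.ratLocalizedAt ℓ) K] :
    IsIntegral ↑(pullback (igusaTo N ℓ)
      (Spec.map (CommRingCat.ofHom (algebraMap ↥(GaloisRep.ratLocalizedAt ℓ) K)))) := by
  have hU : KeyU N ℓ := keyU_of_stmts N hCore hLag hDesc hCA hVal hCoeff ℓ hℓN
  obtain ⟨h1, h2, h3⟩ := hWPB N ℓ hU K
  exact isIntegral_pullback_of_charts N ℓ K h1 h2 h3

end Fermat.Agent.S28
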