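import Fermat.Agent.S28.GlueA

/-!
# S28 glue, part B: `Stmt_Core + Stmt_Lagrange + Stmt_Descent + Stmt_CA` (+ valuation subring) give `KeyU`
-/

set_option autoImplicit false
open ModularCurve ModularCurve.IgusaScheme
noncomputable section

namespace Fermat.Agent.S28

/-- Existence of a valuation subring of `ℂ` dominating `ℤ_(ℓ)` (piece G1). -/
def Stmt_ValSub : Prop :=
  ∀ (ℓ : ℕ) [Fact ℓ.Prime],
    ∃ O : ValuationSubring ℂ, (∀ r : ℚ, r ∈ GaloisRep.ratLocalizedAt ℓ → (r : ℂ) ∈ O) ∧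
      ((ℓ : ℂ)⁻¹ ∉ O)

/-- `ℤ[ζ_N, 1/N]` lies in every valuation subring of `ℂ` containing `ℤ_(ℓ)`, `ℓ ∤ N` (piece G1). -/
def Stmt_CoeffRing : Prop :=
  ∀ (N ℓ : ℕ) [NeZero N] [Fact ℓ.Prime], ¬ ℓ ∣ N → ∀ O : ValuationSubring ℂ,
    (∀ r : ℚ, r ∈ GaloisRep.ratLocalizedAt ℓ → (r : ℂ) ∈ O) → coeffRing N ≤ O.toSubring

variable (N : ℕ) [NeZero N]

/-- The image of the function field lies in any intermediate field containing the `j(t^{Nd})`. -/
theorem iotaN_mem_of_full (E : IntermediateField ℂ (LaurentSeries ℂ))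
    (hE : ∀ (d : ℕ) [NeZero d], d ∣ N → iotaN N (qExpand ℚ d jq) ∈ E)
    (y : LaurentSeries ℚ) (hy : y ∈ modularFunctionFieldFull N) : iotaN N y ∈ E := by
  let S : Subfield (LaurentSeries ℚ) := E.toSubfield.comap (iotaN N)
  have hS : ∀ r : ℚ, algebraMap ℚ (LaurentSeries ℚ) r ∈ S := by
    intro r
    show iotaN N (algebraMap ℚ (LaurentSeries ℚ) r) ∈ E
    have h0 : algebraMap ℚ (LaurentSeries ℚ) = HahnSeries.C := Subsingleton.elim _ _
    have h1 : algebraMap ℚ (LaurentSeries ℚ) r = HahnSeries.C r := by rw [h0]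
    rw [h1, iotaN_C]
    have h2 : (HahnSeries.C (r : ℂ) : LaurentSeries ℂ) = algebraMap ℂ (LaurentSeries ℂ) (r : ℂ) := by
      rw [HahnSeries.algebraMap_apply']
      simp
    rw [h2]
    exact E.algebraMap_mem (r : ℂ)
  let S' : IntermediateField ℚ (LaurentSeries ℚ) := S.toIntermediateField hS
  have hle : modularFunctionFieldFull N ≤ S' := by
    rw [modularFunctionFieldFull, IntermediateField.adjoin_le_iff]
    rintro x ⟨d, hd0, hd, rfl⟩
    exact hE d hd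
  exact hle hy

theorem keyU_of_stmts (hCore : Stmt_Core) (hLag : Stmt_Lagrange) (hDesc : Stmt_Descent)
    (hCA : Stmt_CA) (hVal : Stmt_ValSub) (hCoeff : Stmt_CoeffRing)
    (ℓ : ℕ) [Fact ℓ.Prime] (hℓN : ¬ ℓ ∣ N) : KeyU N ℓ := by
  intro x hx
  obtain ⟨O, hO1, hO2⟩ := hVal ℓ
  obtain ⟨D⟩ := hCA N
  have hcoef := hCoeff N ℓ hℓN O hO1
  have hNpos : 0 < N := Nat.pos_of_ne_zero (NeZero.ne N)
  have hyp : CoreHyp O D.q₀ (iotaN N jq) D.U N D.D :=
    { nJ_pos := hNpos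
      D_pos := D.D_pos
      J_unitLead := iotaN_jq_unitLead N _
      J_order := iotaN_jq_order N
      U_unitLead := fun q => ⟨fun n => hcoef (D.U_coeff q n), D.U_ne q, hcoef (D.U_lead q)⟩
      U_order₀ := D.U_order₀
      U_order_pos := D.U_order_pos
      sym := fun c => by
        have h := D.sym 1 (one_dvd N) c 0
        simpa using h }
  have hne : ∀ q, q ≠ D.q₀ → D.U q ≠ D.U D.q₀ := by
    intro q hq h
    have h1 := D.U_order_pos q hq
    rw [h, D.U_order₀] at h1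
    have h2 : (0 : ℤ) ≤ (D.D : ℤ) * (N : ℤ) := by positivity
    omega
  have hX : ∀ (d : ℕ) [NeZero d], d ∣ N → iotaN N (qExpand ℚ d jq) ∈
      IntermediateField.adjoin ℂ ({D.U D.q₀, iotaN N jq} : Set (LaurentSeries ℂ)) := by
    intro d _ hd
    rw [← D.X_q₀ d hd]
    exact hLag ℂ D.Q D.q₀ _ D.U (D.X d) hne (D.sym d hd)
  have hF := iotaN_mem_of_full N _ hX (x : LaurentSeries ℚ) x.2
  obtain ⟨n, hn, hint⟩ := hCore ℂ O D.Q D.q₀ _ D.U N D.D hyp _ hF
    (iotaN_gaussInt N O.toSubring _ hO1 _ hx)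
  exact hDesc N ℓ O hO1 hO2 x ⟨n, hn, hint⟩

end Fermat.Agent.S28
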