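/-
S28 (Igusa), WP-D (descent `ℂ → ℚ`), helper10.

The "basis trick": a family of Laurent series over a field `K` which is linearly independent
over `K` stays linearly independent over any extension field `L` after extending the
coefficients.
-/
import Mathlib.RingTheory.LaurentSeries
import Mathlib.LinearAlgebra.Basis.VectorSpace
import Fermat.Prelude.Def_ModularCurve_LaurentCoeff

set_option autoImplicit false

noncomputable section

namespace Fermat.Agent.S28.H10

open ModularCurve

/-- **Basis trick.** `K`-linearly independent Laurent series over `K` remain linearly independent
over an extension field `L` of `K`. -/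
theorem linearIndependent_coeffMap {K L : Type*} [Field K] [Field L] [Algebra K L]
    {ι : Type*} (v : ι → LaurentSeries K) (hv : LinearIndependent K v) :
    LinearIndependent L (fun i => coeffMap (algebraMap K L) (v i)) := by
  classical
  rw [linearIndependent_iff'] at hv ⊢
  intro s g hg i hi
  let b := Module.Basis.ofVectorSpace K L
  -- it suffices to show all coordinates of `g i` vanish
  have key : ∀ α, ∀ i ∈ s, b.coord α (g i) = 0 := by
    intro α
    apply hv s (fun i => b.coord α (g i))
    ext n
    have h1 := congrArg (fun x : LaurentSeries L => x.coeff n) hg
    simp only [HahnSeries.coeff_sum, HahnSeries.coeff_smul, coeffMap_coeff, smul_eq_mul,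
      HahnSeries.coeff_zero] at h1
    have h2 := congrArg (b.coord α) h1
    rw [map_sum, map_zero] at h2
    simp only [HahnSeries.coeff_sum, HahnSeries.coeff_smul, smul_eq_mul, HahnSeries.coeff_zero]
    rw [← h2]
    refine Finset.sum_congr rfl fun j _ => ?_
    have : g j * algebraMap K L ((v j).coeff n) = (v j).coeff n • g j := by
      rw [Algebra.smul_def, mul_comm]
    rw [this, map_smul, smul_eq_mul, mul_comm]
  apply b.repr.injective
  ext α
  simpa using key α i hi

end Fermat.Agent.S28.H10
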