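import Fermat.Agent.S28.H30_Conj

/-!
# S28, WP-F: general eta quotients, their conjugates, `t`-expansions and the `sym` property
(helper30)

Index set `s : Finset ι`, levels `M i ∣ N`, exponents `mp i` (numerator), `mm i` (denominator).
`numF q = ∏ (Δ_{M i})_q ^ mp i`, `denF q = ∏ (Δ_{M i})_q ^ mm i`, `Ueta q = pexp numF / pexp denF`.
-/

set_option autoImplicit false
set_option linter.unusedSectionVars false
set_option linter.unusedVariables false

open UpperHalfPlane ModularForm ModularCurve Function SlashInvariantForm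
open scoped MatrixGroups ModularForm Manifold Real

noncomputable section

namespace Fermat.Agent.S28.H30

open Fermat.Agent.S23.H22 (G0 Q toSL piPerm q1 E12)

variable (N : ℕ) [NeZero N]

/-! ### Equivariant families -/

/-- A family indexed by the cosets is slash-equivariant of weight `k`. -/
def Equi (k : ℤ) (F : Q N → ℍ → ℂ) : Prop :=
  ∀ (γ : SL(2, ℤ)) (q : Q N), F q ∣[k] γ = F (piPerm N γ q)

variable {N}

lemma Equi.mul {k₁ k₂ : ℤ} {F G : Q N → ℍ → ℂ} (hF : Equi N k₁ F) (hG : Equi N k₂ G) :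
    Equi N (k₁ + k₂) (fun q => F q * G q) := by
  intro γ q
  show (F q * G q) ∣[k₁ + k₂] γ = F (piPerm N γ q) * G (piPerm N γ q)
  rw [mul_slash_SL2, hF, hG]

lemma Equi.one : Equi N 0 (fun _ : Q N => (1 : ℍ → ℂ)) := by
  intro γ q
  exact is_invariant_one γ

lemma Equi.congr_wt {k l : ℤ} {F : Q N → ℍ → ℂ} (hF : Equi N k F) (h : k = l) : Equi N l F :=
  h ▸ hF

lemma Equi.pow {k : ℤ} {F : Q N → ℍ → ℂ} (hF : Equi N k F) (n : ℕ) :
    Equi N (n * k) (fun q => F q ^ n) := by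
  induction n with
  | zero =>
    simp only [Nat.cast_zero, zero_mul, pow_zero]
    exact Equi.one
  | succ n ih =>
    have h0 := ih.mul hF
    have hwt : (n : ℤ) * k + k = ((n + 1 : ℕ) : ℤ) * k := by push_cast; ring
    refine Equi.congr_wt (k := (n : ℤ) * k + k) (F := fun q => F q ^ (n + 1)) ?_ hwt
    intro γ q
    have h1 := h0 γ q
    simp only [pow_succ]
    exact h1

lemma Equi.prod {ι : Type} (s : Finset ι) (K : ι → ℤ) (F : ι → Q N → ℍ → ℂ)
    (hF : ∀ i ∈ s, Equi N (K i) (F i)) :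
    Equi N (∑ i ∈ s, K i) (fun q => ∏ i ∈ s, F i q) := by
  classical
  induction s using Finset.induction_on with
  | empty =>
    simp only [Finset.sum_empty, Finset.prod_empty]
    exact Equi.one
  | insert i t hi ih =>
    have h1 := (hF i (Finset.mem_insert_self i t)).mul
      (ih fun j hj => hF j (Finset.mem_insert_of_mem hj))
    rw [Finset.sum_insert hi]
    intro γ q
    have := h1 γ q
    simp only [Finset.prod_insert hi]
    exact this

lemma Equi.smul {k : ℤ} {F : Q N → ℍ → ℂ} (hF : Equi N k F) (c : ℂ) :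
    Equi N k (fun q => c • F q) := by
  intro γ q
  show (c • F q) ∣[k] γ = c • F (piPerm N γ q)
  rw [SL_smul_slash, hF]

lemma Equi.sub {k : ℤ} {F G : Q N → ℍ → ℂ} (hF : Equi N k F) (hG : Equi N k G) :
    Equi N k (fun q => F q - G q) := by
  intro γ q
  show (F q - G q) ∣[k] γ = F (piPerm N γ q) - G (piPerm N γ q)
  rw [sub_eq_add_neg, SlashAction.add_slash, SlashAction.neg_slash, hF, hG, ← sub_eq_add_neg]

lemma fam_equi (M : ℕ) {k : ℤ} (F : ModularForm 𝒮ℒ k) : Equi N k (fam N M F) :=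
  fun γ q => fam_slash N M F γ q

/-! ### Non-vanishing of the conjugates of `Δ` -/

lemma fam_Delta_ne_zero {M : ℕ} (hM : M ∣ N) (q : Q N) (z : ℍ) : fam N M DeltaMF q z ≠ 0 := by
  obtain ⟨γ, rfl⟩ := exists_rep N q
  obtain ⟨a, b, d, h, had, -, heq⟩ := fam_eq_smul_compUT N hM DeltaMF γ
  rw [heq, Pi.smul_apply, smul_eq_mul]
  refine mul_ne_zero (Fermat.Agent.S23.H83.slash_const_ne_zero a d h) ?_
  exact ModularForm.discriminant_ne_zero _

/-! ### Eta quotients -/

section Eta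

variable (N)
variable {ι : Type} (s : Finset ι) (M mp mm : ι → ℕ)

/-- `∏ (Δ_{M i})_q ^ m i`. -/
def prodF (m : ι → ℕ) (q : Q N) : ℍ → ℂ := ∏ i ∈ s, (fam N (M i) DeltaMF q) ^ (m i)

/-- The `t`-expansion of the conjugate of the eta quotient. -/
def Ueta (q : Q N) : LaurentSeries ℂ :=
  pexp N (prodF N s M mp q) / pexp N (prodF N s M mm q)

/-- The `t`-expansion of the conjugate of `j(d z)`. -/
def Xfam (d : ℕ) (q : Q N) : LaurentSeries ℂ :=
  pexp N (fam N d E12 q) / pexp N (fam N d DeltaMF q)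

variable {N s M}

lemma prodF_BPH (hM : ∀ i ∈ s, M i ∣ N) (m : ι → ℕ) (q : Q N) : BPH N (prodF N s M m q) :=
  BPH.prod s _ fun i hi => (fam_BPH N (hM i hi) DeltaMF q).pow (m i)

lemma prodF_ne_zero (hM : ∀ i ∈ s, M i ∣ N) (m : ι → ℕ) (q : Q N) (z : ℍ) :
    prodF N s M m q z ≠ 0 := by
  unfold prodF
  rw [Finset.prod_apply]
  refine Finset.prod_ne_zero_iff.mpr fun i hi => ?_
  rw [Pi.pow_apply]
  exact pow_ne_zero _ (fam_Delta_ne_zero (hM i hi) q z)

lemma prodF_equi (m : ι → ℕ) : Equi N (∑ i ∈ s, (m i : ℤ) * 12) (prodF N s M m) :=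
  Equi.prod s _ _ fun i _ => (fam_equi (M i) DeltaMF).pow (m i)

lemma pexp_prodF (hM : ∀ i ∈ s, M i ∣ N) (m : ι → ℕ) (q : Q N) :
    pexp N (prodF N s M m q) = ∏ i ∈ s, pexp N (fam N (M i) DeltaMF q) ^ (m i) := by
  unfold prodF
  rw [pexp_prod s _ fun i hi => (fam_BPH N (hM i hi) DeltaMF q).pow (m i)]
  refine Finset.prod_congr rfl fun i hi => ?_
  rw [pexp_pow (fam_BPH N (hM i hi) DeltaMF q)]

theorem uls_pexp_prodF (hM : ∀ i ∈ s, M i ∣ N) (m : ι → ℕ) (γ : SL(2, ℤ)) :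
    ULS (coeffRing N) (pexp N (prodF N s M m (⟦toSL γ⟧ : Q N)))
      (∑ i ∈ s, (m i : ℤ) * (ordAt N (M i) ((γ⁻¹ : SL(2, ℤ)) 1 0) : ℤ)) := by
  rw [pexp_prodF hM]
  exact ULS.prod s _ _ fun i hi => (uls_fam_Delta N (hM i hi) γ).pow (m i)

/-- **Orders, integrality and unit leading coefficients of the conjugates of an eta quotient.** -/
theorem uls_Ueta (hM : ∀ i ∈ s, M i ∣ N) (γ : SL(2, ℤ)) :
    ULS (coeffRing N) (Ueta N s M mp mm (⟦toSL γ⟧ : Q N))
      (∑ i ∈ s, ((mp i : ℤ) - (mm i : ℤ)) * (ordAt N (M i) ((γ⁻¹ : SL(2, ℤ)) 1 0) : ℤ)) := by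
  have h := (uls_pexp_prodF hM mp γ).div (uls_pexp_prodF hM mm γ)
  refine ULS.congr_ord h ?_
  rw [← Finset.sum_sub_distrib]
  refine Finset.sum_congr rfl fun i _ => ?_
  ring

/-! ### The `sym` property -/

theorem sym_of_stmt (hsym : Stmt_Sym) (hM : ∀ i ∈ s, M i ∣ N)
    (hw : ∑ i ∈ s, (mp i : ℤ) = ∑ i ∈ s, (mm i : ℤ)) {d : ℕ} (hd : d ∣ N) (c x : ℂ) :
    (∏ q : Q N, (HahnSeries.C c - Ueta N s M mp mm q - HahnSeries.C x * Xfam N d q)) ∈
      Algebra.adjoin ℂ ({iotaN N jq} : Set (LaurentSeries ℂ)) := by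
  classical
  have hk : ∃ k : ℤ, k = (∑ i ∈ s, (mm i : ℤ) * 12) + 12 := ⟨_, rfl⟩
  obtain ⟨k, hk⟩ := hk
  -- the families
  let A : Q N → ℍ → ℂ := prodF N s M mm
  let B : Q N → ℍ → ℂ := prodF N s M mp
  let D : Q N → ℍ → ℂ := fam N d DeltaMF
  let E : Q N → ℍ → ℂ := fam N d E12
  have hA : ∀ q, BPH N (A q) := prodF_BPH hM mm
  have hB : ∀ q, BPH N (B q) := prodF_BPH hM mp
  have hD : ∀ q, BPH N (D q) := fam_BPH N hd DeltaMF
  have hE : ∀ q, BPH N (E q) := fam_BPH N hd E12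
  have eA : Equi N (∑ i ∈ s, (mm i : ℤ) * 12) A := prodF_equi mm
  have eB : Equi N (∑ i ∈ s, (mm i : ℤ) * 12) B := by
    refine (prodF_equi (N := N) (s := s) (M := M) mp).congr_wt ?_
    rw [← Finset.sum_mul, ← Finset.sum_mul, hw]
  have eD : Equi N 12 D := fam_equi d DeltaMF
  have eE : Equi N 12 E := fam_equi d E12
  let a : Q N → ℍ → ℂ := fun q => (c • (A q * D q) - B q * D q) - x • (E q * A q)
  let b : Q N → ℍ → ℂ := fun q => A q * D q
  have ea : Equi N k a :=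
    ((((eA.mul eD).smul c).sub (eB.mul eD)).sub
      (((eE.mul eA).smul x).congr_wt (add_comm _ _))).congr_wt hk.symm
  have eb : Equi N k b := (eA.mul eD).congr_wt hk.symm
  have ha : ∀ q, BPH N (a q) := fun q =>
    ((BPH.smul c ((hA q).mul (hD q))).sub ((hB q).mul (hD q))).sub
      (BPH.smul x ((hE q).mul (hA q)))
  have hb : ∀ q, BPH N (b q) := fun q => (hA q).mul (hD q)
  have hb0 : ∀ q z, b q z ≠ 0 := fun q z =>
    mul_ne_zero (prodF_ne_zero hM mm q z) (fam_Delta_ne_zero hd q z)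
  have key := hsym N (Q N) (piPerm N) k a b ea eb (fun q => (ha q).hol) (fun q => (hb q).hol)
    (fun q => (ha q).bdd) (fun q => (hb q).bdd) (fun q => (ha q).per) (fun q => (hb q).per) hb0
  convert key using 1
  refine Finset.prod_congr rfl fun q _ => ?_
  have hAne : pexp N (A q) ≠ 0 :=
    pexp_ne_zero (hA q) (z := UpperHalfPlane.I) (prodF_ne_zero hM mm q _)
  have hDne : pexp N (D q) ≠ 0 :=
    pexp_ne_zero (hD q) (z := UpperHalfPlane.I) (fam_Delta_ne_zero hd q _)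
  have h1 : pexp N (a q) = HahnSeries.C c * (pexp N (A q) * pexp N (D q))
      - pexp N (B q) * pexp N (D q) - HahnSeries.C x * (pexp N (E q) * pexp N (A q)) := by
    show pexp N ((c • (A q * D q) - B q * D q) - x • (E q * A q)) = _
    rw [pexp_sub ((BPH.smul c ((hA q).mul (hD q))).sub ((hB q).mul (hD q)))
        (BPH.smul x ((hE q).mul (hA q))),
      pexp_sub (BPH.smul c ((hA q).mul (hD q))) ((hB q).mul (hD q)),
      pexp_smul c ((hA q).mul (hD q)), pexp_smul x ((hE q).mul (hA q)),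
      pexp_mul (hA q) (hD q), pexp_mul (hB q) (hD q), pexp_mul (hE q) (hA q)]
  have h2 : pexp N (b q) = pexp N (A q) * pexp N (D q) := pexp_mul (hA q) (hD q)
  rw [h1, h2, Ueta, Xfam]
  show _ - pexp N (B q) / pexp N (A q) - _ * (pexp N (E q) / pexp N (D q)) = _
  rw [eq_div_iff (mul_ne_zero hAne hDne)]
  field_simp

end Eta

end Fermat.Agent.S28.H30
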