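import Fermat.Statements.S28

/-!
# S28 work package A (AG glue) -- STATEMENT ONLY (open, please take it)

Goal: from the three affine charts of the Igusa scheme, deduce integrality of the base change.
`IgusaScheme N ℓ = pushout (fFin) (fInf)` with `XFin = Spec chartAlgFin`, `XInf = Spec chartAlgInf`,
`XMid = Spec chartAlgMid`; `igusaTo` restricted to the charts is `Spec.map (algebraMap ℤℓ chartAlg..)`.
Suggested route: `Scheme.Pullback.openCoverOfLeft` applied to
`Scheme.IsLocallyDirected.openCover (span (fFin N ℓ) (fInf N ℓ))`, `pullbackSpecIso`,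
reducedness is local, irreducibility: union of two irreducible opens with nonempty intersection.
The proof file should be `Fermat/Agent/S28/WPA.lean`, namespace `Fermat.Agent.S28`,
theorem name `isIntegral_pullback_of_charts` with exactly this statement.
-/

set_option autoImplicit false
open AlgebraicGeometry CategoryTheory CategoryTheory.Limits ModularCurve ModularCurve.IgusaScheme
noncomputable section

namespace Fermat.Agent.S28

set_option maxHeartbeats 4000000 in
set_option synthInstance.maxHeartbeats 400000 in
/-- WP-A statement (as a `Prop`-valued def so that this file has no `sorry`). -/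
def WPA_Statement : Prop :=
  ∀ (N : ℕ) [NeZero N] (ℓ : ℕ) [Fact ℓ.Prime]
    (K : Type) [Field K] [Algebra ↥(GaloisRep.ratLocalizedAt ℓ) K],
    IsDomain (TensorProduct ↥(GaloisRep.ratLocalizedAt ℓ) ↥(chartAlgFin N ℓ) K) →
    IsDomain (TensorProduct ↥(GaloisRep.ratLocalizedAt ℓ) ↥(chartAlgInf N ℓ) K) →
    Nontrivial (TensorProduct ↥(GaloisRep.ratLocalizedAt ℓ) ↥(chartAlgMid N ℓ) K) →
    IsIntegral ↑(pullback (igusaTo N ℓ)
      (Spec.map (CommRingCat.ofHom (algebraMap ↥(GaloisRep.ratLocalizedAt ℓ) K))))

end Fermat.Agent.S28
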